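import Mathlib
import Fermat.Prelude.Def_ExtCitation_AdmissibleExtension_v2
import Fermat.Prelude.Def_ExtCitation_KummerBridge

/-!
# S14, stream A1: group theory of an admissible extension

`V` is a two-dimensional `𝔽_p`-representation of `Γ = Gal(ℚ̄/ℚ)` with a pointwise fixed line `C`
and cyclotomic quotient.  We introduce

* `kerV V` : the kernel of the action on `V` (open, normal);
* `kerChi p` : the kernel of the mod `p` cyclotomic character;

and prove: `kerV ≤ kerChi`; there is a homomorphism `b : kerChi → ℤ/p` with kernel `kerV`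
satisfying the conjugation law `b (g τ g⁻¹) = χ(g)⁻¹ b τ`; if `kerChi ≤ kerV` the extension
splits globally; the inertia groups away from `p` lie in `kerV`; the decomposition groups at `p`
meet `kerChi` inside `kerV`.
-/

set_option autoImplicit false

namespace Fermat.Agent.S14.AdmGroup

open ExtCitation

/-- the absolute Galois group of `ℚ` -/
local notation "Γ" => (AlgebraicClosure ℚ ≃ₐ[ℚ] AlgebraicClosure ℚ)

variable (p : ℕ) [Fact p.Prime]
variable (V : Type) [AddCommGroup V] [Module (ZMod p) V]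
  [DistribMulAction Γ V] [SMulCommClass Γ (ZMod p) V]

/-- The kernel of the action of `Γ` on `V`. -/
def kerV : Subgroup Γ where
  carrier := {σ | ∀ v : V, σ • v = v}
  one_mem' := fun v => one_smul _ v
  mul_mem' := fun {a b} ha hb v => by rw [mul_smul, hb v, ha v]
  inv_mem' := fun {a} ha v => by rw [inv_smul_eq_iff, ha v]

theorem mem_kerV {σ : Γ} : σ ∈ kerV V ↔ ∀ v : V, σ • v = v := Iff.rfl

instance kerV_normal : (kerV V).Normal :=
  ⟨fun σ hσ g v => by rw [mul_smul, mul_smul, hσ, smul_inv_smul]⟩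

/-- The kernel of the mod `p` cyclotomic character. -/
noncomputable def kerChi : Subgroup Γ := (cycloChar p).ker

theorem mem_kerChi {σ : Γ} : σ ∈ kerChi p ↔ cycloChar p σ = 1 := MonoidHom.mem_ker

instance kerChi_normal : (kerChi p).Normal := by
  unfold kerChi; infer_instance

variable {p V}
variable {C : Submodule (ZMod p) V}

theorem isOpen_kerV (hadm : IsAdmissibleExtensionCts p V C) :
    IsOpen ((kerV V : Subgroup Γ) : Set Γ) :=
  hadm.open_kernel

/-- the cyclotomic quotient, in terms of `cycloChar`. -/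
theorem cyclo_quot' (hadm : IsAdmissibleExtension p V C) (σ : Γ) (x : V) :
    σ • x - ((cycloChar p σ : (ZMod p)ˣ) : ZMod p) • x ∈ C := by
  rw [coe_cycloChar]
  exact hadm.cyclo_quot σ x

theorem sub_mem_of_mem_kerChi (hadm : IsAdmissibleExtension p V C) {τ : Γ} (hτ : τ ∈ kerChi p)
    (x : V) : τ • x - x ∈ C := by
  have h := cyclo_quot' hadm τ x
  rw [(mem_kerChi p).mp hτ, Units.val_one, one_smul] at h
  exact h

theorem exists_notMem (hadm : IsAdmissibleExtension p V C) : ∃ x : V, x ∉ C := by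
  by_contra h
  push Not at h
  have h1 : Nat.card C = Nat.card V := Nat.card_congr (Equiv.subtypeUnivEquiv h)
  rw [hadm.card_sub, hadm.card_total] at h1
  have hp : 2 ≤ p := (Fact.out : p.Prime).two_le
  nlinarith

theorem kerV_le_kerChi (hadm : IsAdmissibleExtension p V C) : kerV V ≤ kerChi p := by
  intro σ hσ
  rw [mem_kerChi]
  obtain ⟨x, hx⟩ := exists_notMem hadm
  have h := cyclo_quot' hadm σ x
  rw [hσ x] at h
  by_contra hne
  have hne' : (1 : ZMod p) - ((cycloChar p σ : (ZMod p)ˣ) : ZMod p) ≠ 0 := by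
    intro h0
    apply hne
    ext
    rw [Units.val_one]
    exact (sub_eq_zero.mp h0).symm
  have h2 : ((1 : ZMod p) - ((cycloChar p σ : (ZMod p)ˣ) : ZMod p)) • x ∈ C := by
    rw [sub_smul, one_smul]; exact h
  have h3 := C.smul_mem ((1 : ZMod p) - ((cycloChar p σ : (ZMod p)ˣ) : ZMod p))⁻¹ h2
  rw [smul_smul, inv_mul_cancel₀ hne', one_smul] at h3
  exact hx h3

/-- `V = C + 𝔽_p x₀` for `x₀ ∉ C`. -/
theorem exists_decomp (hadm : IsAdmissibleExtension p V C) {x₀ : V} (hx₀ : x₀ ∉ C) (v : V) :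
    ∃ c ∈ C, ∃ a : ZMod p, v = c + a • x₀ := by
  haveI : NeZero p := ⟨(Fact.out : p.Prime).ne_zero⟩
  have hfinV : Finite V := Nat.finite_of_card_ne_zero (by
    rw [hadm.card_total]; exact pow_ne_zero 2 (Fact.out : p.Prime).ne_zero)
  let f : C × ZMod p → V := fun ca => (ca.1 : V) + ca.2 • x₀
  have hinj : Function.Injective f := by
    rintro ⟨c, a⟩ ⟨c', a'⟩ h
    simp only [f] at h
    have h1 : (a - a') • x₀ = (c' : V) - c := by
      rw [sub_smul, sub_eq_sub_iff_add_eq_add, add_comm]; exact h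
    have ha : a - a' = 0 := by
      by_contra hne
      have h2 : (a - a') • x₀ ∈ C := by rw [h1]; exact C.sub_mem c'.2 c.2
      have h3 := C.smul_mem (a - a')⁻¹ h2
      rw [smul_smul, inv_mul_cancel₀ hne, one_smul] at h3
      exact hx₀ h3
    have ha' : a = a' := sub_eq_zero.mp ha
    subst ha'
    have hc : (c : V) = c' := by simpa using h
    exact Prod.ext (Subtype.ext hc) rfl
  have hcard : Nat.card (C × ZMod p) = Nat.card V := by
    rw [Nat.card_prod, hadm.card_sub, Nat.card_zmod, hadm.card_total, sq]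
  have hbij : Function.Bijective f :=
    (Nat.bijective_iff_injective_and_card f).mpr ⟨hinj, hcard⟩
  obtain ⟨⟨c, a⟩, hca⟩ := hbij.2 v
  exact ⟨c, c.2, a, hca.symm⟩

/-- an element of `kerChi` fixing one vector outside `C` acts trivially. -/
theorem mem_kerV_of_fix (hadm : IsAdmissibleExtension p V C) {x₀ : V} (hx₀ : x₀ ∉ C) {τ : Γ}
    (h : τ • x₀ = x₀) : τ ∈ kerV V := by
  intro v
  obtain ⟨c, hc, a, rfl⟩ := exists_decomp hadm hx₀ v
  rw [smul_add, hadm.fixed_sub τ c hc, smul_comm, h]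

/-- The cocycle `τ ↦ τ x₀ - x₀` on `kerChi` is additive. -/
theorem cocycle_mul (hadm : IsAdmissibleExtension p V C) (x₀ : V) {τ τ' : Γ}
    (_hτ : τ ∈ kerChi p) (hτ' : τ' ∈ kerChi p) :
    (τ * τ') • x₀ - x₀ = (τ • x₀ - x₀) + (τ' • x₀ - x₀) := by
  have h1 : τ • (τ' • x₀ - x₀) = τ' • x₀ - x₀ :=
    hadm.fixed_sub τ _ (sub_mem_of_mem_kerChi hadm hτ' x₀)
  rw [smul_sub] at h1
  have h2 : τ • τ' • x₀ = τ' • x₀ - x₀ + τ • x₀ := by rw [← h1]; abel
  rw [mul_smul, h2]
  abel

/-- The conjugation law for the cocycle. -/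
theorem cocycle_conj (hadm : IsAdmissibleExtension p V C) (x₀ : V) (g : Γ) {τ : Γ}
    (hτ : τ ∈ kerChi p) :
    (g * τ * g⁻¹) • x₀ - x₀ =
      (((cycloChar p g)⁻¹ : (ZMod p)ˣ) : ZMod p) • (τ • x₀ - x₀) := by
  set y : V := g⁻¹ • x₀ with hy
  -- `y = χ(g)⁻¹ x₀ + c`
  have hc : y - (((cycloChar p g)⁻¹ : (ZMod p)ˣ) : ZMod p) • x₀ ∈ C := by
    have := cyclo_quot' hadm g⁻¹ x₀
    rwa [map_inv] at this
  set c : V := y - (((cycloChar p g)⁻¹ : (ZMod p)ˣ) : ZMod p) • x₀ with hc_def
  have hyc : y = (((cycloChar p g)⁻¹ : (ZMod p)ˣ) : ZMod p) • x₀ + c := by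
    rw [hc_def]; abel
  have h1 : (g * τ * g⁻¹) • x₀ - x₀ = g • (τ • y - y) := by
    rw [mul_smul, mul_smul, smul_sub, hy, smul_inv_smul]
  have h2 : g • (τ • y - y) = τ • y - y :=
    hadm.fixed_sub g _ (sub_mem_of_mem_kerChi hadm hτ y)
  have h3 : τ • c = c := hadm.fixed_sub τ c hc
  rw [h1, h2, hyc, smul_add, h3, smul_comm, smul_sub]
  abel

/-- **Splitting when `kerChi ≤ kerV`.** -/
theorem splitsGlobally_of_kerChi_le (hadm : IsAdmissibleExtension p V C)
    (h : kerChi p ≤ kerV V) : SplitsGlobally C := by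
  by_cases hg : ∃ g₀ : Γ, cycloChar p g₀ ≠ 1
  · obtain ⟨g₀, hg₀⟩ := hg
    set a : ZMod p := ((cycloChar p g₀ : (ZMod p)ˣ) : ZMod p) with ha
    have ha1 : (1 : ZMod p) - a ≠ 0 := by
      intro h0
      apply hg₀
      ext
      rw [Units.val_one]
      exact (sub_eq_zero.mp h0).symm
    -- the `a`-eigenspace of `g₀`
    let C' : Submodule (ZMod p) V :=
      { carrier := {x | g₀ • x = a • x}
        add_mem' := fun {x y} hx hy => by
          change g₀ • (x + y) = a • (x + y)
          rw [smul_add, smul_add, hx, hy]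
        zero_mem' := by
          change g₀ • (0 : V) = a • (0 : V)
          rw [smul_zero, smul_zero]
        smul_mem' := fun r x hx => by
          change g₀ • (r • x) = a • (r • x)
          rw [smul_comm g₀ r x, hx, smul_comm] }
    refine ⟨C', ?_, ?_⟩
    · intro σ x hx
      change g₀ • (σ • x) = a • (σ • x)
      -- the commutator acts trivially
      have hcomm : σ⁻¹ * g₀⁻¹ * σ * g₀ ∈ kerV V := by
        apply h
        rw [mem_kerChi]
        simp only [map_mul, map_inv]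
        rw [mul_comm ((cycloChar p σ)⁻¹) _, mul_assoc, mul_assoc, inv_mul_cancel_left,
          inv_mul_cancel]
      have h1 := hcomm x
      rw [mul_smul, mul_smul, mul_smul] at h1
      -- `σ⁻¹ g₀⁻¹ σ g₀ x = x` gives `σ g₀ x = g₀ σ x`
      have h2 : σ • (g₀ • x) = g₀ • (σ • x) := by
        have := congrArg (fun z => g₀ • (σ • z)) h1
        simp only [smul_inv_smul] at this
        exact this
      rw [← h2, hx, smul_comm]
    · refine ⟨?_, ?_⟩
      · rw [Submodule.disjoint_def]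
        intro x hxC hxC'
        have h1 : g₀ • x = x := hadm.fixed_sub g₀ x hxC
        have h2 : g₀ • x = a • x := hxC'
        have h3 : ((1 : ZMod p) - a) • x = 0 := by
          rw [sub_smul, one_smul, ← h2, h1, sub_self]
        have := congrArg (fun z => ((1 : ZMod p) - a)⁻¹ • z) h3
        simpa [smul_smul, inv_mul_cancel₀ ha1] using this
      · rw [codisjoint_iff, eq_top_iff]
        intro v _
        have hw : g₀ • v - a • v ∈ C := cyclo_quot' hadm g₀ v
        set w : V := g₀ • v - a • v with hw_def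
        obtain ⟨c, hcC, hwc⟩ : ∃ c ∈ C, w = c - a • c := by
          refine ⟨((1 : ZMod p) - a)⁻¹ • w, C.smul_mem _ hw, ?_⟩
          have h1 : ((1 : ZMod p) - a) • (((1 : ZMod p) - a)⁻¹ • w) = w := by
            rw [smul_smul, mul_inv_cancel₀ ha1, one_smul]
          rw [sub_smul, one_smul] at h1
          exact h1.symm
        have hgc : g₀ • c = c := hadm.fixed_sub g₀ _ hcC
        have hgv : g₀ • v = a • v + w := by rw [hw_def]; abel
        have hc' : v - c ∈ C' := by
          change g₀ • (v - c) = a • (v - c)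
          rw [smul_sub, hgc, smul_sub, hgv, hwc]
          abel
        have : v = c + (v - c) := by abel
        rw [this]
        exact Submodule.add_mem_sup hcC hc'
  · push Not at hg
    obtain ⟨C', hC'⟩ := Submodule.exists_isCompl C
    refine ⟨C', fun σ x hx => ?_, hC'⟩
    have : σ ∈ kerV V := h ((mem_kerChi p).mpr (hg σ))
    rw [this x]
    exact hx

/-- Inertia away from `p` acts trivially. -/
theorem inertia_le_kerV (hadm : IsAdmissibleExtension p V C) {ℓ : ℕ} (hℓ : ℓ.Prime)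
    (hℓp : ℓ ≠ p) (A : ValuationSubring (AlgebraicClosure ℚ)) (hA : A.LiesOverPrime ℓ) :
    A.inertiaSubgroupIn ℚ ≤ kerV V :=
  fun σ hσ x => hadm.unramified_outside ℓ hℓ hℓp A hA σ hσ x

/-- The decomposition groups at `p` meet `kerChi` inside `kerV`. -/
theorem decomposition_inf_kerChi_le_kerV (hadm : IsAdmissibleExtension p V C)
    (A : ValuationSubring (AlgebraicClosure ℚ)) (hA : A.LiesOverPrime p) {σ : Γ}
    (hσD : σ ∈ A.decompositionSubgroup ℚ) (hσ : σ ∈ kerChi p) : σ ∈ kerV V := by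
  obtain ⟨C', hstab, hcompl⟩ := hadm.locally_split A hA
  intro v
  have hv : v ∈ C ⊔ C' := by rw [hcompl.sup_eq_top]; trivial
  obtain ⟨c, hc, c', hc', rfl⟩ := Submodule.mem_sup.mp hv
  have h1 : σ • c' - c' ∈ C := sub_mem_of_mem_kerChi hadm hσ c'
  have h2 : σ • c' - c' ∈ C' := C'.sub_mem (hstab σ hσD c' hc') hc'
  have h3 : σ • c' - c' = 0 := by
    have := (Submodule.disjoint_def.mp hcompl.disjoint) _ h1 h2
    exact this
  rw [smul_add, hadm.fixed_sub σ c hc, sub_eq_zero.mp h3]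

/-! ### The homomorphism `b : kerChi → ℤ/p` -/

/-- `C` is a line: a linear equivalence with `ZMod p`. -/
theorem exists_linearEquiv (hadm : IsAdmissibleExtension p V C) :
    Nonempty (C ≃ₗ[ZMod p] ZMod p) := by
  haveI : NeZero p := ⟨(Fact.out : p.Prime).ne_zero⟩
  have hfinC : Finite C := Nat.finite_of_card_ne_zero (by
    rw [hadm.card_sub]; exact (Fact.out : p.Prime).ne_zero)
  -- a nonzero element of `C`
  obtain ⟨c₀, hc₀⟩ : ∃ c₀ : C, c₀ ≠ 0 := by
    by_contra h
    push Not at h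
    have : Subsingleton C := ⟨fun a b => by rw [h a, h b]⟩
    have h1 : Nat.card C = 1 := Nat.card_of_subsingleton (0 : C)
    rw [hadm.card_sub] at h1
    exact (Fact.out : p.Prime).one_lt.ne' h1
  let f : ZMod p →ₗ[ZMod p] C := LinearMap.toSpanSingleton (ZMod p) C c₀
  have hinj : Function.Injective f := by
    rw [← LinearMap.ker_eq_bot, LinearMap.ker_eq_bot']
    intro a ha
    by_contra hne
    apply hc₀
    have h2 : a • c₀ = 0 := by simpa [f, LinearMap.toSpanSingleton_apply] using ha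
    have := congrArg (fun z => a⁻¹ • z) h2
    simpa [smul_smul, inv_mul_cancel₀ hne] using this
  have hcard : Nat.card (ZMod p) = Nat.card C := by rw [Nat.card_zmod, hadm.card_sub]
  have hbij : Function.Bijective f := (Nat.bijective_iff_injective_and_card f).mpr ⟨hinj, hcard⟩
  exact ⟨(LinearEquiv.ofBijective f hbij).symm⟩

/-- **The homomorphism `b`**: its kernel is `kerV` and it satisfies the conjugation law
`b (g τ g⁻¹) = χ(g)⁻¹ • b τ`. -/
theorem exists_b (hadm : IsAdmissibleExtension p V C) :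
    ∃ b : ↥(kerChi p) →* Multiplicative (ZMod p),
      (∀ τ : ↥(kerChi p), b τ = 1 ↔ (τ : Γ) ∈ kerV V) ∧
      ∀ (g : Γ) (τ : ↥(kerChi p)) (h : g * (τ : Γ) * g⁻¹ ∈ kerChi p),
        Multiplicative.toAdd (b ⟨g * (τ : Γ) * g⁻¹, h⟩) =
          (((cycloChar p g)⁻¹ : (ZMod p)ˣ) : ZMod p) * Multiplicative.toAdd (b τ) := by
  obtain ⟨x₀, hx₀⟩ := exists_notMem hadm
  obtain ⟨e⟩ := exists_linearEquiv hadm
  let β : ↥(kerChi p) → C := fun τ => ⟨(τ : Γ) • x₀ - x₀, sub_mem_of_mem_kerChi hadm τ.2 x₀⟩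
  have hβmul : ∀ τ τ' : ↥(kerChi p), β (τ * τ') = β τ + β τ' := by
    intro τ τ'
    apply Subtype.ext
    exact cocycle_mul hadm x₀ τ.2 τ'.2
  have hβone : β 1 = 0 := by
    apply Subtype.ext
    change ((1 : ↥(kerChi p)) : Γ) • x₀ - x₀ = 0
    rw [Subgroup.coe_one, one_smul, sub_self]
  let b : ↥(kerChi p) →* Multiplicative (ZMod p) :=
    { toFun := fun τ => Multiplicative.ofAdd (e (β τ))
      map_one' := by rw [hβone, map_zero]; rfl
      map_mul' := fun τ τ' => by rw [hβmul, map_add]; rfl }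
  refine ⟨b, ?_, ?_⟩
  · intro τ
    constructor
    · intro h
      have h1 : e (β τ) = 0 := h
      have h2 : β τ = 0 := by simpa using h1
      have h3 : (τ : Γ) • x₀ - x₀ = 0 := congrArg Subtype.val h2
      exact mem_kerV_of_fix hadm hx₀ (sub_eq_zero.mp h3)
    · intro h
      have h2 : β τ = 0 := by
        apply Subtype.ext
        change (τ : Γ) • x₀ - x₀ = 0
        rw [h x₀, sub_self]
      change Multiplicative.ofAdd (e (β τ)) = 1
      rw [h2, map_zero]; rfl
  · intro g τ h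
    have h1 : β ⟨g * (τ : Γ) * g⁻¹, h⟩ =
        (((cycloChar p g)⁻¹ : (ZMod p)ˣ) : ZMod p) • β τ := by
      apply Subtype.ext
      exact cocycle_conj hadm x₀ g τ.2
    change e (β ⟨g * (τ : Γ) * g⁻¹, h⟩) = _ * e (β τ)
    rw [h1, map_smul, smul_eq_mul]

/-- Either `kerChi ≤ kerV`, or `kerV` has index `p` in `kerChi`. -/
theorem kerChi_le_or_relIndex (hadm : IsAdmissibleExtension p V C) :
    kerChi p ≤ kerV V ∨ (kerV V).relIndex (kerChi p) = p := by
  obtain ⟨b, hb, -⟩ := exists_b hadm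
  by_cases h : kerChi p ≤ kerV V
  · exact Or.inl h
  · right
    have hker : b.ker = (kerV V).subgroupOf (kerChi p) := by
      ext τ
      rw [MonoidHom.mem_ker, hb, Subgroup.mem_subgroupOf]
    have hcard : Nat.card (Multiplicative (ZMod p)) = p := by
      rw [Nat.card_eq_fintype_card]
      haveI : NeZero p := ⟨(Fact.out : p.Prime).ne_zero⟩
      simp [ZMod.card]
    have hrange : b.range = ⊤ := by
      haveI : Fact (Nat.card (Multiplicative (ZMod p))).Prime := ⟨by rw [hcard]; exact Fact.out⟩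
      rcases Subgroup.eq_bot_or_eq_top_of_prime_card b.range with h1 | h1
      · exfalso
        apply h
        intro τ hτ
        have : b ⟨τ, hτ⟩ ∈ b.range := ⟨_, rfl⟩
        rw [h1, Subgroup.mem_bot] at this
        exact (hb ⟨τ, hτ⟩).mp this
      · exact h1
    rw [Subgroup.relIndex, ← hker, Subgroup.index_ker, hrange, Nat.card_congr Subgroup.topEquiv.toEquiv,
      hcard]

/-- The conjugation law modulo `kerV`: `g τ g⁻¹ ≡ τ ^ k` for `k ≡ χ(g)⁻¹`. -/
theorem conj_mem (hadm : IsAdmissibleExtension p V C) (g : Γ) {τ : Γ} (hτ : τ ∈ kerChi p) (k : ℕ)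
    (hk : (k : ZMod p) * ((cycloChar p g : (ZMod p)ˣ) : ZMod p) = 1) :
    g * τ * g⁻¹ * (τ ^ k)⁻¹ ∈ kerV V := by
  obtain ⟨b, hb, hconj⟩ := exists_b hadm
  have hconjmem : g * τ * g⁻¹ ∈ kerChi p := (kerChi_normal p).conj_mem τ hτ g
  have hpow : τ ^ k ∈ kerChi p := (kerChi p).pow_mem hτ k
  have hmem : g * τ * g⁻¹ * (τ ^ k)⁻¹ ∈ kerChi p :=
    (kerChi p).mul_mem hconjmem ((kerChi p).inv_mem hpow)
  have key : b ⟨g * τ * g⁻¹ * (τ ^ k)⁻¹, hmem⟩ = 1 := by
    have h1 : (⟨g * τ * g⁻¹ * (τ ^ k)⁻¹, hmem⟩ : ↥(kerChi p)) =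
        ⟨g * τ * g⁻¹, hconjmem⟩ * (⟨τ, hτ⟩ ^ k)⁻¹ := by
      apply Subtype.ext
      simp
    rw [h1, map_mul, map_inv, map_pow]
    apply Multiplicative.toAdd.injective
    rw [toAdd_mul, toAdd_inv, toAdd_pow, toAdd_one]
    have h2 := hconj g ⟨τ, hτ⟩ hconjmem
    rw [h2]
    have hinv : (((cycloChar p g)⁻¹ : (ZMod p)ˣ) : ZMod p) = (k : ZMod p) := by
      have h3 : (((cycloChar p g)⁻¹ : (ZMod p)ˣ) : ZMod p) *
          ((cycloChar p g : (ZMod p)ˣ) : ZMod p) = 1 := by
        rw [← Units.val_mul, inv_mul_cancel, Units.val_one]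
      have hu : IsUnit (((cycloChar p g : (ZMod p)ˣ) : ZMod p)) := Units.isUnit _
      exact hu.mul_right_cancel (h3.trans hk.symm)
    rw [hinv, nsmul_eq_mul]
    ring
  exact (hb ⟨_, hmem⟩).mp key

end Fermat.Agent.S14.AdmGroup
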