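import Mathlib
import Fermat.Agent.S14.AdmGroup

/-!
# S14, stream A2 (L-half): the fields cut out by an admissible extension

`Lf V` is the fixed field of the kernel `kerV V` of the action on `V`, and `Kf p` is the fixed
field of the kernel `kerChi p` of the mod `p` cyclotomic character.  For an admissible extension:

* `fixingSubgroup_Lf`, `fixingSubgroup_Kf` : the Galois correspondence;
* `Lf`, `Kf` are finite Galois over `ℚ`, `Kf p ≤ Lf V`;
* `finrank_Lf`, `finrank_Kf` : degrees = indices;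
* `finrank_Lf_eq` : in the non-split case `[Lf : ℚ] = p * [Kf : ℚ]`;
* `resL` : restriction `Γ → Gal(Lf/ℚ)`, surjective with kernel `kerV`;
* `resL_conj` : the conjugation law `g τ g⁻¹ = τ ^ k` in `Gal(Lf/ℚ)`.
-/

set_option autoImplicit false

noncomputable section

namespace Fermat.Agent.S14.AdmField

open ExtCitation Fermat.Agent.S14.AdmGroup IntermediateField

/-- the absolute Galois group of `ℚ` -/
local notation "Γ" => (AlgebraicClosure ℚ ≃ₐ[ℚ] AlgebraicClosure ℚ)

/-- `ℚ̄ / ℚ` is Galois for the `Algebra ℚ (AlgebraicClosure ℚ)` instance found by instance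
resolution. -/
theorem isGalois_Qbar : IsGalois ℚ (AlgebraicClosure ℚ) := by
  have h : (DivisionRing.toRatAlgebra : Algebra ℚ (AlgebraicClosure ℚ)) =
      AlgebraicClosure.instAlgebra ℚ := Subsingleton.elim _ _
  rw [h]; infer_instance

attribute [local instance] isGalois_Qbar

variable (p : ℕ) [Fact p.Prime]
variable (V : Type) [AddCommGroup V] [Module (ZMod p) V]
  [DistribMulAction Γ V] [SMulCommClass Γ (ZMod p) V]

/-- The field cut out by `V`. -/
def Lf : IntermediateField ℚ (AlgebraicClosure ℚ) := fixedField (kerV V)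

/-- The fixed field of the kernel of the mod `p` cyclotomic character. -/
def Kf : IntermediateField ℚ (AlgebraicClosure ℚ) := fixedField (kerChi p)

variable {p V}
variable {C : Submodule (ZMod p) V}

theorem isOpen_kerChi (hadm : IsAdmissibleExtensionCts p V C) :
    IsOpen ((kerChi p : Subgroup Γ) : Set Γ) :=
  Subgroup.isOpen_mono (kerV_le_kerChi hadm.toIsAdmissibleExtension) (isOpen_kerV hadm)

theorem fixingSubgroup_Lf (hadm : IsAdmissibleExtensionCts p V C) :
    (Lf V).fixingSubgroup = kerV V :=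
  InfiniteGalois.fixingSubgroup_fixedField
    (⟨kerV V, (kerV V).isClosed_of_isOpen (isOpen_kerV hadm)⟩ : ClosedSubgroup Γ)

theorem fixingSubgroup_Kf (hadm : IsAdmissibleExtensionCts p V C) :
    (Kf p).fixingSubgroup = kerChi p :=
  InfiniteGalois.fixingSubgroup_fixedField
    (⟨kerChi p, (kerChi p).isClosed_of_isOpen (isOpen_kerChi hadm)⟩ : ClosedSubgroup Γ)

theorem finiteDimensional_Lf (hadm : IsAdmissibleExtensionCts p V C) :
    FiniteDimensional ℚ (Lf V) := by
  rw [← InfiniteGalois.isOpen_iff_finite]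
  change IsOpen (((Lf V).fixingSubgroup : Subgroup Γ) : Set Γ)
  rw [fixingSubgroup_Lf hadm]
  exact isOpen_kerV hadm

theorem finiteDimensional_Kf (hadm : IsAdmissibleExtensionCts p V C) :
    FiniteDimensional ℚ (Kf p) := by
  rw [← InfiniteGalois.isOpen_iff_finite]
  change IsOpen (((Kf p).fixingSubgroup : Subgroup Γ) : Set Γ)
  rw [fixingSubgroup_Kf hadm]
  exact isOpen_kerChi hadm

/-- transport of `IsGalois` between the two `ℚ`-algebra structures on an intermediate field. -/
theorem isGalois_of_normal (L : IntermediateField ℚ (AlgebraicClosure ℚ))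
    (h : L.fixingSubgroup.Normal) : IsGalois ℚ L := by
  have h1 := (InfiniteGalois.normal_iff_isGalois L).mp h
  have e : (IntermediateField.algebra' L : Algebra ℚ L) = DivisionRing.toRatAlgebra :=
    Subsingleton.elim _ _
  rw [e] at h1
  exact h1

theorem isGalois_Lf (hadm : IsAdmissibleExtensionCts p V C) : IsGalois ℚ (Lf V) :=
  isGalois_of_normal _ (by rw [fixingSubgroup_Lf hadm]; infer_instance)

theorem isGalois_Kf (hadm : IsAdmissibleExtensionCts p V C) : IsGalois ℚ (Kf p) :=
  isGalois_of_normal _ (by rw [fixingSubgroup_Kf hadm]; infer_instance)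

theorem Kf_le_Lf (hadm : IsAdmissibleExtension p V C) : Kf p ≤ Lf V :=
  fixedField_antitone (kerV_le_kerChi hadm)

/-- `[Lf : ℚ]` is the index of `kerV`. -/
theorem finrank_Lf (hadm : IsAdmissibleExtensionCts p V C) :
    Module.finrank ℚ (Lf V) = (kerV V).index := by
  haveI := finiteDimensional_Lf hadm
  haveI := isGalois_Lf hadm
  rw [← IsGalois.card_aut_eq_finrank ℚ (Lf V), Subgroup.index]
  exact (Nat.card_congr (InfiniteGalois.normalAutEquivQuotient
    (⟨kerV V, (kerV V).isClosed_of_isOpen (isOpen_kerV hadm)⟩ : ClosedSubgroup Γ)).toEquiv).symm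

/-- `[Kf : ℚ]` is the index of `kerChi`. -/
theorem finrank_Kf (hadm : IsAdmissibleExtensionCts p V C) :
    Module.finrank ℚ (Kf p) = (kerChi p).index := by
  haveI := finiteDimensional_Kf hadm
  haveI := isGalois_Kf hadm
  rw [← IsGalois.card_aut_eq_finrank ℚ (Kf p), Subgroup.index]
  exact (Nat.card_congr (InfiniteGalois.normalAutEquivQuotient
    (⟨kerChi p, (kerChi p).isClosed_of_isOpen (isOpen_kerChi hadm)⟩ : ClosedSubgroup Γ)).toEquiv).symm

/-- In the non-split case, `[Lf : ℚ] = p * [Kf : ℚ]`. -/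
theorem finrank_Lf_eq (hadm : IsAdmissibleExtensionCts p V C) (hns : ¬ kerChi p ≤ kerV V) :
    Module.finrank ℚ (Lf V) = p * Module.finrank ℚ (Kf p) := by
  rw [finrank_Lf hadm, finrank_Kf hadm,
    ← Subgroup.relIndex_mul_index (kerV_le_kerChi hadm.toIsAdmissibleExtension)]
  rcases kerChi_le_or_relIndex hadm.toIsAdmissibleExtension with h | h
  · exact absurd h hns
  · rw [h]

/-! ### Number field instances -/

theorem numberField_Lf (hadm : IsAdmissibleExtensionCts p V C) : NumberField (Lf V) :=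
  haveI := finiteDimensional_Lf hadm
  { to_charZero := inferInstance, to_finiteDimensional := inferInstance }

theorem numberField_Kf (hadm : IsAdmissibleExtensionCts p V C) : NumberField (Kf p) :=
  haveI := finiteDimensional_Kf hadm
  { to_charZero := inferInstance, to_finiteDimensional := inferInstance }

/-! ### Restriction to `Lf` -/

/-- Restriction `Gal(ℚ̄/ℚ) → Gal(Lf/ℚ)`. -/
def resL (hadm : IsAdmissibleExtensionCts p V C) : Γ →* ((Lf V) ≃ₐ[ℚ] (Lf V)) :=
  haveI := (isGalois_Lf hadm).to_normal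
  AlgEquiv.restrictNormalHom (Lf V)

theorem resL_apply (hadm : IsAdmissibleExtensionCts p V C) (σ : Γ) (x : Lf V) :
    ((resL hadm σ x : Lf V) : AlgebraicClosure ℚ) = σ (x : AlgebraicClosure ℚ) := by
  haveI := (isGalois_Lf hadm).to_normal
  exact AlgEquiv.restrictNormal_commutes σ (Lf V) x

theorem resL_surjective (hadm : IsAdmissibleExtensionCts p V C) :
    Function.Surjective (resL hadm) := by
  haveI := (isGalois_Lf hadm).to_normal
  exact AlgEquiv.restrictNormalHom_surjective (AlgebraicClosure ℚ)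

theorem resL_eq_one_iff (hadm : IsAdmissibleExtensionCts p V C) (σ : Γ) :
    resL hadm σ = 1 ↔ σ ∈ kerV V := by
  rw [← fixingSubgroup_Lf hadm, IntermediateField.mem_fixingSubgroup_iff]
  constructor
  · intro h x hx
    have h1 := resL_apply hadm σ ⟨x, hx⟩
    rw [h] at h1
    exact h1.symm
  · intro h
    ext x
    rw [resL_apply]
    exact h _ x.2

theorem resL_ker (hadm : IsAdmissibleExtensionCts p V C) : (resL hadm).ker = kerV V := by
  ext σ
  rw [MonoidHom.mem_ker, resL_eq_one_iff]

/-- **The conjugation law in `Gal(Lf/ℚ)`**: `g τ g⁻¹ = τ ^ k` for `τ` fixing `Kf` and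
`k ≡ χ(g)⁻¹`. -/
theorem resL_conj (hadm : IsAdmissibleExtensionCts p V C) (g : Γ) {τ : Γ} (hτ : τ ∈ kerChi p)
    (k : ℕ) (hk : (k : ZMod p) * ((cycloChar p g : (ZMod p)ˣ) : ZMod p) = 1) :
    resL hadm g * resL hadm τ * (resL hadm g)⁻¹ = resL hadm τ ^ k := by
  have h := conj_mem hadm.toIsAdmissibleExtension g hτ k hk
  rw [← resL_eq_one_iff hadm] at h
  simp only [map_mul, map_inv, map_pow] at h
  exact mul_inv_eq_one.mp h

/-- `σ ∈ kerChi` iff its restriction to `Lf` fixes `Kf` pointwise. -/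
theorem mem_kerChi_iff_resL (hadm : IsAdmissibleExtensionCts p V C) (σ : Γ) :
    σ ∈ kerChi p ↔
      ∀ x : Lf V, (x : AlgebraicClosure ℚ) ∈ Kf p → resL hadm σ x = x := by
  rw [← fixingSubgroup_Kf hadm, IntermediateField.mem_fixingSubgroup_iff]
  constructor
  · intro h x hx
    apply Subtype.ext
    rw [resL_apply]
    exact h _ hx
  · intro h x hx
    have hxL : x ∈ Lf V := Kf_le_Lf hadm.toIsAdmissibleExtension hx
    have := h ⟨x, hxL⟩ hx
    have h2 := congrArg Subtype.val this
    rw [resL_apply] at h2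
    exact h2

/-- every element of `Gal(Lf/ℚ)` fixing `Kf` pointwise is the restriction of an element of
`kerChi`. -/
theorem exists_kerChi_lift (hadm : IsAdmissibleExtensionCts p V C) (τ : (Lf V) ≃ₐ[ℚ] (Lf V))
    (hτ : ∀ x : Lf V, (x : AlgebraicClosure ℚ) ∈ Kf p → τ x = x) :
    ∃ σ : Γ, σ ∈ kerChi p ∧ resL hadm σ = τ := by
  obtain ⟨σ, rfl⟩ := resL_surjective hadm τ
  exact ⟨σ, (mem_kerChi_iff_resL hadm σ).mpr hτ, rfl⟩

/-- **The conjugation law, finite level**: for `g, τ ∈ Gal(Lf/ℚ)` with `τ` fixing `Kf` pointwise,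
any lift `g'` of `g` and `k ≡ χ(g')⁻¹`: `g τ g⁻¹ = τ ^ k`. -/
theorem conj_eq_pow (hadm : IsAdmissibleExtensionCts p V C) (g' : Γ)
    (τ : (Lf V) ≃ₐ[ℚ] (Lf V))
    (hτ : ∀ x : Lf V, (x : AlgebraicClosure ℚ) ∈ Kf p → τ x = x)
    (k : ℕ) (hk : (k : ZMod p) * ((cycloChar p g' : (ZMod p)ˣ) : ZMod p) = 1) :
    resL hadm g' * τ * (resL hadm g')⁻¹ = τ ^ k := by
  obtain ⟨σ, hσ, rfl⟩ := exists_kerChi_lift hadm τ hτ
  exact resL_conj hadm g' hσ k hk

end Fermat.Agent.S14.AdmField
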