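import Mathlib
import Fermat.Agent.S14.AdmGroup

/-!
# S14, stream A2 (K-half): the fixed field of the kernel of the mod `p` cyclotomic character

`Kp p := fixedField (kerChi p)` is `ℚ(ζ_p)` inside `ℚ̄`: a number field, Galois over `ℚ`, a
`p`-th cyclotomic extension of `ℚ` of degree `p - 1`, whose fixing subgroup is `kerChi p`.
We also record the defining property of `cycloChar` and its surjectivity.
-/

set_option autoImplicit false
set_option linter.style.haveILetI false

namespace Fermat.Agent.S14.CycloField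

open ExtCitation IntermediateField Fermat.Agent.S14.AdmGroup

/-- the algebraic closure of `ℚ` -/
local notation "Ω" => AlgebraicClosure ℚ

/-- the absolute Galois group of `ℚ` -/
local notation "Γ" => (AlgebraicClosure ℚ ≃ₐ[ℚ] AlgebraicClosure ℚ)

/-- `ℚ̄ / ℚ` is algebraic for the default `ℚ`-algebra structure (the one of the frozen
statement). -/
theorem isAlgebraic_rat : Algebra.IsAlgebraic ℚ Ω := AlgebraicClosure.isAlgebraic ℚ

/-- `ℚ̄ / ℚ` is normal for the default `ℚ`-algebra structure. -/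
theorem normal_rat : Normal ℚ Ω :=
  haveI : Algebra.IsAlgebraic ℚ Ω := isAlgebraic_rat
  haveI : IsAlgClosure ℚ Ω := ⟨inferInstance, inferInstance⟩
  IsAlgClosure.normal ℚ Ω

/-- `ℚ̄ / ℚ` is Galois for the default `ℚ`-algebra structure. -/
theorem isGalois_rat : IsGalois ℚ Ω :=
  haveI : Algebra.IsAlgebraic ℚ Ω := isAlgebraic_rat
  haveI : Normal ℚ Ω := normal_rat
  ⟨⟩

variable (p : ℕ) [Fact p.Prime]

/-- The defining property of the mod `p` cyclotomic character. -/
theorem cycloChar_spec (σ : Γ) (ζ : Ω) (hζ : ζ ^ p = 1) :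
    σ ζ = ζ ^ ((cycloChar p σ : (ZMod p)ˣ) : ZMod p).val := by
  have : NeZero p := ⟨(Fact.out : p.Prime).ne_zero⟩
  have hu : IsUnit ζ := IsUnit.of_pow_eq_one hζ (NeZero.ne p)
  obtain ⟨u, rfl⟩ := hu
  have hmem : u ∈ rootsOfUnity p Ω := by
    rw [mem_rootsOfUnity]; exact Units.ext (by simpa using hζ)
  exact modularCyclotomicCharacter.spec Ω (card_rootsOfUnity_eq_self p) (σ : Ω ≃+* Ω) hmem

theorem val_one_eq : ((1 : ZMod p)).val = 1 := by
  haveI : Fact (1 < p) := ⟨(Fact.out : p.Prime).one_lt⟩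
  exact ZMod.val_one p

/-- `σ` lies in the kernel of the cyclotomic character iff it fixes all `p`-th roots of unity. -/
theorem mem_kerChi_iff {σ : Γ} : σ ∈ kerChi p ↔ ∀ ζ : Ω, ζ ^ p = 1 → σ ζ = ζ := by
  have : NeZero p := ⟨(Fact.out : p.Prime).ne_zero⟩
  constructor
  · intro h ζ hζ
    rw [cycloChar_spec p σ ζ hζ, (mem_kerChi p).1 h, Units.val_one, val_one_eq, pow_one]
  · intro h
    rw [mem_kerChi]
    symm
    have := modularCyclotomicCharacter.unique Ω (card_rootsOfUnity_eq_self p) (σ : Ω ≃+* Ω)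
      (c := 1) (fun t ht => by
        rw [val_one_eq, pow_one]
        have ht' : (t : Ω) ^ p = 1 := by
          have := (mem_rootsOfUnity _ _).1 ht
          rw [← Units.val_pow_eq_pow_val, this, Units.val_one]
        exact h t ht')
    exact Units.ext this

/-- `σ` lies in the kernel of the cyclotomic character iff it fixes one primitive `p`-th root of
unity. -/
theorem mem_kerChi_iff_of_primitive {σ : Γ} {ζ : Ω} (hζ : IsPrimitiveRoot ζ p) :
    σ ∈ kerChi p ↔ σ ζ = ζ := by
  have hp : p.Prime := Fact.out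
  have : NeZero p := ⟨hp.ne_zero⟩
  rw [mem_kerChi_iff]
  constructor
  · intro h; exact h ζ hζ.pow_eq_one
  · intro h ξ hξ
    obtain ⟨i, -, rfl⟩ := hζ.eq_pow_of_pow_eq_one hξ
    rw [map_pow, h]

/-- The value of the cyclotomic character is determined by the action on one primitive root. -/
theorem cycloChar_eq_of_apply {σ : Γ} {ζ : Ω} (hζ : IsPrimitiveRoot ζ p) (a : ℕ)
    (h : σ ζ = ζ ^ a) : ((cycloChar p σ : (ZMod p)ˣ) : ZMod p) = (a : ZMod p) := by
  have hp : p.Prime := Fact.out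
  have : NeZero p := ⟨hp.ne_zero⟩
  rw [cycloChar_spec p σ ζ hζ.pow_eq_one] at h
  have h1 : ζ ^ a = ζ ^ (a % p) := by
    conv_lhs => rw [← Nat.mod_add_div a p, pow_add, pow_mul, hζ.pow_eq_one, one_pow, mul_one]
  rw [h1] at h
  have h2 := hζ.pow_inj (ZMod.val_lt _) (Nat.mod_lt _ hp.pos) h
  have h3 : ((a % p : ℕ) : ZMod p) = (a : ZMod p) := ZMod.natCast_mod a p
  rw [← h3, ← h2, ZMod.natCast_zmod_val]

theorem exists_primitiveRoot : ∃ ζ : Ω, IsPrimitiveRoot ζ p := by
  have hp : p.Prime := Fact.out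
  have : NeZero p := ⟨hp.ne_zero⟩
  have : NeZero (p : Ω) := ⟨Nat.cast_ne_zero.mpr hp.ne_zero⟩
  exact HasEnoughRootsOfUnity.exists_primitiveRoot Ω p

/-- The mod `p` cyclotomic character is surjective. -/
theorem cycloChar_surjective : Function.Surjective (cycloChar p) := by
  have hp : p.Prime := Fact.out
  have : NeZero p := ⟨hp.ne_zero⟩
  intro u
  obtain ⟨ζ, hζ⟩ := exists_primitiveRoot p
  have hcop : Nat.Coprime ((u : ZMod p).val) p := ZMod.val_coe_unit_coprime u
  have hζu : IsPrimitiveRoot (ζ ^ (u : ZMod p).val) p := hζ.pow_of_coprime _ hcop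
  have hmin : minpoly ℚ ζ = Polynomial.cyclotomic p ℚ :=
    (Polynomial.cyclotomic_eq_minpoly_rat hζ hp.pos).symm
  have hroot : Polynomial.aeval (ζ ^ (u : ZMod p).val) (minpoly ℚ ζ) = 0 := by
    rw [hmin, Polynomial.aeval_def, Polynomial.eval₂_eq_eval_map, Polynomial.map_cyclotomic]
    exact hζu.isRoot_cyclotomic hp.pos
  haveI : Algebra.IsAlgebraic ℚ Ω := isAlgebraic_rat
  haveI : Normal ℚ Ω := normal_rat
  have halg : IsAlgebraic ℚ ζ := Algebra.IsAlgebraic.isAlgebraic ζ
  obtain ⟨σ, hσ⟩ := minpoly.exists_algEquiv_of_root' halg hroot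
  refine ⟨σ, ?_⟩
  apply Units.ext
  rw [cycloChar_eq_of_apply p hζ _ hσ, ZMod.natCast_zmod_val]

/-- The fixed field of the kernel of the mod `p` cyclotomic character, i.e. `ℚ(ζ_p) ⊆ ℚ̄`. -/
noncomputable def Kp : IntermediateField ℚ Ω := IntermediateField.fixedField (kerChi p)

theorem mem_Kp {x : Ω} : x ∈ Kp p ↔ ∀ σ ∈ kerChi p, σ x = x := by
  unfold Kp
  rw [IntermediateField.mem_fixedField_iff]

theorem fixingSubgroup_adjoin {ζ : Ω} (hζ : IsPrimitiveRoot ζ p) :
    (ℚ⟮ζ⟯).fixingSubgroup = kerChi p := by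
  ext σ
  rw [mem_kerChi_iff_of_primitive p hζ, IntermediateField.mem_fixingSubgroup_iff]
  constructor
  · intro h
    exact h ζ (IntermediateField.mem_adjoin_simple_self ℚ ζ)
  · intro h x hx
    have hle : ℚ⟮ζ⟯ ≤ IntermediateField.fixedField (Subgroup.zpowers σ) := by
      rw [IntermediateField.adjoin_simple_le_iff, IntermediateField.mem_fixedField_iff]
      intro τ hτ
      obtain ⟨n, rfl⟩ := Subgroup.mem_zpowers_iff.1 hτ
      have hfix : ∀ n : ℕ, (σ ^ n) ζ = ζ := by
        intro n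
        induction n with
        | zero => simp
        | succ n ih => rw [pow_succ, AlgEquiv.mul_apply, h, ih]
      rcases Int.eq_nat_or_neg n with ⟨m, rfl | rfl⟩
      · rw [zpow_natCast]; exact hfix m
      · rw [zpow_neg, zpow_natCast]
        have := hfix m
        rw [AlgEquiv.aut_inv, AlgEquiv.symm_apply_eq]
        exact this.symm
    have := (IntermediateField.mem_fixedField_iff _ x).1 (hle hx) σ (Subgroup.mem_zpowers σ)
    exact this

/-- `Kp p = ℚ(ζ)` for any primitive `p`-th root of unity `ζ` of `ℚ̄`. -/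
theorem Kp_eq_adjoin {ζ : Ω} (hζ : IsPrimitiveRoot ζ p) : Kp p = ℚ⟮ζ⟯ := by
  haveI : IsGalois ℚ Ω := isGalois_rat
  unfold Kp
  rw [← fixingSubgroup_adjoin p hζ, InfiniteGalois.fixedField_fixingSubgroup]

/-- The fixing subgroup of `Kp p` is the kernel of the cyclotomic character. -/
theorem fixingSubgroup_Kp : (Kp p).fixingSubgroup = kerChi p := by
  obtain ⟨ζ, hζ⟩ := exists_primitiveRoot p
  rw [Kp_eq_adjoin p hζ, fixingSubgroup_adjoin p hζ]

theorem mem_Kp_of_pow_eq_one {ζ : Ω} (hζ : ζ ^ p = 1) : ζ ∈ Kp p := by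
  rw [mem_Kp]
  intro σ hσ
  exact (mem_kerChi_iff p).1 hσ ζ hζ

theorem exists_primitiveRoot_mem : ∃ ζ : Ω, IsPrimitiveRoot ζ p ∧ ζ ∈ Kp p := by
  obtain ⟨ζ, hζ⟩ := exists_primitiveRoot p
  exact ⟨ζ, hζ, mem_Kp_of_pow_eq_one p hζ.pow_eq_one⟩

/-- `Kp p` is a `p`-th cyclotomic extension of `ℚ`. -/
instance isCyclotomicExtension_Kp : IsCyclotomicExtension {p} ℚ (Kp p) := by
  have hp : p.Prime := Fact.out
  have : NeZero p := ⟨hp.ne_zero⟩
  obtain ⟨ζ, hζ⟩ := exists_primitiveRoot p
  haveI : Algebra.IsAlgebraic ℚ Ω := isAlgebraic_rat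
  rw [Kp_eq_adjoin p hζ]
  exact hζ.intermediateField_adjoin_isCyclotomicExtension ℚ

instance finiteDimensional_Kp : FiniteDimensional ℚ (Kp p) := by
  have hp : p.Prime := Fact.out
  have : NeZero p := ⟨hp.ne_zero⟩
  exact IsCyclotomicExtension.finiteDimensional {p} ℚ (Kp p)

instance numberField_Kp : NumberField (Kp p) := by
  have hp : p.Prime := Fact.out
  have : NeZero p := ⟨hp.ne_zero⟩
  exact IsCyclotomicExtension.numberField {p} ℚ (Kp p)

instance isGalois_Kp : IsGalois ℚ (Kp p) := by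
  have hp : p.Prime := Fact.out
  have : NeZero p := ⟨hp.ne_zero⟩
  exact IsCyclotomicExtension.isGalois {p} ℚ (Kp p)

theorem finrank_Kp : Module.finrank ℚ (Kp p) = p - 1 := by
  have hp : p.Prime := Fact.out
  have : NeZero p := ⟨hp.ne_zero⟩
  rw [IsCyclotomicExtension.finrank (n := p) (Kp p) (Polynomial.cyclotomic.irreducible_rat hp.pos),
    Nat.totient_prime hp]

theorem isTotallyComplex_Kp (h3 : 3 ≤ p) : NumberField.IsTotallyComplex (Kp p) := by
  have hp : p.Prime := Fact.out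
  have : NeZero p := ⟨hp.ne_zero⟩
  exact IsCyclotomicExtension.Rat.isTotallyComplex (n := p) (Kp p) (by omega)

/-- A primitive `p`-th root of unity inside `Kp p`. -/
theorem exists_primitiveRoot_Kp : ∃ ζ : Kp p, IsPrimitiveRoot ζ p := by
  obtain ⟨ζ, hζ, hmem⟩ := exists_primitiveRoot_mem p
  refine ⟨⟨ζ, hmem⟩, ?_⟩
  exact IsPrimitiveRoot.of_map_of_injective (f := (Kp p).val) (by exact hζ) (Kp p).val.injective

section kerV

variable {p}
variable {V : Type} [AddCommGroup V] [Module (ZMod p) V]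
  [DistribMulAction Γ V] [SMulCommClass Γ (ZMod p) V] {C : Submodule (ZMod p) V}

/-- `Kp p` is contained in the fixed field of the kernel of the action on `V`. -/
theorem Kp_le_fixedField_kerV (hadm : IsAdmissibleExtension p V C) :
    Kp p ≤ IntermediateField.fixedField (kerV V) := by
  intro x hx
  rw [IntermediateField.mem_fixedField_iff]
  intro σ hσ
  exact (mem_Kp p).1 hx σ (kerV_le_kerChi hadm hσ)

end kerV

end Fermat.Agent.S14.CycloField
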