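import Mathlib

/-!
# S14: common definitions

Definitions shared by all streams of the S14 development (route: Artin reciprocity for one
unramified cyclic extension of prime degree, then a Jacobi-sum argument).

* `Unram K L`: `L/K` is unramified at every finite prime (inertia-group form).
* `frobChar K L χ q`: the value of a character `χ` of `Gal(L/K)` (commutative target) on the
  Frobenius class of a prime `q` of `𝓞 K`.
* `artin K L χ a`: the `χ`-valued Artin map on integral ideals of `𝓞 K`.
* `normClasses K L`: the subgroup of the class group of `K` generated by norms of ideals of `L`.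
* `ConjInv p K L`: for `g ∈ Gal(L/ℚ)` with `g ζ = ζ ^ a` one has `(g τ g⁻¹) ^ a = τ` on `Gal(L/K)`.
* `NoField p`: the number-field statement to which S14 is reduced.
-/

set_option autoImplicit false

namespace Fermat.Agent.S14

open NumberField

section defs

variable (K L : Type*) [Field K] [Field L] [NumberField K] [NumberField L] [Algebra K L]
  [IsGalois K L]

/-- `L/K` is unramified at every finite prime (inertia-group form). -/
def Unram : Prop :=
  ∀ Q : Ideal (𝓞 L), Q.IsPrime → Q ≠ ⊥ → Q.inertia (L ≃ₐ[K] L) = ⊥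

/-- Value of a character `χ` of `Gal(L/K)` (commutative target) on the Frobenius class of a
nonzero prime `q` of `𝓞 K`; `1` if `q` is not a nonzero prime. -/
noncomputable def frobChar {A : Type*} [CommGroup A] (χ : (L ≃ₐ[K] L) →* A)
    (q : Ideal (𝓞 K)) : A :=
  open Classical in
  if h : ∃ Q : Ideal (𝓞 L), Q.IsPrime ∧ Q ≠ ⊥ ∧ Q.under (𝓞 K) = q then
    haveI : h.choose.IsPrime := h.choose_spec.1
    haveI : Finite (𝓞 L ⧸ h.choose) := Ideal.finiteQuotientOfFreeOfNeBot _ h.choose_spec.2.1
    χ (arithFrobAt (𝓞 K) (L ≃ₐ[K] L) h.choose)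
  else 1

/-- The `χ`-valued Artin map on integral ideals of `𝓞 K`. -/
noncomputable def artin {A : Type*} [CommGroup A] (χ : (L ≃ₐ[K] L) →* A)
    (a : Ideal (𝓞 K)) : A :=
  ((UniqueFactorizationMonoid.normalizedFactors a).map (frobChar K L χ)).prod

omit [IsGalois K L] in
theorem relNorm_mem_nonZeroDivisors (I : Ideal (𝓞 L)) (hI : I ≠ ⊥) :
    Ideal.relNorm (𝓞 K) I ∈ nonZeroDivisors (Ideal (𝓞 K)) :=
  mem_nonZeroDivisors_iff_ne_zero.mpr (fun h => hI (Ideal.relNorm_eq_bot_iff.mp h))

omit [IsGalois K L] in
/-- Classes of norms of ideals of `L`. -/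
noncomputable def normClasses : Subgroup (ClassGroup (𝓞 K)) :=
  Subgroup.closure {c | ∃ (I : Ideal (𝓞 L)) (hI : I ≠ ⊥),
    c = ClassGroup.mk0 ⟨Ideal.relNorm (𝓞 K) I, relNorm_mem_nonZeroDivisors K L I hI⟩}

end defs

section statements

variable (p : ℕ)

/-- The conjugation hypothesis `g τ g⁻¹ = τ ^ (ω(g)⁻¹)`, in the form `(g τ g⁻¹) ^ a = τ` whenever
`g ζ = ζ ^ a`. -/
def ConjInv (K L : Type*) [Field K] [Field L] [NumberField K] [NumberField L] [Algebra K L] :
    Prop :=
  ∀ (g : L ≃ₐ[ℚ] L) (τ : L ≃ₐ[K] L) (ζ : K) (a : ℕ), IsPrimitiveRoot ζ p →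
    g (algebraMap K L ζ) = algebraMap K L (ζ ^ a) →
      (g * τ.restrictScalars ℚ * g⁻¹) ^ a = τ.restrictScalars ℚ

/-- The number-field statement: there is no Galois extension `L/ℚ` containing `K = ℚ(ζ_p)` with
`[L : K] = p`, `L/K` unramified at all finite primes, and `Gal(K/ℚ)` acting on `Gal(L/K)` through
the inverse of the cyclotomic character. -/
def NoField : Prop :=
  ∀ (K L : Type) [Field K] [Field L] [NumberField K] [NumberField L] [Algebra K L]
    [IsCyclotomicExtension {p} ℚ K] [IsGalois ℚ L] [IsGalois K L],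
    Module.finrank K L = p → Unram K L → ConjInv p K L → False

end statements

end Fermat.Agent.S14
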