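import Mathlib
import Fermat.Prelude.Def_FLTPrelim_Ramification
import Fermat.Agent.S05.InertiaAPI
import Fermat.Agent.S13.Minkowski

/-!
# S14, module A1: lifting decomposition and inertia elements from a finite level

`Ω` is an algebraic extension of `ℚ` (in the application: `AlgebraicClosure ℚ`), `A` a valuation
subring of `Ω` over a prime number, `L` a subfield with `Ω/L` Galois, and
`A.comap (algebraMap L Ω)` the restriction of `A` to `L`.

* `exists_smul_eq`: `Gal(Ω/L)` acts transitively on the valuation subrings of `Ω` with a given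
  restriction to `L`.
* `exists_decomp_lift`: if `L/ℚ` is normal, every `τ ∈ Gal(L/ℚ)` stabilising the restriction of
  `A` is the restriction of an element of the decomposition subgroup of `A`.
* `exists_inertia_lift`: every `τ` in the inertia subgroup of the restriction of `A` is the
  restriction of an element of the inertia subgroup of `A`.

The proofs go through the ring `𝓞 Ω` of all algebraic integers of `Ω`, on which `Gal(Ω/L)` acts
continuously with invariants `𝓞 L`, and Mathlib's results on invariants of profinite groups.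
-/

set_option autoImplicit false

namespace Fermat.Agent.S14.InertiaLift

open scoped Pointwise NumberField
open Fermat.Agent.S05 Fermat.Agent.S13

section Comap

variable {L Ω : Type*} [Field L] [Field Ω] [Algebra L Ω] (A : ValuationSubring Ω)

lemma comap_val_le_one {z : L} :
    (A.comap (algebraMap L Ω)).valuation z ≤ 1 ↔ A.valuation (algebraMap L Ω z) ≤ 1 := by
  rw [ValuationSubring.valuation_le_one_iff, ValuationSubring.valuation_le_one_iff]
  exact Iff.rfl

lemma one_le_val_iff {K : Type*} [Field K] (B : ValuationSubring K) {w : K} (hw : w ≠ 0) :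
    1 ≤ B.valuation w ↔ B.valuation w⁻¹ ≤ 1 := by
  rw [map_inv₀]
  have : 0 < B.valuation w := zero_lt_iff.mpr ((Valuation.ne_zero_iff _).mpr hw)
  rw [inv_le_one₀ this]

lemma comap_one_le_val {z : L} :
    1 ≤ (A.comap (algebraMap L Ω)).valuation z ↔ 1 ≤ A.valuation (algebraMap L Ω z) := by
  by_cases hz : z = 0
  · subst hz
    simp
  · have hz' : algebraMap L Ω z ≠ 0 := (map_ne_zero (algebraMap L Ω)).mpr hz
    rw [one_le_val_iff _ hz, one_le_val_iff _ hz', comap_val_le_one, map_inv₀]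

lemma comap_val_lt_one {z : L} :
    (A.comap (algebraMap L Ω)).valuation z < 1 ↔ A.valuation (algebraMap L Ω z) < 1 := by
  rw [← not_le, ← not_le, comap_one_le_val]

lemma comap_val_eq_one {z : L} :
    (A.comap (algebraMap L Ω)).valuation z = 1 ↔ A.valuation (algebraMap L Ω z) = 1 := by
  rw [le_antisymm_iff, le_antisymm_iff, comap_val_le_one, comap_one_le_val]

lemma comap_mem_nonunits {z : L} :
    z ∈ (A.comap (algebraMap L Ω)).nonunits ↔ algebraMap L Ω z ∈ A.nonunits := by
  rw [ValuationSubring.mem_nonunits_iff, ValuationSubring.mem_nonunits_iff, comap_val_lt_one]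

lemma comap_liesOverPrime {q : ℕ} :
    (A.comap (algebraMap L Ω)).LiesOverPrime q ↔ A.LiesOverPrime q := by
  unfold ValuationSubring.LiesOverPrime
  rw [comap_mem_nonunits, map_natCast]

end Comap

section PrimeB

variable {Ω : Type*} [Field Ω]

theorem integer_mem (A : ValuationSubring Ω) (x : 𝓞 Ω) : (x : Ω) ∈ A :=
  Minkowski.integer_mem A x

theorem val_integer_le (A : ValuationSubring Ω) (x : 𝓞 Ω) : A.valuation (x : Ω) ≤ 1 :=
  (A.valuation_le_one_iff _).mpr (integer_mem A x)

/-- The prime ideal of `𝓞 Ω` cut out by a valuation subring (no finiteness assumption). -/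
def primeB (A : ValuationSubring Ω) : Ideal (𝓞 Ω) where
  carrier := {x | A.valuation (x : Ω) < 1}
  add_mem' := by
    intro a b ha hb
    change A.valuation ((a + b : 𝓞 Ω) : Ω) < 1
    push_cast
    exact lt_of_le_of_lt (A.valuation.map_add _ _) (max_lt ha hb)
  zero_mem' := by
    change A.valuation ((0 : 𝓞 Ω) : Ω) < 1
    simp
  smul_mem' := by
    intro c x hx
    change A.valuation ((c * x : 𝓞 Ω) : Ω) < 1
    push_cast
    rw [map_mul]
    exact lt_of_le_of_lt (mul_le_mul' (val_integer_le A c) le_rfl) (by rwa [one_mul])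

theorem mem_primeB {A : ValuationSubring Ω} {x : 𝓞 Ω} :
    x ∈ primeB A ↔ A.valuation (x : Ω) < 1 := Iff.rfl

theorem not_mem_primeB {A : ValuationSubring Ω} {x : 𝓞 Ω} :
    x ∉ primeB A ↔ A.valuation (x : Ω) = 1 := by
  rw [mem_primeB, not_lt]
  exact ⟨fun h => le_antisymm (val_integer_le A x) h, fun h => h.ge⟩

instance primeB_isPrime (A : ValuationSubring Ω) : (primeB A).IsPrime := by
  refine ⟨?_, ?_⟩
  · intro h
    have : (1 : 𝓞 Ω) ∈ primeB A := by rw [h]; trivial
    rw [mem_primeB] at this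
    simp at this
  · intro x y hxy
    by_contra hcon
    push Not at hcon
    rw [not_mem_primeB, not_mem_primeB] at hcon
    rw [mem_primeB] at hxy
    push_cast at hxy
    rw [map_mul, hcon.1, hcon.2, one_mul] at hxy
    exact lt_irrefl _ hxy

end PrimeB

section Loc

variable {Ω : Type*} [Field Ω]

theorem numberField_of_finiteDimensional {F : Type*} [Field F] [inst : Algebra ℚ F]
    [FiniteDimensional ℚ F] : NumberField F := by
  have hchar : CharZero F := algebraRat.charZero F
  obtain rfl : inst = DivisionRing.toRatAlgebra := Subsingleton.elim _ _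
  exact ⟨⟩

/-- A valuation subring of an algebraic extension of `ℚ` lying over a prime is the localisation of
the ring of all algebraic integers at the prime it cuts out. -/
theorem exists_frac [Algebra ℚ Ω] [Algebra.IsAlgebraic ℚ Ω] {A : ValuationSubring Ω} {q : ℕ}
    (hq : q.Prime) (hA : A.LiesOverPrime q) {y : Ω} (hy : y ∈ A) :
    ∃ a s : 𝓞 Ω, s ∉ primeB A ∧ y * (s : Ω) = (a : Ω) := by
  have hchar : CharZero Ω := algebraRat.charZero Ω
  let F : IntermediateField ℚ Ω := IntermediateField.adjoin ℚ {y}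
  have hfd : FiniteDimensional ℚ F :=
    IntermediateField.adjoin.finiteDimensional (Algebra.IsIntegral.isIntegral y)
  have hNF : NumberField F := @numberField_of_finiteDimensional F _ F.algebra' hfd
  let yF : F := ⟨y, IntermediateField.mem_adjoin_simple_self ℚ y⟩
  let AF : ValuationSubring F := A.comap (algebraMap F Ω)
  have hAF : AF.LiesOverPrime q := (comap_liesOverPrime A).mpr hA
  have hyF : yF ∈ AF := hy
  obtain ⟨a, s, hs, hys⟩ := Minkowski.exists_frac_of_mem hq hAF hyF
  refine ⟨NumberField.RingOfIntegers.mapRingHom (algebraMap F Ω) a, NumberField.RingOfIntegers.mapRingHom (algebraMap F Ω) s,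
    ?_, ?_⟩
  · rw [not_mem_primeB]
    rw [Minkowski.not_mem_primeOf] at hs
    exact (comap_val_eq_one A).mp hs
  · have := congrArg (algebraMap F Ω) hys
    rw [map_mul] at this
    exact this

theorem mem_of_frac {A : ValuationSubring Ω} {y : Ω} {a s : 𝓞 Ω} (hs : s ∉ primeB A)
    (h : y * (s : Ω) = (a : Ω)) : y ∈ A := by
  rw [not_mem_primeB] at hs
  rw [← A.valuation_le_one_iff]
  have : A.valuation y * A.valuation (s : Ω) = A.valuation (a : Ω) := by rw [← map_mul, h]
  rw [hs, mul_one] at this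
  rw [this]
  exact val_integer_le A a

theorem eq_of_primeB_eq [Algebra ℚ Ω] [Algebra.IsAlgebraic ℚ Ω] {A A' : ValuationSubring Ω}
    {q q' : ℕ} (hq : q.Prime) (hA : A.LiesOverPrime q) (hq' : q'.Prime) (hA' : A'.LiesOverPrime q')
    (h : primeB A = primeB A') : A = A' := by
  ext y
  constructor
  · intro hy
    obtain ⟨a, s, hs, hys⟩ := exists_frac hq hA hy
    rw [h] at hs
    exact mem_of_frac hs hys
  · intro hy
    obtain ⟨a, s, hs, hys⟩ := exists_frac hq' hA' hy
    rw [← h] at hs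
    exact mem_of_frac hs hys

end Loc

section Action

variable {Ω : Type*} [Field Ω] {G : Type*} [Group G] [MulSemiringAction G Ω]

lemma coe_smul (g : G) (x : 𝓞 Ω) : ((g • x : 𝓞 Ω) : Ω) = g • (x : Ω) := rfl

lemma val_lt_one_iff (A : ValuationSubring Ω) (z : Ω) :
    A.valuation z < 1 ↔ z = 0 ∨ z⁻¹ ∉ A := by
  by_cases hz : z = 0
  · subst hz
    simp
  · rw [← not_le, one_le_val_iff A hz, A.valuation_le_one_iff]
    simp [hz]

lemma smul_val_lt_one (g : G) (A : ValuationSubring Ω) (z : Ω) :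
    (g • A).valuation z < 1 ↔ A.valuation (g⁻¹ • z) < 1 := by
  rw [val_lt_one_iff, val_lt_one_iff, ValuationSubring.mem_pointwise_smul_iff_inv_smul_mem,
    smul_inv'', smul_eq_zero_iff_eq]

theorem smul_primeB (g : G) (A : ValuationSubring Ω) : g • primeB A = primeB (g • A) := by
  ext x
  rw [Ideal.mem_pointwise_smul_iff_inv_smul_mem, mem_primeB, mem_primeB, smul_val_lt_one,
    coe_smul]

lemma smul_liesOverPrime (g : G) (A : ValuationSubring Ω) (q : ℕ) :
    (g • A).LiesOverPrime q ↔ A.LiesOverPrime q := by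
  have h : g⁻¹ • (q : Ω) = q := map_natCast (MulSemiringAction.toRingHom G Ω g⁻¹) q
  unfold ValuationSubring.LiesOverPrime
  rw [ValuationSubring.mem_nonunits_iff, ValuationSubring.mem_nonunits_iff, smul_val_lt_one, h]

lemma smul_mem_nonunits_iff (g : G) (A : ValuationSubring Ω) (z : Ω) :
    z ∈ (g • A).nonunits ↔ g⁻¹ • z ∈ A.nonunits := by
  rw [ValuationSubring.mem_nonunits_iff, ValuationSubring.mem_nonunits_iff, smul_val_lt_one]

end Action

section Profinite

variable {L Ω : Type*} [Field L] [Field Ω] [Algebra L Ω]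

/-- `𝓞 Ω` with the discrete topology (local to this file). -/
local instance discreteTop : TopologicalSpace (𝓞 Ω) := ⊥

local instance discreteTop_discrete : DiscreteTopology (𝓞 Ω) := ⟨rfl⟩

lemma coe_algebraMap (x : 𝓞 L) :
    ((algebraMap (𝓞 L) (𝓞 Ω) x : 𝓞 Ω) : Ω) = algebraMap L Ω (x : L) := rfl

local instance smulComm : SMulCommClass (Ω ≃ₐ[L] Ω) (𝓞 L) (𝓞 Ω) where
  smul_comm g a b := by
    apply NumberField.RingOfIntegers.ext
    rw [coe_smul, Algebra.smul_def, Algebra.smul_def]
    push_cast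
    rw [smul_mul']
    congr 1
    exact g.commutes (a : L)

local instance contSMul [Algebra.IsIntegral L Ω] : ContinuousSMul (Ω ≃ₐ[L] Ω) (𝓞 Ω) := by
  rw [continuousSMul_iff_stabilizer_isOpen]
  intro x
  have := stabilizer_isOpen_of_isIntegral (K := L) (x : Ω)
  convert this using 1
  ext g
  simp only [SetLike.mem_coe, MulAction.mem_stabilizer_iff]
  rw [← NumberField.RingOfIntegers.eq_iff, coe_smul]

local instance isInvariant [IsGalois L Ω] : Algebra.IsInvariant (𝓞 L) (𝓞 Ω) (Ω ≃ₐ[L] Ω) := by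
  refine ⟨fun b hb => ?_⟩
  have h1 : (b : Ω) ∈ Set.range (algebraMap L Ω) := by
    rw [InfiniteGalois.mem_range_algebraMap_iff_fixed]
    intro f
    exact congrArg (fun x : 𝓞 Ω => (x : Ω)) (hb f)
  obtain ⟨x, hx⟩ := h1
  have hxint : IsIntegral ℤ x := by
    have : IsIntegral ℤ (algebraMap L Ω x) := hx ▸ b.2
    exact (isIntegral_algebraMap_iff (algebraMap L Ω).injective).mp this
  exact ⟨⟨x, hxint⟩, NumberField.RingOfIntegers.ext hx⟩

theorem under_primeB (A : ValuationSubring Ω) :
    (primeB A).under (𝓞 L) = primeB (A.comap (algebraMap L Ω)) := by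
  ext x
  rw [Ideal.under_def, Ideal.mem_comap, mem_primeB, mem_primeB, coe_algebraMap, comap_val_lt_one]

/-- `Gal(Ω/L)` acts transitively on the valuation subrings of `Ω` with a given restriction to
`L`. -/
theorem exists_smul_eq [Algebra ℚ Ω] [Algebra.IsAlgebraic ℚ Ω] [IsGalois L Ω]
    {A A' : ValuationSubring Ω} {q : ℕ} (hq : q.Prime) (hA : A.LiesOverPrime q)
    (h : A.comap (algebraMap L Ω) = A'.comap (algebraMap L Ω)) :
    ∃ g : Ω ≃ₐ[L] Ω, g • A = A' := by
  have hA' : A'.LiesOverPrime q := by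
    rw [← comap_liesOverPrime (L := L), ← h, comap_liesOverPrime]
    exact hA
  have hunder : (primeB A).under (𝓞 L) = (primeB A').under (𝓞 L) := by
    rw [under_primeB, under_primeB, h]
  obtain ⟨g, hg⟩ := Algebra.IsInvariant.exists_smul_of_under_eq_of_profinite (A := 𝓞 L)
    (G := Ω ≃ₐ[L] Ω) (primeB A) (primeB A') hunder
  refine ⟨g, ?_⟩
  apply eq_of_primeB_eq hq ((smul_liesOverPrime g A q).mpr hA) hq hA'
  rw [← smul_primeB, hg]

/-- **Residue lift.** If `σ` (in any group acting on `Ω`) stabilises `A` and acts trivially on the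
residue field of the restriction of `A` to `L`, then some `h ∈ Gal(Ω/L)` stabilising `A` induces
the same automorphism of the residue field of `A`. -/
theorem exists_residue_lift [Algebra ℚ Ω] [Algebra.IsAlgebraic ℚ Ω] [IsGalois L Ω]
    {H : Type*} [Group H] [MulSemiringAction H Ω]
    {A : ValuationSubring Ω} {q : ℕ} (hq : q.Prime) (hA : A.LiesOverPrime q) (σ : H)
    (hσA : σ • A = A)
    (hσL : ∀ x : 𝓞 L, σ • algebraMap L Ω (x : L) - algebraMap L Ω (x : L) ∈ A.nonunits) :
    ∃ h : Ω ≃ₐ[L] Ω, h • A = A ∧ ∀ x ∈ A, σ • x - h x ∈ A.nonunits := by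
  let P : Ideal (𝓞 Ω) := primeB A
  have hσP : σ • P = P := by rw [smul_primeB, hσA]
  let e : 𝓞 Ω ≃+* 𝓞 Ω := MulSemiringAction.toRingEquiv H (𝓞 Ω) σ
  have he : P = P.map (e : 𝓞 Ω →+* 𝓞 Ω) := by
    have := Ideal.pointwise_smul_def (a := σ) P
    rw [hσP] at this
    exact this
  let φ₀ : (𝓞 Ω ⧸ P) ≃+* (𝓞 Ω ⧸ P) := Ideal.quotientEquiv P P e he
  let φ : (𝓞 Ω ⧸ P) ≃ₐ[𝓞 L ⧸ P.under (𝓞 L)] (𝓞 Ω ⧸ P) :=
    { φ₀ with
      commutes' := by
        intro r
        obtain ⟨a, rfl⟩ := Ideal.Quotient.mk_surjective r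
        change φ₀ (algebraMap (𝓞 L ⧸ P.under (𝓞 L)) (𝓞 Ω ⧸ P) (Ideal.Quotient.mk _ a)) =
          algebraMap (𝓞 L ⧸ P.under (𝓞 L)) (𝓞 Ω ⧸ P) (Ideal.Quotient.mk _ a)
        rw [Ideal.Quotient.algebraMap_mk_of_liesOver]
        change Ideal.Quotient.mk P (e (algebraMap (𝓞 L) (𝓞 Ω) a)) = _
        rw [Ideal.Quotient.eq, mem_primeB, ← A.mem_nonunits_iff]
        exact hσL a }
  obtain ⟨⟨h, hh⟩, hφ⟩ := Ideal.Quotient.stabilizerHom_surjective_of_profinite
    (G := Ω ≃ₐ[L] Ω) (P.under (𝓞 L)) P φ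
  have hhP : h • P = P := hh
  have key : ∀ b : 𝓞 Ω, A.valuation (σ • (b : Ω) - h (b : Ω)) < 1 := by
    intro b
    have h1 := congrArg (fun f => f (Ideal.Quotient.mk P b)) hφ
    have h2 : Ideal.Quotient.mk P (h • b) = Ideal.Quotient.mk P (e b) := h1
    rw [Ideal.Quotient.eq] at h2
    have h3 : (e b - h • b) ∈ P := by
      have := P.neg_mem h2
      rwa [neg_sub] at this
    exact h3
  have hhA : h • A = A := by
    apply eq_of_primeB_eq hq ((smul_liesOverPrime h A q).mpr hA) hq hA
    rw [← smul_primeB]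
    exact hhP
  refine ⟨h, hhA, ?_⟩
  intro x hx
  obtain ⟨a, s, hs, hxs⟩ := exists_frac hq hA hx
  have hσs : σ • s ∉ P := by
    intro hcon
    rw [← hσP, Ideal.smul_mem_pointwise_smul_iff] at hcon
    exact hs hcon
  have hhs : h • s ∉ P := by
    intro hcon
    rw [← hhP, Ideal.smul_mem_pointwise_smul_iff] at hcon
    exact hs hcon
  rw [not_mem_primeB] at hσs hhs
  have hσs' : A.valuation (σ • (s : Ω)) = 1 := hσs
  have hhs' : A.valuation (h (s : Ω)) = 1 := hhs
  have e1 : σ • x * σ • (s : Ω) = σ • (a : Ω) := by rw [← smul_mul', hxs]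
  have e2 : h x * h (s : Ω) = h (a : Ω) := by rw [← map_mul, hxs]
  have hid : (σ • x - h x) * (σ • (s : Ω) * h (s : Ω)) =
      (σ • (a : Ω) - h (a : Ω)) * h (s : Ω) - h (a : Ω) * (σ • (s : Ω) - h (s : Ω)) := by
    rw [← e1, ← e2]
    ring
  rw [A.mem_nonunits_iff]
  have h1 : A.valuation ((σ • x - h x) * (σ • (s : Ω) * h (s : Ω))) = A.valuation (σ • x - h x) := by
    rw [map_mul, map_mul, hσs', hhs', mul_one, mul_one]
  rw [← h1, hid]
  refine lt_of_le_of_lt (A.valuation.map_sub _ _) (max_lt ?_ ?_)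
  · rw [map_mul, hhs', mul_one]
    exact key a
  · rw [map_mul]
    have ha1 : A.valuation (h (a : Ω)) ≤ 1 := val_integer_le A (h • a)
    exact lt_of_le_of_lt (mul_le_mul' ha1 le_rfl) (by rw [one_mul]; exact key s)

end Profinite

section Lift

variable {L Ω : Type*} [Field L] [Field Ω] [Algebra L Ω]

lemma restrictScalars_smul [Algebra ℚ L] [Algebra ℚ Ω] [IsScalarTower ℚ L Ω] (g : Ω ≃ₐ[L] Ω)
    (A : ValuationSubring Ω) : (g.restrictScalars ℚ) • A = g • A := by
  ext x
  rw [ValuationSubring.mem_pointwise_smul_iff_inv_smul_mem,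
    ValuationSubring.mem_pointwise_smul_iff_inv_smul_mem]
  rfl

lemma restrictNormalHom_restrictScalars [Algebra ℚ L] [Algebra ℚ Ω] [IsScalarTower ℚ L Ω]
    [Normal ℚ L] (g : Ω ≃ₐ[L] Ω) : AlgEquiv.restrictNormalHom L (g.restrictScalars ℚ) = 1 := by
  ext x
  apply (algebraMap L Ω).injective
  change algebraMap L Ω ((g.restrictScalars ℚ).restrictNormal L x) = algebraMap L Ω x
  rw [AlgEquiv.restrictNormal_commutes]
  exact g.commutes x

lemma comap_smul [Algebra ℚ L] [Algebra ℚ Ω] [IsScalarTower ℚ L Ω] [Normal ℚ L]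
    (σ : Ω ≃ₐ[ℚ] Ω) (A : ValuationSubring Ω) :
    (σ • A).comap (algebraMap L Ω) =
      AlgEquiv.restrictNormalHom L σ • A.comap (algebraMap L Ω) := by
  ext z
  rw [ValuationSubring.mem_comap, ValuationSubring.mem_pointwise_smul_iff_inv_smul_mem,
    ValuationSubring.mem_pointwise_smul_iff_inv_smul_mem, ValuationSubring.mem_comap,
    ← map_inv]
  have : algebraMap L Ω ((AlgEquiv.restrictNormalHom L σ⁻¹) • z) = σ⁻¹ • algebraMap L Ω z :=
    AlgEquiv.restrictNormal_commutes σ⁻¹ L z
  rw [this]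

/-- **Decomposition lift.** Every `τ ∈ Gal(L/ℚ)` stabilising the restriction of `A` to `L` is the
restriction of an element of the decomposition subgroup of `A`. -/
theorem exists_decomp_lift [Algebra ℚ L] [Algebra ℚ Ω] [IsScalarTower ℚ L Ω] [Normal ℚ L]
    [IsGalois ℚ Ω] {A : ValuationSubring Ω} {q : ℕ} (hq : q.Prime) (hA : A.LiesOverPrime q)
    (τ : L ≃ₐ[ℚ] L) (hτ : τ • A.comap (algebraMap L Ω) = A.comap (algebraMap L Ω)) :
    ∃ σ ∈ A.decompositionSubgroup ℚ, AlgEquiv.restrictNormalHom L σ = τ := by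
  have hgal : IsGalois L Ω := IsGalois.tower_top_of_isGalois ℚ L Ω
  obtain ⟨τ', hτ'⟩ := AlgEquiv.restrictNormalHom_surjective Ω τ
  have h1 : (τ' • A).comap (algebraMap L Ω) = A.comap (algebraMap L Ω) := by
    rw [comap_smul, hτ', hτ]
  obtain ⟨g, hg⟩ := exists_smul_eq (L := L) hq ((smul_liesOverPrime τ' A q).mpr hA) h1
  refine ⟨g.restrictScalars ℚ * τ', ?_, ?_⟩
  · change (g.restrictScalars ℚ * τ') • A = A
    rw [mul_smul, restrictScalars_smul, hg]
  · rw [map_mul, restrictNormalHom_restrictScalars, one_mul, hτ']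

/-- **Inertia lift.** Every `τ` in the inertia subgroup of the restriction of `A` to `L` is the
restriction of an element of the inertia subgroup of `A`. -/
theorem exists_inertia_lift [Algebra ℚ L] [Algebra ℚ Ω] [IsScalarTower ℚ L Ω] [Normal ℚ L]
    [IsGalois ℚ Ω] {A : ValuationSubring Ω} {q : ℕ} (hq : q.Prime) (hA : A.LiesOverPrime q)
    {τ : L ≃ₐ[ℚ] L} (hτ : τ ∈ (A.comap (algebraMap L Ω)).inertiaSubgroupIn ℚ) :
    ∃ σ ∈ A.inertiaSubgroupIn ℚ, AlgEquiv.restrictNormalHom L σ = τ := by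
  have hgal : IsGalois L Ω := IsGalois.tower_top_of_isGalois ℚ L Ω
  obtain ⟨σ₁, hσ₁, hres⟩ := exists_decomp_lift hq hA τ (InertiaAPI.smul_eq hτ)
  have hσ₁A : σ₁ • A = A := hσ₁
  have hint : ∀ x : 𝓞 L, σ₁ • algebraMap L Ω (x : L) - algebraMap L Ω (x : L) ∈ A.nonunits := by
    intro x
    have h1 : σ₁ • algebraMap L Ω (x : L) = algebraMap L Ω (τ (x : L)) := by
      rw [← hres]
      exact (AlgEquiv.restrictNormal_commutes σ₁ L (x : L)).symm
    rw [h1, ← map_sub, ← comap_mem_nonunits]
    exact InertiaAPI.apply_sub_mem_nonunits hτ (Minkowski.integer_mem _ x)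
  obtain ⟨h, hhA, hh⟩ := exists_residue_lift (L := L) hq hA σ₁ hσ₁A hint
  have hhA' : (h.restrictScalars ℚ) • A = A := by rw [restrictScalars_smul, hhA]
  refine ⟨(h.restrictScalars ℚ)⁻¹ * σ₁, ?_, ?_⟩
  · refine Minkowski.mem_inertiaSubgroupIn ?_ ?_
    · rw [mul_smul, hσ₁A, inv_smul_eq_iff, hhA']
    · intro x hx
      have h2 := hh x hx
      rw [← hhA, smul_mem_nonunits_iff] at h2
      have h3 : h⁻¹ • (σ₁ • x - h x) = ((h.restrictScalars ℚ)⁻¹ * σ₁) x - x := by
        rw [smul_sub]
        congr 1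
        exact h.symm_apply_apply x
      rw [← h3]
      exact h2
  · rw [map_mul, map_inv, restrictNormalHom_restrictScalars, inv_one, one_mul, hres]

end Lift

section Qbar

/-- `ℚ̄/ℚ` is Galois, for ANY `ℚ`-algebra structure on `ℚ̄` (e.g. the default one used by the
frozen statements). -/
theorem isGalois_rat_algebraicClosure [inst : Algebra ℚ (AlgebraicClosure ℚ)] :
    IsGalois ℚ (AlgebraicClosure ℚ) := by
  obtain rfl : inst = AlgebraicClosure.instAlgebra ℚ := Subsingleton.elim _ _
  infer_instance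

end Qbar

end Fermat.Agent.S14.InertiaLift
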