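import Mathlib
import Fermat.Prelude.Def_FLTPrelim_Ramification
import Fermat.Agent.S05.InertiaAPI
import Fermat.Agent.S13.Minkowski
import Fermat.Agent.S14.InertiaLift
import Fermat.Agent.S14.Defs

/-!
# S14, stream A: ideal-level consumer forms of the decomposition / inertia lift

`Ω` is a Galois extension of `ℚ` (in the application `AlgebraicClosure ℚ`), `L` a Galois extension
of `ℚ` inside `Ω`.

* `exists_valuationSubring_of_prime`: every prime of `𝓞 L` containing the prime number `q` is cut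
  out by the restriction of a valuation subring of `Ω` over `q`.
* `exists_inertia_lift_of_mem_inertia`, `exists_decomp_lift_of_smul_primeB`: elements of the
  inertia group / stabiliser of that prime in `Gal(L/ℚ)` are restrictions of elements of the
  inertia / decomposition subgroup of the valuation subring.
* `exists_valuationSubring_lifts`: the three statements packaged for a nonzero prime of `𝓞 L`.
* `unram_of_forall`: the predicate `Unram K L` of `Fermat.Agent.S14.Defs` from the statement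
  "an inertia element of `Gal(Ω/ℚ)` fixing `K` fixes `L`".
-/

set_option autoImplicit false

namespace Fermat.Agent.S14.InertiaIdeal

open scoped Pointwise NumberField
open Fermat.Agent.S05 Fermat.Agent.S13 Fermat.Agent.S14.InertiaLift

section Generic

variable {Ω : Type*} [Field Ω]

/-- S13's `primeOf` is `primeB`. -/
theorem primeOf_eq_primeB {L : Type*} [Field L] [NumberField L] (B : ValuationSubring L) :
    Minkowski.primeOf B = primeB B := rfl

theorem natCast_mem_primeB {A : ValuationSubring Ω} {q : ℕ} (hA : A.LiesOverPrime q) :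
    (q : 𝓞 Ω) ∈ primeB A := by
  rw [mem_primeB]
  push_cast
  exact A.mem_nonunits_iff.mp hA

/-- An automorphism acting trivially on `𝓞 Ω` modulo the prime cut out by `A` lies in the inertia
subgroup of `A`. -/
theorem mem_inertiaSubgroupIn_of_forall [Algebra ℚ Ω] [Algebra.IsAlgebraic ℚ Ω] {K : Type*}
    [Field K] [Algebra K Ω] {A : ValuationSubring Ω} {q : ℕ} (hq : q.Prime)
    (hA : A.LiesOverPrime q) (σ : Ω ≃ₐ[K] Ω) (hσ : ∀ x : 𝓞 Ω, σ • x - x ∈ primeB A) :
    σ ∈ A.inertiaSubgroupIn K := by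
  have hiff : ∀ y : 𝓞 Ω, σ • y ∈ primeB A ↔ y ∈ primeB A := by
    intro y
    constructor
    · intro h
      have := (primeB A).sub_mem h (hσ y)
      rwa [sub_sub_cancel] at this
    · intro h
      have := (primeB A).add_mem (hσ y) h
      rwa [sub_add_cancel] at this
  have hσP : σ • primeB A = primeB A := by
    ext x
    rw [Ideal.mem_pointwise_smul_iff_inv_smul_mem, ← hiff (σ⁻¹ • x), smul_inv_smul]
  have hσA : σ • A = A := by
    apply eq_of_primeB_eq hq ((smul_liesOverPrime σ A q).mpr hA) hq hA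
    rw [← smul_primeB, hσP]
  refine Minkowski.mem_inertiaSubgroupIn hσA ?_
  intro x hx
  obtain ⟨a, s, hs, hxs⟩ := exists_frac hq hA hx
  have hσs : σ • s ∉ primeB A := fun hcon => hs ((hiff s).mp hcon)
  rw [not_mem_primeB] at hs hσs
  have hσs' : A.valuation (σ (s : Ω)) = 1 := hσs
  have ka : A.valuation (σ (a : Ω) - (a : Ω)) < 1 := hσ a
  have ks : A.valuation (σ (s : Ω) - (s : Ω)) < 1 := hσ s
  have e1 : σ x * σ (s : Ω) = σ (a : Ω) := by rw [← map_mul, hxs]
  have hid : (σ x - x) * ((s : Ω) * σ (s : Ω)) =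
      (σ (a : Ω) - (a : Ω)) * (s : Ω) - (a : Ω) * (σ (s : Ω) - (s : Ω)) := by
    rw [← e1, ← hxs]
    ring
  rw [A.mem_nonunits_iff]
  have h1 : A.valuation ((σ x - x) * ((s : Ω) * σ (s : Ω))) = A.valuation (σ x - x) := by
    rw [map_mul, map_mul, hs, hσs', mul_one, mul_one]
  rw [← h1, hid]
  refine lt_of_le_of_lt (A.valuation.map_sub _ _) (max_lt ?_ ?_)
  · rw [map_mul, hs, mul_one]
    exact ka
  · rw [map_mul]
    exact lt_of_le_of_lt (mul_le_mul' (val_integer_le A a) le_rfl) (by rw [one_mul]; exact ks)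

/-- Membership of an integer in a prime ideal containing the prime number `q`. -/
theorem intCast_mem_iff {R : Type*} [CommRing R] (Q : Ideal R) [Q.IsPrime] {q : ℕ} (hq : q.Prime)
    (hqQ : (q : R) ∈ Q) (n : ℤ) : (n : R) ∈ Q ↔ (q : ℤ) ∣ n := by
  constructor
  · intro hn
    by_contra hdvd
    have hcop : IsCoprime (q : ℤ) n :=
      (Nat.prime_iff_prime_int.mp hq).coprime_iff_not_dvd.mpr hdvd
    obtain ⟨a, b, hab⟩ := hcop
    have h1 : ((a * q + b * n : ℤ) : R) ∈ Q := by
      push_cast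
      exact Q.add_mem (Q.mul_mem_left _ hqQ) (Q.mul_mem_left _ hn)
    rw [hab] at h1
    exact (Ideal.IsPrime.ne_top inferInstance) ((Ideal.eq_top_iff_one Q).mpr (by simpa using h1))
  · rintro ⟨m, rfl⟩
    push_cast
    exact Q.mul_mem_right _ hqQ

end Generic

section Lift

variable {Ω : Type*} [Field Ω] [Algebra ℚ Ω] [IsGalois ℚ Ω]
  {L : Type*} [Field L] [Algebra ℚ L] [Algebra L Ω] [IsScalarTower ℚ L Ω] [IsGalois ℚ L]

/-- **Decomposition lift, ideal form.** -/
theorem exists_decomp_lift_of_smul_primeB {A : ValuationSubring Ω} {q : ℕ} (hq : q.Prime)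
    (hA : A.LiesOverPrime q) (τ : L ≃ₐ[ℚ] L)
    (hτ : τ • primeB (A.comap (algebraMap L Ω)) = primeB (A.comap (algebraMap L Ω))) :
    ∃ σ ∈ A.decompositionSubgroup ℚ, AlgEquiv.restrictNormalHom L σ = τ := by
  have hB : (A.comap (algebraMap L Ω)).LiesOverPrime q := (comap_liesOverPrime A).mpr hA
  refine exists_decomp_lift hq hA τ ?_
  apply eq_of_primeB_eq hq ((smul_liesOverPrime τ _ q).mpr hB) hq hB
  rw [← smul_primeB, hτ]

/-- **Inertia lift, ideal form.** -/
theorem exists_inertia_lift_of_mem_inertia {A : ValuationSubring Ω} {q : ℕ} (hq : q.Prime)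
    (hA : A.LiesOverPrime q) (τ : L ≃ₐ[ℚ] L)
    (hτ : τ ∈ (primeB (A.comap (algebraMap L Ω))).inertia (L ≃ₐ[ℚ] L)) :
    ∃ σ ∈ A.inertiaSubgroupIn ℚ, AlgEquiv.restrictNormalHom L σ = τ := by
  have hB : (A.comap (algebraMap L Ω)).LiesOverPrime q := (comap_liesOverPrime A).mpr hA
  exact exists_inertia_lift hq hA (mem_inertiaSubgroupIn_of_forall hq hB τ hτ)

end Lift

section Exists

variable {L : Type*} [Field L]

/-- A nonzero prime of `𝓞 L` contains a prime number. -/
theorem exists_prime_mem (Q : Ideal (𝓞 L)) [Q.IsPrime] (hQ : Q ≠ ⊥) :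
    ∃ q : ℕ, q.Prime ∧ (q : 𝓞 L) ∈ Q := by
  have h1 : Q.comap (algebraMap ℤ (𝓞 L)) ≠ ⊥ := fun h => hQ (Ideal.eq_bot_of_comap_eq_bot h)
  have h2 : (Q.comap (algebraMap ℤ (𝓞 L))).IsPrime := Ideal.comap_isPrime _ _
  obtain ⟨n, hn⟩ := (IsPrincipalIdealRing.principal (Q.comap (algebraMap ℤ (𝓞 L)))).principal
  have hn' : Q.comap (algebraMap ℤ (𝓞 L)) = Ideal.span {n} := hn
  have hn0 : n ≠ 0 := by
    rintro rfl
    apply h1
    rw [hn']
    simp
  have hnp : Prime n := by
    rw [hn'] at h2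
    exact (Ideal.span_singleton_prime hn0).mp h2
  refine ⟨n.natAbs, Int.prime_iff_natAbs_prime.mp hnp, ?_⟩
  have h3 : (n.natAbs : ℤ) ∈ Q.comap (algebraMap ℤ (𝓞 L)) := by
    rw [hn', Ideal.mem_span_singleton]
    exact Int.dvd_natAbs.mpr dvd_rfl
  have h4 := Ideal.mem_comap.mp h3
  simpa using h4

end Exists

section Conj

variable {Ω : Type*} [Field Ω] [Algebra ℚ Ω] [IsGalois ℚ Ω]
  {L : Type*} [Field L] [Algebra ℚ L] [Algebra L Ω] [IsScalarTower ℚ L Ω] [IsGalois ℚ L]

attribute [local instance] InertiaLift.discreteTop InertiaLift.discreteTop_discrete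
  InertiaLift.smulComm InertiaLift.contSMul InertiaLift.isInvariant

omit [IsGalois ℚ L] in
theorem under_rat_eq (P Q : Ideal (𝓞 L)) [P.IsPrime] [Q.IsPrime] {q : ℕ} (hq : q.Prime)
    (hP : (q : 𝓞 L) ∈ P) (hQ : (q : 𝓞 L) ∈ Q) : P.under (𝓞 ℚ) = Q.under (𝓞 ℚ) := by
  ext x
  have hx : x = ((Rat.ringOfIntegersEquiv x : ℤ) : 𝓞 ℚ) := by
    have h := Rat.ringOfIntegersEquiv.symm_apply_apply x
    rw [← h]
    simp
  rw [Ideal.under_def, Ideal.mem_comap, Ideal.mem_comap, hx, map_intCast,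
    intCast_mem_iff P hq hP, intCast_mem_iff Q hq hQ]

/-- Every prime of `𝓞 L` containing the prime number `q` is cut out by the restriction of a
valuation subring of `Ω` over `q`. -/
theorem exists_valuationSubring_of_prime {q : ℕ} (hq : q.Prime) (Q : Ideal (𝓞 L)) [Q.IsPrime]
    (hQ : (q : 𝓞 L) ∈ Q) :
    ∃ A : ValuationSubring Ω, A.LiesOverPrime q ∧ primeB (A.comap (algebraMap L Ω)) = Q := by
  have hchar : CharZero Ω := algebraRat.charZero Ω
  obtain ⟨A₀, hA₀⟩ := Minkowski.exists_liesOverPrime Ω hq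
  have hB₀ : (A₀.comap (algebraMap L Ω)).LiesOverPrime q := (comap_liesOverPrime A₀).mpr hA₀
  have hQ₀ : (q : 𝓞 L) ∈ primeB (A₀.comap (algebraMap L Ω)) := natCast_mem_primeB hB₀
  obtain ⟨τ, hτ⟩ := Algebra.IsInvariant.exists_smul_of_under_eq_of_profinite (A := 𝓞 ℚ)
    (G := L ≃ₐ[ℚ] L) (primeB (A₀.comap (algebraMap L Ω))) Q (under_rat_eq _ Q hq hQ₀ hQ)
  obtain ⟨σ, hσ⟩ := AlgEquiv.restrictNormalHom_surjective Ω τ
  refine ⟨σ • A₀, (smul_liesOverPrime σ A₀ q).mpr hA₀, ?_⟩
  rw [comap_smul, hσ, ← smul_primeB, hτ]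

/-- **Master form.** For a nonzero prime `Q` of `𝓞 L` there are a prime number `q ∈ Q` and a
valuation subring `A` of `Ω` over `q` such that every element of the inertia group (resp. of the
stabiliser) of `Q` in `Gal(L/ℚ)` is the restriction of an element of the inertia (resp.
decomposition) subgroup of `A`. -/
theorem exists_valuationSubring_lifts (Q : Ideal (𝓞 L)) [Q.IsPrime] (hQ : Q ≠ ⊥) :
    ∃ (q : ℕ) (A : ValuationSubring Ω), q.Prime ∧ A.LiesOverPrime q ∧ (q : 𝓞 L) ∈ Q ∧
      (∀ τ ∈ Q.inertia (L ≃ₐ[ℚ] L),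
        ∃ σ ∈ A.inertiaSubgroupIn ℚ, AlgEquiv.restrictNormalHom L σ = τ) ∧
      (∀ τ ∈ MulAction.stabilizer (L ≃ₐ[ℚ] L) Q,
        ∃ σ ∈ A.decompositionSubgroup ℚ, AlgEquiv.restrictNormalHom L σ = τ) := by
  obtain ⟨q, hq, hqQ⟩ := exists_prime_mem Q hQ
  obtain ⟨A, hA, rfl⟩ := exists_valuationSubring_of_prime (Ω := Ω) hq Q hqQ
  exact ⟨q, A, hq, hA, hqQ, fun τ hτ => exists_inertia_lift_of_mem_inertia hq hA τ hτ,
    fun τ hτ => exists_decomp_lift_of_smul_primeB hq hA τ hτ⟩

end Conj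

section UnramForm

variable {Ω : Type*} [Field Ω] [Algebra ℚ Ω] [IsGalois ℚ Ω]
  {K L : Type*} [Field K] [Field L] [NumberField K] [NumberField L] [Algebra K L] [IsGalois K L]
  [IsGalois ℚ L] [Algebra L Ω] [IsScalarTower ℚ L Ω]

omit [IsGalois K L] in
/-- **`Unram K L` from the valuation-subring hypothesis.** If every element of an inertia
subgroup `A.inertiaSubgroupIn ℚ` (`A` a valuation subring of `Ω` over a prime number) which fixes
`K` pointwise also fixes `L` pointwise, then `L/K` is unramified at every finite prime. -/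
theorem unram_of_forall
    (h : ∀ q : ℕ, q.Prime → ∀ A : ValuationSubring Ω, A.LiesOverPrime q →
      ∀ σ ∈ A.inertiaSubgroupIn ℚ,
        (∀ x : K, σ (algebraMap L Ω (algebraMap K L x)) = algebraMap L Ω (algebraMap K L x)) →
          ∀ y : L, σ (algebraMap L Ω y) = algebraMap L Ω y) :
    Unram K L := by
  intro Q hQ hQ0
  rw [eq_bot_iff]
  intro τ hτ
  rw [Subgroup.mem_bot]
  obtain ⟨q, A, hq, hA, hqQ, hI, -⟩ := exists_valuationSubring_lifts (Ω := Ω) Q hQ0
  have hτ' : τ.restrictScalars ℚ ∈ Q.inertia (L ≃ₐ[ℚ] L) := fun x => hτ x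
  obtain ⟨σ, hσ, hres⟩ := hI _ hτ'
  have hσL : ∀ y : L, σ (algebraMap L Ω y) = algebraMap L Ω (τ y) := by
    intro y
    have h1 := AlgEquiv.restrictNormal_commutes σ L y
    rw [← h1]
    congr 1
    exact congrArg (fun f => f y) hres
  have hfix := h q hq A hA σ hσ (fun x => by rw [hσL, τ.commutes])
  ext y
  apply (algebraMap L Ω).injective
  rw [← hσL, hfix]
  rfl

end UnramForm

end Fermat.Agent.S14.InertiaIdeal
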