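import Mathlib
import Fermat.Agent.S14.Defs
import Fermat.Agent.S14.AdmField
import Fermat.Agent.S14.CycloField
import Fermat.Agent.S14.InertiaLift
import Fermat.Agent.S14.InertiaIdeal

/-!
# S14, stream A, final assembly: `NoField p → ExtVanishingCts p`

For an admissible extension `V` (with open kernel) which does not split, the fields
`K = Kf p = ℚ(ζ_p)` and `L = Lf V` (fixed fields of `kerChi p` and `kerV V` inside `ℚ̄`) satisfy all
the hypotheses of `Fermat.Agent.S14.NoField p`:

* `finrank_KL` : `[L : K] = p`;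
* `unram_KL` : `L/K` is unramified at every finite prime;
* `conjInv_KL` : `Gal(K/ℚ)` acts on `Gal(L/K)` through the inverse of the cyclotomic character.

Hence `NoField p` forces `kerChi p ≤ kerV V` (`kerChi_le_kerV_of_noField`), and then the extension
splits: `extVanishingCts_of_noField`.
-/

set_option autoImplicit false
set_option linter.style.haveILetI false

namespace Fermat.Agent.S14.AdmFinal

open ExtCitation Fermat.Agent.S14.AdmGroup Fermat.Agent.S14.AdmField IntermediateField NumberField

/-- the algebraic closure of `ℚ` -/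
local notation "Qbar" => AlgebraicClosure ℚ

/-- the absolute Galois group of `ℚ` -/
local notation "Γ" => (AlgebraicClosure ℚ ≃ₐ[ℚ] AlgebraicClosure ℚ)

variable {p : ℕ} [Fact p.Prime]
variable {V : Type} [AddCommGroup V] [Module (ZMod p) V] [DistribMulAction Γ V]
  [SMulCommClass Γ (ZMod p) V] {C : Submodule (ZMod p) V}

/-- The algebra structure of `Lf V` over `Kf p` coming from the inclusion. -/
@[reducible] noncomputable def algKL (hadm : IsAdmissibleExtension p V C) :
    Algebra (Kf p) (Lf V) :=
  (IntermediateField.inclusion (Kf_le_Lf hadm)).toRingHom.toAlgebra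

theorem algebraMap_KL_coe (hadm : IsAdmissibleExtension p V C) (x : Kf p) :
    ((@algebraMap (Kf p) (Lf V) _ _ (algKL hadm) x : Lf V) : Qbar) = (x : Qbar) := rfl

/-- `[Lf : Kf] = p` in the non-split case. -/
theorem finrank_KL (hadm : IsAdmissibleExtensionCts p V C) (hns : ¬ kerChi p ≤ kerV V) :
    @Module.finrank (Kf p) (Lf V) _ _ (algKL hadm.toIsAdmissibleExtension).toModule = p := by
  letI := algKL hadm.toIsAdmissibleExtension
  haveI := numberField_Kf (p := p) hadm
  haveI := numberField_Lf hadm
  have h1 := finrank_Lf_eq hadm hns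
  have h2 := Module.finrank_mul_finrank ℚ (Kf p) (Lf V)
  have hpos : 0 < Module.finrank ℚ (Kf p) := Module.finrank_pos
  rw [h1, mul_comm] at h2
  exact Nat.eq_of_mul_eq_mul_right hpos h2

/-- An element of `Gal(Lf/Kf)`, viewed in `Gal(Lf/ℚ)`, fixes `Kf` pointwise. -/
theorem restrictScalars_fix (hadm : IsAdmissibleExtension p V C)
    (τ : @AlgEquiv (Kf p) (Lf V) (Lf V) _ _ _ (algKL hadm) (algKL hadm)) (x : Lf V)
    (hx : (x : Qbar) ∈ Kf p) :
    letI := algKL hadm
    (τ.restrictScalars ℚ) x = x := by
  letI := algKL hadm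
  have hx' : x = algebraMap (Kf p) (Lf V) ⟨(x : Qbar), hx⟩ := Subtype.ext rfl
  change τ x = x
  rw [hx']
  exact τ.commutes _

theorem restrictScalars_pow (hadm : IsAdmissibleExtension p V C)
    (τ : @AlgEquiv (Kf p) (Lf V) (Lf V) _ _ _ (algKL hadm) (algKL hadm)) (n : ℕ) :
    letI := algKL hadm
    (τ.restrictScalars ℚ) ^ n = (τ ^ n).restrictScalars ℚ := by
  letI := algKL hadm
  induction n with
  | zero => rfl
  | succ n ih => rw [pow_succ, ih, pow_succ]; rfl

/-- The conjugation hypothesis of `NoField` for the fields cut out by `V`. -/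
theorem conjInv_KL (hadm : IsAdmissibleExtensionCts p V C) (hns : ¬ kerChi p ≤ kerV V) :
    letI := algKL hadm.toIsAdmissibleExtension
    haveI := numberField_Kf (p := p) hadm
    haveI := numberField_Lf hadm
    ConjInv p (Kf p) (Lf V) := by
  letI := algKL hadm.toIsAdmissibleExtension
  haveI := numberField_Kf (p := p) hadm
  haveI := numberField_Lf hadm
  haveI := isGalois_Lf hadm
  haveI : IsGalois (Kf p) (Lf V) := IsGalois.tower_top_of_isGalois ℚ (Kf p) (Lf V)
  have hp : p.Prime := Fact.out
  have : NeZero p := ⟨hp.ne_zero⟩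
  intro g τ ζ a hζ hg
  obtain ⟨g', rfl⟩ := resL_surjective hadm g
  have hζ' : IsPrimitiveRoot (ζ : Qbar) p := hζ.map_of_injective (f := (Kf p).val) (Kf p).val.injective
  have hg' : g' (ζ : Qbar) = (ζ : Qbar) ^ a := by
    have h1 := congrArg (fun x : Lf V => (x : Qbar)) hg
    simp only [resL_apply] at h1
    exact h1
  have hχ := CycloField.cycloChar_eq_of_apply p hζ' a hg'
  set k : ℕ := (((cycloChar p g')⁻¹ : (ZMod p)ˣ) : ZMod p).val with hkdef
  have hk : (k : ZMod p) * ((cycloChar p g' : (ZMod p)ˣ) : ZMod p) = 1 := by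
    rw [hkdef, ZMod.natCast_zmod_val, ← Units.val_mul, inv_mul_cancel, Units.val_one]
  have hconj := conj_eq_pow hadm g' (τ.restrictScalars ℚ)
    (fun x hx => restrictScalars_fix hadm.toIsAdmissibleExtension τ x hx) k hk
  rw [hconj, ← pow_mul]
  -- `τ ^ p = 1`
  have hcard : Nat.card ((Lf V) ≃ₐ[Kf p] (Lf V)) = p := by
    rw [IsGalois.card_aut_eq_finrank]
    exact finrank_KL hadm hns
  have hτp : (τ.restrictScalars ℚ) ^ p = 1 := by
    rw [restrictScalars_pow hadm.toIsAdmissibleExtension]
    have : τ ^ p = 1 := by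
      have h1 : τ ^ Nat.card ((Lf V) ≃ₐ[Kf p] (Lf V)) = 1 := pow_card_eq_one'
      rwa [hcard] at h1
    rw [this]; rfl
  have hka : ((k * a : ℕ) : ZMod p) = ((1 : ℕ) : ZMod p) := by
    push_cast
    rw [← hχ, hk]
  have hmod : (k * a) % p = 1 := by
    have h1 := (ZMod.natCast_eq_natCast_iff' (k * a) 1 p).1 hka
    rw [h1, Nat.mod_eq_of_lt hp.one_lt]
  conv_lhs => rw [← Nat.div_add_mod (k * a) p, hmod, pow_add, pow_mul, hτp, one_pow, one_mul,
    pow_one]

/-- `Lf/Kf` is unramified at all finite primes. -/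
theorem unram_KL (hadm : IsAdmissibleExtensionCts p V C) :
    letI := algKL hadm.toIsAdmissibleExtension
    haveI := numberField_Kf (p := p) hadm
    haveI := numberField_Lf hadm
    haveI := isGalois_Lf hadm
    haveI : IsGalois (Kf p) (Lf V) := IsGalois.tower_top_of_isGalois ℚ (Kf p) (Lf V)
    Unram (Kf p) (Lf V) := by
  letI := algKL hadm.toIsAdmissibleExtension
  haveI := numberField_Kf (p := p) hadm
  haveI := numberField_Lf hadm
  haveI := isGalois_Lf hadm
  haveI : IsGalois (Kf p) (Lf V) := IsGalois.tower_top_of_isGalois ℚ (Kf p) (Lf V)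
  haveI : IsGalois ℚ Qbar := InertiaLift.isGalois_rat_algebraicClosure
  apply InertiaIdeal.unram_of_forall (Ω := AlgebraicClosure ℚ)
  intro q hq A hA σ hσ hfixK
  -- `σ` fixes `Kf p` pointwise, hence lies in `kerChi p`
  have hker : σ ∈ kerChi p := by
    rw [← fixingSubgroup_Kf hadm, IntermediateField.mem_fixingSubgroup_iff]
    intro x hx
    exact hfixK ⟨x, hx⟩
  have hV : σ ∈ kerV V := by
    by_cases hqp : q = p
    · subst hqp
      exact decomposition_inf_kerChi_le_kerV hadm.toIsAdmissibleExtension A hA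
        (Fermat.Agent.S05.InertiaAPI.mem_decompositionSubgroup hσ) hker
    · exact inertia_le_kerV hadm.toIsAdmissibleExtension hq hqp A hA hσ
  intro y
  have hy : (y : Qbar) ∈ IntermediateField.fixedField (kerV V) := y.2
  exact (IntermediateField.mem_fixedField_iff _ _).1 hy σ hV

/-- **Non-existence of the field implies the splitting criterion.** -/
theorem kerChi_le_kerV_of_noField (H : NoField p) (hadm : IsAdmissibleExtensionCts p V C) :
    kerChi p ≤ kerV V := by
  by_contra hns
  letI := algKL hadm.toIsAdmissibleExtension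
  haveI := numberField_Kf (p := p) hadm
  haveI := numberField_Lf hadm
  haveI : IsCyclotomicExtension {p} ℚ (Kf p) := CycloField.isCyclotomicExtension_Kp p
  haveI := isGalois_Lf hadm
  haveI : IsGalois (Kf p) (Lf V) := IsGalois.tower_top_of_isGalois ℚ (Kf p) (Lf V)
  exact H (Kf p) (Lf V) (finrank_KL hadm hns) (unram_KL hadm) (conjInv_KL hadm hns)

/-- **Stream A, final export**: the number-field statement `NoField p` implies the frozen
statement `ExtVanishingCts p`. -/
theorem extVanishingCts_of_noField (_h3 : 3 ≤ p) (H : NoField p) : ExtVanishingCts p := by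
  intro V _ _ _ _ C hadm
  exact splitsGlobally_of_kerChi_le hadm.toIsAdmissibleExtension
    (kerChi_le_kerV_of_noField H hadm)

end Fermat.Agent.S14.AdmFinal
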