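import Fermat.Agent.S14.ArtinMap

set_option autoImplicit false

open NumberField nonZeroDivisors

namespace Fermat.Agent.S14.ArtinBase

open Fermat.Agent.S14.ArtinMap

section Unram

variable {L : Type*} [Field L] [NumberField L]
  {G : Type*} [Group G] [MulSemiringAction G L]

/-- Two elements of `G` inducing the same map on the residue field of an unramified prime
are equal. -/
theorem eq_of_forall_sub_mem (hur : IsUnram L G) (Q : Ideal (𝓞 L)) [hQ1 : Q.IsPrime]
    (hQ : Q ≠ ⊥) (σ τ : G) (h : ∀ x : 𝓞 L, σ • x - τ • x ∈ Q) : σ = τ := by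
  have h1 : σ * τ⁻¹ ∈ Q.inertia G := by
    intro x
    have := h (τ⁻¹ • x)
    rw [smul_inv_smul] at this
    rw [mul_smul]
    exact this
  rw [hur Q hQ1 hQ, Subgroup.mem_bot] at h1
  exact mul_inv_eq_one.mp h1

end Unram

section BaseChange

variable {K F L M : Type*} [Field K] [NumberField K] [Field F] [NumberField F]
  [Field L] [NumberField L] [Field M] [NumberField M]
  [Algebra K F] [Algebra K L] [Algebra F M] [Algebra L M] [Algebra K M]
  [IsScalarTower K F M] [IsScalarTower K L M]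
  {G : Type*} [Group G] [Finite G] [MulSemiringAction G L] [IsGaloisGroup G K L]
  {G' : Type*} [Group G'] [Finite G'] [MulSemiringAction G' M] [IsGaloisGroup G' F M]

omit [NumberField K] [NumberField F] [Algebra K F] [Algebra K L] [Algebra F M] [Algebra K M]
  [IsScalarTower K F M] [IsScalarTower K L M] [Finite G] [IsGaloisGroup G K L] [Finite G']
  [IsGaloisGroup G' F M] [Field K] [Field F] in
/-- Compatibility of the restriction map at the level of rings of integers. -/
theorem algebraMap_res_smul (res : G' →* G)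
    (hres : ∀ (g' : G') (x : L), algebraMap L M (res g' • x) = g' • algebraMap L M x)
    (g' : G') (x : 𝓞 L) :
    algebraMap (𝓞 L) (𝓞 M) (res g' • x) = g' • algebraMap (𝓞 L) (𝓞 M) x := by
  apply FaithfulSMul.algebraMap_injective (𝓞 M) M
  rw [algebraMap.smul' g' _ M, ← IsScalarTower.algebraMap_apply (𝓞 L) (𝓞 M) M,
    ← IsScalarTower.algebraMap_apply (𝓞 L) (𝓞 M) M,
    IsScalarTower.algebraMap_apply (𝓞 L) L M, IsScalarTower.algebraMap_apply (𝓞 L) L M,
    algebraMap.smul' (res g') x L, hres]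

/-- Base change for Frobenius elements: the restriction to `L` of the Frobenius of a prime `b`
of `F` in `M/F` is the `f`-th power of the Frobenius in `L/K` of the prime of `K` below `b`,
`f` the residue degree of `b` over `K`. -/
theorem res_frob (hab : ∀ a b : G, a * b = b * a) (hab' : ∀ a b : G', a * b = b * a)
    (hur : IsUnram L G) (res : G' →* G)
    (hres : ∀ (g' : G') (x : L), algebraMap L M (res g' • x) = g' • algebraMap L M x)
    (b : Ideal (𝓞 F)) [hb1 : b.IsPrime] (hb : b ≠ ⊥) :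
    res (frob F M G' b) = frob K L G (b.under (𝓞 K)) ^ (b.inertiaDeg (𝓞 K)) := by
  obtain ⟨B, hB1, hB2⟩ := (b.nonempty_primesOver (S := 𝓞 M)).some
  haveI := hB1
  haveI := hB2
  have hBne : B ≠ ⊥ := ne_bot_of_liesOver b hb B
  set Q : Ideal (𝓞 L) := B.under (𝓞 L) with hQdef
  set q : Ideal (𝓞 K) := b.under (𝓞 K) with hqdef
  haveI hQ1 : Q.IsPrime := Ideal.IsPrime.under (𝓞 L) B
  haveI hq1 : q.IsPrime := Ideal.IsPrime.under (𝓞 K) b
  have hq : q ≠ ⊥ := fun h => hb (Ideal.eq_bot_of_comap_eq_bot (R := 𝓞 K) h)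
  haveI hbq : b.LiesOver q := ⟨rfl⟩
  haveI hQq : Q.LiesOver q := by
    constructor
    rw [hQdef, Ideal.under_under, hqdef, hB2.over, Ideal.under_under]
  have hQne : Q ≠ ⊥ := ne_bot_of_liesOver q hq Q
  have hN : Ideal.absNorm q ^ b.inertiaDeg (𝓞 K) = Ideal.absNorm b :=
    Ideal.absNorm_pow_inertiaDeg q b
  refine eq_of_forall_sub_mem hur Q hQne _ _ (fun x => ?_)
  rw [← Ideal.Quotient.eq, mk_frob_pow_smul hab q hq Q, hN, ← map_pow, Ideal.Quotient.eq]
  change algebraMap (𝓞 L) (𝓞 M) _ ∈ B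
  rw [map_sub, map_pow, algebraMap_res_smul res hres]
  exact frob_smul_sub_pow_mem hab' b hb B _

/-- Base change for the Artin map: `res (ψ_{M/F}(J)) = ψ_{L/K}(N_{F/K} J)`. -/
theorem res_artinFun (hab : ∀ a b : G, a * b = b * a) (hab' : ∀ a b : G', a * b = b * a)
    (hur : IsUnram L G) (res : G' →* G)
    (hres : ∀ (g' : G') (x : L), algebraMap L M (res g' • x) = g' • algebraMap L M x)
    (J : Ideal (𝓞 F)) :
    res (artinFun F M G' hab' J) = artinFun K L G hab (Ideal.relNorm (𝓞 K) J) := by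
  induction J using UniqueFactorizationMonoid.induction_on_prime with
  | h₁ =>
    simp only [Ideal.zero_eq_bot, artinFun_bot, map_one, Ideal.relNorm_bot]
  | h₂ x hx =>
    rw [Ideal.isUnit_iff] at hx
    subst hx
    rw [Ideal.relNorm_top, artinFun_top, artinFun_top, map_one]
  | h₃ a b ha hb ih =>
    have hbne : b ≠ ⊥ := hb.ne_zero
    haveI hb1 : b.IsPrime := Ideal.isPrime_of_prime hb
    haveI hbmax : b.IsMaximal := hb1.isMaximal hbne
    set q := b.under (𝓞 K) with hqdef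
    haveI : b.LiesOver q := ⟨rfl⟩
    have hq : q ≠ ⊥ := fun h => hbne (Ideal.eq_bot_of_comap_eq_bot (R := 𝓞 K) h)
    haveI hq1 : q.IsPrime := Ideal.IsPrime.under (𝓞 K) b
    haveI hqmax : q.IsMaximal := hq1.isMaximal hq
    rw [artinFun_mul hab' hbne ha, map_mul, map_mul, artinFun_mul hab
      (by rw [Ne, Ideal.relNorm_eq_bot_iff]; exact hbne)
      (by rw [Ne, Ideal.relNorm_eq_bot_iff]; exact ha), ih, artinFun_prime hab' b hbne,
      res_frob (K := K) (M := M) hab hab' hur res hres b hbne,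
      Ideal.relNorm_eq_pow_of_isMaximal b q,
      artinFun_pow hab hq, artinFun_prime hab q hq]

end BaseChange

section Conj

variable {K L : Type*} [Field K] [NumberField K] [Field L] [NumberField L] [Algebra K L]
  {G : Type*} [Group G] [Finite G] [MulSemiringAction G L] [IsGaloisGroup G K L]

theorem absNorm_map_ringEquiv (e : 𝓞 K ≃+* 𝓞 K) (q : Ideal (𝓞 K)) :
    Ideal.absNorm (q.map (e : 𝓞 K →+* 𝓞 K)) = Ideal.absNorm q := by
  have h1 : Nat.card (𝓞 K ⧸ q.map (e : 𝓞 K →+* 𝓞 K)) = Nat.card (𝓞 K ⧸ q) :=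
    Nat.card_congr (Ideal.quotientEquiv q (q.map (e : 𝓞 K →+* 𝓞 K)) e rfl).symm.toEquiv
  exact h1

/-- Equivariance of the Frobenius: if `g` is a ring automorphism of `L` inducing `gK` on `K`
and `c : G → G` is "conjugation by `g`", then `frob (gK q) = c (frob q)`. -/
theorem frob_map (hab : ∀ a b : G, a * b = b * a) (hur : IsUnram L G)
    (g : L ≃+* L) (gK : K ≃+* K) (hg : ∀ x : K, g (algebraMap K L x) = algebraMap K L (gK x))
    (c : G → G) (hc : ∀ (σ : G) (x : L), c σ • g x = g (σ • x))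
    (q : Ideal (𝓞 K)) [hq1 : q.IsPrime] (hq : q ≠ ⊥) :
    frob K L G (q.map (RingOfIntegers.mapRingEquiv gK : 𝓞 K →+* 𝓞 K)) = c (frob K L G q) := by
  set e : 𝓞 K ≃+* 𝓞 K := RingOfIntegers.mapRingEquiv gK with hedef
  set E : 𝓞 L ≃+* 𝓞 L := RingOfIntegers.mapRingEquiv g with hEdef
  set q' : Ideal (𝓞 K) := q.map (e : 𝓞 K →+* 𝓞 K) with hq'def
  haveI hq'1 : q'.IsPrime := Ideal.map_isPrime_of_equiv e
  have hq' : q' ≠ ⊥ := by
    rw [hq'def, Ne, Ideal.map_eq_bot_iff_of_injective (f := (e : 𝓞 K →+* 𝓞 K)) e.injective]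
    exact hq
  obtain ⟨Q, hQ1, hQ2⟩ := (q.nonempty_primesOver (S := 𝓞 L)).some
  haveI := hQ1
  haveI := hQ2
  set Q' : Ideal (𝓞 L) := Q.map (E : 𝓞 L →+* 𝓞 L) with hQ'def
  haveI hQ'1 : Q'.IsPrime := Ideal.map_isPrime_of_equiv E
  have hEe : ∀ x : 𝓞 K, E (algebraMap (𝓞 K) (𝓞 L) x) = algebraMap (𝓞 K) (𝓞 L) (e x) := by
    intro x
    apply FaithfulSMul.algebraMap_injective (𝓞 L) L
    change g (algebraMap (𝓞 L) L (algebraMap (𝓞 K) (𝓞 L) x)) =
      algebraMap (𝓞 L) L (algebraMap (𝓞 K) (𝓞 L) (e x))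
    rw [← IsScalarTower.algebraMap_apply (𝓞 K) (𝓞 L) L,
      ← IsScalarTower.algebraMap_apply (𝓞 K) (𝓞 L) L,
      IsScalarTower.algebraMap_apply (𝓞 K) K L, IsScalarTower.algebraMap_apply (𝓞 K) K L, hg]
    rfl
  haveI hQ'q' : Q'.LiesOver q' := by
    constructor
    ext x
    rw [hq'def, hQ'def, Ideal.under_def, Ideal.mem_comap]
    constructor
    · intro hx
      obtain ⟨y, hy, rfl⟩ := (Ideal.mem_map_iff_of_surjective (e : 𝓞 K →+* 𝓞 K)
        e.surjective).mp hx
      change algebraMap (𝓞 K) (𝓞 L) (e y) ∈ _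
      rw [← hEe]
      refine Ideal.mem_map_of_mem _ ?_
      have : y ∈ Q.under (𝓞 K) := by rw [← hQ2.over]; exact hy
      exact this
    · intro hx
      obtain ⟨y, hy, hyx⟩ := (Ideal.mem_map_iff_of_surjective (E : 𝓞 L →+* 𝓞 L)
        E.surjective).mp hx
      obtain ⟨z, rfl⟩ := e.surjective x
      have h1 : E y = E (algebraMap (𝓞 K) (𝓞 L) z) := by rw [hEe]; exact hyx
      have h2 : y = algebraMap (𝓞 K) (𝓞 L) z := E.injective h1
      have h3 : z ∈ q := by
        rw [hQ2.over]; change algebraMap (𝓞 K) (𝓞 L) z ∈ Q; rw [← h2]; exact hy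
      exact Ideal.mem_map_of_mem _ h3
  symm
  refine frob_unique' hab hur q' hq' Q' (fun y => ?_)
  obtain ⟨x, rfl⟩ := E.surjective y
  have h1 : c (frob K L G q) • E x = E (frob K L G q • x) := by
    apply FaithfulSMul.algebraMap_injective (𝓞 L) L
    rw [algebraMap.smul' _ _ L]
    change c (frob K L G q) • g (algebraMap (𝓞 L) L x) = g (algebraMap (𝓞 L) L _)
    rw [hc, algebraMap.smul' _ _ L]
  rw [h1, hq'def, absNorm_map_ringEquiv, ← map_pow, ← map_sub]
  exact Ideal.mem_map_of_mem _ (frob_smul_sub_pow_mem hab q hq Q x)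

end Conj

end Fermat.Agent.S14.ArtinBase
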