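import Fermat.Agent.S14.JacobiEnd
import Fermat.Agent.S14.ArtinBase
import Fermat.Agent.S14.Defs

/-!
# S14: wiring of the abstract endgame to the Artin map
-/

set_option autoImplicit false

namespace Fermat.Agent.S14.EndWire

open NumberField nonZeroDivisors Fermat.Agent.S14.ArtinMap

section Conj

variable {K L : Type*} [Field K] [Field L] [Algebra K L] [Algebra ℚ K] [Algebra ℚ L]
  [IsScalarTower ℚ K L]

/-- Conjugation of a `K`-automorphism of `L` by a `ℚ`-automorphism of `L` which preserves `K`. -/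
noncomputable def conjAut (g : L ≃ₐ[ℚ] L) (gK : K ≃+* K)
    (hg : ∀ x : K, g (algebraMap K L x) = algebraMap K L (gK x)) (σ : L ≃ₐ[K] L) :
    L ≃ₐ[K] L :=
  AlgEquiv.ofRingEquiv (f := (g.symm.toRingEquiv.trans σ.toRingEquiv).trans g.toRingEquiv) (by
    intro x
    have h1 : g.symm (algebraMap K L x) = algebraMap K L (gK.symm x) := by
      rw [AlgEquiv.symm_apply_eq, hg, RingEquiv.apply_symm_apply]
    change g (σ (g.symm (algebraMap K L x))) = algebraMap K L x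
    rw [h1, σ.commutes, hg, RingEquiv.apply_symm_apply])

omit [Algebra ℚ K] [IsScalarTower ℚ K L] in
theorem conjAut_apply (g : L ≃ₐ[ℚ] L) (gK : K ≃+* K)
    (hg : ∀ x : K, g (algebraMap K L x) = algebraMap K L (gK x)) (σ : L ≃ₐ[K] L) (x : L) :
    conjAut g gK hg σ x = g (σ (g.symm x)) := rfl

theorem conjAut_restrictScalars (g : L ≃ₐ[ℚ] L) (gK : K ≃+* K)
    (hg : ∀ x : K, g (algebraMap K L x) = algebraMap K L (gK x)) (σ : L ≃ₐ[K] L) :
    (conjAut g gK hg σ).restrictScalars ℚ = g * σ.restrictScalars ℚ * g⁻¹ := by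
  ext x
  rfl

theorem restrictScalars_pow (σ : L ≃ₐ[K] L) (n : ℕ) :
    (σ ^ n).restrictScalars ℚ = (σ.restrictScalars ℚ) ^ n := by
  induction n with
  | zero => rfl
  | succ n ih =>
    rw [pow_succ, pow_succ, ← ih]
    rfl

end Conj

section Wire

variable (p : ℕ) [hp : Fact p.Prime] (K L : Type*) [Field K] [NumberField K] [Field L]
  [NumberField L] [Algebra K L] [IsGalois ℚ L] [IsGalois K L]

omit hp in
/-- Equivariance of the Frobenius under the automorphisms of `K = ℚ(ζ_p)`, from the conjugation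
hypothesis: `frob (σ_c⁻¹ q) = frob q ^ c`. -/
theorem frob_map_eq_pow (hur : IsUnram L (L ≃ₐ[K] L)) (hconj : ConjInv p K L)
    (hab : ∀ a b : L ≃ₐ[K] L, a * b = b * a) (ζ : 𝓞 K) (hζ : IsPrimitiveRoot ζ p)
    (ρ : 𝓞 K ≃+* 𝓞 K) (c : ℕ) (hρ : ρ (ζ ^ c) = ζ) (q : Ideal (𝓞 K)) [q.IsPrime]
    (hq : q ≠ ⊥) :
    frob K L (L ≃ₐ[K] L) (Ideal.map ρ q) = frob K L (L ≃ₐ[K] L) q ^ c := by
  let gK : K ≃+* K := IsFractionRing.ringEquivOfRingEquiv ρ
  have hgK : ∀ x : 𝓞 K, gK (algebraMap (𝓞 K) K x) = algebraMap (𝓞 K) K (ρ x) :=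
    IsFractionRing.ringEquivOfRingEquiv_algebraMap ρ
  have hmap : RingOfIntegers.mapRingEquiv gK = ρ := by
    ext x
    rw [RingOfIntegers.mapRingEquiv_apply]
    exact hgK x
  let g : L ≃ₐ[ℚ] L := AlgEquiv.liftNormal gK.toRatAlgEquiv L
  have hg : ∀ x : K, g (algebraMap K L x) = algebraMap K L (gK x) :=
    fun x => AlgEquiv.liftNormal_commutes gK.toRatAlgEquiv L x
  have h1 := ArtinBase.frob_map hab hur g.toRingEquiv gK hg (conjAut g gK hg)
    (fun σ x => by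
      change g (σ (g.symm (g x))) = g (σ x)
      rw [AlgEquiv.symm_apply_apply]) q hq
  rw [hmap] at h1
  change frob K L (L ≃ₐ[K] L) (Ideal.map ρ q) = _ at h1
  rw [h1]
  apply AlgEquiv.restrictScalars_injective ℚ
  rw [restrictScalars_pow, conjAut_restrictScalars]
  have hζK : IsPrimitiveRoot (algebraMap (𝓞 K) K ζ) p :=
    hζ.map_of_injective (FaithfulSMul.algebraMap_injective (𝓞 K) K)
  have hg' : g⁻¹ (algebraMap K L (algebraMap (𝓞 K) K ζ)) =
      algebraMap K L ((algebraMap (𝓞 K) K ζ) ^ c) := by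
    change g.symm _ = _
    rw [AlgEquiv.symm_apply_eq, hg, ← map_pow, hgK, hρ]
  have h2 := hconj g⁻¹ (conjAut g gK hg (frob K L (L ≃ₐ[K] L) q)) (algebraMap (𝓞 K) K ζ) c
    hζK hg'
  rw [conjAut_restrictScalars] at h2
  rw [← h2]
  congr 1
  group

/-- **Wiring of the endgame.**  For `K = ℚ(ζ_p)`, `p` odd, and `L/K` Galois of degree `p`,
unramified, with `L/ℚ` Galois and `Gal(K/ℚ)` acting on `Gal(L/K)` through the inverse of the
cyclotomic character: if the Artin map is trivial on principal ideals, it is trivial. -/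
theorem artin_eq_one_of_rec [IsCyclotomicExtension {p} ℚ K] (hp2 : p ≠ 2)
    (hdeg : Module.finrank K L = p) (hur : IsUnram L (L ≃ₐ[K] L)) (hconj : ConjInv p K L)
    (hab : ∀ a b : L ≃ₐ[K] L, a * b = b * a)
    (hrec : ∀ x : 𝓞 K, x ≠ 0 → artinFun K L (L ≃ₐ[K] L) hab (Ideal.span {x}) = 1)
    (I : (Ideal (𝓞 K))⁰) : ArtinMap.artin K L (L ≃ₐ[K] L) hab I = 1 := by
  have hζ : IsPrimitiveRoot (IsCyclotomicExtension.zeta_spec p ℚ K).toInteger p :=
    (IsCyclotomicExtension.zeta_spec p ℚ K).toInteger_isPrimitiveRoot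
  have hC : ∀ g : L ≃ₐ[K] L, g ^ p = 1 := by
    intro g
    have hcard : Nat.card (L ≃ₐ[K] L) = p := by rw [IsGalois.card_aut_eq_finrank, hdeg]
    rw [← hcard]
    exact pow_card_eq_one'
  refine JacobiEnd.psi_eq_one_of_map p K hp2 _ hζ hC (ArtinMap.artin K L (L ≃ₐ[K] L) hab) ?_ ?_ I
  · intro ρ c _ _ hρ Q Q' hQ hQ'
    haveI := hQ
    have hQbot : (Q : Ideal (𝓞 K)) ≠ ⊥ := nonZeroDivisors.coe_ne_zero Q
    have e1 : ArtinMap.artin K L (L ≃ₐ[K] L) hab Q = frob K L (L ≃ₐ[K] L) (Q : Ideal (𝓞 K)) :=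
      artin_prime hab (Q : Ideal (𝓞 K)) hQbot Q.2
    haveI hQ'prime : (Q' : Ideal (𝓞 K)).IsPrime := by
      rw [hQ']
      exact Ideal.map_isPrime_of_equiv ρ
    have hQ'bot : (Q' : Ideal (𝓞 K)) ≠ ⊥ := nonZeroDivisors.coe_ne_zero Q'
    have e2 : ArtinMap.artin K L (L ≃ₐ[K] L) hab Q' = frob K L (L ≃ₐ[K] L) (Q' : Ideal (𝓞 K)) :=
      artin_prime hab (Q' : Ideal (𝓞 K)) hQ'bot Q'.2
    rw [e1, e2]
    simp only [hQ']
    exact frob_map_eq_pow p K L hur hconj hab _ hζ ρ c hρ Q hQbot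
  · intro x I hI
    have hx : x ≠ 0 := by
      rintro rfl
      have hIbot : (I : Ideal (𝓞 K)) ≠ ⊥ := nonZeroDivisors.coe_ne_zero I
      rw [hI, Set.singleton_zero, Ideal.span_zero] at hIbot
      exact hIbot rfl
    rw [artin_apply, hI]
    exact hrec x hx

/-- **The final contradiction**, given reciprocity (`hrec`) and one prime with nontrivial
Frobenius (`hinert`, from the first inequality). -/
theorem false_of_rec [IsCyclotomicExtension {p} ℚ K] (hp2 : p ≠ 2)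
    (hdeg : Module.finrank K L = p) (hur : Unram K L) (hconj : ConjInv p K L)
    (hab : ∀ a b : L ≃ₐ[K] L, a * b = b * a)
    (hrec : ∀ x : 𝓞 K, x ≠ 0 → artinFun K L (L ≃ₐ[K] L) hab (Ideal.span {x}) = 1)
    (hinert : ∃ q : Ideal (𝓞 K), q.IsPrime ∧ q ≠ ⊥ ∧ frob K L (L ≃ₐ[K] L) q ≠ 1) : False := by
  obtain ⟨q, hq1, hq, hfrob⟩ := hinert
  haveI := hq1
  have hq' : q ∈ (Ideal (𝓞 K))⁰ := mem_nonZeroDivisors_iff_ne_zero.mpr hq
  have h := artin_eq_one_of_rec p K L hp2 hdeg hur hconj hab hrec ⟨q, hq'⟩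
  rw [artin_prime hab q hq hq'] at h
  exact hfrob h

omit [IsGalois ℚ L] in
/-- In a group of prime order any two elements commute (for `Gal(L/K)` of degree `p`). -/
theorem mul_comm_of_finrank_eq (hdeg : Module.finrank K L = p) (a b : L ≃ₐ[K] L) :
    a * b = b * a := by
  have hcard : Nat.card (L ≃ₐ[K] L) = p := by rw [IsGalois.card_aut_eq_finrank, hdeg]
  haveI : IsCyclic (L ≃ₐ[K] L) := isCyclic_of_prime_card hcard
  haveI : IsMulCommutative (L ≃ₐ[K] L) := IsCyclic.isMulCommutative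
  exact IsMulCommutative.is_comm.comm a b

end Wire

end Fermat.Agent.S14.EndWire
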