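import Mathlib

/-!
# S14, stream C: ambiguous ideals of an unramified Galois extension of number fields

If `L/K` is a Galois extension of number fields with group `G`, unramified at every nonzero
prime (all inertia groups trivial), then every nonzero `G`-stable ideal of `𝓞 L` is the
extension of an ideal of `𝓞 K`.
-/

set_option autoImplicit false
set_option linter.unusedSectionVars false
open NumberField
open scoped Pointwise nonZeroDivisors

namespace Fermat.Agent.S14.Ambig

variable (K L : Type*) [Field K] [NumberField K] [Field L] [NumberField L] [Algebra K L]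
variable (G : Type*) [Group G] [Finite G] [MulSemiringAction G (𝓞 L)]
  [IsGaloisGroup G (𝓞 K) (𝓞 L)]

/-- The extension of an ideal of the base is stable under the Galois action. -/
theorem smul_map_algebraMap (σ : G) (a : Ideal (𝓞 K)) :
    σ • a.map (algebraMap (𝓞 K) (𝓞 L)) = a.map (algebraMap (𝓞 K) (𝓞 L)) := by
  rw [Ideal.pointwise_smul_def, Ideal.map_map]
  congr 1
  refine RingHom.ext fun x => ?_
  simp only [RingHom.coe_comp, Function.comp_apply, MulSemiringAction.toRingHom_apply]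
  have : SMulCommClass G (𝓞 K) (𝓞 L) := IsGaloisGroup.commutes
  exact smul_algebraMap (A := 𝓞 L) σ x

/-- In an unramified extension, the extension of a maximal ideal is the product of the primes
above it. -/
theorem map_eq_prod_primesOver
    (hur : ∀ Q : Ideal (𝓞 L), Q.IsPrime → Q ≠ ⊥ → Q.inertia G = ⊥)
    (p : Ideal (𝓞 K)) [p.IsMaximal] (hp : p ≠ ⊥) :
    p.map (algebraMap (𝓞 K) (𝓞 L)) = ∏ P ∈ (p.primesOver (𝓞 L)).toFinset, P := by
  rw [Ideal.map_algebraMap_eq_finsetProd_pow hp]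
  refine Finset.prod_congr rfl fun P hP => ?_
  rw [Set.mem_toFinset] at hP
  have : P.IsPrime := hP.1
  have : P.LiesOver p := hP.2
  have hP0 : P ≠ ⊥ := Ideal.ne_bot_of_liesOver_of_ne_bot hp P
  have h1 : Nat.card (P.inertia G) = p.ramificationIdxIn (𝓞 L) :=
    Ideal.card_inertia_eq_ramificationIdxIn p P
  rw [Ideal.ramificationIdxIn_eq_ramificationIdx p P G, hur P inferInstance hP0] at h1
  rw [← h1]
  simp

/-- **Ambiguous ideals**: in an unramified Galois extension of number fields, a nonzero ideal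
stable under the Galois group is extended from the base. -/
theorem exists_map_eq_of_smul_eq
    (hur : ∀ Q : Ideal (𝓞 L), Q.IsPrime → Q ≠ ⊥ → Q.inertia G = ⊥)
    (A : Ideal (𝓞 L)) (hA0 : A ≠ ⊥) (hA : ∀ σ : G, σ • A = A) :
    ∃ a : Ideal (𝓞 K), a ≠ ⊥ ∧ A = a.map (algebraMap (𝓞 K) (𝓞 L)) := by
  suffices H : ∀ (n : ℕ) (A : Ideal (𝓞 L)), Ideal.absNorm A = n → A ≠ ⊥ →
      (∀ σ : G, σ • A = A) →
      ∃ a : Ideal (𝓞 K), a ≠ ⊥ ∧ A = a.map (algebraMap (𝓞 K) (𝓞 L)) from H _ A rfl hA0 hA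
  intro n
  induction n using Nat.strong_induction_on with
  | _ n ih =>
    intro A hn hA0 hA
    by_cases htop : A = ⊤
    · exact ⟨⊤, top_ne_bot, by rw [htop, Ideal.map_top]⟩
    obtain ⟨P, hPmax, hAP⟩ := Ideal.exists_le_maximal A htop
    have hP0 : P ≠ ⊥ := fun h => hA0 (le_bot_iff.mp (h ▸ hAP))
    have : P.IsPrime := hPmax.isPrime
    obtain ⟨p, hp⟩ : ∃ p : Ideal (𝓞 K), p = P.under (𝓞 K) := ⟨_, rfl⟩
    have : P.LiesOver p := ⟨hp⟩
    have hpmax : p.IsMaximal := by
      rw [hp]; exact Ideal.IsMaximal.under (𝓞 K) P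
    have hp0 : p ≠ ⊥ := by
      rw [hp]; exact Ideal.under_ne_bot (𝓞 K) hP0
    have hpS0 : p.map (algebraMap (𝓞 K) (𝓞 L)) ≠ ⊥ := by
      intro h
      exact hp0 ((Ideal.map_eq_bot_iff_of_injective
        (RingOfIntegers.algebraMap.injective K L)).mp h)
    have hpStop : p.map (algebraMap (𝓞 K) (𝓞 L)) ≠ ⊤ := by
      intro h
      have : p.map (algebraMap (𝓞 K) (𝓞 L)) ≤ P := by
        rw [Ideal.map_le_iff_le_comap, hp]
      exact hPmax.ne_top (top_le_iff.mp (h ▸ this))
    -- `A ≤ p 𝓞_L`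
    have hle : A ≤ p.map (algebraMap (𝓞 K) (𝓞 L)) := by
      rw [map_eq_prod_primesOver K L G hur p hp0, ← Ideal.dvd_iff_le]
      refine Finset.prod_primes_dvd A ?_ ?_
      · intro Q hQ
        rw [Set.mem_toFinset] at hQ
        have : Q.IsPrime := hQ.1
        have : Q.LiesOver p := hQ.2
        exact Ideal.prime_of_isPrime (Ideal.ne_bot_of_liesOver_of_ne_bot hp0 Q) inferInstance
      · intro Q hQ
        rw [Set.mem_toFinset] at hQ
        have : Q.IsPrime := hQ.1
        have : Q.LiesOver p := hQ.2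
        rw [Ideal.dvd_iff_le]
        obtain ⟨τ, rfl⟩ := Ideal.exists_smul_eq_of_isGaloisGroup p P Q G
        rw [← hA τ]
        rw [Ideal.pointwise_smul_def, Ideal.pointwise_smul_def]
        exact Ideal.map_mono hAP
    obtain ⟨A', hA'⟩ := Ideal.dvd_iff_le.mpr hle
    have hA'0 : A' ≠ ⊥ := by
      rintro rfl
      exact hA0 (by rw [hA', Ideal.mul_bot])
    have hA'inv : ∀ σ : G, σ • A' = A' := by
      intro σ
      have h1 := hA σ
      rw [hA', smul_mul', smul_map_algebraMap K L G σ p] at h1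
      exact mul_left_cancel₀ hpS0 h1
    have hlt : Ideal.absNorm A' < n := by
      have h1 : Ideal.absNorm A = Ideal.absNorm (p.map (algebraMap (𝓞 K) (𝓞 L))) *
          Ideal.absNorm A' := by rw [hA', map_mul]
      have h2 : Ideal.absNorm (p.map (algebraMap (𝓞 K) (𝓞 L))) ≠ 1 := by
        rwa [Ne, Ideal.absNorm_eq_one_iff]
      have h3 : Ideal.absNorm (p.map (algebraMap (𝓞 K) (𝓞 L))) ≠ 0 := by
        rwa [Ne, Ideal.absNorm_eq_zero_iff]
      have h4 : Ideal.absNorm A' ≠ 0 := by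
        rwa [Ne, Ideal.absNorm_eq_zero_iff]
      rw [← hn, h1]
      have : 2 ≤ Ideal.absNorm (p.map (algebraMap (𝓞 K) (𝓞 L))) := by omega
      nlinarith [Nat.pos_of_ne_zero h4]
    obtain ⟨a', ha'0, ha'⟩ := ih _ hlt A' rfl hA'0 hA'inv
    refine ⟨p * a', ?_, ?_⟩
    · exact mul_ne_zero hp0 ha'0
    · rw [hA', ha', Ideal.map_mul]

end Fermat.Agent.S14.Ambig
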