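import Mathlib

set_option autoImplicit false

open NumberField nonZeroDivisors

namespace Fermat.Agent.S14.ArtinMap

section CProd

variable {G : Type*} [Group G]

/-- Product of a multiset in a group all of whose elements commute. -/
def cprod (hab : ∀ a b : G, a * b = b * a) (s : Multiset G) : G :=
  s.noncommProd (fun a _ b _ _ => hab a b)

theorem cprod_zero (hab : ∀ a b : G, a * b = b * a) : cprod hab 0 = 1 := rfl

theorem cprod_add (hab : ∀ a b : G, a * b = b * a) (s t : Multiset G) :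
    cprod hab (s + t) = cprod hab s * cprod hab t :=
  Multiset.noncommProd_add s t _

theorem cprod_cons (hab : ∀ a b : G, a * b = b * a) (a : G) (s : Multiset G) :
    cprod hab (a ::ₘ s) = a * cprod hab s :=
  Multiset.noncommProd_cons s a _

theorem cprod_singleton (hab : ∀ a b : G, a * b = b * a) (a : G) :
    cprod hab {a} = a := by
  rw [← Multiset.cons_zero, cprod_cons, cprod_zero, mul_one]

end CProd

section Basic

variable (K L : Type*) [Field K] [NumberField K] [Field L] [NumberField L] [Algebra K L]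
variable (G : Type*) [Group G] [Finite G] [MulSemiringAction G L] [IsGaloisGroup G K L]

/-- `L` is unramified over the fixed field of `G` at all finite primes: every nonzero prime
of `𝓞 L` has trivial inertia group in `G`. -/
def IsUnram : Prop := ∀ Q : Ideal (𝓞 L), Q.IsPrime → Q ≠ ⊥ → Q.inertia G = ⊥

variable {K L} in
theorem finite_quot (Q : Ideal (𝓞 L)) (hQ : Q ≠ ⊥) : Finite (𝓞 L ⧸ Q) :=
  Q.finiteQuotientOfFreeOfNeBot hQ

variable {K L} in
theorem ne_bot_of_liesOver (q : Ideal (𝓞 K)) (hq : q ≠ ⊥) (Q : Ideal (𝓞 L)) [hQ : Q.LiesOver q] :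
    Q ≠ ⊥ := by
  rintro rfl
  apply hq
  rw [hQ.over]
  exact Ideal.under_bot (A := 𝓞 K) (B := 𝓞 L)

open Classical in
/-- The Frobenius element of a nonzero prime `q` of `𝓞 K` (the Frobenius of a chosen prime of
`𝓞 L` above `q`); `1` if `q` is not a nonzero prime. -/
noncomputable def frob (q : Ideal (𝓞 K)) : G :=
  if h : q.IsPrime ∧ q ≠ ⊥ then
    haveI := h.1
    haveI : ((q.nonempty_primesOver (S := 𝓞 L)).some : Ideal (𝓞 L)).IsPrime :=
      (q.nonempty_primesOver (S := 𝓞 L)).some.2.1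
    haveI : ((q.nonempty_primesOver (S := 𝓞 L)).some : Ideal (𝓞 L)).LiesOver q :=
      (q.nonempty_primesOver (S := 𝓞 L)).some.2.2
    haveI : Finite (𝓞 L ⧸ ((q.nonempty_primesOver (S := 𝓞 L)).some : Ideal (𝓞 L))) :=
      finite_quot _ (ne_bot_of_liesOver q h.2 _)
    arithFrobAt (𝓞 K) G ((q.nonempty_primesOver (S := 𝓞 L)).some : Ideal (𝓞 L))
  else 1

variable {K L G} in
theorem frob_def (q : Ideal (𝓞 K)) [hq1 : q.IsPrime] (hq : q ≠ ⊥) :
    ∃ (Q : Ideal (𝓞 L)) (_ : Q.IsPrime) (_ : Q.LiesOver q) (_ : Finite (𝓞 L ⧸ Q)),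
      frob K L G q = arithFrobAt (𝓞 K) G Q := by
  classical
  refine ⟨((q.nonempty_primesOver (S := 𝓞 L)).some : Ideal (𝓞 L)),
    (q.nonempty_primesOver (S := 𝓞 L)).some.2.1, (q.nonempty_primesOver (S := 𝓞 L)).some.2.2,
    finite_quot _ (ne_bot_of_liesOver q hq _ (hQ := (q.nonempty_primesOver (S := 𝓞 L)).some.2.2)),
    ?_⟩
  unfold frob
  rw [dif_pos ⟨hq1, hq⟩]

variable {K L G} in
/-- The Frobenius of `q` is a Frobenius element at every prime `Q` of `𝓞 L` above `q`
(`G` abelian). -/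
theorem frob_spec (hab : ∀ a b : G, a * b = b * a)
    (q : Ideal (𝓞 K)) [q.IsPrime] (hq : q ≠ ⊥) (Q : Ideal (𝓞 L)) [Q.IsPrime] [hQ : Q.LiesOver q] :
    IsArithFrobAt (𝓞 K) (frob K L G q) Q := by
  obtain ⟨Q₀, h1, h2, h3, h4⟩ := frob_def (L := L) (G := G) q hq
  have h5 : IsArithFrobAt (𝓞 K) (frob K L G q) Q₀ := by
    rw [h4]; exact IsArithFrobAt.arithFrobAt (𝓞 K) G Q₀
  obtain ⟨τ, hτ⟩ := Algebra.IsInvariant.exists_smul_of_under_eq (𝓞 K) (𝓞 L) G Q₀ Q
    (h2.over.symm.trans hQ.over)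
  have h6 := h5.conj τ
  rw [← hτ] at h6
  have h7 : τ * frob K L G q * τ⁻¹ = frob K L G q := by
    rw [hab τ, mul_assoc, mul_inv_cancel, mul_one]
  rwa [h7] at h6

variable {K L G} in
theorem card_quot_under (q : Ideal (𝓞 K)) (Q : Ideal (𝓞 L)) [hQ : Q.LiesOver q] :
    Nat.card (𝓞 K ⧸ Q.under (𝓞 K)) = Ideal.absNorm q := by
  rw [← hQ.over]; rfl

variable {K L G} in
/-- Explicit form of `frob_spec`. -/
theorem frob_smul_sub_pow_mem (hab : ∀ a b : G, a * b = b * a)
    (q : Ideal (𝓞 K)) [q.IsPrime] (hq : q ≠ ⊥) (Q : Ideal (𝓞 L)) [Q.IsPrime] [hQ : Q.LiesOver q]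
    (x : 𝓞 L) : frob K L G q • x - x ^ Ideal.absNorm q ∈ Q := by
  have h := frob_spec (L := L) (G := G) hab q hq Q x
  rw [card_quot_under q Q] at h
  exact h

variable {K L G} in
/-- Uniqueness of the Frobenius element (unramified case). -/
theorem frob_unique (hab : ∀ a b : G, a * b = b * a) (hur : IsUnram L G)
    (q : Ideal (𝓞 K)) [q.IsPrime] (hq : q ≠ ⊥) (Q : Ideal (𝓞 L)) [hQ1 : Q.IsPrime]
    [hQ : Q.LiesOver q] {σ : G} (h : IsArithFrobAt (𝓞 K) σ Q) : σ = frob K L G q := by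
  have h1 := h.mul_inv_mem_inertia (frob_spec (L := L) (G := G) hab q hq Q)
  rw [hur Q hQ1 (ne_bot_of_liesOver q hq Q), Subgroup.mem_bot] at h1
  exact mul_inv_eq_one.mp h1

variable {K L G} in
/-- Uniqueness of the Frobenius element, explicit form. -/
theorem frob_unique' (hab : ∀ a b : G, a * b = b * a) (hur : IsUnram L G)
    (q : Ideal (𝓞 K)) [q.IsPrime] (hq : q ≠ ⊥) (Q : Ideal (𝓞 L)) [hQ1 : Q.IsPrime]
    [hQ : Q.LiesOver q] {σ : G} (h : ∀ x : 𝓞 L, σ • x - x ^ Ideal.absNorm q ∈ Q) :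
    σ = frob K L G q := by
  refine frob_unique hab hur q hq Q ?_
  intro x
  rw [card_quot_under q Q]
  exact h x

variable {K L G} in
theorem mk_frob_pow_smul (hab : ∀ a b : G, a * b = b * a)
    (q : Ideal (𝓞 K)) [q.IsPrime] (hq : q ≠ ⊥) (Q : Ideal (𝓞 L)) [Q.IsPrime] [hQ : Q.LiesOver q]
    (k : ℕ) (x : 𝓞 L) :
    Ideal.Quotient.mk Q ((frob K L G q ^ k) • x) =
      (Ideal.Quotient.mk Q x) ^ (Ideal.absNorm q ^ k) := by
  induction k generalizing x with
  | zero => simp
  | succ k ih =>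
    rw [pow_succ', mul_smul]
    have h := frob_smul_sub_pow_mem (L := L) (G := G) hab q hq Q ((frob K L G q ^ k) • x)
    rw [← Ideal.Quotient.eq] at h
    rw [h, map_pow, ih, ← pow_mul, pow_succ]

variable {K L G} in
/-- The order of the Frobenius is the residue degree. -/
theorem frob_pow_eq_one_iff (hab : ∀ a b : G, a * b = b * a) (hur : IsUnram L G)
    (q : Ideal (𝓞 K)) [hq1 : q.IsPrime] (hq : q ≠ ⊥) (Q : Ideal (𝓞 L)) [hQ1 : Q.IsPrime]
    [hQ : Q.LiesOver q] (k : ℕ) :
    frob K L G q ^ k = 1 ↔ Q.inertiaDeg (𝓞 K) ∣ k := by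
  have hQne := ne_bot_of_liesOver q hq Q
  haveI hqmax : q.IsMaximal := hq1.isMaximal hq
  haveI hQmax : Q.IsMaximal := hQ1.isMaximal hQne
  letI : Field (𝓞 K ⧸ q) := Ideal.Quotient.field q
  letI : Field (𝓞 L ⧸ Q) := Ideal.Quotient.field Q
  haveI : Finite (𝓞 K ⧸ q) := finite_quot q hq
  haveI : Finite (𝓞 L ⧸ Q) := finite_quot Q hQne
  letI := Fintype.ofFinite (𝓞 K ⧸ q)
  have hcard : Fintype.card (𝓞 K ⧸ q) = Ideal.absNorm q := by
    rw [← Nat.card_eq_fintype_card]; rfl
  rw [Ideal.inertiaDeg_eq_of_isMaximal q Q, ← FiniteField.orderOf_frobeniusAlgHom,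
    orderOf_dvd_iff_pow_eq_one]
  constructor
  · intro h
    ext x
    obtain ⟨x, rfl⟩ := Ideal.Quotient.mk_surjective x
    have h1 := mk_frob_pow_smul (L := L) (G := G) hab q hq Q k x
    rw [h, one_smul] at h1
    rw [AlgHom.coe_pow, FiniteField.coe_frobeniusAlgHom, pow_iterate, hcard, AlgHom.one_apply]
    exact h1.symm
  · intro h
    have h2 : frob K L G q ^ k ∈ Q.inertia G := by
      intro x
      change frob K L G q ^ k • x - x ∈ Q
      rw [← Ideal.Quotient.eq, mk_frob_pow_smul (L := L) (G := G) hab q hq Q k x]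
      have h3 := DFunLike.congr_fun h (Ideal.Quotient.mk Q x)
      rw [AlgHom.coe_pow, FiniteField.coe_frobeniusAlgHom, pow_iterate, hcard,
        AlgHom.one_apply] at h3
      exact h3
    rw [hur Q hQ1 hQne, Subgroup.mem_bot] at h2
    exact h2

variable {K L G} in
theorem orderOf_frob (hab : ∀ a b : G, a * b = b * a) (hur : IsUnram L G)
    (q : Ideal (𝓞 K)) [hq1 : q.IsPrime] (hq : q ≠ ⊥) (Q : Ideal (𝓞 L)) [hQ1 : Q.IsPrime]
    [hQ : Q.LiesOver q] : orderOf (frob K L G q) = Q.inertiaDeg (𝓞 K) := by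
  apply Nat.dvd_antisymm
  · rw [orderOf_dvd_iff_pow_eq_one, frob_pow_eq_one_iff hab hur q hq Q]
  · rw [← frob_pow_eq_one_iff hab hur q hq Q, pow_orderOf_eq_one]

variable {K L G} in
theorem frob_eq_one_iff (hab : ∀ a b : G, a * b = b * a) (hur : IsUnram L G)
    (q : Ideal (𝓞 K)) [hq1 : q.IsPrime] (hq : q ≠ ⊥) (Q : Ideal (𝓞 L)) [hQ1 : Q.IsPrime]
    [hQ : Q.LiesOver q] : frob K L G q = 1 ↔ Q.inertiaDeg (𝓞 K) = 1 := by
  rw [← orderOf_frob hab hur q hq Q, orderOf_eq_one_iff]

open UniqueFactorizationMonoid in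
/-- The Artin map on ideals of `𝓞 K` (junk value `1` at `⊥`), as a plain function. -/
noncomputable def artinFun (hab : ∀ a b : G, a * b = b * a) (I : Ideal (𝓞 K)) : G :=
  cprod hab ((normalizedFactors I).map (frob K L G))

variable {K L G} in
theorem artinFun_one (hab : ∀ a b : G, a * b = b * a) : artinFun K L G hab 1 = 1 := by
  unfold artinFun
  rw [UniqueFactorizationMonoid.normalizedFactors_one, Multiset.map_zero, cprod_zero]

variable {K L G} in
theorem artinFun_bot (hab : ∀ a b : G, a * b = b * a) : artinFun K L G hab ⊥ = 1 := by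
  unfold artinFun
  rw [← Ideal.zero_eq_bot, UniqueFactorizationMonoid.normalizedFactors_zero, Multiset.map_zero,
    cprod_zero]

variable {K L G} in
theorem artinFun_top (hab : ∀ a b : G, a * b = b * a) : artinFun K L G hab ⊤ = 1 := by
  rw [← Ideal.one_eq_top]; exact artinFun_one hab

variable {K L G} in
theorem artinFun_mul (hab : ∀ a b : G, a * b = b * a) {I J : Ideal (𝓞 K)} (hI : I ≠ ⊥)
    (hJ : J ≠ ⊥) : artinFun K L G hab (I * J) = artinFun K L G hab I * artinFun K L G hab J := by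
  unfold artinFun
  rw [UniqueFactorizationMonoid.normalizedFactors_mul hI hJ, Multiset.map_add, cprod_add]

variable {K L G} in
theorem artinFun_prime (hab : ∀ a b : G, a * b = b * a) (q : Ideal (𝓞 K)) [hq1 : q.IsPrime]
    (hq : q ≠ ⊥) : artinFun K L G hab q = frob K L G q := by
  unfold artinFun
  have h1 : UniqueFactorizationMonoid.normalizedFactors q = {q} := by
    rw [UniqueFactorizationMonoid.normalizedFactors_irreducible
      ((Ideal.prime_of_isPrime hq hq1).irreducible), normalize_eq]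
  rw [h1, Multiset.map_singleton, cprod_singleton]

variable {K L G} in
theorem artinFun_pow (hab : ∀ a b : G, a * b = b * a) {I : Ideal (𝓞 K)} (hI : I ≠ ⊥) (n : ℕ) :
    artinFun K L G hab (I ^ n) = artinFun K L G hab I ^ n := by
  induction n with
  | zero => simpa using artinFun_one hab
  | succ n ih => rw [pow_succ, artinFun_mul hab (pow_ne_zero n hI) hI, ih, pow_succ]

/-- The Artin map as a monoid homomorphism on the nonzero ideals of `𝓞 K`. -/
noncomputable def artin (hab : ∀ a b : G, a * b = b * a) : (Ideal (𝓞 K))⁰ →* G where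
  toFun I := artinFun K L G hab I.1
  map_one' := artinFun_one hab
  map_mul' I J := artinFun_mul hab (nonZeroDivisors.coe_ne_zero I) (nonZeroDivisors.coe_ne_zero J)

variable {K L G} in
theorem artin_apply (hab : ∀ a b : G, a * b = b * a) (I : (Ideal (𝓞 K))⁰) :
    artin K L G hab I = artinFun K L G hab I.1 := rfl

variable {K L G} in
theorem artin_mk (hab : ∀ a b : G, a * b = b * a) (I : Ideal (𝓞 K)) (hI : I ∈ (Ideal (𝓞 K))⁰) :
    artin K L G hab ⟨I, hI⟩ = artinFun K L G hab I := rfl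

variable {K L G} in
theorem artin_prime (hab : ∀ a b : G, a * b = b * a) (q : Ideal (𝓞 K)) [hq1 : q.IsPrime]
    (hq : q ≠ ⊥) (hq' : q ∈ (Ideal (𝓞 K))⁰) : artin K L G hab ⟨q, hq'⟩ = frob K L G q :=
  artinFun_prime hab q hq

variable {K L G} in
/-- Norms of ideals of `𝓞 L` are in the kernel of the Artin map. -/
theorem artinFun_relNorm (hab : ∀ a b : G, a * b = b * a) (hur : IsUnram L G)
    (I : Ideal (𝓞 L)) : artinFun K L G hab (Ideal.relNorm (𝓞 K) I) = 1 := by
  induction I using UniqueFactorizationMonoid.induction_on_prime with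
  | h₁ => rw [map_zero]; exact artinFun_bot hab
  | h₂ x hx =>
    rw [Ideal.isUnit_iff] at hx
    subst hx
    rw [Ideal.relNorm_top]; exact artinFun_top hab
  | h₃ a Q ha hQ ih =>
    have hQne : Q ≠ ⊥ := hQ.ne_zero
    haveI hQ1 : Q.IsPrime := Ideal.isPrime_of_prime hQ
    haveI hQmax : Q.IsMaximal := hQ1.isMaximal hQne
    set q := Q.under (𝓞 K) with hqdef
    haveI : Q.LiesOver q := ⟨rfl⟩
    have hq : q ≠ ⊥ := by
      intro h
      exact hQne (Ideal.eq_bot_of_comap_eq_bot (R := 𝓞 K) h)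
    haveI hq1 : q.IsPrime := Ideal.IsPrime.under (𝓞 K) Q
    haveI hqmax : q.IsMaximal := hq1.isMaximal hq
    rw [map_mul, artinFun_mul hab (by rw [Ne, Ideal.relNorm_eq_bot_iff]; exact hQne)
      (by rw [Ne, Ideal.relNorm_eq_bot_iff]; exact ha), ih, mul_one,
      Ideal.relNorm_eq_pow_of_isMaximal Q q, artinFun_pow hab hq, artinFun_prime hab q hq,
      frob_pow_eq_one_iff hab hur q hq Q]

variable {K L G} in
/-- Norms of ideals of `𝓞 L` are in the kernel of the Artin map (bundled form). -/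
theorem artin_relNorm (hab : ∀ a b : G, a * b = b * a) (hur : IsUnram L G)
    (I : Ideal (𝓞 L)) (hI : Ideal.relNorm (𝓞 K) I ∈ (Ideal (𝓞 K))⁰) :
    artin K L G hab ⟨Ideal.relNorm (𝓞 K) I, hI⟩ = 1 :=
  artinFun_relNorm hab hur I

variable {K L G} in
/-- If all the factors have Artin symbol a power of a fixed `τ`, so has the product. -/
theorem artinFun_finset_prod_of_pow (hab : ∀ a b : G, a * b = b * a) {ι : Type*}
    (s : Finset ι) (f : ι → Ideal (𝓞 K)) (hf : ∀ i ∈ s, f i ≠ ⊥) (τ : G) (e : ι → ℕ)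
    (h : ∀ i ∈ s, artinFun K L G hab (f i) = τ ^ e i) :
    artinFun K L G hab (∏ i ∈ s, f i) = τ ^ ∑ i ∈ s, e i := by
  classical
  induction s using Finset.induction_on with
  | empty => simpa using artinFun_one hab
  | insert a s ha ih =>
    rw [Finset.prod_insert ha, Finset.sum_insert ha, artinFun_mul hab
      (hf a (Finset.mem_insert_self a s))
      (Finset.prod_ne_zero_iff.mpr fun i hi => hf i (Finset.mem_insert_of_mem hi)),
      h a (Finset.mem_insert_self a s),
      ih (fun i hi => hf i (Finset.mem_insert_of_mem hi))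
        (fun i hi => h i (Finset.mem_insert_of_mem hi)), pow_add]

variable {K L G} in
/-- If all the factors are in the kernel of the Artin map, so is the product. -/
theorem artinFun_finset_prod_eq_one (hab : ∀ a b : G, a * b = b * a) {ι : Type*}
    (s : Finset ι) (f : ι → Ideal (𝓞 K)) (hf : ∀ i ∈ s, f i ≠ ⊥)
    (h : ∀ i ∈ s, artinFun K L G hab (f i) = 1) :
    artinFun K L G hab (∏ i ∈ s, f i) = 1 := by
  have := artinFun_finset_prod_of_pow hab s f hf 1 (fun _ => 0) (by simpa using h)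
  simpa using this

variable {K L G} in
/-- A prime with trivial Frobenius is the norm of any prime above it. -/
theorem relNorm_eq_of_frob_eq_one (hab : ∀ a b : G, a * b = b * a) (hur : IsUnram L G)
    (q : Ideal (𝓞 K)) [hq1 : q.IsPrime] (hq : q ≠ ⊥) (Q : Ideal (𝓞 L)) [hQ1 : Q.IsPrime]
    [hQ : Q.LiesOver q] (h : frob K L G q = 1) : Ideal.relNorm (𝓞 K) Q = q := by
  haveI hqmax : q.IsMaximal := hq1.isMaximal hq
  haveI hQmax : Q.IsMaximal := hQ1.isMaximal (ne_bot_of_liesOver q hq Q)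
  rw [Ideal.relNorm_eq_pow_of_isMaximal Q q, (frob_eq_one_iff hab hur q hq Q).mp h, pow_one]

variable {K L G} in
/-- The Artin symbol of a nonzero ideal is a product of Frobenius elements: induction
principle. -/
theorem artinFun_induction (hab : ∀ a b : G, a * b = b * a) (P : G → Prop) (h1 : P 1)
    (hmul : ∀ a b, P a → P b → P (a * b))
    (I : Ideal (𝓞 K)) (hfrob : ∀ q : Ideal (𝓞 K), q.IsPrime → q ≠ ⊥ → I ≤ q → P (frob K L G q)) :
    P (artinFun K L G hab I) := by
  unfold artinFun cprod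
  refine Multiset.noncommProd_induction _ _ P hmul h1 ?_
  intro x hx
  obtain ⟨q, hq, rfl⟩ := Multiset.mem_map.mp hx
  have hq' := UniqueFactorizationMonoid.prime_of_normalized_factor q hq
  exact hfrob q (Ideal.isPrime_of_prime hq') hq'.ne_zero
    (Ideal.le_of_dvd (UniqueFactorizationMonoid.dvd_of_mem_normalizedFactors hq))

end Basic

end Fermat.Agent.S14.ArtinMap
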