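import Mathlib

/-!
# The first inequality, abstract form (stream C of S14)

Pure group theory.  `X` plays the role of `Lˣ`, `I` the group of invertible fractional ideals
of `L`, `d : X →* I` the map `x ↦ (x)`, and `τ`, `τI` the action of a generator of the cyclic
Galois group of prime order `p`.  With `N := ∏_{i<p} τ^i` (`normHom`) the theorem
`exists_fixed_not_mem_norm` says: Hilbert 90 for `X`, finiteness of `I / d X` and the value
`1/p` of the Herbrand quotient of the units `E = ker d` force the existence of a `τ`-fixed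
element of `I` which is not of the form `d x * N B` with `τ x = x`.
-/

namespace Fermat.Agent.S14.FIAbs

section Defs

variable {X : Type*} [CommGroup X]

/-- `x ↦ ∏_{i<n} t^[i] x`. -/
def normHom (t : X →* X) (n : ℕ) : X →* X where
  toFun x := ∏ i ∈ Finset.range n, t^[i] x
  map_one' := by simp [iterate_map_one]
  map_mul' x y := by simp [iterate_map_mul, Finset.prod_mul_distrib]

theorem normHom_apply (t : X →* X) (n : ℕ) (x : X) :
    normHom t n x = ∏ i ∈ Finset.range n, t^[i] x := rfl

/-- `x ↦ t x / x`. -/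
def divHom (t : X →* X) : X →* X where
  toFun x := t x / x
  map_one' := by simp
  map_mul' x y := by simp [mul_div_mul_comm]

theorem divHom_apply (t : X →* X) (x : X) : divHom t x = t x / x := rfl

theorem mem_ker_divHom {t : X →* X} {x : X} : x ∈ (divHom t).ker ↔ t x = x := by
  rw [MonoidHom.mem_ker, divHom_apply, div_eq_one]

theorem normHom_divHom {t : X →* X} {n : ℕ} (ht : ∀ x, t^[n] x = x) (x : X) :
    normHom t n (divHom t x) = 1 := by
  rw [normHom_apply]
  have h : ∀ i, t^[i] (divHom t x) = t^[i + 1] x / t^[i] x := by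
    intro i
    rw [divHom_apply, iterate_map_div, ← Function.iterate_succ_apply]
  simp only [h]
  rw [Finset.prod_range_div (fun i => t^[i] x), ht]
  simp

theorem map_normHom_self {t : X →* X} {n : ℕ} (ht : ∀ x, t^[n] x = x) (x : X) :
    t (normHom t n x) = normHom t n x := by
  rw [normHom_apply, map_prod]
  have h1 := Finset.prod_range_succ (fun i => t^[i] x) n
  have h2 := Finset.prod_range_succ' (fun i => t^[i] x) n
  simp only [ht, Function.iterate_zero, id] at h1 h2
  have h3 : ∀ i, t (t^[i] x) = t^[i + 1] x := fun i => (Function.iterate_succ_apply' _ _ _).symm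
  simp only [h3]
  exact mul_right_cancel (h2.symm.trans h1)

theorem divHom_normHom {t : X →* X} {n : ℕ} (ht : ∀ x, t^[n] x = x) (x : X) :
    divHom t (normHom t n x) = 1 := by
  rw [divHom_apply, map_normHom_self ht, div_self']

variable {I : Type*} [CommGroup I]

theorem map_iterate {t : X →* X} {tI : I →* I} (d : X →* I) (hd : ∀ x, d (t x) = tI (d x))
    (i : ℕ) (x : X) : d (t^[i] x) = tI^[i] (d x) := by
  induction i generalizing x with
  | zero => rfl
  | succ k ih => rw [Function.iterate_succ_apply, Function.iterate_succ_apply, ih, hd]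

theorem map_normHom {t : X →* X} {tI : I →* I} (d : X →* I) (hd : ∀ x, d (t x) = tI (d x))
    (n : ℕ) (x : X) : d (normHom t n x) = normHom tI n (d x) := by
  simp [normHom_apply, map_prod, map_iterate d hd]

theorem map_divHom {t : X →* X} {tI : I →* I} (d : X →* I) (hd : ∀ x, d (t x) = tI (d x))
    (x : X) : d (divHom t x) = divHom tI (d x) := by
  simp [divHom_apply, map_div, hd]

end Defs

section Index

/-- The one index lemma: if `φ g ∈ T → π g ∈ S` then `[π G : S ∩ π G]` divides
`[φ G : T ∩ φ G]`. -/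
theorem relIndex_range_dvd {G A B : Type*} [Group G] [Group A] [Group B] (π : G →* A)
    (φ : G →* B) (S : Subgroup A) (T : Subgroup B) (h : ∀ g, φ g ∈ T → π g ∈ S) :
    S.relIndex π.range ∣ T.relIndex φ.range := by
  rw [← Subgroup.index_comap, ← Subgroup.index_comap]
  exact Subgroup.index_dvd_of_le (fun g hg => h g hg)

theorem relIndex_map_dvd {G A B : Type*} [Group G] [Group A] [Group B] (G₀ : Subgroup G)
    (π : G →* A) (φ : G →* B) (S : Subgroup A) (T : Subgroup B)
    (h : ∀ g ∈ G₀, φ g ∈ T → π g ∈ S) :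
    S.relIndex (G₀.map π) ∣ T.relIndex (G₀.map φ) := by
  have := relIndex_range_dvd (π.comp G₀.subtype) (φ.comp G₀.subtype) S T
    (fun g hg => h g g.2 hg)
  rwa [← MonoidHom.map_range, ← MonoidHom.map_range, Subgroup.range_subtype] at this

theorem relIndex_dvd_of_le_right' {G : Type*} [CommGroup G] (H : Subgroup G) {K L : Subgroup G}
    (hKL : K ≤ L) : H.relIndex K ∣ H.relIndex L := by
  have h1 : (H ⊓ L).relIndex K = H.relIndex K := by
    rw [← Subgroup.inf_relIndex_right (H ⊓ L) K, inf_assoc, inf_of_le_right hKL,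
      Subgroup.inf_relIndex_right]
  have h2 := Subgroup.relIndex_mul_relIndex (H ⊓ L) (K ⊔ (H ⊓ L)) L le_sup_right
    (sup_le hKL inf_le_right)
  rw [Subgroup.relIndex_sup_right, h1, Subgroup.inf_relIndex_right] at h2
  exact Dvd.intro _ h2

/-- For a finite commutative group and endomorphisms `f`, `g` with `f ∘ g = g ∘ f = 1`:
`[ker g : im f] = [ker f : im g]`. -/
theorem relIndex_range_ker_eq {M : Type*} [CommGroup M] [Finite M] (f g : M →* M)
    (hfg : ∀ x, f (g x) = 1) (hgf : ∀ x, g (f x) = 1) :
    f.range.relIndex g.ker = g.range.relIndex f.ker := by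
  have h1 : Nat.card f.range * f.range.relIndex g.ker = Nat.card g.ker := by
    rw [← Subgroup.relIndex_bot_left, ← Subgroup.relIndex_bot_left]
    exact Subgroup.relIndex_mul_relIndex ⊥ f.range g.ker bot_le
      (by rintro _ ⟨x, rfl⟩; exact hgf x)
  have h2 : Nat.card g.range * g.range.relIndex f.ker = Nat.card f.ker := by
    rw [← Subgroup.relIndex_bot_left, ← Subgroup.relIndex_bot_left]
    exact Subgroup.relIndex_mul_relIndex ⊥ g.range f.ker bot_le
      (by rintro _ ⟨x, rfl⟩; exact hfg x)
  have h3 : Nat.card f.ker * Nat.card f.range = Nat.card M := by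
    rw [← Subgroup.index_ker]; exact Subgroup.card_mul_index _
  have h4 : Nat.card g.ker * Nat.card g.range = Nat.card M := by
    rw [← Subgroup.index_ker]; exact Subgroup.card_mul_index _
  have hf0 : Nat.card f.range ≠ 0 := Nat.card_pos.ne'
  have hg0 : Nat.card g.range ≠ 0 := Nat.card_pos.ne'
  have key : Nat.card f.range * Nat.card g.range * f.range.relIndex g.ker =
      Nat.card f.range * Nat.card g.range * g.range.relIndex f.ker := by
    calc Nat.card f.range * Nat.card g.range * f.range.relIndex g.ker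
        = (Nat.card f.range * f.range.relIndex g.ker) * Nat.card g.range := by ring
      _ = Nat.card M := by rw [h1, h4]
      _ = (Nat.card g.range * g.range.relIndex f.ker) * Nat.card f.range := by rw [h2, h3]
      _ = _ := by ring
  exact Nat.eq_of_mul_eq_mul_left (Nat.pos_of_ne_zero (mul_ne_zero hf0 hg0)) key

/-- The same for endomorphisms of `I` stabilising a subgroup `P` of finite index, read in
`I / P`. -/
theorem relIndex_sup_range_comap_eq {I : Type*} [CommGroup I] (P : Subgroup I)
    (hP : P.index ≠ 0) (f g : I →* I) (hf : P ≤ P.comap f) (hg : P ≤ P.comap g)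
    (hfg : ∀ x, f (g x) = 1) (hgf : ∀ x, g (f x) = 1) :
    (P ⊔ f.range).relIndex (P.comap g) = (P ⊔ g.range).relIndex (P.comap f) := by
  have : Finite (I ⧸ P) := Nat.finite_of_card_ne_zero hP
  have hq : Function.Surjective (QuotientGroup.mk' P) := QuotientGroup.mk'_surjective P
  have key := relIndex_range_ker_eq (QuotientGroup.map P P f hf) (QuotientGroup.map P P g hg)
    (by
      intro x
      obtain ⟨y, rfl⟩ := hq x
      simp [hfg])
    (by
      intro x
      obtain ⟨y, rfl⟩ := hq x
      simp [hgf])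
  have e1 : ∀ (a : I →* I) (ha : P ≤ P.comap a),
      P.comap a = (QuotientGroup.map P P a ha).ker.comap (QuotientGroup.mk' P) := by
    intro a ha
    ext x
    simp [MonoidHom.mem_ker]
  have e2 : ∀ (a : I →* I) (ha : P ≤ P.comap a),
      P ⊔ a.range = (QuotientGroup.map P P a ha).range.comap (QuotientGroup.mk' P) := by
    intro a ha
    ext x
    rw [Subgroup.mem_comap, MonoidHom.mem_range, Subgroup.mem_sup]
    constructor
    · rintro ⟨y, hy, _, ⟨z, rfl⟩, rfl⟩
      refine ⟨QuotientGroup.mk' P z, ?_⟩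
      rw [QuotientGroup.mk'_apply, QuotientGroup.map_mk, QuotientGroup.mk'_apply, eq_comm,
        QuotientGroup.eq]
      simpa using P.inv_mem hy
    · rintro ⟨w, hw⟩
      obtain ⟨z, rfl⟩ := hq w
      rw [QuotientGroup.mk'_apply, QuotientGroup.map_mk, QuotientGroup.mk'_apply,
        QuotientGroup.eq] at hw
      exact ⟨x * (a z)⁻¹, by rw [mul_comm]; exact hw, a z, ⟨z, rfl⟩, by simp⟩
  rw [e1 g hg, e2 f hf, e1 f hf, e2 g hg, Subgroup.relIndex_comap, Subgroup.relIndex_comap,
    Subgroup.map_comap_eq_self_of_surjective hq, Subgroup.map_comap_eq_self_of_surjective hq]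
  exact key

end Index

/-- **First inequality, abstract form.** -/
theorem exists_fixed_not_mem_norm {X I : Type*} [CommGroup X] [CommGroup I]
    (p : ℕ) (hp : p.Prime) (τ : X →* X) (τI : I →* I)
    (hτ : ∀ x, τ^[p] x = x) (hτI : ∀ A, τI^[p] A = A)
    (d : X →* I) (hd : ∀ x, d (τ x) = τI (d x))
    (h90 : ∀ x : X, normHom τ p x = 1 → ∃ z : X, x = τ z / z)
    (hfin : d.range.index ≠ 0)
    (hU : (d.ker.map (divHom τ)).relIndex (d.ker ⊓ (normHom τ p).ker) =
      p * (d.ker.map (normHom τ p)).relIndex (d.ker ⊓ (divHom τ).ker))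
    (hU0 : (d.ker.map (normHom τ p)).relIndex (d.ker ⊓ (divHom τ).ker) ≠ 0) :
    ∃ A : I, τI A = A ∧ ∀ (x : X) (B : I), τ x = x → A ≠ d x * normHom τI p B := by
  by_contra hcon
  push Not at hcon
  -- `S = d (X^τ)`, `Bcap = d X ∩ I^τ`
  have step1 : ((divHom τ).ker.map d).relIndex (d.range ⊓ (divHom τI).ker) ∣
      (d.range ⊔ (divHom τI).range).relIndex (d.range.comap (normHom τI p)) := by
    have hB : d.range ⊓ (divHom τI).ker =
        (divHom τ).ker.map d ⊔ (d.range.comap (normHom τI p)).map (normHom τI p) := by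
      apply le_antisymm
      · rintro b ⟨hbP, hbf⟩
        obtain ⟨x, B, hx, hb⟩ := hcon b (mem_ker_divHom.mp hbf)
        rw [Subgroup.mem_sup]
        refine ⟨d x, ⟨x, mem_ker_divHom.mpr hx, rfl⟩, normHom τI p B, ⟨B, ?_, rfl⟩, hb.symm⟩
        show normHom τI p B ∈ d.range
        have h : normHom τI p B = b / d x := by rw [hb]; simp
        rw [h]
        exact d.range.div_mem hbP ⟨x, rfl⟩
      · apply sup_le
        · rintro _ ⟨x, hx, rfl⟩
          refine ⟨⟨x, rfl⟩, ?_⟩
          rw [SetLike.mem_coe, mem_ker_divHom] at hx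
          show d x ∈ (divHom τI).ker
          rw [mem_ker_divHom, ← hd, hx]
        · rintro _ ⟨B, _, rfl⟩
          exact ⟨by assumption, mem_ker_divHom.mpr (map_normHom_self hτI B)⟩
    have h := relIndex_map_dvd (d.range.comap (normHom τI p)) (normHom τI p) (MonoidHom.id I)
      ((divHom τ).ker.map d) (d.range ⊔ (divHom τI).range) (by
        intro A _ hA'
        rw [MonoidHom.id_apply, Subgroup.mem_sup] at hA'
        obtain ⟨_, ⟨y, rfl⟩, _, ⟨B, rfl⟩, rfl⟩ := hA'
        refine ⟨normHom τ p y, mem_ker_divHom.mpr (map_normHom_self hτ y), ?_⟩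
        rw [map_mul, normHom_divHom hτI, mul_one, map_normHom d hd])
    rw [Subgroup.map_id] at h
    rw [hB, Subgroup.relIndex_sup_left]
    exact h
  have step2 : (d.range ⊔ (divHom τI).range).relIndex (d.range.comap (normHom τI p)) =
      (d.range ⊔ (normHom τI p).range).relIndex (d.range.comap (divHom τI)) :=
    relIndex_sup_range_comap_eq d.range hfin (divHom τI) (normHom τI p)
      (by rintro _ ⟨y, rfl⟩; exact ⟨divHom τ y, map_divHom d hd y⟩)
      (by rintro _ ⟨y, rfl⟩; exact ⟨normHom τ p y, map_normHom d hd p y⟩)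
      (fun x => divHom_normHom hτI x) (fun x => normHom_divHom hτI x)
  have step3 : (d.range ⊔ (normHom τI p).range).relIndex (d.range.comap (divHom τI)) ∣
      (d.ker.map (normHom τ p)).relIndex (d.ker ⊓ (divHom τ).ker) := by
    let G₃ : Subgroup (I × X) :=
      (((divHom τI).comp (MonoidHom.fst I X)) / (d.comp (MonoidHom.snd I X))).ker
    have hG₃ : ∀ a : I × X, a ∈ G₃ ↔ divHom τI a.1 = d a.2 := by
      intro a
      simp [G₃, MonoidHom.mem_ker, div_eq_one]
    have hmap1 : G₃.map (MonoidHom.fst I X) = d.range.comap (divHom τI) := by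
      ext A
      constructor
      · rintro ⟨a, ha, rfl⟩
        exact ⟨a.2, ((hG₃ a).mp ha).symm⟩
      · rintro ⟨y, hy⟩
        exact ⟨(A, y), (hG₃ _).mpr hy.symm, rfl⟩
    have hdvd := relIndex_map_dvd G₃ (MonoidHom.fst I X)
      ((normHom τ p).comp (MonoidHom.snd I X)) (d.range ⊔ (normHom τI p).range)
      (d.ker.map (normHom τ p)) (by
        rintro ⟨A, y⟩ ha ⟨u, hu, hNu⟩
        have hAy : divHom τI A = d y := (hG₃ _).mp ha
        have hu1 : d u = 1 := hu
        have hNu' : normHom τ p u = normHom τ p y := hNu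
        obtain ⟨z, hz⟩ := h90 (y / u) (by rw [map_div, hNu', div_self'])
        have hfix : τI (A / d z) = A / d z := by
          have h1 : τI A = d y * A := by
            rw [← hAy, divHom_apply, div_mul_cancel]
          have h2 : τI (d z) = d y * d z := by
            have h3 : τ z = y / u * z := by rw [hz, div_mul_cancel]
            rw [← hd, h3, map_mul, map_div, hu1, div_one]
          rw [map_div, h1, h2, mul_div_mul_left_eq_div]
        obtain ⟨x, B, _, hAB⟩ := hcon _ hfix
        show A ∈ d.range ⊔ (normHom τI p).range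
        rw [Subgroup.mem_sup]
        refine ⟨d (z * x), ⟨_, rfl⟩, normHom τI p B, ⟨B, rfl⟩, ?_⟩
        rw [map_mul, mul_assoc, ← hAB]
        simp)
    rw [hmap1] at hdvd
    refine hdvd.trans (relIndex_dvd_of_le_right' _ ?_)
    rintro _ ⟨a, ha, rfl⟩
    refine ⟨?_, mem_ker_divHom.mpr (map_normHom_self hτ a.2)⟩
    show d (normHom τ p a.2) = 1
    rw [map_normHom d hd, ← (hG₃ a).mp ha, normHom_divHom hτI]
  have step5 : (d.ker.map (divHom τ)).relIndex (d.ker ⊓ (normHom τ p).ker) ∣
      ((divHom τ).ker.map d).relIndex (d.range ⊓ (divHom τI).ker) := by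
    let G₅ : Subgroup (X × X) :=
      (d.ker.comap (MonoidHom.fst X X)) ⊓
        (((divHom τ).comp (MonoidHom.snd X X)) / (MonoidHom.fst X X)).ker
    have hG₅ : ∀ a : X × X, a ∈ G₅ ↔ d a.1 = 1 ∧ divHom τ a.2 = a.1 := by
      intro a
      simp [G₅, MonoidHom.mem_ker, div_eq_one]
    have hmap1 : G₅.map (MonoidHom.fst X X) = d.ker ⊓ (normHom τ p).ker := by
      ext u
      constructor
      · rintro ⟨a, ha, rfl⟩
        obtain ⟨h1, h2⟩ := (hG₅ a).mp ha
        refine ⟨h1, ?_⟩
        show normHom τ p a.1 = 1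
        rw [← h2, normHom_divHom hτ]
      · rintro ⟨hu, hNu⟩
        obtain ⟨z, hz⟩ := h90 u hNu
        exact ⟨(u, z), (hG₅ _).mpr ⟨hu, hz.symm⟩, rfl⟩
    have hdvd := relIndex_map_dvd G₅ (MonoidHom.fst X X) (d.comp (MonoidHom.snd X X))
      (d.ker.map (divHom τ)) ((divHom τ).ker.map d) (by
        rintro ⟨u, z⟩ ha ⟨x, hx, hxz⟩
        obtain ⟨_, h2⟩ := (hG₅ _).mp ha
        have hxz' : d x = d z := hxz
        have hx' : divHom τ x = 1 := hx
        refine ⟨z / x, ?_, ?_⟩
        · show d (z / x) = 1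
          rw [map_div, hxz', div_self']
        · show divHom τ (z / x) = u
          rw [map_div, hx', div_one]
          exact h2)
    rw [hmap1] at hdvd
    refine hdvd.trans (relIndex_dvd_of_le_right' _ ?_)
    rintro _ ⟨a, ha, rfl⟩
    obtain ⟨h1, h2⟩ := (hG₅ a).mp ha
    refine ⟨⟨a.2, rfl⟩, ?_⟩
    show divHom τI (d a.2) = 1
    rw [← map_divHom d hd, h2, h1]
  have hdvd : p * (d.ker.map (normHom τ p)).relIndex (d.ker ⊓ (divHom τ).ker) ∣
      1 * (d.ker.map (normHom τ p)).relIndex (d.ker ⊓ (divHom τ).ker) := by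
    rw [← hU, one_mul]
    exact step5.trans (step1.trans (step2 ▸ step3))
  have hp1 : p ∣ 1 := Nat.dvd_of_mul_dvd_mul_right (Nat.pos_of_ne_zero hU0) hdvd
  exact hp.one_lt.ne' (Nat.dvd_one.mp hp1)

end Fermat.Agent.S14.FIAbs
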