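import Mathlib
import Fermat.Agent.S14.FIAbs

/-!
# The first inequality: instantiation for number fields (stream C of S14)

`X = Lˣ`, `I = (FractionalIdeal (𝓞 L)⁰ L)ˣ`, `d = toPrincipalIdeal (𝓞 L) L`, `τ = tauX σ`,
`τI = tauI σ` for a generator `σ` of `Gal(L/K)`, `[L : K] = p` prime.  The unit Herbrand
quotient enters as an explicit hypothesis on two endomorphisms `Nm`, `D` of `(𝓞 L)ˣ`.

Main results: `exists_fixed_fractionalIdeal` and the integral form `exists_stable_ideal`.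
-/

set_option linter.unusedSectionVars false

namespace Fermat.Agent.S14.FIInst

open NumberField FractionalIdeal nonZeroDivisors Pointwise
open Fermat.Agent.S14.FIAbs
variable {K L : Type} [Field K] [NumberField K] [Field L] [NumberField L] [Algebra K L]

/-- The restriction of `σ` to `𝓞 L`. -/
noncomputable def sigO (σ : L ≃ₐ[K] L) : 𝓞 L ≃+* 𝓞 L :=
  MulSemiringAction.toRingEquiv (L ≃ₐ[K] L) (𝓞 L) σ

theorem coe_sigO (σ : L ≃ₐ[K] L) (x : 𝓞 L) : ((sigO σ x : 𝓞 L) : L) = σ (x : L) := rfl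

theorem coe_sigO_symm (σ : L ≃ₐ[K] L) (x : 𝓞 L) :
    (((sigO σ).symm x : 𝓞 L) : L) = σ.symm (x : L) := rfl

/-- The action of `σ` on fractional ideals. -/
noncomputable def tauF (σ : L ≃ₐ[K] L) :
    FractionalIdeal (𝓞 L)⁰ L ≃+* FractionalIdeal (𝓞 L)⁰ L :=
  FractionalIdeal.ringEquivOfRingEquiv L L (sigO σ)

theorem fracMap_eq (σ : L ≃ₐ[K] L) (x : L) :
    IsFractionRing.ringEquivOfRingEquiv (K := L) (L := L) (sigO σ) x = σ x := by
  have h : (IsFractionRing.ringEquivOfRingEquiv (K := L) (L := L) (sigO σ) : L →+* L) =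
      (σ : L →+* L) := by
    apply IsLocalization.ringHom_ext (𝓞 L)⁰
    ext a
    simp [coe_sigO]
  exact congrArg (fun f : L →+* L => f x) h

theorem fracMap_symm_eq (σ : L ≃ₐ[K] L) (x : L) :
    IsFractionRing.ringEquivOfRingEquiv (K := L) (L := L) (sigO σ).symm x = σ.symm x := by
  have h : (IsFractionRing.ringEquivOfRingEquiv (K := L) (L := L) (sigO σ).symm : L →+* L) =
      (σ.symm : L →+* L) := by
    apply IsLocalization.ringHom_ext (𝓞 L)⁰
    ext a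
    simp [coe_sigO_symm]
  exact congrArg (fun f : L →+* L => f x) h

theorem mem_tauF_iff (σ : L ≃ₐ[K] L) (A : FractionalIdeal (𝓞 L)⁰ L) (x : L) :
    x ∈ tauF σ A ↔ σ.symm x ∈ A := by
  rw [tauF, ← FractionalIdeal.mem_coe, ← FractionalIdeal.val_eq_coe,
    FractionalIdeal.ringEquivOfRingEquiv_apply_val, Submodule.mem_map]
  constructor
  · rintro ⟨y, hy, rfl⟩
    change σ.symm (IsFractionRing.ringEquivOfRingEquiv (K := L) (L := L) (sigO σ) y) ∈ A
    rw [fracMap_eq, AlgEquiv.symm_apply_apply]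
    exact hy
  · intro hx
    refine ⟨σ.symm x, hx, ?_⟩
    change IsFractionRing.ringEquivOfRingEquiv (K := L) (L := L) (sigO σ) (σ.symm x) = x
    rw [fracMap_eq, AlgEquiv.apply_symm_apply]

/-- The action of `σ` on invertible fractional ideals. -/
noncomputable def tauI (σ : L ≃ₐ[K] L) :
    (FractionalIdeal (𝓞 L)⁰ L)ˣ →* (FractionalIdeal (𝓞 L)⁰ L)ˣ :=
  Units.map (tauF σ : FractionalIdeal (𝓞 L)⁰ L →* FractionalIdeal (𝓞 L)⁰ L)

theorem coe_tauI (σ : L ≃ₐ[K] L) (A : (FractionalIdeal (𝓞 L)⁰ L)ˣ) :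
    ((tauI σ A : (FractionalIdeal (𝓞 L)⁰ L)ˣ) : FractionalIdeal (𝓞 L)⁰ L) = tauF σ A := rfl

/-- The action of `σ` on `Lˣ`. -/
noncomputable def tauX (σ : L ≃ₐ[K] L) : Lˣ →* Lˣ := Units.map (σ : L →* L)

theorem coe_tauX (σ : L ≃ₐ[K] L) (x : Lˣ) : ((tauX σ x : Lˣ) : L) = σ (x : L) := rfl

theorem coe_tauX_iterate (σ : L ≃ₐ[K] L) (n : ℕ) (x : Lˣ) :
    (((tauX σ)^[n] x : Lˣ) : L) = (σ ^ n) (x : L) := by
  induction n generalizing x with
  | zero => rfl
  | succ k ih => rw [Function.iterate_succ_apply', coe_tauX, ih, pow_succ', AlgEquiv.mul_apply]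

theorem mem_tauI_iterate_iff (σ : L ≃ₐ[K] L) (n : ℕ) (A : (FractionalIdeal (𝓞 L)⁰ L)ˣ) (x : L) :
    x ∈ (((tauI σ)^[n] A : (FractionalIdeal (𝓞 L)⁰ L)ˣ) : FractionalIdeal (𝓞 L)⁰ L) ↔
      (σ ^ n).symm x ∈ (A : FractionalIdeal (𝓞 L)⁰ L) := by
  induction n generalizing x with
  | zero => rfl
  | succ k ih =>
    rw [Function.iterate_succ_apply', coe_tauI, mem_tauF_iff, ih]
    have : (σ ^ k).symm (σ.symm x) = (σ ^ (k + 1)).symm x := by
      apply (σ ^ (k + 1)).injective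
      rw [AlgEquiv.apply_symm_apply, pow_succ', AlgEquiv.mul_apply, AlgEquiv.apply_symm_apply,
        AlgEquiv.apply_symm_apply]
    rw [this]

theorem tauI_toPrincipalIdeal (σ : L ≃ₐ[K] L) (x : Lˣ) :
    toPrincipalIdeal (𝓞 L) L (tauX σ x) = tauI σ (toPrincipalIdeal (𝓞 L) L x) := by
  rw [toPrincipalIdeal_eq_iff, coe_tauI, coe_toPrincipalIdeal, tauF,
    FractionalIdeal.ringEquivOfRingEquiv_spanSingleton, fracMap_eq, coe_tauX]

section Galois

theorem image_pow_range_eq_univ {G : Type*} [Group G] [Fintype G] [DecidableEq G] {p : ℕ}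
    (hp : p.Prime) (hcard : Nat.card G = p) (σ : G) (hσ : σ ≠ 1) :
    Set.InjOn (fun i : ℕ => σ ^ i) (Finset.range p : Set ℕ) ∧
      (Finset.range p).image (fun i => σ ^ i) = Finset.univ := by
  have hord : orderOf σ = p := by
    have := Fact.mk hp
    exact orderOf_eq_prime (by rw [← hcard]; exact pow_card_eq_one') hσ
  have hinj : Set.InjOn (fun i : ℕ => σ ^ i) (Finset.range p : Set ℕ) := by
    rw [Finset.coe_range, ← hord]; exact pow_injOn_Iio_orderOf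
  refine ⟨hinj, ?_⟩
  apply Finset.eq_univ_of_card
  rw [Finset.card_image_of_injOn hinj, Finset.card_range, ← hcard, Nat.card_eq_fintype_card]

theorem prod_univ_eq_prod_range_pow {G M : Type*} [Group G] [Fintype G] [CommMonoid M] {p : ℕ}
    (hp : p.Prime) (hcard : Nat.card G = p) (σ : G) (hσ : σ ≠ 1) (f : G → M) :
    ∏ s : G, f s = ∏ i ∈ Finset.range p, f (σ ^ i) := by
  classical
  obtain ⟨hinj, himg⟩ := image_pow_range_eq_univ hp hcard σ hσ
  rw [← himg, Finset.prod_image hinj]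

theorem exists_pow_eq {G : Type*} [Group G] [Finite G] {p : ℕ}
    (hp : p.Prime) (hcard : Nat.card G = p) (σ : G) (hσ : σ ≠ 1) (s : G) : ∃ i : ℕ, σ ^ i = s := by
  classical
  have := Fintype.ofFinite G
  obtain ⟨_, himg⟩ := image_pow_range_eq_univ hp hcard σ hσ
  have hs : s ∈ (Finset.range p).image (fun i => σ ^ i) := himg ▸ Finset.mem_univ s
  obtain ⟨i, _, hi⟩ := Finset.mem_image.mp hs
  exact ⟨i, hi⟩

end Galois

theorem coe_normHom_tauX (σ : L ≃ₐ[K] L) (n : ℕ) (x : Lˣ) :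
    ((normHom (tauX σ) n x : Lˣ) : L) = ∏ i ∈ Finset.range n, (σ ^ i) (x : L) := by
  rw [FIAbs.normHom_apply, Units.coe_prod]
  exact Finset.prod_congr rfl (fun i _ => coe_tauX_iterate σ i x)

theorem coe_divHom_tauX (σ : L ≃ₐ[K] L) (x : Lˣ) :
    ((divHom (tauX σ) x : Lˣ) : L) = σ (x : L) / (x : L) := by
  rw [FIAbs.divHom_apply, Units.val_div_eq_div_val, coe_tauX]

theorem hilbert90 [IsGalois K L] {p : ℕ} (hp : p.Prime) (hdeg : Module.finrank K L = p)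
    (σ : L ≃ₐ[K] L) (hσ : σ ≠ 1) (x : Lˣ) (hx : normHom (tauX σ) p x = 1) :
    ∃ z : Lˣ, x = tauX σ z / z := by
  have := Fact.mk hp
  have hcard : Nat.card (L ≃ₐ[K] L) = p := (IsGalois.card_aut_eq_finrank K L).trans hdeg
  have : IsCyclic (L ≃ₐ[K] L) := isCyclic_of_prime_card hcard
  have hgen : ∀ s : L ≃ₐ[K] L, s ∈ Subgroup.zpowers σ := by
    intro s
    rw [zpowers_eq_top_of_prime_card hcard hσ]
    exact Subgroup.mem_top s
  have hnorm : Algebra.norm K (x : L) = 1 := by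
    apply (algebraMap K L).injective
    rw [Algebra.norm_eq_prod_automorphisms, map_one,
      prod_univ_eq_prod_range_pow hp hcard σ hσ, ← coe_normHom_tauX, hx, Units.val_one]
  obtain ⟨y, hy⟩ := groupCohomology.exists_div_of_norm_eq_one hgen hnorm
  refine ⟨y⁻¹, Units.ext ?_⟩
  rw [← hy, Units.val_div_eq_div_val, coe_tauX, Units.val_inv_eq_inv_val, map_inv₀,
    inv_div_inv]

theorem index_range_ne_zero : (toPrincipalIdeal (𝓞 L) L).range.index ≠ 0 := by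
  rw [Subgroup.index, ← Nat.card_congr (ClassGroup.equiv (R := 𝓞 L) L).toEquiv]
  exact Nat.card_pos.ne'

/-- The inclusion `(𝓞 L)ˣ → Lˣ`. -/
noncomputable def unitsInc : (𝓞 L)ˣ →* Lˣ := Units.map (algebraMap (𝓞 L) L : 𝓞 L →* L)

theorem coe_unitsInc (u : (𝓞 L)ˣ) : ((unitsInc u : Lˣ) : L) = ((u : 𝓞 L) : L) := rfl

theorem unitsInc_injective : Function.Injective (unitsInc (L := L)) :=
  Units.map_injective RingOfIntegers.coe_injective

theorem range_unitsInc : (unitsInc (L := L)).range = (toPrincipalIdeal (𝓞 L) L).ker := by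
  ext x
  rw [MonoidHom.mem_ker, MonoidHom.mem_range, toPrincipalIdeal_eq_iff, Units.val_one]
  constructor
  · rintro ⟨u, rfl⟩
    rw [coe_unitsInc, ← FractionalIdeal.coeIdeal_span_singleton,
      Ideal.span_singleton_eq_top.mpr u.isUnit, FractionalIdeal.coeIdeal_top]
  · intro h
    have h1 : (x : L) ∈ (1 : FractionalIdeal (𝓞 L)⁰ L) :=
      h ▸ FractionalIdeal.mem_spanSingleton_self _ _
    have h2 : (1 : L) ∈ spanSingleton (𝓞 L)⁰ (x : L) := h ▸ FractionalIdeal.one_mem_one _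
    obtain ⟨a, ha⟩ := (FractionalIdeal.mem_one_iff _).mp h1
    obtain ⟨b, hb⟩ := (FractionalIdeal.mem_spanSingleton _).mp h2
    have hba : b * a = 1 := by
      apply RingOfIntegers.coe_injective
      rw [map_mul, map_one, ha, ← hb, Algebra.smul_def]
    exact ⟨⟨a, b, by rw [mul_comm]; exact hba, hba⟩, Units.ext ha⟩

theorem relIndex_units_transport {U X : Type*} [CommGroup U] [CommGroup X] (ι : U →* X)
    (hι : Function.Injective ι) (E : Subgroup X) (hE : ι.range = E) (a b : U →* U)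
    (a' b' : X →* X) (ha : ∀ u, ι (a u) = a' (ι u)) (hb : ∀ u, ι (b u) = b' (ι u)) :
    (E.map a').relIndex (E ⊓ b'.ker) = a.range.relIndex b.ker := by
  have h1 : E.map a' = a.range.map ι := by
    rw [← hE, MonoidHom.map_range, MonoidHom.map_range]
    congr 1
    ext u
    exact (ha u).symm
  have h2 : E ⊓ b'.ker = b.ker.map ι := by
    ext x
    constructor
    · rintro ⟨hx, hbx⟩
      rw [SetLike.mem_coe, ← hE] at hx
      obtain ⟨u, rfl⟩ := hx
      refine ⟨u, ?_, rfl⟩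
      rw [SetLike.mem_coe, MonoidHom.mem_ker]
      apply hι
      rw [hb, map_one]
      exact hbx
    · rintro ⟨u, hu, rfl⟩
      refine ⟨hE ▸ ⟨u, rfl⟩, ?_⟩
      rw [SetLike.mem_coe, MonoidHom.mem_ker] at hu
      show ι u ∈ b'.ker
      rw [MonoidHom.mem_ker, ← hb, hu, map_one]
  rw [h1, h2, Subgroup.relIndex_map_map_of_injective _ _ hι]

/-- **First inequality, fractional ideal form.**  The hypotheses `hNm`, `hD`, `hU`, `hU0`
are the unit Herbrand quotient (`h(E_L) = 1/p`). -/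
theorem exists_fixed_fractionalIdeal [IsGalois K L] (p : ℕ) (hp : p.Prime)
    (hdeg : Module.finrank K L = p) (σ : L ≃ₐ[K] L) (hσ : σ ≠ 1)
    (Nm D : (𝓞 L)ˣ →* (𝓞 L)ˣ)
    (hNm : ∀ u : (𝓞 L)ˣ, (((Nm u : (𝓞 L)ˣ) : 𝓞 L) : L) =
      ∏ i ∈ Finset.range p, (σ ^ i) (((u : (𝓞 L)ˣ) : 𝓞 L) : L))
    (hD : ∀ u : (𝓞 L)ˣ, (((D u : (𝓞 L)ˣ) : 𝓞 L) : L) =
      σ (((u : (𝓞 L)ˣ) : 𝓞 L) : L) / (((u : (𝓞 L)ˣ) : 𝓞 L) : L))
    (hU : D.range.relIndex Nm.ker = p * Nm.range.relIndex D.ker)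
    (hU0 : Nm.range.relIndex D.ker ≠ 0) :
    ∃ A : (FractionalIdeal (𝓞 L)⁰ L)ˣ, tauI σ A = A ∧
      ∀ (x : Lˣ) (B : (FractionalIdeal (𝓞 L)⁰ L)ˣ), tauX σ x = x →
        A ≠ toPrincipalIdeal (𝓞 L) L x * normHom (tauI σ) p B := by
  have hcard : Nat.card (L ≃ₐ[K] L) = p := (IsGalois.card_aut_eq_finrank K L).trans hdeg
  have hσp : σ ^ p = 1 := by rw [← hcard]; exact pow_card_eq_one'
  have hNm' : ∀ u, unitsInc (Nm u) = normHom (tauX σ) p (unitsInc u) := by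
    intro u
    apply Units.ext
    rw [coe_unitsInc, hNm, coe_normHom_tauX, coe_unitsInc]
  have hD' : ∀ u, unitsInc (D u) = divHom (tauX σ) (unitsInc u) := by
    intro u
    apply Units.ext
    rw [coe_unitsInc, hD, coe_divHom_tauX, coe_unitsInc]
  have e1 := relIndex_units_transport unitsInc unitsInc_injective _ (range_unitsInc (L := L))
    D Nm (divHom (tauX σ)) (normHom (tauX σ) p) hD' hNm'
  have e2 := relIndex_units_transport unitsInc unitsInc_injective _ (range_unitsInc (L := L))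
    Nm D (normHom (tauX σ) p) (divHom (tauX σ)) hNm' hD'
  refine exists_fixed_not_mem_norm p hp (tauX σ) (tauI σ) ?_ ?_ (toPrincipalIdeal (𝓞 L) L)
    (tauI_toPrincipalIdeal σ) (hilbert90 hp hdeg σ hσ) index_range_ne_zero ?_ ?_
  · intro x
    apply Units.ext
    rw [coe_tauX_iterate, hσp]
    rfl
  · intro A
    apply Units.ext
    ext y
    rw [mem_tauI_iterate_iff, hσp]
    rfl
  · rw [e1, e2]
    exact hU
  · rw [e2]
    exact hU0

theorem mem_tauF_iterate_iff (σ : L ≃ₐ[K] L) (n : ℕ) (A : FractionalIdeal (𝓞 L)⁰ L) (x : L) :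
    x ∈ (tauF σ)^[n] A ↔ x ∈ tauF (σ ^ n) A := by
  induction n generalizing x with
  | zero => rw [Function.iterate_zero, id, mem_tauF_iff, pow_zero]; rfl
  | succ k ih =>
    rw [Function.iterate_succ_apply', mem_tauF_iff, ih, mem_tauF_iff, mem_tauF_iff]
    have : (σ ^ k).symm (σ.symm x) = (σ ^ (k + 1)).symm x := by
      apply (σ ^ (k + 1)).injective
      rw [AlgEquiv.apply_symm_apply, pow_succ', AlgEquiv.mul_apply, AlgEquiv.apply_symm_apply,
        AlgEquiv.apply_symm_apply]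
    rw [this]

theorem tauF_coeIdeal (s : L ≃ₐ[K] L) (J : Ideal (𝓞 L)) :
    tauF s (J : FractionalIdeal (𝓞 L)⁰ L) = ((s • J : Ideal (𝓞 L)) : FractionalIdeal (𝓞 L)⁰ L) := by
  ext x
  rw [mem_tauF_iff, FractionalIdeal.mem_coeIdeal, FractionalIdeal.mem_coeIdeal]
  constructor
  · rintro ⟨j, hj, hjx⟩
    refine ⟨s • j, Ideal.smul_mem_pointwise_smul s j J hj, ?_⟩
    show s (algebraMap (𝓞 L) L j) = x
    rw [hjx, AlgEquiv.apply_symm_apply]
  · rintro ⟨j, hj, rfl⟩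
    rw [Ideal.mem_pointwise_smul_iff_inv_smul_mem] at hj
    exact ⟨s⁻¹ • j, hj, rfl⟩

theorem tauF_spanSingleton (s : L ≃ₐ[K] L) (x : L) :
    tauF s (spanSingleton (𝓞 L)⁰ x) = spanSingleton (𝓞 L)⁰ (s x) := by
  rw [tauF, FractionalIdeal.ringEquivOfRingEquiv_spanSingleton, fracMap_eq]

/-- **First inequality, integral form.**  There is a nonzero Galois-stable ideal `J` of `𝓞 L`
which is not, up to principal ideals coming from `K`, a product `∏ s, s • B` over the Galois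
group. -/
theorem exists_stable_ideal [IsGalois K L] [Fintype (L ≃ₐ[K] L)] (p : ℕ) (hp : p.Prime)
    (hdeg : Module.finrank K L = p) (σ : L ≃ₐ[K] L) (hσ : σ ≠ 1)
    (Nm D : (𝓞 L)ˣ →* (𝓞 L)ˣ)
    (hNm : ∀ u : (𝓞 L)ˣ, (((Nm u : (𝓞 L)ˣ) : 𝓞 L) : L) =
      ∏ i ∈ Finset.range p, (σ ^ i) (((u : (𝓞 L)ˣ) : 𝓞 L) : L))
    (hD : ∀ u : (𝓞 L)ˣ, (((D u : (𝓞 L)ˣ) : 𝓞 L) : L) =
      σ (((u : (𝓞 L)ˣ) : 𝓞 L) : L) / (((u : (𝓞 L)ˣ) : 𝓞 L) : L))
    (hU : D.range.relIndex Nm.ker = p * Nm.range.relIndex D.ker)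
    (hU0 : Nm.range.relIndex D.ker ≠ 0) :
    ∃ J : Ideal (𝓞 L), J ≠ ⊥ ∧ (∀ s : L ≃ₐ[K] L, s • J = J) ∧
      ∀ (x y : 𝓞 K) (B : Ideal (𝓞 L)), x ≠ 0 → y ≠ 0 → B ≠ ⊥ →
        Ideal.span {algebraMap (𝓞 K) (𝓞 L) x} * J ≠
          Ideal.span {algebraMap (𝓞 K) (𝓞 L) y} * ∏ s : L ≃ₐ[K] L, s • B := by
  have hcard : Nat.card (L ≃ₐ[K] L) = p := (IsGalois.card_aut_eq_finrank K L).trans hdeg
  obtain ⟨A, hA, hAne⟩ := exists_fixed_fractionalIdeal p hp hdeg σ hσ Nm D hNm hD hU hU0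
  obtain ⟨a, aI, ha0, hAeq⟩ :=
    FractionalIdeal.exists_eq_spanSingleton_mul (A : FractionalIdeal (𝓞 L)⁰ L)
  obtain ⟨b, hb⟩ := RingOfIntegers.dvd_norm K a
  -- the element `c = N(a) ∈ 𝓞 K`, viewed in `L`
  have hKL : ∀ k : 𝓞 K, ((algebraMap (𝓞 K) (𝓞 L) k : 𝓞 L) : L) = algebraMap K L (k : K) :=
    fun k => rfl
  have hfixK : ∀ (s : L ≃ₐ[K] L) (k : 𝓞 K),
      s ((algebraMap (𝓞 K) (𝓞 L) k : 𝓞 L) : L) = ((algebraMap (𝓞 K) (𝓞 L) k : 𝓞 L) : L) := by
    intro s k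
    rw [hKL, AlgEquiv.commutes]
  have haL : ((a : 𝓞 L) : L) ≠ 0 := fun h => ha0 (RingOfIntegers.coe_injective (by simpa using h))
  set c : 𝓞 L := algebraMap (𝓞 K) (𝓞 L) (RingOfIntegers.norm K a) with hc
  have hcab : (c : L) = (a : L) * (b : L) := by
    show algebraMap (𝓞 L) L c = algebraMap (𝓞 L) L a * algebraMap (𝓞 L) L b
    rw [hb, map_mul]
  have hc0 : (c : L) ≠ 0 := by
    rw [hc, RingOfIntegers.coe_algebraMap_norm]
    exact (_root_.map_ne_zero _).mpr (Algebra.norm_ne_zero_iff.mpr haL)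
  have hb0 : (b : L) ≠ 0 := fun h => hc0 (by rw [hcab, h, mul_zero])
  -- `J = (b) * aI`, and `↑J = (c) * A`
  have hJ : ((Ideal.span {b} * aI : Ideal (𝓞 L)) : FractionalIdeal (𝓞 L)⁰ L) =
      spanSingleton (𝓞 L)⁰ (c : L) * (A : FractionalIdeal (𝓞 L)⁰ L) := by
    rw [hAeq, ← mul_assoc, spanSingleton_mul_spanSingleton, hcab, mul_comm (a : L),
      mul_assoc, mul_inv_cancel₀ haL, mul_one, FractionalIdeal.coeIdeal_mul,
      FractionalIdeal.coeIdeal_span_singleton]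
  have hA0 : (A : FractionalIdeal (𝓞 L)⁰ L) ≠ 0 := Units.ne_zero A
  have hJ0 : (Ideal.span {b} * aI : Ideal (𝓞 L)) ≠ ⊥ := by
    rw [← FractionalIdeal.coeIdeal_ne_zero (K := L), hJ]
    exact mul_ne_zero (spanSingleton_eq_zero_iff.not.mpr hc0) hA0
  have hσJ : σ • (Ideal.span {b} * aI : Ideal (𝓞 L)) = Ideal.span {b} * aI := by
    rw [← FractionalIdeal.coeIdeal_inj (K := L), ← tauF_coeIdeal, hJ, map_mul,
      tauF_spanSingleton, hc, hfixK, ← coe_tauI, hA]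
  refine ⟨Ideal.span {b} * aI, hJ0, ?_, ?_⟩
  · intro s
    obtain ⟨i, rfl⟩ := exists_pow_eq hp hcard σ hσ s
    induction i with
    | zero => rw [pow_zero, one_smul]
    | succ k ih => rw [pow_succ, mul_smul, hσJ, ih]
  · intro x y B hx hy hB hxy
    -- pass to fractional ideals
    have hB' : B ∈ (Ideal (𝓞 L))⁰ := mem_nonZeroDivisors_of_ne_zero hB
    set B' : (FractionalIdeal (𝓞 L)⁰ L)ˣ := FractionalIdeal.mk0 L ⟨B, hB'⟩ with hB'def
    have hB'coe : (B' : FractionalIdeal (𝓞 L)⁰ L) = (B : FractionalIdeal (𝓞 L)⁰ L) :=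
      FractionalIdeal.coe_mk0 L ⟨B, hB'⟩
    have hprod : ((∏ s : L ≃ₐ[K] L, s • B : Ideal (𝓞 L)) : FractionalIdeal (𝓞 L)⁰ L) =
        ((normHom (tauI σ) p B' : (FractionalIdeal (𝓞 L)⁰ L)ˣ) :
          FractionalIdeal (𝓞 L)⁰ L) := by
      rw [FIAbs.normHom_apply, Units.coe_prod, prod_univ_eq_prod_range_pow hp hcard σ hσ]
      have h1 : ((∏ i ∈ Finset.range p, (σ ^ i) • B : Ideal (𝓞 L)) :
          FractionalIdeal (𝓞 L)⁰ L) =
          ∏ i ∈ Finset.range p, (((σ ^ i) • B : Ideal (𝓞 L)) : FractionalIdeal (𝓞 L)⁰ L) :=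
        map_prod (FractionalIdeal.coeIdealHom (𝓞 L)⁰ L) _ _
      rw [h1]
      refine Finset.prod_congr rfl (fun i _ => ?_)
      rw [← tauF_coeIdeal, ← hB'coe]
      ext z
      rw [mem_tauI_iterate_iff, mem_tauF_iff]
    have hxL : ((algebraMap (𝓞 K) (𝓞 L) x : 𝓞 L) : L) ≠ 0 := by
      rw [hKL]
      exact (_root_.map_ne_zero _).mpr (fun h => hx (RingOfIntegers.coe_injective (by simpa using h)))
    have hyL : ((algebraMap (𝓞 K) (𝓞 L) y : 𝓞 L) : L) ≠ 0 := by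
      rw [hKL]
      exact (_root_.map_ne_zero _).mpr (fun h => hy (RingOfIntegers.coe_injective (by simpa using h)))
    have key : spanSingleton (𝓞 L)⁰ ((algebraMap (𝓞 K) (𝓞 L) x : 𝓞 L) : L) *
        ((Ideal.span {b} * aI : Ideal (𝓞 L)) : FractionalIdeal (𝓞 L)⁰ L) =
        spanSingleton (𝓞 L)⁰ ((algebraMap (𝓞 K) (𝓞 L) y : 𝓞 L) : L) *
          ((∏ s : L ≃ₐ[K] L, s • B : Ideal (𝓞 L)) : FractionalIdeal (𝓞 L)⁰ L) := by
      have := congrArg (fun I : Ideal (𝓞 L) => (I : FractionalIdeal (𝓞 L)⁰ L)) hxy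
      simpa only [FractionalIdeal.coeIdeal_mul, FractionalIdeal.coeIdeal_span_singleton]
        using this
    rw [hJ, hprod, ← mul_assoc, spanSingleton_mul_spanSingleton] at key
    -- the element `z = y / (x c) ∈ Kˣ`
    set xc : L := ((algebraMap (𝓞 K) (𝓞 L) x : 𝓞 L) : L) * (c : L) with hxc
    have hxc0 : xc ≠ 0 := mul_ne_zero hxL hc0
    set z : Lˣ := Units.mk0 (((algebraMap (𝓞 K) (𝓞 L) y : 𝓞 L) : L) / xc)
      (div_ne_zero hyL hxc0) with hz
    have hzfix : tauX σ z = z := by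
      apply Units.ext
      rw [coe_tauX, hz, Units.val_mk0, map_div₀, hxc, map_mul, hfixK, hfixK, hc, hfixK]
    refine hAne z B' hzfix (Units.ext ?_)
    rw [Units.val_mul, coe_toPrincipalIdeal, hz, Units.val_mk0]
    have h2 : (A : FractionalIdeal (𝓞 L)⁰ L) =
        spanSingleton (𝓞 L)⁰ xc⁻¹ * (spanSingleton (𝓞 L)⁰ xc * A) := by
      rw [← mul_assoc, spanSingleton_mul_spanSingleton, inv_mul_cancel₀ hxc0, spanSingleton_one,
        one_mul]
    rw [h2, key, ← mul_assoc, spanSingleton_mul_spanSingleton, div_eq_mul_inv, mul_comm xc⁻¹]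

end Fermat.Agent.S14.FIInst
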