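import Mathlib

/-!
# `j ∘ N = ∏ σ` on ideals (stream C of S14)

For a Galois extension `L/K` of number fields and an ideal `B` of `𝓞 L`, the extension to `𝓞 L`
of the relative norm of `B` is the product of the Galois conjugates of `B`.
-/

set_option linter.unusedSectionVars false

namespace Fermat.Agent.S14.NormProd

open NumberField nonZeroDivisors Pointwise

variable {K L : Type*} [Field K] [NumberField K] [Field L] [NumberField L] [Algebra K L]
  [IsGalois K L]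

theorem algebraMap_intNorm_eq_prod (x : 𝓞 L) :
    algebraMap (𝓞 K) (𝓞 L) (Algebra.intNorm (𝓞 K) (𝓞 L) x) = ∏ s : L ≃ₐ[K] L, s • x := by
  apply RingOfIntegers.coe_injective
  rw [map_prod]
  have h1 : algebraMap (𝓞 L) L (algebraMap (𝓞 K) (𝓞 L) (Algebra.intNorm (𝓞 K) (𝓞 L) x)) =
      algebraMap K L (algebraMap (𝓞 K) K (Algebra.intNorm (𝓞 K) (𝓞 L) x)) := rfl
  rw [h1, Algebra.algebraMap_intNorm (K := K) (L := L), Algebra.norm_eq_prod_automorphisms]
  rfl

theorem map_relNorm_le (B : Ideal (𝓞 L)) :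
    (Ideal.relNorm (𝓞 K) B).map (algebraMap (𝓞 K) (𝓞 L)) ≤ ∏ s : L ≃ₐ[K] L, s • B := by
  rw [Ideal.relNorm_apply, Ideal.map_span, Ideal.span_le]
  rintro _ ⟨_, ⟨x, hx, rfl⟩, rfl⟩
  rw [SetLike.mem_coe, algebraMap_intNorm_eq_prod]
  exact Ideal.prod_mem_prod (fun s _ => Ideal.smul_mem_pointwise_smul s x B hx)

theorem absNorm_smul (s : L ≃ₐ[K] L) (B : Ideal (𝓞 L)) :
    Ideal.absNorm (s • B) = Ideal.absNorm B := by
  rw [← Ideal.absNorm_relNorm (𝓞 K), Ideal.relNorm_smul, Ideal.absNorm_relNorm]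

/-- `(N_{L/K} B) 𝓞_L = ∏_σ σ B`. -/
theorem map_relNorm_eq_prod_smul (B : Ideal (𝓞 L)) :
    (Ideal.relNorm (𝓞 K) B).map (algebraMap (𝓞 K) (𝓞 L)) = ∏ s : L ≃ₐ[K] L, s • B := by
  by_cases hB : B = ⊥
  · subst hB
    rw [Ideal.relNorm_bot, Ideal.map_bot]
    symm
    apply Finset.prod_eq_zero (Finset.mem_univ (1 : L ≃ₐ[K] L))
    rw [one_smul]
    rfl
  · have hle := map_relNorm_le (K := K) B
    have hB0 : Ideal.absNorm B ≠ 0 := by rwa [Ne, Ideal.absNorm_eq_zero_iff]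
    have hcard : Fintype.card (L ≃ₐ[K] L) = Module.finrank (𝓞 K) (𝓞 L) := by
      rw [← IsFractionRing.finrank_eq (𝓞 K) K (𝓞 L) L, ← IsGalois.card_aut_eq_finrank,
        Nat.card_eq_fintype_card]
    have hnorm1 : Ideal.absNorm ((Ideal.relNorm (𝓞 K) B).map (algebraMap (𝓞 K) (𝓞 L))) =
        Ideal.absNorm B ^ Module.finrank (𝓞 K) (𝓞 L) := by
      rw [Ideal.absNorm_algebraMap, Ideal.absNorm_relNorm]
    have hnorm2 : Ideal.absNorm (∏ s : L ≃ₐ[K] L, s • B) =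
        Ideal.absNorm B ^ Module.finrank (𝓞 K) (𝓞 L) := by
      rw [map_prod]
      simp only [absNorm_smul, Finset.prod_const, Finset.card_univ, hcard]
    obtain ⟨C, hC⟩ := Ideal.dvd_iff_le.mpr hle
    have hC1 : Ideal.absNorm C = 1 := by
      have h := congrArg Ideal.absNorm hC
      rw [map_mul, hnorm1, hnorm2] at h
      have h0 : Ideal.absNorm B ^ Module.finrank (𝓞 K) (𝓞 L) ≠ 0 := pow_ne_zero _ hB0
      exact (Nat.eq_of_mul_eq_mul_left (Nat.pos_of_ne_zero h0) (by rw [mul_one]; exact h)).symm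
    rw [Ideal.absNorm_eq_one_iff] at hC1
    rw [hC, hC1, Ideal.mul_top]

end Fermat.Agent.S14.NormProd
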