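import Mathlib
import Fermat.Agent.S14.FIInst
import Fermat.Agent.S14.Ambig
import Fermat.Agent.S14.NormProd
import Fermat.Agent.S14.ArtinMap

/-!
# The first inequality for an unramified cyclic extension of prime degree (stream C of S14)

Assembly of `FIInst.exists_stable_ideal` (the chain), `Ambig.exists_map_eq_of_smul_eq`
(ambiguous ideals) and `NormProd.map_relNorm_eq_prod_smul`.  The unit Herbrand quotient is the
explicit hypothesis `UnitsHerbrand K L p`.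

* `norm_not_surjective_of_units`: some ideal class of `K` is not the class of a norm from `L`.
* `exists_ideal_not_norm_of_units`: the same without class groups.
* `exists_frob_ne_one_of_units`: some nonzero prime of `K` has nontrivial Frobenius.
-/

set_option linter.unusedSectionVars false

namespace Fermat.Agent.S14.FIFinal

open NumberField nonZeroDivisors Pointwise
open Fermat.Agent.S14

variable {K L : Type} [Field K] [NumberField K] [Field L] [NumberField L] [Algebra K L]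

/-- The unit Herbrand quotient statement `h(E_L) = 1/p`, as a `Prop`
(this is the conclusion of `UnitHerbrand.units_herbrand`). -/
def UnitsHerbrand (K L : Type) [Field K] [NumberField K] [Field L] [NumberField L] [Algebra K L]
    (p : ℕ) : Prop :=
  ∀ (σ : L ≃ₐ[K] L), σ ≠ 1 → ∀ (D Nm : (𝓞 L)ˣ →* (𝓞 L)ˣ),
    (∀ u : (𝓞 L)ˣ, (((D u : (𝓞 L)ˣ) : 𝓞 L) : L) =
      σ (((u : (𝓞 L)ˣ) : 𝓞 L) : L) / (((u : (𝓞 L)ˣ) : 𝓞 L) : L)) →
    (∀ u : (𝓞 L)ˣ, (((Nm u : (𝓞 L)ˣ) : 𝓞 L) : L) =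
      ∏ i ∈ Finset.range p, (σ ^ i) (((u : (𝓞 L)ˣ) : 𝓞 L) : L)) →
    D.range.relIndex Nm.ker = p * Nm.range.relIndex D.ker ∧ Nm.range.relIndex D.ker ≠ 0

/-- The action of `σ` on the units of `𝓞 L`. -/
noncomputable def sigU (σ : L ≃ₐ[K] L) : (𝓞 L)ˣ →* (𝓞 L)ˣ :=
  Units.map (FIInst.sigO σ : 𝓞 L →* 𝓞 L)

/-- `u ↦ σ u / u` on the units of `𝓞 L`. -/
noncomputable def unitD (σ : L ≃ₐ[K] L) : (𝓞 L)ˣ →* (𝓞 L)ˣ := FIAbs.divHom (sigU σ)

/-- `u ↦ ∏_{i<p} σ^i u` on the units of `𝓞 L`. -/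
noncomputable def unitNm (σ : L ≃ₐ[K] L) (p : ℕ) : (𝓞 L)ˣ →* (𝓞 L)ˣ :=
  FIAbs.normHom (sigU σ) p

theorem unitsInc_sigU (σ : L ≃ₐ[K] L) (u : (𝓞 L)ˣ) :
    FIInst.unitsInc (sigU σ u) = FIInst.tauX σ (FIInst.unitsInc u) :=
  Units.ext rfl

theorem coe_unitD (σ : L ≃ₐ[K] L) (u : (𝓞 L)ˣ) :
    (((unitD σ u : (𝓞 L)ˣ) : 𝓞 L) : L) =
      σ (((u : (𝓞 L)ˣ) : 𝓞 L) : L) / (((u : (𝓞 L)ˣ) : 𝓞 L) : L) := by
  rw [← FIInst.coe_unitsInc, unitD, FIAbs.map_divHom (FIInst.unitsInc (L := L)) (unitsInc_sigU σ),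
    FIInst.coe_divHom_tauX]
  rfl

theorem coe_unitNm (σ : L ≃ₐ[K] L) (p : ℕ) (u : (𝓞 L)ˣ) :
    (((unitNm σ p u : (𝓞 L)ˣ) : 𝓞 L) : L) =
      ∏ i ∈ Finset.range p, (σ ^ i) (((u : (𝓞 L)ˣ) : 𝓞 L) : L) := by
  rw [← FIInst.coe_unitsInc, unitNm, FIAbs.map_normHom (FIInst.unitsInc (L := L)) (unitsInc_sigU σ),
    FIInst.coe_normHom_tauX]
  rfl

theorem relNorm_mem (J : (Ideal (𝓞 L))⁰) :
    Ideal.relNorm (𝓞 K) (J : Ideal (𝓞 L)) ∈ (Ideal (𝓞 K))⁰ :=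
  mem_nonZeroDivisors_of_ne_zero
    (fun h => nonZeroDivisors.coe_ne_zero J (Ideal.relNorm_eq_bot_iff.mp h))

/-- **First inequality**: some ideal class of `K` is not the class of a relative norm. -/
theorem norm_not_surjective_of_units [IsGalois K L] (p : ℕ) (hp : p.Prime)
    (hdeg : Module.finrank K L = p)
    (hur : ∀ Q : Ideal (𝓞 L), Q.IsPrime → Q ≠ ⊥ → Q.inertia (L ≃ₐ[K] L) = ⊥)
    (hU : UnitsHerbrand K L p) :
    ∃ c : ClassGroup (𝓞 K), ∀ J : (Ideal (𝓞 L))⁰,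
      ClassGroup.mk0 ⟨Ideal.relNorm (𝓞 K) (J : Ideal (𝓞 L)), relNorm_mem J⟩ ≠ c := by
  have hcard : Nat.card (L ≃ₐ[K] L) = p := (IsGalois.card_aut_eq_finrank K L).trans hdeg
  have hnt : Nontrivial (L ≃ₐ[K] L) :=
    Finite.one_lt_card_iff_nontrivial.mp (hcard ▸ hp.one_lt)
  obtain ⟨σ, hσ⟩ := exists_ne (1 : L ≃ₐ[K] L)
  obtain ⟨hU1, hU0⟩ := hU σ hσ (unitD σ) (unitNm σ p) (coe_unitD σ) (coe_unitNm σ p)
  obtain ⟨J, hJ0, hJst, hJne⟩ := FIInst.exists_stable_ideal p hp hdeg σ hσ (unitNm σ p)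
    (unitD σ) (coe_unitNm σ p) (coe_unitD σ) hU1 hU0
  obtain ⟨a, ha0, hJa⟩ := Ambig.exists_map_eq_of_smul_eq K L (L ≃ₐ[K] L) hur J hJ0 hJst
  refine ⟨ClassGroup.mk0 ⟨a, mem_nonZeroDivisors_of_ne_zero ha0⟩, fun B hB => ?_⟩
  rw [ClassGroup.mk0_eq_mk0_iff] at hB
  obtain ⟨x, y, hx, hy, hxy⟩ := hB
  have h := congrArg (Ideal.map (algebraMap (𝓞 K) (𝓞 L))) hxy
  simp only [Ideal.map_mul, Ideal.map_span, Set.image_singleton] at h
  rw [NormProd.map_relNorm_eq_prod_smul, ← hJa] at h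
  exact hJne y x B hy hx (nonZeroDivisors.coe_ne_zero B) h.symm

/-- The first inequality without class groups: `P_K · N(I_L) ≠ I_K`. -/
theorem exists_ideal_not_norm_of_units [IsGalois K L] (p : ℕ) (hp : p.Prime)
    (hdeg : Module.finrank K L = p)
    (hur : ∀ Q : Ideal (𝓞 L), Q.IsPrime → Q ≠ ⊥ → Q.inertia (L ≃ₐ[K] L) = ⊥)
    (hU : UnitsHerbrand K L p) :
    ∃ I : Ideal (𝓞 K), I ≠ ⊥ ∧ ∀ (x y : 𝓞 K) (J : Ideal (𝓞 L)), x ≠ 0 → y ≠ 0 → J ≠ ⊥ →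
      Ideal.span {x} * I ≠ Ideal.span {y} * Ideal.relNorm (𝓞 K) J := by
  obtain ⟨c, hc⟩ := norm_not_surjective_of_units p hp hdeg hur hU
  obtain ⟨I, rfl⟩ := ClassGroup.mk0_surjective c
  refine ⟨I, nonZeroDivisors.coe_ne_zero I, fun x y J hx hy hJ hxy => ?_⟩
  refine hc ⟨J, mem_nonZeroDivisors_of_ne_zero hJ⟩ ?_
  rw [ClassGroup.mk0_eq_mk0_iff]
  exact ⟨y, x, hy, hx, hxy.symm⟩

/-- The first inequality, Frobenius form: some nonzero prime of `K` does not split completely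
in `L`. -/
theorem exists_frob_ne_one_of_units [IsGalois K L] (p : ℕ) (hp : p.Prime)
    (hdeg : Module.finrank K L = p)
    (hab : ∀ a b : L ≃ₐ[K] L, a * b = b * a)
    (hur : ArtinMap.IsUnram L (L ≃ₐ[K] L))
    (hU : UnitsHerbrand K L p) :
    ∃ q : Ideal (𝓞 K), q.IsPrime ∧ q ≠ ⊥ ∧ ArtinMap.frob K L (L ≃ₐ[K] L) q ≠ 1 := by
  by_contra hcon
  push Not at hcon
  have key : ∀ a : Ideal (𝓞 K), a ≠ ⊥ → ∃ A : Ideal (𝓞 L), A ≠ ⊥ ∧ Ideal.relNorm (𝓞 K) A = a := by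
    intro a
    induction a using UniqueFactorizationMonoid.induction_on_prime with
    | h₁ => intro h; exact absurd rfl h
    | h₂ x hx =>
      intro _
      rw [Ideal.isUnit_iff] at hx
      exact ⟨⊤, top_ne_bot, by rw [Ideal.relNorm_top, hx]⟩
    | h₃ a q ha hq ih =>
      intro _
      obtain ⟨A, hA0, hA⟩ := ih ha
      have hq0 : q ≠ ⊥ := hq.ne_zero
      have hqp : q.IsPrime := Ideal.isPrime_of_prime hq
      have hqmax : q.IsMaximal := hqp.isMaximal hq0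
      obtain ⟨Q, hQmax, hQ⟩ := Ideal.exists_maximal_ideal_liesOver_of_isIntegral (S := 𝓞 L) q
      have : Q.IsPrime := hQmax.isPrime
      have hQq := ArtinMap.relNorm_eq_of_frob_eq_one hab hur q hq0 Q (hcon q hqp hq0)
      have hQ0 : Q ≠ ⊥ := fun h => hq0 (by rw [← hQq, h, Ideal.relNorm_bot])
      exact ⟨Q * A, mul_ne_zero hQ0 hA0, by rw [map_mul, hQq, hA]⟩
  obtain ⟨c, hc⟩ := norm_not_surjective_of_units p hp hdeg hur hU
  obtain ⟨I, rfl⟩ := ClassGroup.mk0_surjective c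
  obtain ⟨A, hA0, hA⟩ := key I (nonZeroDivisors.coe_ne_zero I)
  refine hc ⟨A, mem_nonZeroDivisors_of_ne_zero hA0⟩ ?_
  congr 1
  exact Subtype.ext hA

end Fermat.Agent.S14.FIFinal
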