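import Mathlib

/-!
# S14: the Herbrand lemma for a pair of endomorphisms `f`, `g` with `f ∘ g = g ∘ f = 0`

For an additive commutative group `A` with such endomorphisms put
`a(A) = [ker f : im g]` and `b(A) = [ker g : im f]`.

* `relIndex_mul_relIndex_eq`: for an `(f, g)`-stable subgroup `B` of finite index,
  `a(A) · b(B) = a(B) · b(A)` (all indices computed inside `A`).
* `image_computation`: for an equivariant map `φ : X → A` from an "acyclic" `X` whose kernel is
  infinite cyclic and `f`-invariant, `B = im φ` has `a(B) = 1`, `b(B) = p`.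
* `herbrand_of_image`: hence `[ker g : im f] = p · [ker f : im g]` if `im φ` has finite index.
-/

set_option autoImplicit false

namespace Fermat.Agent.S14.Herbrand

variable {A : Type*} [AddCommGroup A]

/-- index formula: `[A : B] = [ker h : ker h ∩ B] · [h A : h B]`. -/
theorem index_eq_relIndex_ker_mul {A' : Type*} [AddCommGroup A'] (h : A →+ A')
    (B : AddSubgroup A) :
    B.index = B.relIndex h.ker * (B.map h).relIndex h.range := by
  have h1 : (B.map h).relIndex h.range = (B ⊔ h.ker).index := by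
    rw [AddMonoidHom.range_eq_map, AddSubgroup.relIndex_map_map, top_sup_eq,
      AddSubgroup.relIndex_top_right]
  have h2 : B.relIndex h.ker = B.relIndex (B ⊔ h.ker) :=
    (AddSubgroup.relIndex_sup_left (K := B) (H := h.ker)).symm
  rw [h1, h2, AddSubgroup.relIndex_mul_index le_sup_left]

/-- **Herbrand's lemma, finite index case.** -/
theorem relIndex_mul_relIndex_eq (f g : A →+ A) (hfg : ∀ x, f (g x) = 0) (hgf : ∀ x, g (f x) = 0)
    (B : AddSubgroup A) (hfB : ∀ x ∈ B, f x ∈ B) (hgB : ∀ x ∈ B, g x ∈ B) (hB : B.index ≠ 0) :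
    (g.range).relIndex f.ker * (B.map f).relIndex (g.ker ⊓ B) =
      (B.map g).relIndex (f.ker ⊓ B) * (f.range).relIndex g.ker := by
  -- the chains of subgroups
  have hgr : g.range ≤ f.ker := by
    rintro _ ⟨x, rfl⟩; exact hfg x
  have hfr : f.range ≤ g.ker := by
    rintro _ ⟨x, rfl⟩; exact hgf x
  have hBg : B.map g ≤ g.range := AddSubgroup.map_le_range g B
  have hBf : B.map f ≤ f.range := AddSubgroup.map_le_range f B
  have hBg' : B.map g ≤ f.ker ⊓ B := by
    rintro _ ⟨x, hx, rfl⟩; exact ⟨hfg x, hgB x hx⟩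
  have hBf' : B.map f ≤ g.ker ⊓ B := by
    rintro _ ⟨x, hx, rfl⟩; exact ⟨hgf x, hfB x hx⟩
  -- (1) and (2)
  have e1 : (B.map g).relIndex g.range * (g.range).relIndex f.ker =
      (B.map g).relIndex (f.ker ⊓ B) * B.relIndex f.ker := by
    rw [AddSubgroup.relIndex_mul_relIndex _ _ _ hBg hgr,
      ← AddSubgroup.inf_relIndex_left (H := f.ker) (K := B),
      AddSubgroup.relIndex_mul_relIndex _ _ _ hBg' inf_le_left]
  have e2 : (B.map f).relIndex f.range * (f.range).relIndex g.ker =
      (B.map f).relIndex (g.ker ⊓ B) * B.relIndex g.ker := by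
    rw [AddSubgroup.relIndex_mul_relIndex _ _ _ hBf hfr,
      ← AddSubgroup.inf_relIndex_left (H := g.ker) (K := B),
      AddSubgroup.relIndex_mul_relIndex _ _ _ hBf' inf_le_left]
  have e3 := index_eq_relIndex_ker_mul f B
  have e4 := index_eq_relIndex_ker_mul g B
  apply Nat.eq_of_mul_eq_mul_right (Nat.pos_of_ne_zero hB)
  calc (g.range).relIndex f.ker * (B.map f).relIndex (g.ker ⊓ B) * B.index
      = ((B.map g).relIndex g.range * (g.range).relIndex f.ker) *
          ((B.map f).relIndex (g.ker ⊓ B) * B.relIndex g.ker) := by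
        rw [e4]; ring
    _ = ((B.map g).relIndex (f.ker ⊓ B) * B.relIndex f.ker) *
          ((B.map f).relIndex f.range * (f.range).relIndex g.ker) := by
        rw [e1, e2]
    _ = (B.map g).relIndex (f.ker ⊓ B) * (f.range).relIndex g.ker * B.index := by
        rw [e3]; ring

section Image

variable {X : Type*} [AddCommGroup X] (f g : A →+ A) (fX gX : X →+ X) (φ : X →+ A)

/-- the subgroup generated by `p • κ` has index `p` in the one generated by `κ`. -/
theorem relIndex_zmultiples_nsmul (κ : X) (hκ : ∀ n : ℤ, n • κ = 0 → n = 0) (p : ℕ) :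
    (AddSubgroup.zmultiples (p • κ)).relIndex (AddSubgroup.zmultiples κ) = p := by
  let ι : ℤ →+ X := (zmultiplesHom X) κ
  have hι : Function.Injective ι := by
    rw [injective_iff_map_eq_zero]
    intro n hn
    exact hκ n (by simpa [ι] using hn)
  have h1 : AddSubgroup.zmultiples κ = (⊤ : AddSubgroup ℤ).map ι := by
    rw [← AddMonoidHom.range_eq_map]
    ext x
    simp [ι, AddSubgroup.mem_zmultiples_iff]
  have h2 : AddSubgroup.zmultiples (p • κ) = (AddSubgroup.zmultiples (p : ℤ)).map ι := by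
    rw [AddMonoidHom.map_zmultiples]
    congr 1
    simp [ι]
  rw [h1, h2, AddSubgroup.relIndex_map_map_of_injective _ _ hι, AddSubgroup.relIndex_top_right,
    Int.index_zmultiples, Int.natAbs_natCast]

/-- **The image of an acyclic module with an invariant infinite cyclic kernel.** -/
theorem image_computation (hfg : ∀ x, f (g x) = 0)
    (hφf : ∀ x, φ (fX x) = f (φ x)) (hφg : ∀ x, φ (gX x) = g (φ x))
    (hgfX : ∀ x, gX (fX x) = 0)
    (hex1 : ∀ x, fX x = 0 → ∃ y, gX y = x) (hex2 : ∀ x, gX x = 0 → ∃ y, fX y = x)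
    (p : ℕ) (hp : p ≠ 0) (hN : ∀ x, fX x = 0 → gX x = p • x)
    (κ : X) (hker : φ.ker = AddSubgroup.zmultiples κ) (hκ : ∀ n : ℤ, n • κ = 0 → n = 0)
    (hκf : fX κ = 0) :
    f.ker ⊓ φ.range = φ.range.map g ∧ (φ.range.map f).relIndex (g.ker ⊓ φ.range) = p := by
  constructor
  · apply le_antisymm
    · rintro _ ⟨hy, x, rfl⟩
      have h1 : fX x ∈ φ.ker := by
        rw [AddMonoidHom.mem_ker, hφf]; exact hy
      rw [hker, AddSubgroup.mem_zmultiples_iff] at h1
      obtain ⟨n, hn⟩ := h1
      have h2 : (n * (p : ℤ)) • κ = 0 := by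
        have h3 := hgfX x
        rw [← hn, map_zsmul, hN κ hκf] at h3
        rw [mul_smul]
        simpa using h3
      have h4 : n = 0 := by
        rcases mul_eq_zero.mp (hκ _ h2) with h | h
        · exact h
        · exact absurd (by exact_mod_cast h) hp
      rw [h4, zero_smul] at hn
      obtain ⟨x', hx'⟩ := hex1 x hn.symm
      exact ⟨φ x', ⟨x', rfl⟩, by rw [← hφg, hx']⟩
    · rintro _ ⟨_, ⟨x, rfl⟩, rfl⟩
      exact ⟨hfg _, gX x, hφg x⟩
  · -- pull back to `X` along `φ`, then push forward along `gX`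
    have hY : (g.ker ⊓ φ.range) = ((AddSubgroup.zmultiples κ).comap gX).map φ := by
      ext y
      constructor
      · rintro ⟨hy, x, rfl⟩
        refine ⟨x, ?_, rfl⟩
        show gX x ∈ AddSubgroup.zmultiples κ
        rw [← hker, AddMonoidHom.mem_ker, hφg]
        exact hy
      · rintro ⟨x, hx, rfl⟩
        refine ⟨?_, x, rfl⟩
        have hx' : gX x ∈ AddSubgroup.zmultiples κ := hx
        rw [← hker, AddMonoidHom.mem_ker, hφg] at hx'
        exact hx'
    have hH : (φ.range.map f).comap φ = (AddSubgroup.zmultiples (p • κ)).comap gX := by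
      ext x
      rw [AddSubgroup.mem_comap, AddSubgroup.mem_comap]
      constructor
      · rintro ⟨_, ⟨x', rfl⟩, hx'⟩
        have h1 : x - fX x' ∈ φ.ker := by
          rw [AddMonoidHom.mem_ker, map_sub, hφf, hx', sub_self]
        rw [hker, AddSubgroup.mem_zmultiples_iff] at h1
        obtain ⟨n, hn⟩ := h1
        rw [AddSubgroup.mem_zmultiples_iff]
        refine ⟨n, ?_⟩
        have h2 : gX x = gX (n • κ) := by
          rw [hn, map_sub, hgfX, sub_zero]
        rw [h2, map_zsmul, hN κ hκf]
      · intro hx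
        rw [AddSubgroup.mem_zmultiples_iff] at hx
        obtain ⟨n, hn⟩ := hx
        have h1 : gX (x - n • κ) = 0 := by
          rw [map_sub, map_zsmul, hN κ hκf, hn, sub_self]
        obtain ⟨x', hx'⟩ := hex2 _ h1
        refine ⟨φ x', ⟨x', rfl⟩, ?_⟩
        rw [← hφf, hx', map_sub, map_zsmul]
        have h2 : φ κ = 0 := by
          rw [← AddMonoidHom.mem_ker, hker]
          exact AddSubgroup.mem_zmultiples κ
        rw [h2, smul_zero, sub_zero]
    have hmap : ((AddSubgroup.zmultiples κ).comap gX).map gX = AddSubgroup.zmultiples κ := by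
      apply le_antisymm
      · rintro _ ⟨x, hx, rfl⟩
        exact hx
      · intro y hy
        rw [AddSubgroup.mem_zmultiples_iff] at hy
        obtain ⟨n, rfl⟩ := hy
        obtain ⟨x', hx'⟩ := hex1 κ hκf
        refine ⟨n • x', ?_, by rw [map_zsmul, hx']⟩
        show gX (n • x') ∈ AddSubgroup.zmultiples κ
        rw [map_zsmul, hx']
        exact AddSubgroup.zsmul_mem _ (AddSubgroup.mem_zmultiples κ) n
    rw [hY, ← AddSubgroup.relIndex_comap, hH, AddSubgroup.relIndex_comap, hmap]
    exact relIndex_zmultiples_nsmul κ hκ p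

/-- **Herbrand quotient from an acyclic cover with infinite cyclic invariant kernel.** -/
theorem herbrand_of_image (hfg : ∀ x, f (g x) = 0) (hgf : ∀ x, g (f x) = 0)
    (hφf : ∀ x, φ (fX x) = f (φ x)) (hφg : ∀ x, φ (gX x) = g (φ x))
    (hgfX : ∀ x, gX (fX x) = 0)
    (hex1 : ∀ x, fX x = 0 → ∃ y, gX y = x) (hex2 : ∀ x, gX x = 0 → ∃ y, fX y = x)
    (p : ℕ) (hp : p ≠ 0) (hN : ∀ x, fX x = 0 → gX x = p • x)
    (κ : X) (hker : φ.ker = AddSubgroup.zmultiples κ) (hκ : ∀ n : ℤ, n • κ = 0 → n = 0)
    (hκf : fX κ = 0) (hindex : φ.range.index ≠ 0) :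
    (f.range).relIndex g.ker = p * (g.range).relIndex f.ker := by
  obtain ⟨h1, h2⟩ := image_computation f g fX gX φ hfg hφf hφg hgfX hex1 hex2 p hp hN κ hker hκ hκf
  have h3 := relIndex_mul_relIndex_eq f g hfg hgf φ.range
    (by rintro _ ⟨x, rfl⟩; exact ⟨fX x, hφf x⟩) (by rintro _ ⟨x, rfl⟩; exact ⟨gX x, hφg x⟩) hindex
  rw [h2, ← h1, AddSubgroup.relIndex_self, one_mul] at h3
  rw [← h3, mul_comm]

end Image

/-- In a finitely generated group the index `[ker f : im g]` is finite as soon as `g` is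
multiplication by `p ≠ 0` on `ker f`. -/
theorem relIndex_range_ker_ne_zero [Module.Finite ℤ A] (f g : A →+ A) (p : ℕ) (hp : p ≠ 0)
    (hN : ∀ x, f x = 0 → g x = p • x) : (g.range).relIndex f.ker ≠ 0 := by
  -- the quotient `ker f / (im g ∩ ker f)` is finitely generated and killed by `p`
  set H₀ : AddSubgroup ↥f.ker := (g.range).addSubgroupOf f.ker with hH₀
  have hfin1 : Module.Finite ℤ ↥f.ker :=
    Module.Finite.of_injective (f.ker.subtype.toIntLinearMap) Subtype.val_injective
  have hfin2 : Module.Finite ℤ (↥f.ker ⧸ H₀) :=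
    Module.Finite.of_surjective ((QuotientAddGroup.mk' H₀).toIntLinearMap)
      (QuotientAddGroup.mk'_surjective H₀)
  have htors : Module.IsTorsion ℤ (↥f.ker ⧸ H₀) := by
    intro x
    obtain ⟨y, rfl⟩ := QuotientAddGroup.mk'_surjective H₀ x
    refine ⟨⟨(p : ℤ), mem_nonZeroDivisors_of_ne_zero (by exact_mod_cast hp)⟩, ?_⟩
    show (p : ℤ) • (QuotientAddGroup.mk' H₀) y = 0
    rw [← map_zsmul, QuotientAddGroup.mk'_apply, QuotientAddGroup.eq_zero_iff, hH₀,
      AddSubgroup.mem_addSubgroupOf]
    refine ⟨(y : A), ?_⟩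
    have hy : f (y : A) = 0 := y.2
    rw [hN _ hy]
    simp
  have hfin : Finite (↥f.ker ⧸ H₀) := Module.finite_of_fg_torsion _ htors
  intro h0
  rw [AddSubgroup.relIndex, AddSubgroup.index_eq_card] at h0
  exact (Nat.card_pos (α := ↥f.ker ⧸ H₀)).ne' h0

/-- For a finite group the two indices agree (the Herbrand quotient is `1`). -/
theorem relIndex_eq_of_finite [Finite A] (f g : A →+ A) (hfg : ∀ x, f (g x) = 0)
    (hgf : ∀ x, g (f x) = 0) : (g.range).relIndex f.ker = (f.range).relIndex g.ker := by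
  have h := relIndex_mul_relIndex_eq f g hfg hgf ⊥ (by simp) (by simp)
    AddSubgroup.index_ne_zero_of_finite
  simpa using h

/-- The same statement for a finite commutative group written multiplicatively. -/
theorem relIndex_eq_of_finite_mul {M : Type*} [CommGroup M] [Finite M] (f g : M →* M)
    (hfg : ∀ x, f (g x) = 1) (hgf : ∀ x, g (f x) = 1) :
    (g.range).relIndex f.ker = (f.range).relIndex g.ker := by
  have h := relIndex_eq_of_finite (A := Additive M) (MonoidHom.toAdditive f)
    (MonoidHom.toAdditive g) (fun x => congrArg Additive.ofMul (hfg x.toMul))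
    (fun x => congrArg Additive.ofMul (hgf x.toMul))
  rw [MonoidHom.coe_toAdditive_range, MonoidHom.coe_toAdditive_range,
    MonoidHom.coe_toAdditive_ker, MonoidHom.coe_toAdditive_ker,
    Subgroup.relIndex_toAddSubgroup, Subgroup.relIndex_toAddSubgroup] at h
  exact h

end Fermat.Agent.S14.Herbrand
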