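import Mathlib
import Fermat.Agent.S14.Herbrand

/-!
# S14: the Herbrand quotient of the units of a cyclic extension of odd prime degree

`units_herbrand`: for a Galois extension `L/K` of number fields of odd prime degree `p` with
`Gal(L/K) = ⟨σ⟩`, on `E = (𝓞 L)ˣ` one has `[ker N : (σ - 1) E] = p · [E^σ : N E]`, both finite.

Proof: choose a place `v_w` of `L` above every infinite place `w` of `K` and a Dirichlet unit
`u_w` which is small at all places but `v_w`.  The Galois group acts freely on the places of `L`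
(odd degree), so the units `σ^i u_w` are indexed by the places of `L`; a sign argument on the
matrix of logarithms shows that any of them can be dropped to get a maximal rank family.  Hence
`ℤ[ZMod p × places of K] → E` has an image of finite index and an infinite cyclic kernel with
trivial action, and the abstract Herbrand lemma applies.
-/

set_option autoImplicit false

namespace Fermat.Agent.S14.UnitHerbrand

open Finset

/-- sign lemma, one direction. -/
theorem nonpos_of_neg_offdiag {ι : Type*} [Fintype ι] (M : ι → ι → ℝ)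
    (hneg : ∀ i j, i ≠ j → M i j < 0) (hcol : ∀ j, ∑ i, M i j = 0)
    (x : ι → ℝ) (i₀ : ι) (hx0 : x i₀ = 0) (hMx : ∀ i, ∑ j, M i j * x j = 0) (i₁ : ι) :
    x i₁ ≤ 0 := by
  classical
  by_contra hpos
  rw [not_le] at hpos
  set P : Finset ι := univ.filter (fun i => 0 < x i) with hP
  have hi₁ : i₁ ∈ P := by simp [hP, hpos]
  have hi₀ : i₀ ∉ P := by simp [hP, hx0]
  have hsum : ∑ j, (∑ i ∈ P, M i j) * x j = 0 := by
    have h1 : ∑ i ∈ P, ∑ j, M i j * x j = 0 := Finset.sum_eq_zero (fun i _ => hMx i)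
    rw [Finset.sum_comm] at h1
    rw [← h1]
    exact Finset.sum_congr rfl (fun j _ => Finset.sum_mul _ _ _)
  have hnn : ∀ j ∈ (univ : Finset ι), 0 ≤ (∑ i ∈ P, M i j) * x j := by
    intro j _
    by_cases hj : j ∈ P
    · have hxj : 0 < x j := by simpa [hP] using hj
      have hc : 0 ≤ ∑ i ∈ P, M i j := by
        have h2 : ∑ i ∈ P, M i j + ∑ i ∈ Pᶜ, M i j = 0 := by
          rw [Finset.sum_add_sum_compl]; exact hcol j
        have h3 : ∑ i ∈ Pᶜ, M i j ≤ 0 :=
          Finset.sum_nonpos (fun i hi => (hneg i j (by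
            rintro rfl; exact (Finset.mem_compl.mp hi) hj)).le)
        linarith
      exact mul_nonneg hc hxj.le
    · have hxj : x j ≤ 0 := by simpa [hP] using hj
      have hc : ∑ i ∈ P, M i j ≤ 0 :=
        Finset.sum_nonpos (fun i hi => (hneg i j (by rintro rfl; exact hj hi)).le)
      exact mul_nonneg_of_nonpos_of_nonpos hc hxj
  have hpos' : 0 < (∑ i ∈ P, M i i₁) * x i₁ := by
    have h2 : ∑ i ∈ P, M i i₁ + ∑ i ∈ Pᶜ, M i i₁ = 0 := by
      rw [Finset.sum_add_sum_compl]; exact hcol i₁
    have h3 : ∑ i ∈ Pᶜ, M i i₁ < 0 := by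
      apply Finset.sum_neg
      · intro i hi
        exact hneg i i₁ (by rintro rfl; exact (Finset.mem_compl.mp hi) hi₁)
      · exact ⟨i₀, Finset.mem_compl.mpr hi₀⟩
    have hc : 0 < ∑ i ∈ P, M i i₁ := by linarith
    exact mul_pos hc hpos
  have := Finset.sum_pos' hnn ⟨i₁, Finset.mem_univ _, hpos'⟩
  linarith

/-- **Sign lemma.** A real square matrix with negative off-diagonal entries and zero column sums
has no nonzero kernel vector with a vanishing coordinate. -/
theorem eq_zero_of_neg_offdiag {ι : Type*} [Fintype ι] (M : ι → ι → ℝ)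
    (hneg : ∀ i j, i ≠ j → M i j < 0) (hcol : ∀ j, ∑ i, M i j = 0)
    (x : ι → ℝ) (i₀ : ι) (hx0 : x i₀ = 0) (hMx : ∀ i, ∑ j, M i j * x j = 0) : x = 0 := by
  funext i
  have h1 := nonpos_of_neg_offdiag M hneg hcol x i₀ hx0 hMx i
  have h2 := nonpos_of_neg_offdiag M hneg hcol (fun j => -x j) i₀ (by simp [hx0])
    (fun i => by simp only [mul_neg, Finset.sum_neg_distrib, hMx i, neg_zero]) i
  simp only [Pi.zero_apply]
  linarith

section CyclicModule

variable (p : ℕ) [Fact p.Prime] (ι : Type*)

/-- the shift `(T x)(i, w) = x(i - 1, w)` on `ℤ[ZMod p × ι]`. -/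
def shift : (ZMod p × ι → ℤ) →+ (ZMod p × ι → ℤ) where
  toFun x := fun k => x (k.1 - 1, k.2)
  map_zero' := rfl
  map_add' _ _ := rfl

/-- `T - 1`. -/
def fX : (ZMod p × ι → ℤ) →+ (ZMod p × ι → ℤ) := shift p ι - AddMonoidHom.id _

/-- the norm `1 + T + ⋯ + T^(p-1)`. -/
def gX : (ZMod p × ι → ℤ) →+ (ZMod p × ι → ℤ) where
  toFun x := fun k => ∑ j : ZMod p, x (j, k.2)
  map_zero' := by funext k; simp
  map_add' x y := by funext k; simp [Finset.sum_add_distrib]

variable {p ι}

theorem shift_apply (x : ZMod p × ι → ℤ) (k : ZMod p × ι) : shift p ι x k = x (k.1 - 1, k.2) := rfl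

theorem fX_apply (x : ZMod p × ι → ℤ) (k : ZMod p × ι) :
    fX p ι x k = x (k.1 - 1, k.2) - x k := rfl

theorem gX_apply (x : ZMod p × ι → ℤ) (k : ZMod p × ι) :
    gX p ι x k = ∑ j : ZMod p, x (j, k.2) := rfl

theorem shift_iterate (x : ZMod p × ι → ℤ) (n : ℕ) (k : ZMod p × ι) :
    ((shift p ι)^[n] x) k = x (k.1 - n, k.2) := by
  induction n generalizing k with
  | zero => simp
  | succ n ih =>
    rw [Function.iterate_succ_apply', shift_apply, ih]
    congr 2
    push_cast
    ring

theorem shift_iterate_self (x : ZMod p × ι → ℤ) : (shift p ι)^[p] x = x := by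
  funext k
  rw [shift_iterate]
  simp

theorem gX_fX (x : ZMod p × ι → ℤ) : gX p ι (fX p ι x) = 0 := by
  funext k
  simp only [gX_apply, fX_apply, Finset.sum_sub_distrib, Pi.zero_apply]
  rw [sub_eq_zero]
  exact Equiv.sum_comp (Equiv.subRight (1 : ZMod p)) (fun j => x (j, k.2))

theorem const_of_fX_eq_zero (x : ZMod p × ι → ℤ) (hx : fX p ι x = 0) (i : ZMod p) (w : ι) :
    x (i, w) = x (0, w) := by
  have h1 : ∀ j : ZMod p, x (j - 1, w) = x (j, w) := by
    intro j
    have := congrFun hx (j, w)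
    rw [fX_apply] at this
    simpa [sub_eq_zero] using this
  have h2 : ∀ n : ℕ, x ((n : ZMod p), w) = x (0, w) := by
    intro n
    induction n with
    | zero => simp
    | succ n ih =>
      rw [← ih, ← h1 ((n + 1 : ℕ) : ZMod p)]
      congr 2
      push_cast
      ring
  rw [← h2 i.val, ZMod.natCast_zmod_val]

theorem exists_gX_eq (x : ZMod p × ι → ℤ) (hx : fX p ι x = 0) : ∃ y, gX p ι y = x := by
  classical
  refine ⟨fun k => if k.1 = 0 then x k else 0, ?_⟩
  funext k
  rw [gX_apply]
  simp only [Finset.sum_ite_eq', Finset.mem_univ, if_true]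
  exact (const_of_fX_eq_zero x hx k.1 k.2).symm

theorem gX_eq_nsmul (x : ZMod p × ι → ℤ) (hx : fX p ι x = 0) : gX p ι x = p • x := by
  funext k
  rw [gX_apply, Pi.smul_apply, Finset.sum_congr rfl (fun j _ => const_of_fX_eq_zero x hx j k.2),
    Finset.sum_const, Finset.card_univ, ZMod.card, const_of_fX_eq_zero x hx k.1 k.2]

theorem exists_fX_eq (x : ZMod p × ι → ℤ) (hx : gX p ι x = 0) : ∃ y, fX p ι y = x := by
  classical
  refine ⟨fun k => ∑ j : ZMod p, if k.1.val < j.val then x (j, k.2) else 0, ?_⟩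
  funext k
  obtain ⟨i, w⟩ := k
  rw [fX_apply]
  simp only
  rw [← Finset.sum_sub_distrib]
  have hsum : ∑ j : ZMod p, x (j, w) = 0 := by
    have := congrFun hx (i, w)
    rwa [gX_apply] at this
  by_cases hi : i = 0
  · subst hi
    have hval : ((0 : ZMod p) - 1).val = p - 1 := by
      rw [zero_sub, ZMod.neg_val, if_neg one_ne_zero, ZMod.val_one]
    have h1 : ∀ j : ZMod p, ((if ((0 : ZMod p) - 1).val < j.val then x (j, w) else 0) -
        (if (0 : ZMod p).val < j.val then x (j, w) else 0)) =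
        (if j = 0 then x (j, w) else 0) - x (j, w) := by
      intro j
      have hj : j.val < p := ZMod.val_lt j
      rw [hval, if_neg (by omega)]
      by_cases hj0 : j = 0
      · subst hj0
        simp
      · have : 0 < j.val := Nat.pos_of_ne_zero (fun h => hj0 ((ZMod.val_eq_zero j).mp h))
        rw [ZMod.val_zero, if_pos this, if_neg hj0]
    rw [Finset.sum_congr rfl (fun j _ => h1 j), Finset.sum_sub_distrib, hsum, sub_zero]
    simp
  · have hival : 0 < i.val := Nat.pos_of_ne_zero (fun h => hi ((ZMod.val_eq_zero i).mp h))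
    have hval : (i - 1).val = i.val - 1 := by
      rw [ZMod.val_sub (by rw [ZMod.val_one]; omega), ZMod.val_one]
    have h1 : ∀ j : ZMod p, ((if (i - 1).val < j.val then x (j, w) else 0) -
        (if i.val < j.val then x (j, w) else 0)) = (if j = i then x (j, w) else 0) := by
      intro j
      rw [hval]
      by_cases hji : j = i
      · subst hji
        rw [if_pos (by omega), if_neg (lt_irrefl _), if_pos rfl, sub_zero]
      · have hne : j.val ≠ i.val := fun h => hji (ZMod.val_injective p h)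
        rw [if_neg hji]
        by_cases hlt : i.val < j.val
        · rw [if_pos (by omega), if_pos hlt, sub_self]
        · rw [if_neg (by omega), if_neg hlt, sub_self]
    rw [Finset.sum_congr rfl (fun j _ => h1 j)]
    simp

end CyclicModule

section Units

open NumberField NumberField.InfinitePlace NumberField.Units
  NumberField.Units.dirichletUnitTheorem

variable {L : Type*} [Field L] [NumberField L]

section Family

variable {J : Type*} [Fintype J] (pl : J → InfinitePlace L) (ε : J → (𝓞 L)ˣ)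

/-- units that are small at all places but one are independent as soon as one is dropped. -/
theorem eq_zero_of_sum_smul_logEmbedding (hpl : Function.Bijective pl)
    (hε : ∀ k v, v ≠ pl k → Real.log (v ((ε k : 𝓞 L) : L)) < 0)
    (x : J → ℝ) (k₁ : J) (hx : x k₁ = 0)
    (h : ∑ k, x k • logEmbedding L (Additive.ofMul (ε k)) = 0) : x = 0 := by
  classical
  -- the values of the relation at all places
  have h1 : ∀ v : InfinitePlace L, v ≠ w₀ →
      ∑ j, ((mult v : ℝ) * Real.log (v ((ε j : 𝓞 L) : L))) * x j = 0 := by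
    intro v hv
    have := congrFun h ⟨v, hv⟩
    simp only [Finset.sum_apply, Pi.smul_apply, smul_eq_mul, logEmbedding_component,
      Pi.zero_apply] at this
    rw [← this]
    exact Finset.sum_congr rfl (fun j _ => mul_comm _ _)
  have h2 : ∑ v : InfinitePlace L,
      ∑ j, ((mult v : ℝ) * Real.log (v ((ε j : 𝓞 L) : L))) * x j = 0 := by
    rw [Finset.sum_comm]
    apply Finset.sum_eq_zero
    intro j _
    rw [← Finset.sum_mul, sum_mult_mul_log, zero_mul]
  have h3 : ∀ v : InfinitePlace L,
      ∑ j, ((mult v : ℝ) * Real.log (v ((ε j : 𝓞 L) : L))) * x j = 0 := by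
    intro v
    by_cases hv : v = w₀
    · rw [Finset.sum_eq_single (w₀ : InfinitePlace L) (fun b _ hb => h1 b hb)
        (fun hh => absurd (Finset.mem_univ _) hh)] at h2
      rw [hv]; exact h2
    · exact h1 v hv
  refine eq_zero_of_neg_offdiag
    (fun i j => (mult (pl i) : ℝ) * Real.log ((pl i) ((ε j : 𝓞 L) : L))) ?_ ?_ x k₁ hx
    (fun i => h3 (pl i))
  · intro i j hij
    exact mul_neg_of_pos_of_neg (by exact_mod_cast mult_pos)
      (hε j (pl i) (fun hh => hij (hpl.1 hh)))
  · intro j
    rw [hpl.sum_comp (fun v => (mult v : ℝ) * Real.log (v ((ε j : 𝓞 L) : L)))]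
    exact sum_mult_mul_log (ε j)

/-- the map `ℤ[J] → E_L`, `x ↦ ∏ ε_k ^ x_k`, written additively. -/
noncomputable def phi : (J → ℤ) →+ Additive (𝓞 L)ˣ :=
  (Fintype.linearCombination ℤ (fun k => Additive.ofMul (ε k))).toAddMonoidHom

theorem phi_apply (x : J → ℤ) : phi ε x = ∑ k, x k • Additive.ofMul (ε k) := by
  simp [phi, Fintype.linearCombination_apply]

theorem phi_single [DecidableEq J] (k : J) (n : ℤ) :
    phi ε (Pi.single k n) = n • Additive.ofMul (ε k) := by
  rw [phi_apply, Finset.sum_eq_single k]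
  · simp
  · intro b _ hb
    simp [Pi.single_eq_of_ne hb]
  · intro hh; exact absurd (Finset.mem_univ _) hh

theorem eq_zero_of_phi_eq_zero (hpl : Function.Bijective pl)
    (hε : ∀ k v, v ≠ pl k → Real.log (v ((ε k : 𝓞 L) : L)) < 0)
    (x : J → ℤ) (k₁ : J) (hx : x k₁ = 0) (h : phi ε x = 0) : x = 0 := by
  have h1 : ∑ k, ((x k : ℤ) : ℝ) • logEmbedding L (Additive.ofMul (ε k)) = 0 := by
    have h2 := congrArg (logEmbedding L) h
    rw [phi_apply, map_sum, map_zero] at h2
    rw [← h2]
    refine Finset.sum_congr rfl (fun k _ => ?_)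
    rw [map_zsmul, Int.cast_smul_eq_zsmul]
  have h3 := eq_zero_of_sum_smul_logEmbedding pl ε hpl hε (fun k => ((x k : ℤ) : ℝ)) k₁
    (by simp [hx]) h1
  funext k
  have := congrFun h3 k
  simpa using this


theorem card_subtype_ne_eq_rank (hpl : Function.Bijective pl) (k₁ : J) [DecidableEq J] :
    Fintype.card {k : J // k ≠ k₁} = NumberField.Units.rank L := by
  rw [Fintype.card_subtype_compl, Fintype.card_subtype_eq, NumberField.Units.rank,
    Fintype.card_of_bijective hpl]

/-- **Structure of the relation module.** The image of `phi` has finite index and its kernel is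
infinite cyclic, generated by a vector whose `k₁`-coordinate does not vanish. -/
theorem exists_ker_generator (hpl : Function.Bijective pl)
    (hε : ∀ k v, v ≠ pl k → Real.log (v ((ε k : 𝓞 L) : L)) < 0) (k₁ : J) :
    (phi ε).range.index ≠ 0 ∧
      ∃ κ : J → ℤ, (phi ε).ker = AddSubgroup.zmultiples κ ∧ κ k₁ ≠ 0 := by
  classical
  -- a maximal rank family
  let e : Fin (NumberField.Units.rank L) ≃ {k : J // k ≠ k₁} :=
    Fintype.equivOfCardEq (by rw [Fintype.card_fin, card_subtype_ne_eq_rank pl hpl k₁])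
  let u : Fin (NumberField.Units.rank L) → (𝓞 L)ˣ := fun i => ε (e i).1
  have hmax : IsMaxRank u := by
    rw [IsMaxRank, Fintype.linearIndependent_iff]
    intro g hg
    let x : J → ℝ := fun k => if hk : k ≠ k₁ then g (e.symm ⟨k, hk⟩) else 0
    have hx1 : x k₁ = 0 := by simp [x]
    have hsum : ∑ k, x k • logEmbedding L (Additive.ofMul (ε k)) = 0 := by
      rw [Fintype.sum_eq_add_sum_subtype_ne _ k₁, hx1, zero_smul, zero_add, ← hg,
        ← Equiv.sum_comp e]
      refine Finset.sum_congr rfl (fun i _ => ?_)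
      have : x (e i).1 = g i := by
        simp only [x]
        rw [dif_pos (e i).2]
        simp
      rw [this]
    have hx := eq_zero_of_sum_smul_logEmbedding pl ε hpl hε x k₁ hx1 hsum
    intro i
    have h1 := congrFun hx (e i).1
    simp only [x, Pi.zero_apply] at h1
    rw [dif_pos (e i).2] at h1
    simpa using h1
  have hfin : (Subgroup.closure (Set.range u)).FiniteIndex :=
    isMaxRank_iff_closure_finiteIndex.mp hmax
  -- the image of the vectors with vanishing `k₁`-coordinate
  set B₀ : AddSubgroup (Additive (𝓞 L)ˣ) :=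
    (AddMonoidHom.ker (Pi.evalAddMonoidHom (fun _ : J => ℤ) k₁)).map (phi ε) with hB₀
  have hle : Subgroup.toAddSubgroup (Subgroup.closure (Set.range u)) ≤ B₀ := by
    rw [Subgroup.toAddSubgroup_closure, AddSubgroup.closure_le]
    rintro a ⟨i, hi⟩
    refine ⟨Pi.single (e i).1 1, ?_, ?_⟩
    · show (Pi.single (e i).1 (1 : ℤ) : J → ℤ) k₁ = 0
      exact Pi.single_eq_of_ne (Ne.symm (e i).2) _
    · rw [phi_single, one_smul]
      show Additive.ofMul (u i) = a
      rw [hi]; rfl
  have hB₀ : B₀ ≤ (phi ε).range := AddSubgroup.map_le_range _ _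
  have hidx : (Subgroup.toAddSubgroup (Subgroup.closure (Set.range u))).index ≠ 0 := by
    rw [Subgroup.index_toAddSubgroup]; exact hfin.index_ne_zero
  refine ⟨ne_zero_of_dvd_ne_zero hidx (AddSubgroup.index_dvd_of_le (hle.trans hB₀)), ?_⟩
  -- a relation with nonzero `k₁`-coordinate
  set n : ℕ := (Subgroup.closure (Set.range u)).index with hn
  have hn0 : n ≠ 0 := hfin.index_ne_zero
  have hmem : Additive.ofMul (ε k₁ ^ n) ∈ B₀ :=
    hle (Subgroup.pow_index_mem (Subgroup.closure (Set.range u)) (ε k₁))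
  obtain ⟨y, hy0, hy⟩ := hmem
  have hy0' : y k₁ = 0 := hy0
  have hrel : phi ε (Pi.single k₁ (n : ℤ) - y) = 0 := by
    rw [map_sub, phi_single, hy, ofMul_pow, natCast_zsmul, sub_self]
  -- the coordinate projection is injective on the kernel
  have hinj : ∀ x ∈ (phi ε).ker, x k₁ = 0 → x = 0 := fun x hx hx0 =>
    eq_zero_of_phi_eq_zero pl ε hpl hε x k₁ hx0 hx
  obtain ⟨a, ha⟩ := Int.subgroup_cyclic
    (((phi ε).ker).map (Pi.evalAddMonoidHom (fun _ : J => ℤ) k₁))
  have ha_mem : a ∈ ((phi ε).ker).map (Pi.evalAddMonoidHom (fun _ : J => ℤ) k₁) := by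
    rw [ha]; exact AddSubgroup.subset_closure (Set.mem_singleton a)
  obtain ⟨κ, hκker, hκa⟩ := ha_mem
  have hκa' : κ k₁ = a := hκa
  refine ⟨κ, ?_, ?_⟩
  · apply le_antisymm
    · intro x hx
      have hxm : x k₁ ∈ ((phi ε).ker).map (Pi.evalAddMonoidHom (fun _ : J => ℤ) k₁) :=
        ⟨x, hx, rfl⟩
      rw [ha, AddSubgroup.mem_closure_singleton] at hxm
      obtain ⟨m, hm⟩ := hxm
      have hz : x - m • κ = 0 := by
        apply hinj
        · exact AddSubgroup.sub_mem _ hx (AddSubgroup.zsmul_mem _ hκker m)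
        · show x k₁ - m • κ k₁ = 0
          rw [hκa', hm, sub_self]
      rw [AddSubgroup.mem_zmultiples_iff]
      exact ⟨m, (sub_eq_zero.mp hz).symm⟩
    · rw [AddSubgroup.zmultiples_le]; exact hκker
  · rw [hκa']
    rintro rfl
    have hmem2 : (Pi.single k₁ (n : ℤ) - y : J → ℤ) k₁ ∈
        ((phi ε).ker).map (Pi.evalAddMonoidHom (fun _ : J => ℤ) k₁) := ⟨_, hrel, rfl⟩
    rw [ha, AddSubgroup.mem_closure_singleton] at hmem2
    obtain ⟨m, hm⟩ := hmem2
    simp [hy0'] at hm
    exact hn0 (by exact_mod_cast hm.symm)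

end Family

end Units


section Galois

open NumberField NumberField.InfinitePlace NumberField.Units
  NumberField.Units.dirichletUnitTheorem

variable {K L : Type*} [Field K] [NumberField K] [Field L] [NumberField L] [Algebra K L]

/-- the action of an automorphism on the units of the ring of integers. -/
noncomputable def sU (τ : L ≃ₐ[K] L) : (𝓞 L)ˣ →* (𝓞 L)ˣ :=
  Units.map (RingOfIntegers.mapRingHom (τ : L →+* L) : 𝓞 L →* 𝓞 L)

omit [NumberField K] [NumberField L] in
theorem coe_sU (τ : L ≃ₐ[K] L) (u : (𝓞 L)ˣ) : (((sU τ u : (𝓞 L)ˣ) : 𝓞 L) : L) = τ (u : L) := rfl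

omit [NumberField K] [NumberField L] in
theorem sU_mul (τ τ' : L ≃ₐ[K] L) (u : (𝓞 L)ˣ) : sU (τ * τ') u = sU τ (sU τ' u) :=
  NumberField.Units.coe_injective L rfl

omit [NumberField K] [NumberField L] in
theorem sU_one (u : (𝓞 L)ˣ) : sU (1 : L ≃ₐ[K] L) u = u :=
  NumberField.Units.coe_injective L rfl

/-- for odd degree the Galois group acts freely on the infinite places. -/
theorem eq_one_of_smul_eq [IsGalois K L] (hodd : ¬ Even (Module.finrank K L)) (τ : L ≃ₐ[K] L)
    (v : InfinitePlace L) (h : τ • v = v) : τ = 1 := by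
  have hu : IsUnramified K v := by
    by_contra h'
    exact hodd (even_finrank_of_not_isUnramified h')
  have hmem : τ ∈ MulAction.stabilizer (L ≃ₐ[K] L) v := h
  rw [hu.stabilizer_eq_bot] at hmem
  exact Subgroup.mem_bot.mp hmem

variable (L) in
/-- a place of `L` above a place of `K`. -/
noncomputable def vOf (w : InfinitePlace K) : InfinitePlace L :=
  haveI : FiniteDimensional K L := Module.Finite.of_restrictScalars_finite ℚ K L
  (comap_surjective (K := L) w).choose

theorem comap_vOf (w : InfinitePlace K) : (vOf L w).comap (algebraMap K L) = w :=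
  haveI : FiniteDimensional K L := Module.Finite.of_restrictScalars_finite ℚ K L
  (comap_surjective (K := L) w).choose_spec

variable (L) in
/-- a Dirichlet unit attached to the chosen place above `w`. -/
noncomputable def uOf (w : InfinitePlace K) : (𝓞 L)ˣ := (exists_unit L (vOf L w)).choose

theorem uOf_spec (w : InfinitePlace K) (v : InfinitePlace L) (hv : v ≠ vOf L w) :
    Real.log (v ((uOf L w : 𝓞 L) : L)) < 0 :=
  (exists_unit L (vOf L w)).choose_spec v hv

variable (p : ℕ) (σ : L ≃ₐ[K] L)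

/-- the family of units `σ^i u_w`. -/
noncomputable def eps (k : ZMod p × InfinitePlace K) : (𝓞 L)ˣ := sU (σ ^ k.1.val) (uOf L k.2)

/-- the family of places `σ^i v_w`. -/
noncomputable def plc (k : ZMod p × InfinitePlace K) : InfinitePlace L := σ ^ k.1.val • vOf L k.2

theorem log_eps_neg (k : ZMod p × InfinitePlace K) (v : InfinitePlace L) (hv : v ≠ plc p σ k) :
    Real.log (v ((eps p σ k : 𝓞 L) : L)) < 0 := by
  have h1 : (σ ^ k.1.val)⁻¹ • v ≠ vOf L k.2 := by
    intro h
    apply hv
    rw [plc, ← h, smul_inv_smul]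
  have h2 := uOf_spec k.2 _ h1
  exact h2


omit [NumberField K] [NumberField L] in
theorem pow_val_add [NeZero p] (hσp : σ ^ p = 1) (i j : ZMod p) :
    σ ^ (i + j).val = σ ^ i.val * σ ^ j.val := by
  rw [ZMod.val_add, ← pow_eq_pow_mod _ hσp, pow_add]

theorem card_gal [IsGalois K L] (hdeg : Module.finrank K L = p) : Nat.card (L ≃ₐ[K] L) = p := by
  have : FiniteDimensional K L := Module.Finite.of_restrictScalars_finite ℚ K L
  rw [IsGalois.card_aut_eq_finrank, hdeg]

theorem pow_p_eq_one [IsGalois K L] (hdeg : Module.finrank K L = p) : σ ^ p = 1 := by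
  have h := pow_card_eq_one' (G := L ≃ₐ[K] L) (x := σ)
  rwa [card_gal p hdeg] at h

theorem plc_injective [IsGalois K L] [Fact p.Prime] (hdeg : Module.finrank K L = p)
    (hp2 : p ≠ 2) (hσ : σ ≠ 1) : Function.Injective (plc p σ) := by
  rintro ⟨i, w⟩ ⟨j, w'⟩ h
  have hσp := pow_p_eq_one p σ hdeg
  have hord : orderOf σ = p := orderOf_eq_prime hσp hσ
  have hodd : ¬ Even (Module.finrank K L) := by
    rw [hdeg, (Fact.out : p.Prime).even_iff]; exact hp2
  simp only [plc] at h
  have hw : w = w' := by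
    have h1 : (σ ^ i.val • vOf L w).comap (algebraMap K L) =
        (σ ^ j.val • vOf L w').comap (algebraMap K L) := by rw [h]
    rw [← mem_orbit_iff.mp ⟨σ ^ i.val, rfl⟩, ← mem_orbit_iff.mp ⟨σ ^ j.val, rfl⟩, comap_vOf,
      comap_vOf] at h1
    exact h1
  subst hw
  have h2 : (σ ^ j.val)⁻¹ * σ ^ i.val = 1 :=
    eq_one_of_smul_eq hodd _ (vOf L w) (by rw [mul_smul, h, inv_smul_smul])
  have h3 : σ ^ i.val = σ ^ j.val := by
    rw [inv_mul_eq_one] at h2; exact h2.symm
  have h4 : i.val = j.val :=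
    pow_injOn_Iio_orderOf (by rw [hord]; exact ZMod.val_lt i) (by rw [hord]; exact ZMod.val_lt j) h3
  exact Prod.ext (ZMod.val_injective p h4) rfl

theorem plc_surjective [IsGalois K L] [Fact p.Prime] (hdeg : Module.finrank K L = p)
    (hσ : σ ≠ 1) : Function.Surjective (plc p σ) := by
  intro v
  have : FiniteDimensional K L := Module.Finite.of_restrictScalars_finite ℚ K L
  have hσp := pow_p_eq_one p σ hdeg
  obtain ⟨τ, hτ⟩ := exists_smul_eq_of_comap_eq (k := K)
    (w := vOf L (v.comap (algebraMap K L))) (w' := v) (comap_vOf _)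
  have htop : Subgroup.zpowers σ = ⊤ := zpowers_eq_top_of_prime_card (card_gal p hdeg) hσ
  have hmem : τ ∈ Submonoid.powers σ :=
    mem_powers_iff_mem_zpowers.mpr (htop ▸ Subgroup.mem_top τ)
  obtain ⟨n, rfl⟩ := hmem
  refine ⟨(((n % p : ℕ) : ZMod p), v.comap (algebraMap K L)), ?_⟩
  simp only [plc]
  rw [ZMod.val_natCast_of_lt (Nat.mod_lt _ (Fact.out : p.Prime).pos), ← pow_eq_pow_mod _ hσp]
  exact hτ

end Galois

theorem prod_range_eq_prod_zmod (p : ℕ) [NeZero p] {M : Type*} [CommMonoid M] (F : ℕ → M) :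
    ∏ i ∈ Finset.range p, F i = ∏ j : ZMod p, F j.val := by
  refine Finset.prod_nbij' (fun i => (i : ZMod p)) (fun j => j.val) ?_ ?_ ?_ ?_ ?_
  · intro i _; exact Finset.mem_univ _
  · intro j _; exact Finset.mem_range.mpr (ZMod.val_lt j)
  · intro i hi; exact ZMod.val_natCast_of_lt (Finset.mem_range.mp hi)
  · intro j _; exact ZMod.natCast_zmod_val j
  · intro i hi; rw [ZMod.val_natCast_of_lt (Finset.mem_range.mp hi)]

section Main

open NumberField NumberField.InfinitePlace NumberField.Units
  NumberField.Units.dirichletUnitTheorem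

variable {K L : Type*} [Field K] [NumberField K] [Field L] [NumberField L] [Algebra K L]

/-- **Herbrand quotient of the units** of a cyclic extension `L/K` of odd prime degree `p`:
`[ker N : (σ - 1) E_L] = p · [E_L^σ : N E_L]`, and both indices are finite.
`D` is `u ↦ σ u / u` and `Nm` is `u ↦ ∏_{i < p} σ^i u` on `E_L = (𝓞 L)ˣ`. -/
theorem units_herbrand [IsGalois K L] (p : ℕ) (hp : p.Prime) (hp2 : p ≠ 2)
    (hdeg : Module.finrank K L = p) (σ : L ≃ₐ[K] L) (hσ : σ ≠ 1)
    (D Nm : (𝓞 L)ˣ →* (𝓞 L)ˣ)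
    (hD : ∀ u : (𝓞 L)ˣ, (((D u : (𝓞 L)ˣ) : 𝓞 L) : L) = σ (u : L) / (u : L))
    (hNm : ∀ u : (𝓞 L)ˣ,
      (((Nm u : (𝓞 L)ˣ) : 𝓞 L) : L) = ∏ i ∈ Finset.range p, (σ ^ i) (u : L)) :
    (D.range).relIndex Nm.ker = p * (Nm.range).relIndex D.ker ∧
      (Nm.range).relIndex D.ker ≠ 0 := by
  classical
  have : Fact p.Prime := ⟨hp⟩
  have hσp : σ ^ p = 1 := pow_p_eq_one p σ hdeg
  -- `D` and `Nm` through the action on units
  let cL : (𝓞 L)ˣ →* L := ((algebraMap (𝓞 L) L : 𝓞 L →+* L) : 𝓞 L →* L).comp (Units.coeHom (𝓞 L))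
  have hcL : ∀ u : (𝓞 L)ˣ, cL u = ((u : 𝓞 L) : L) := fun _ => rfl
  have hD' : ∀ u, D u = sU σ u / u := by
    intro u
    rw [eq_div_iff_mul_eq']
    apply NumberField.Units.coe_injective L
    show ((D u : 𝓞 L) : L) * ((u : 𝓞 L) : L) = σ ((u : 𝓞 L) : L)
    rw [hD, div_mul_cancel₀]
    exact NumberField.Units.coe_ne_zero u
  have hNm' : ∀ u, Nm u = ∏ j : ZMod p, sU (σ ^ j.val) u := by
    intro u
    apply NumberField.Units.coe_injective L
    show ((Nm u : 𝓞 L) : L) = cL (∏ j : ZMod p, sU (σ ^ j.val) u)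
    rw [hNm, map_prod, prod_range_eq_prod_zmod]
    rfl
  have hprod_shift : ∀ u : (𝓞 L)ˣ,
      ∏ j : ZMod p, sU (σ ^ (1 + j).val) u = ∏ j : ZMod p, sU (σ ^ j.val) u := fun u =>
    Equiv.prod_comp (Equiv.addLeft (1 : ZMod p)) (fun j => sU (σ ^ j.val) u)
  have hσ1 : σ ^ (1 : ZMod p).val = σ := by rw [ZMod.val_one, pow_one]
  have hsN : ∀ u, sU σ (Nm u) = Nm u := by
    intro u
    rw [hNm', map_prod, ← hprod_shift]
    refine Finset.prod_congr rfl (fun j _ => ?_)
    rw [← sU_mul, pow_val_add p σ hσp, hσ1]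
  have hNs : ∀ u, Nm (sU σ u) = Nm u := by
    intro u
    rw [hNm', hNm', ← hprod_shift u]
    refine Finset.prod_congr rfl (fun j _ => ?_)
    rw [← sU_mul, add_comm 1 j, pow_val_add p σ hσp, hσ1]
  -- the family of units and the structure of its relations
  have hplb : Function.Bijective (plc p σ) :=
    ⟨plc_injective p σ hdeg hp2 hσ, plc_surjective p σ hdeg hσ⟩
  let k₁ : ZMod p × InfinitePlace K := (0, Classical.arbitrary _)
  obtain ⟨hindex, κ, hker, hκ1⟩ :=
    exists_ker_generator (plc p σ) (eps p σ) hplb (log_eps_neg p σ) k₁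
  have heps_succ : ∀ (i : ZMod p) (w : InfinitePlace K),
      sU σ (eps p σ (i, w)) = eps p σ (i + 1, w) := by
    intro i w
    simp only [eps]
    rw [← sU_mul, add_comm i 1, pow_val_add p σ hσp, hσ1]
  have heps_add : ∀ (j i : ZMod p) (w : InfinitePlace K),
      sU (σ ^ j.val) (eps p σ (i, w)) = eps p σ (j + i, w) := by
    intro j i w
    simp only [eps]
    rw [← sU_mul, pow_val_add p σ hσp]
  set f : Additive (𝓞 L)ˣ →+ Additive (𝓞 L)ˣ := MonoidHom.toAdditive D with hf
  set g : Additive (𝓞 L)ˣ →+ Additive (𝓞 L)ˣ := MonoidHom.toAdditive Nm with hg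
  have hf_eps : ∀ k : ZMod p × InfinitePlace K, f (Additive.ofMul (eps p σ k)) =
      Additive.ofMul (eps p σ (k.1 + 1, k.2)) - Additive.ofMul (eps p σ k) := by
    intro k
    show Additive.ofMul (D (eps p σ k)) = _
    rw [hD', heps_succ k.1 k.2]
    rfl
  have hg_eps : ∀ k : ZMod p × InfinitePlace K, g (Additive.ofMul (eps p σ k)) =
      ∑ j : ZMod p, Additive.ofMul (eps p σ (j, k.2)) := by
    intro k
    show Additive.ofMul (Nm (eps p σ k)) = _
    rw [hNm', ofMul_prod]
    rw [← Equiv.sum_comp (Equiv.addRight k.1) (fun j => Additive.ofMul (eps p σ (j, k.2)))]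
    refine Finset.sum_congr rfl (fun j _ => ?_)
    rw [heps_add j k.1 k.2]
    rfl
  have hφf : ∀ x, phi (eps p σ) (fX p (InfinitePlace K) x) = f (phi (eps p σ) x) := by
    intro x
    rw [phi_apply, phi_apply, map_sum]
    have h1 : ∀ k : ZMod p × InfinitePlace K,
        fX p (InfinitePlace K) x k • Additive.ofMul (eps p σ k) =
        x (k.1 - 1, k.2) • Additive.ofMul (eps p σ k) - x k • Additive.ofMul (eps p σ k) := by
      intro k; rw [fX_apply, sub_smul]
    have h2 : ∀ k : ZMod p × InfinitePlace K, f (x k • Additive.ofMul (eps p σ k)) =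
        x k • Additive.ofMul (eps p σ (k.1 + 1, k.2)) - x k • Additive.ofMul (eps p σ k) := by
      intro k; rw [map_zsmul, hf_eps, zsmul_sub]
    rw [Finset.sum_congr rfl (fun k _ => h1 k), Finset.sum_congr rfl (fun k _ => h2 k),
      Finset.sum_sub_distrib, Finset.sum_sub_distrib]
    congr 1
    rw [← Equiv.sum_comp ((Equiv.addRight (1 : ZMod p)).prodCongr (Equiv.refl (InfinitePlace K)))
      (fun k => x (k.1 - 1, k.2) • Additive.ofMul (eps p σ k))]
    refine Finset.sum_congr rfl (fun k _ => ?_)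
    show x ((k.1 + 1) - 1, k.2) • Additive.ofMul (eps p σ (k.1 + 1, k.2)) = _
    rw [add_sub_cancel_right]
  have hφg : ∀ x, phi (eps p σ) (gX p (InfinitePlace K) x) = g (phi (eps p σ) x) := by
    intro x
    rw [phi_apply, phi_apply, map_sum]
    have h1 : ∀ k : ZMod p × InfinitePlace K,
        gX p (InfinitePlace K) x k • Additive.ofMul (eps p σ k) =
        ∑ j : ZMod p, x (j, k.2) • Additive.ofMul (eps p σ k) := by
      intro k; rw [gX_apply, ← zmultiplesHom_apply, map_sum]; rfl
    have h2 : ∀ k : ZMod p × InfinitePlace K, g (x k • Additive.ofMul (eps p σ k)) =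
        ∑ j : ZMod p, x k • Additive.ofMul (eps p σ (j, k.2)) := by
      intro k; rw [map_zsmul, hg_eps, Finset.sum_zsmul]
    rw [Finset.sum_congr rfl (fun k _ => h1 k), Finset.sum_congr rfl (fun k _ => h2 k),
      Fintype.sum_prod_type_right, Fintype.sum_prod_type_right]
    refine Finset.sum_congr rfl (fun w _ => ?_)
    exact Finset.sum_comm
  have hfg : ∀ a, f (g a) = 0 := by
    intro a
    show Additive.ofMul (D (Nm a.toMul)) = 0
    rw [hD', hsN, div_self']
    rfl
  have hgf : ∀ a, g (f a) = 0 := by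
    intro a
    show Additive.ofMul (Nm (D a.toMul)) = 0
    rw [hD', map_div, hNs, div_self']
    rfl
  have hNA : ∀ a, f a = 0 → g a = p • a := by
    intro a ha
    have h1 : D a.toMul = 1 := ha
    have h2 : sU σ a.toMul = a.toMul := by
      rw [hD', div_eq_one] at h1; exact h1
    have h3 : ∀ n : ℕ, sU (σ ^ n) a.toMul = a.toMul := by
      intro n
      induction n with
      | zero => rw [pow_zero, sU_one]
      | succ n ih => rw [pow_succ, sU_mul, h2, ih]
    show Additive.ofMul (Nm a.toMul) = p • a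
    rw [hNm', Finset.prod_congr rfl (fun j _ => h3 j.val), Finset.prod_const, Finset.card_univ,
      ZMod.card, ofMul_pow]
    rfl
  -- the generator of the relations is invariant
  have hκtf : ∀ n : ℤ, n • κ = 0 → n = 0 := by
    intro n hn
    have h1 := congrFun hn k₁
    simp only [Pi.smul_apply, smul_eq_mul, Pi.zero_apply, mul_eq_zero] at h1
    exact h1.resolve_right hκ1
  have hκmem : κ ∈ (phi (eps p σ)).ker := by
    rw [hker]; exact AddSubgroup.mem_zmultiples κ
  have hκf : fX p (InfinitePlace K) κ = 0 := by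
    have h1 : shift p (InfinitePlace K) κ ∈ (phi (eps p σ)).ker := by
      have h2 : shift p (InfinitePlace K) κ = fX p (InfinitePlace K) κ + κ := by
        simp [fX]
      rw [AddMonoidHom.mem_ker, h2, map_add, hφf, AddMonoidHom.mem_ker.mp hκmem, map_zero,
        add_zero]
    rw [hker, AddSubgroup.mem_zmultiples_iff] at h1
    obtain ⟨m, hm⟩ := h1
    have h3 : ∀ n : ℕ, (shift p (InfinitePlace K))^[n] κ = (m ^ n) • κ := by
      intro n
      induction n with
      | zero => simp
      | succ n ih => rw [Function.iterate_succ_apply', ih, map_zsmul, ← hm, smul_smul, pow_succ]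
    have h4 : (m ^ p) • κ = κ := by rw [← h3 p, shift_iterate_self]
    have h5 : m ^ p = 1 := by
      have h6 : (m ^ p - 1) • κ = 0 := by rw [sub_smul, h4, one_smul, sub_self]
      have := hκtf _ h6
      linarith
    have hm1 : m = 1 :=
      (hp.odd_of_ne_two hp2).pow_inj.mp (by rw [h5, one_pow])
    have h7 : shift p (InfinitePlace K) κ = κ := by rw [← hm, hm1, one_smul]
    show shift p (InfinitePlace K) κ - κ = 0
    rw [h7, sub_self]
  have key := Herbrand.herbrand_of_image f g (fX p (InfinitePlace K)) (gX p (InfinitePlace K))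
    (phi (eps p σ)) hfg hgf hφf hφg gX_fX exists_gX_eq exists_fX_eq p hp.ne_zero gX_eq_nsmul κ
    hker hκtf hκf hindex
  have key2 := Herbrand.relIndex_range_ker_ne_zero f g p hp.ne_zero hNA
  rw [hf, hg, MonoidHom.coe_toAdditive_range, MonoidHom.coe_toAdditive_ker,
    MonoidHom.coe_toAdditive_range, MonoidHom.coe_toAdditive_ker,
    Subgroup.relIndex_toAddSubgroup, Subgroup.relIndex_toAddSubgroup] at key
  rw [hf, hg, MonoidHom.coe_toAdditive_range, MonoidHom.coe_toAdditive_ker,
    Subgroup.relIndex_toAddSubgroup] at key2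
  exact ⟨key, key2⟩

end Main

end Fermat.Agent.S14.UnitHerbrand
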