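import Mathlib
import Fermat.Agent.S14.FIFinal
import Fermat.Agent.S14.UnitHerbrand

/-!
# The first inequality, unconditional (stream C of S14)

`FIFinal` (chain + ambiguous ideals + norm/product formula) combined with
`UnitHerbrand.units_herbrand`: for a Galois extension `L/K` of number fields of odd prime degree
`p`, unramified at all finite primes, the norm map on ideal classes is not surjective.
-/

set_option linter.unusedSectionVars false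

namespace Fermat.Agent.S14.FIMain

open NumberField nonZeroDivisors
open Fermat.Agent.S14

variable {K L : Type} [Field K] [NumberField K] [Field L] [NumberField L] [Algebra K L]
  [IsGalois K L]

/-- The unit Herbrand quotient, in the form consumed by `FIFinal`. -/
theorem unitsHerbrand (p : ℕ) (hp : p.Prime) (hp2 : p ≠ 2) (hdeg : Module.finrank K L = p) :
    FIFinal.UnitsHerbrand K L p :=
  fun σ hσ D Nm hD hNm => UnitHerbrand.units_herbrand p hp hp2 hdeg σ hσ D Nm hD hNm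

/-- **First inequality**: some ideal class of `K` is not the class of a relative norm from `L`. -/
theorem norm_not_surjective (p : ℕ) (hp : p.Prime) (hp2 : p ≠ 2)
    (hdeg : Module.finrank K L = p)
    (hur : ∀ Q : Ideal (𝓞 L), Q.IsPrime → Q ≠ ⊥ → Q.inertia (L ≃ₐ[K] L) = ⊥) :
    ∃ c : ClassGroup (𝓞 K), ∀ J : (Ideal (𝓞 L))⁰,
      ClassGroup.mk0 ⟨Ideal.relNorm (𝓞 K) (J : Ideal (𝓞 L)), FIFinal.relNorm_mem J⟩ ≠ c :=
  FIFinal.norm_not_surjective_of_units p hp hdeg hur (unitsHerbrand p hp hp2 hdeg)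

/-- The same, quantifying over all ideals of `𝓞 L` whose norm is nonzero. -/
theorem norm_not_surjective' (p : ℕ) (hp : p.Prime) (hp2 : p ≠ 2)
    (hdeg : Module.finrank K L = p)
    (hur : ∀ Q : Ideal (𝓞 L), Q.IsPrime → Q ≠ ⊥ → Q.inertia (L ≃ₐ[K] L) = ⊥) :
    ∃ c : ClassGroup (𝓞 K), ∀ (J : Ideal (𝓞 L))
      (hJ : Ideal.relNorm (𝓞 K) J ∈ (Ideal (𝓞 K))⁰),
      ClassGroup.mk0 ⟨Ideal.relNorm (𝓞 K) J, hJ⟩ ≠ c := by
  obtain ⟨c, hc⟩ := norm_not_surjective p hp hp2 hdeg hur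
  refine ⟨c, fun J hJ => ?_⟩
  have hJ0 : J ∈ (Ideal (𝓞 L))⁰ := mem_nonZeroDivisors_of_ne_zero (fun h => by
    rw [h, map_zero] at hJ
    exact nonZeroDivisors.ne_zero hJ rfl)
  exact hc ⟨J, hJ0⟩

/-- `P_K · N(I_L) ≠ I_K`. -/
theorem exists_ideal_not_norm (p : ℕ) (hp : p.Prime) (hp2 : p ≠ 2)
    (hdeg : Module.finrank K L = p)
    (hur : ∀ Q : Ideal (𝓞 L), Q.IsPrime → Q ≠ ⊥ → Q.inertia (L ≃ₐ[K] L) = ⊥) :
    ∃ I : Ideal (𝓞 K), I ≠ ⊥ ∧ ∀ (x y : 𝓞 K) (J : Ideal (𝓞 L)), x ≠ 0 → y ≠ 0 → J ≠ ⊥ →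
      Ideal.span {x} * I ≠ Ideal.span {y} * Ideal.relNorm (𝓞 K) J :=
  FIFinal.exists_ideal_not_norm_of_units p hp hdeg hur (unitsHerbrand p hp hp2 hdeg)

/-- Some nonzero ideal of `𝓞 K` is not a relative norm. -/
theorem exists_ne_relNorm (p : ℕ) (hp : p.Prime) (hp2 : p ≠ 2)
    (hdeg : Module.finrank K L = p)
    (hur : ∀ Q : Ideal (𝓞 L), Q.IsPrime → Q ≠ ⊥ → Q.inertia (L ≃ₐ[K] L) = ⊥) :
    ∃ I : Ideal (𝓞 K), I ≠ ⊥ ∧ ∀ J : Ideal (𝓞 L), Ideal.relNorm (𝓞 K) J ≠ I := by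
  obtain ⟨I, hI, h⟩ := exists_ideal_not_norm p hp hp2 hdeg hur
  refine ⟨I, hI, fun J hJ => ?_⟩
  have hJ0 : J ≠ ⊥ := fun h0 => hI (by rw [← hJ, h0, Ideal.relNorm_bot])
  exact h 1 1 J one_ne_zero one_ne_zero hJ0 (by rw [hJ])

/-- Some nonzero prime of `K` has nontrivial Frobenius in `L/K` (an inert prime). -/
theorem exists_frob_ne_one (p : ℕ) (hp : p.Prime) (hp2 : p ≠ 2)
    (hdeg : Module.finrank K L = p) (hab : ∀ a b : L ≃ₐ[K] L, a * b = b * a)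
    (hur : ArtinMap.IsUnram L (L ≃ₐ[K] L)) :
    ∃ q : Ideal (𝓞 K), q.IsPrime ∧ q ≠ ⊥ ∧ ArtinMap.frob K L (L ≃ₐ[K] L) q ≠ 1 :=
  FIFinal.exists_frob_ne_one_of_units p hp hdeg hab hur (unitsHerbrand p hp hp2 hdeg)

end Fermat.Agent.S14.FIMain
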