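import Mathlib
import Fermat.Agent.S14.ArtinMap

set_option autoImplicit false
set_option linter.unusedSectionVars false
open NumberField

namespace Fermat.Agent.S14.CrossField

variable (K L Ω : Type*) [Field K] [NumberField K] [Field L] [NumberField L] [Field Ω]
  [NumberField Ω] [Algebra K L] [Algebra K Ω] [Algebra L Ω] [IsScalarTower K L Ω]
  [IsGalois K Ω] [IsGalois K L]

variable (H : Subgroup (Ω ≃ₐ[K] Ω))

/-- The fixed field `F = Ω^H`. -/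
noncomputable abbrev FH : IntermediateField K Ω := FixedPoints.intermediateField H

/-- Restriction `H → Gal(L/K)`. -/
noncomputable def resH : ↥H →* (L ≃ₐ[K] L) :=
  (AlgEquiv.restrictNormalHom L : (Ω ≃ₐ[K] Ω) →* (L ≃ₐ[K] L)).comp H.subtype

/-- `H ∩ Gal(Ω/L)` as a subgroup of `H`. -/
noncomputable abbrev NH : Subgroup ↥H := (resH K L Ω H).ker

/-- The field `M = L·F = Ω^(H ∩ Gal(Ω/L))`, as an intermediate field of `Ω/F`. -/
noncomputable abbrev MH : IntermediateField (FH K Ω H) Ω :=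
  FixedPoints.intermediateField (NH K L Ω H)

/-- The Galois group of `M/F`. -/
abbrev GH : Type _ := ↥H ⧸ NH K L Ω H

example : IsGaloisGroup (GH K L Ω H) (FH K Ω H) (MH K L Ω H) := inferInstance
example : NumberField (MH K L Ω H) := inferInstance

theorem resH_apply (h : ↥H) (x : L) :
    algebraMap L Ω (resH K L Ω H h x) = (h : Ω ≃ₐ[K] Ω) (algebraMap L Ω x) := by
  simp only [resH, MonoidHom.coe_comp, Function.comp_apply, Subgroup.coe_subtype]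
  exact AlgEquiv.restrictNormal_commutes _ L x

theorem algebraMap_mem_MH (x : L) : algebraMap L Ω x ∈ MH K L Ω H := by
  intro n
  have h1 := resH_apply K L Ω H (n : ↥H) x
  have h2 : resH K L Ω H (n : ↥H) = 1 := n.2
  rw [h2] at h1
  exact h1.symm

noncomputable instance algLM : Algebra L (MH K L Ω H) :=
  RingHom.toAlgebra ((algebraMap L Ω).codRestrict (MH K L Ω H) (algebraMap_mem_MH K L Ω H))

theorem coe_algebraMap_LM (x : L) :
    ((algebraMap L (MH K L Ω H) x : MH K L Ω H) : Ω) = algebraMap L Ω x := rfl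

instance : IsScalarTower L (MH K L Ω H) Ω :=
  IsScalarTower.of_algebraMap_eq (fun _ => rfl)

instance : IsScalarTower K L (MH K L Ω H) :=
  IsScalarTower.of_algebraMap_eq (fun x => by
    apply Subtype.ext
    rw [coe_algebraMap_LM]
    exact IsScalarTower.algebraMap_apply K L Ω x)

/-- The restriction map `Gal(M/F) → Gal(L/K)`. -/
noncomputable def resQ : GH K L Ω H →* (L ≃ₐ[K] L) :=
  QuotientGroup.kerLift (resH K L Ω H)

theorem resQ_mk (h : ↥H) : resQ K L Ω H (QuotientGroup.mk h) = resH K L Ω H h := rfl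

theorem resQ_injective : Function.Injective (resQ K L Ω H) :=
  QuotientGroup.kerLift_injective _

theorem coe_mk_smul (h : ↥H) (y : MH K L Ω H) :
    (((QuotientGroup.mk h : GH K L Ω H) • y : MH K L Ω H) : Ω) = (h : Ω ≃ₐ[K] Ω) (y : Ω) :=
  IsGaloisGroup.algebraMap_smulOfNormal (↥H) (MH K L Ω H) Ω (NH K L Ω H) h y

theorem algebraMap_resQ_smul (g : GH K L Ω H) (x : L) :
    algebraMap L (MH K L Ω H) (resQ K L Ω H g • x) = g • algebraMap L (MH K L Ω H) x := by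
  induction g using QuotientGroup.induction_on with
  | H h =>
    apply Subtype.ext
    rw [coe_mk_smul, coe_algebraMap_LM, coe_algebraMap_LM, resQ_mk]
    exact resH_apply K L Ω H h x

theorem resQ_surjective (hs : ∀ c : L ≃ₐ[K] L, ∃ h ∈ H, AlgEquiv.restrictNormalHom L h = c) :
    Function.Surjective (resQ K L Ω H) := by
  intro c
  obtain ⟨h, hh, rfl⟩ := hs c
  exact ⟨QuotientGroup.mk ⟨h, hh⟩, rfl⟩

theorem GH_comm (hab : ∀ a b : L ≃ₐ[K] L, a * b = b * a) (a b : GH K L Ω H) : a * b = b * a := by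
  apply resQ_injective K L Ω H
  rw [map_mul, map_mul, hab]

theorem card_GH (hs : ∀ c : L ≃ₐ[K] L, ∃ h ∈ H, AlgEquiv.restrictNormalHom L h = c) :
    Nat.card (GH K L Ω H) = Module.finrank K L := by
  rw [Nat.card_congr (Equiv.ofBijective _ ⟨resQ_injective K L Ω H, resQ_surjective K L Ω H hs⟩)]
  exact IsGaloisGroup.card_eq_finrank (L ≃ₐ[K] L) K L

theorem finrank_MH (hs : ∀ c : L ≃ₐ[K] L, ∃ h ∈ H, AlgEquiv.restrictNormalHom L h = c) :
    Module.finrank (FH K Ω H) (MH K L Ω H) = Module.finrank K L := by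
  rw [← card_GH K L Ω H hs]
  exact (IsGaloisGroup.card_eq_finrank (GH K L Ω H) (FH K Ω H) (MH K L Ω H)).symm



theorem coe_algebraMap_OLM (x : 𝓞 L) :
    ((algebraMap (𝓞 L) (𝓞 (MH K L Ω H)) x : 𝓞 (MH K L Ω H)) : MH K L Ω H) =
      algebraMap L (MH K L Ω H) (x : L) := rfl

theorem algebraMap_resQ_smul_int (g : GH K L Ω H) (x : 𝓞 L) :
    algebraMap (𝓞 L) (𝓞 (MH K L Ω H)) (resQ K L Ω H g • x) =
      g • algebraMap (𝓞 L) (𝓞 (MH K L Ω H)) x := by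
  apply RingOfIntegers.ext
  have h1 : ((g • algebraMap (𝓞 L) (𝓞 (MH K L Ω H)) x : 𝓞 (MH K L Ω H)) : MH K L Ω H) =
      g • ((algebraMap (𝓞 L) (𝓞 (MH K L Ω H)) x : 𝓞 (MH K L Ω H)) : MH K L Ω H) :=
    algebraMap.smul' g _ (MH K L Ω H)
  have h2 : ((resQ K L Ω H g • x : 𝓞 L) : L) = resQ K L Ω H g • (x : L) :=
    algebraMap.smul' (resQ K L Ω H g) x L
  rw [coe_algebraMap_OLM, h1, coe_algebraMap_OLM, h2]
  exact algebraMap_resQ_smul K L Ω H g (x : L)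

/-- `M/F` is unramified if `L/K` is. -/
theorem isUnram_MH (hur : ArtinMap.IsUnram L (L ≃ₐ[K] L)) :
    ArtinMap.IsUnram (MH K L Ω H) (GH K L Ω H) := by
  intro Q hQ hQ0
  rw [eq_bot_iff]
  intro g hg
  rw [Subgroup.mem_bot]
  apply resQ_injective K L Ω H
  rw [map_one]
  have hq : (Q.under (𝓞 L)).IsPrime := Ideal.IsPrime.under (𝓞 L) Q
  have hq0 : Q.under (𝓞 L) ≠ ⊥ := Ideal.under_ne_bot (𝓞 L) hQ0
  have h1 := hur (Q.under (𝓞 L)) hq hq0
  rw [← Subgroup.mem_bot, ← h1]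
  intro x
  show _ ∈ Ideal.comap (algebraMap (𝓞 L) (𝓞 (MH K L Ω H))) Q
  rw [Ideal.mem_comap, map_sub, algebraMap_resQ_smul_int]
  exact hg _


theorem card_le_of_forall_pow_eq {k : Type*} [Field k] [Finite k] (q : ℕ) (hq : 1 < q)
    (h : ∀ a : k, a ^ q = a) : Nat.card k ≤ q := by
  classical
  have := Fintype.ofFinite k
  have hne : (Polynomial.X ^ q - Polynomial.X : Polynomial k) ≠ 0 :=
    FiniteField.X_pow_card_sub_X_ne_zero k hq
  have hsub : (Finset.univ : Finset k) ⊆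
      (Polynomial.X ^ q - Polynomial.X : Polynomial k).roots.toFinset := by
    intro a _
    rw [Multiset.mem_toFinset, Polynomial.mem_roots hne]
    simp [h a]
  calc Nat.card k = Fintype.card k := Nat.card_eq_fintype_card
    _ = (Finset.univ : Finset k).card := rfl
    _ ≤ _ := Finset.card_le_card hsub
    _ ≤ Multiset.card (Polynomial.X ^ q - Polynomial.X : Polynomial k).roots :=
        Multiset.toFinset_card_le _
    _ ≤ (Polynomial.X ^ q - Polynomial.X : Polynomial k).natDegree := Polynomial.card_roots' _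
    _ = q := FiniteField.X_pow_card_sub_X_natDegree_eq k hq

/-- If a Frobenius element of `P` over `K` lies in `H`, then the prime of `F = Ω^H` below `P` has
residue degree one over `K`: its relative norm is the prime of `K` below `P`. -/
theorem relNorm_under_of_frob (P : Ideal (𝓞 Ω)) [hP1 : P.IsPrime] (hP : P ≠ ⊥) (φ : Ω ≃ₐ[K] Ω)
    (hφH : φ ∈ H) (hφ : IsArithFrobAt (𝓞 K) φ P) :
    Ideal.relNorm (𝓞 K) (P.under (𝓞 (FH K Ω H))) = P.under (𝓞 K) := by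
  set 𝔭 : Ideal (𝓞 (FH K Ω H)) := P.under (𝓞 (FH K Ω H)) with h𝔭
  set 𝔮 : Ideal (𝓞 K) := P.under (𝓞 K) with h𝔮
  have h𝔭p : 𝔭.IsPrime := Ideal.IsPrime.under _ P
  have h𝔮p : 𝔮.IsPrime := Ideal.IsPrime.under _ P
  have h𝔭0 : 𝔭 ≠ ⊥ := Ideal.under_ne_bot _ hP
  have h𝔮0 : 𝔮 ≠ ⊥ := Ideal.under_ne_bot _ hP
  have h𝔭m : 𝔭.IsMaximal := h𝔭p.isMaximal h𝔭0
  have h𝔮m : 𝔮.IsMaximal := h𝔮p.isMaximal h𝔮0
  have hover : 𝔭.LiesOver 𝔮 := ⟨by rw [h𝔭, h𝔮, Ideal.under_under]⟩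
  obtain ⟨s, hs⟩ := Ideal.exists_relNorm_eq_pow_of_isPrime 𝔭 𝔮
  have hcard : Nat.card (𝓞 K ⧸ P.under (𝓞 K)) = Ideal.absNorm 𝔮 := rfl
  have hq1 : 1 < Ideal.absNorm 𝔮 := by
    rcases Nat.lt_or_ge 1 (Ideal.absNorm 𝔮) with h | h
    · exact h
    · exfalso
      interval_cases hh : Ideal.absNorm 𝔮
      · exact h𝔮0 (Ideal.absNorm_eq_zero_iff.mp hh)
      · exact h𝔮p.ne_top (Ideal.absNorm_eq_one_iff.mp hh)
  have hpow : ∀ a : 𝓞 (FH K Ω H) ⧸ 𝔭, a ^ Ideal.absNorm 𝔮 = a := by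
    intro a
    obtain ⟨x, rfl⟩ := Ideal.Quotient.mk_surjective a
    rw [← map_pow, eq_comm, Ideal.Quotient.eq]
    show x - x ^ Ideal.absNorm 𝔮 ∈ Ideal.comap (algebraMap (𝓞 (FH K Ω H)) (𝓞 Ω)) P
    rw [Ideal.mem_comap, map_sub, map_pow]
    have h1 := hφ (algebraMap (𝓞 (FH K Ω H)) (𝓞 Ω) x)
    rw [hcard] at h1
    have h2 : (MulSemiringAction.toAlgHom (𝓞 K) (𝓞 Ω) φ) (algebraMap (𝓞 (FH K Ω H)) (𝓞 Ω) x) =
        algebraMap (𝓞 (FH K Ω H)) (𝓞 Ω) x := by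
      apply RingOfIntegers.ext
      refine (algebraMap.smul' φ (algebraMap (𝓞 (FH K Ω H)) (𝓞 Ω) x) Ω).trans ?_
      exact (x : FH K Ω H).2 ⟨φ, hφH⟩
    rwa [h2] at h1
  let _ := Ideal.Quotient.field 𝔭
  have : Finite (𝓞 (FH K Ω H) ⧸ 𝔭) := Ideal.finiteQuotientOfFreeOfNeBot 𝔭 h𝔭0
  have hle' : Nat.card (𝓞 (FH K Ω H) ⧸ 𝔭) ≤ Ideal.absNorm 𝔮 :=
    card_le_of_forall_pow_eq _ hq1 hpow
  have hle : Ideal.absNorm 𝔭 ≤ Ideal.absNorm 𝔮 := hle' 
  have habs : Ideal.absNorm 𝔭 = Ideal.absNorm 𝔮 ^ s := by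
    rw [← map_pow, ← hs, Ideal.absNorm_relNorm]
  have hs1 : s ≤ 1 := by
    by_contra hcon
    have hcon := not_le.mp hcon
    have : Ideal.absNorm 𝔮 ^ 2 ≤ Ideal.absNorm 𝔮 ^ s := Nat.pow_le_pow_right (by omega) hcon
    nlinarith
  have hs0 : s ≠ 0 := by
    rintro rfl
    rw [pow_zero, Ideal.one_eq_top] at hs
    have h3 : Ideal.relNorm (𝓞 K) 𝔭 ≤ 𝔮 := by
      have h4 := Ideal.relNorm_le_comap (𝓞 K) 𝔭
      rwa [show Ideal.comap (algebraMap (𝓞 K) (𝓞 (FH K Ω H))) 𝔭 = 𝔮 from hover.over.symm] at h4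
    rw [hs] at h3
    exact h𝔮p.ne_top (top_le_iff.mp h3)
  have hs' : s = 1 := by omega
  rw [hs, hs', pow_one]


/-- Tower `K ⊆ Ω^H ⊆ Ω^H'` for `H' ≤ H`: the relative norm to `K` of the prime of `Ω^H'` below `P`
is the relative norm of a power of the prime of `Ω^H` below `P`. -/
theorem exists_pow_relNorm_eq (H' : Subgroup (Ω ≃ₐ[K] Ω)) (hle : H' ≤ H) (P : Ideal (𝓞 Ω))
    [hP1 : P.IsPrime] (hP : P ≠ ⊥) :
    ∃ n : ℕ, 0 < n ∧ Ideal.relNorm (𝓞 K) ((P.under (𝓞 (FH K Ω H))) ^ n) =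
      Ideal.relNorm (𝓞 K) (P.under (𝓞 (FH K Ω H'))) := by
  have hF : FH K Ω H ≤ FH K Ω H' := fun x hx h' => hx ⟨h'.1, hle h'.2⟩
  let _ : Algebra (FH K Ω H) (FH K Ω H') := (IntermediateField.inclusion hF).toRingHom.toAlgebra
  have : IsScalarTower K (FH K Ω H) (FH K Ω H') := IsScalarTower.of_algebraMap_eq (fun x => rfl)
  have : IsScalarTower (FH K Ω H) (FH K Ω H') Ω := IsScalarTower.of_algebraMap_eq (fun x => rfl)
  have : IsScalarTower (𝓞 K) (𝓞 (FH K Ω H)) (𝓞 (FH K Ω H')) := inferInstance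
  have : IsScalarTower (𝓞 (FH K Ω H)) (𝓞 (FH K Ω H')) (𝓞 Ω) := inferInstance
  set 𝔭 : Ideal (𝓞 (FH K Ω H)) := P.under (𝓞 (FH K Ω H)) with h𝔭
  set 𝔭' : Ideal (𝓞 (FH K Ω H')) := P.under (𝓞 (FH K Ω H')) with h𝔭'
  have h𝔭p : 𝔭.IsPrime := Ideal.IsPrime.under _ P
  have h𝔭'p : 𝔭'.IsPrime := Ideal.IsPrime.under _ P
  have h𝔭0 : 𝔭 ≠ ⊥ := Ideal.under_ne_bot _ hP
  have hover : 𝔭'.LiesOver 𝔭 := ⟨by rw [h𝔭, h𝔭', Ideal.under_under]⟩
  obtain ⟨t, ht⟩ := Ideal.exists_relNorm_eq_pow_of_isPrime 𝔭' 𝔭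
  refine ⟨t, ?_, ?_⟩
  · rcases Nat.eq_zero_or_pos t with h0 | h0
    · exfalso
      rw [h0, pow_zero, Ideal.one_eq_top] at ht
      have h3 : Ideal.relNorm (𝓞 (FH K Ω H)) 𝔭' ≤ 𝔭 := by
        have h4 := Ideal.relNorm_le_comap (𝓞 (FH K Ω H)) 𝔭'
        rwa [show Ideal.comap (algebraMap (𝓞 (FH K Ω H)) (𝓞 (FH K Ω H'))) 𝔭' = 𝔭 from
          hover.over.symm] at h4
      rw [ht] at h3
      exact h𝔭p.ne_top (top_le_iff.mp h3)
    · exact h0
  · rw [← ht, Ideal.relNorm_relNorm]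


/-- Compatibility of the quotient map `H → Gal(M/F)` with the actions on `M ⊆ Ω`. -/
theorem algebraMap_mk_smul (h : ↥H) (y : MH K L Ω H) :
    algebraMap (MH K L Ω H) Ω ((QuotientGroup.mk h : GH K L Ω H) • y) =
      h • algebraMap (MH K L Ω H) Ω y :=
  coe_mk_smul K L Ω H h y

theorem isTotallyComplex_FH [IsTotallyComplex K] : IsTotallyComplex (FH K Ω H) :=
  isTotallyComplex_of_algebra K (FH K Ω H)

end Fermat.Agent.S14.CrossField
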