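import Fermat.Agent.S14.ArtinMap
import Fermat.Agent.S14.ArtinBase

/-!
# S14, stream E: inert primes and the "common inert norm"

* `frob_ne_one_of_ncard_lt`: in an unramified Galois extension `M/F` (group `G`, abelian), a prime
  `q` of `F` with fewer than `[M : F]` primes of the same absolute norm above it has non-trivial
  Frobenius.
* `exists_frob_ne_one`: the existence of such a prime outside a finite set `S` (the analytic
  input "not all primes split completely", taken as a hypothesis) gives a prime with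
  non-trivial Frobenius outside `S`.
* `artinFun_relNorm_ne_one`: base change to a subextension `L/K` with injective restriction map.
* `relNorm_relNorm_eq`, `relNorm_ne_bot`, `relNorm_sup_span_eq_top`: norm-down through an
  intermediate field `F₀`.
* `exists_common_inert`: a prime `𝔟` of `F`, prime to `m`, whose norm to `K` has non-trivial
  Artin symbol in `L/K`.
-/

set_option autoImplicit false

namespace Fermat.Agent.S14.CrossInert

open NumberField
open scoped Pointwise nonZeroDivisors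
open Fermat.Agent.S14.ArtinMap

section Inert

variable (F M : Type*) [Field F] [NumberField F] [Field M] [NumberField M] [Algebra F M]
  (G : Type*) [Group G] [Finite G] [MulSemiringAction G M] [IsGaloisGroup G F M]

/-- A prime with trivial Frobenius in an unramified Galois extension splits completely: there
are exactly `[M : F]` primes above it, all of the same absolute norm. -/
theorem ncard_eq_finrank_of_frob_eq_one (hab : ∀ a b : G, a * b = b * a) (hur : IsUnram M G)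
    (q : Ideal (𝓞 F)) [hq1 : q.IsPrime] (hq : q ≠ ⊥) (h1 : frob F M G q = 1) :
    {Q : Ideal (𝓞 M) | Q.IsPrime ∧ Q.under (𝓞 F) = q ∧
      Ideal.absNorm Q = Ideal.absNorm q}.ncard = Module.finrank F M := by
  have hset : {Q : Ideal (𝓞 M) | Q.IsPrime ∧ Q.under (𝓞 F) = q ∧
      Ideal.absNorm Q = Ideal.absNorm q} = q.primesOver (𝓞 M) := by
    ext Q
    constructor
    · rintro ⟨hQ, hu, -⟩
      exact ⟨hQ, ⟨hu.symm⟩⟩
    · rintro ⟨hQ, hlo⟩
      refine ⟨hQ, hlo.over.symm, ?_⟩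
      have h2 := relNorm_eq_of_frob_eq_one hab hur q hq Q h1
      rw [← h2, Ideal.absNorm_relNorm]
  rw [hset]
  obtain ⟨Q₀, hQ₀, hQ₀q⟩ := (q.nonempty_primesOver (S := 𝓞 M)).some
  have : Finite (𝓞 F ⧸ q) := Ideal.finiteQuotientOfFreeOfNeBot q hq
  have h3 := Ideal.ncard_primesOver_mul_card_inertia_mul_finrank (G := G) q Q₀
  have hQ₀ne : Q₀ ≠ ⊥ := ne_bot_of_liesOver q hq Q₀
  rw [hur Q₀ hQ₀ hQ₀ne, (frob_eq_one_iff hab hur q hq Q₀).mp h1, mul_one] at h3
  have h4 : Nat.card (⊥ : Subgroup G) = 1 := Subgroup.card_bot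
  rw [h4, mul_one, IsGaloisGroup.card_eq_finrank G F M] at h3
  exact h3

/-- A prime of `F` with fewer than `[M : F]` primes of the same absolute norm above it has
non-trivial Frobenius (`M/F` unramified, abelian). -/
theorem frob_ne_one_of_ncard_lt (hab : ∀ a b : G, a * b = b * a) (hur : IsUnram M G)
    (q : Ideal (𝓞 F)) [hq1 : q.IsPrime] (hq : q ≠ ⊥)
    (hlt : {Q : Ideal (𝓞 M) | Q.IsPrime ∧ Q.under (𝓞 F) = q ∧
      Ideal.absNorm Q = Ideal.absNorm q}.ncard < Module.finrank F M) :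
    frob F M G q ≠ 1 := by
  intro h1
  rw [ncard_eq_finrank_of_frob_eq_one F M G hab hur q hq h1] at hlt
  exact lt_irrefl _ hlt

/-- From "some prime outside `S` does not split completely" (the analytic input, in the shape
of `Uni.exists_prime_ncard_lt`) to a prime outside `S` with non-trivial Frobenius. -/
theorem exists_frob_ne_one (hab : ∀ a b : G, a * b = b * a) (hur : IsUnram M G)
    (S : Finset (Ideal (𝓞 F)))
    (huni : ∃ q : Ideal (𝓞 F), q.IsPrime ∧ q ≠ ⊥ ∧ q ∉ S ∧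
      {Q : Ideal (𝓞 M) | Q.IsPrime ∧ Q.under (𝓞 F) = q ∧
        Ideal.absNorm Q = Ideal.absNorm q}.ncard < Module.finrank F M) :
    ∃ q : Ideal (𝓞 F), q.IsPrime ∧ q ≠ ⊥ ∧ q ∉ S ∧ frob F M G q ≠ 1 := by
  obtain ⟨q, hq1, hq, hqS, hlt⟩ := huni
  exact ⟨q, hq1, hq, hqS, frob_ne_one_of_ncard_lt F M G hab hur q hq hlt⟩

/-- The primes of `𝓞 F` containing a nonzero integer `m` form a finite set. -/
theorem exists_finset_primes_natCast (m : ℕ) (hm : m ≠ 0) :
    ∃ S : Finset (Ideal (𝓞 F)), ∀ q : Ideal (𝓞 F), q.IsPrime → (m : 𝓞 F) ∈ q → q ∈ S := by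
  classical
  have hmF : (m : 𝓞 F) ≠ 0 := Nat.cast_ne_zero.mpr hm
  have hspan : Ideal.span {(m : 𝓞 F)} ≠ ⊥ := by
    simpa [Ideal.span_singleton_eq_bot] using hmF
  refine ⟨(UniqueFactorizationMonoid.normalizedFactors (Ideal.span {(m : 𝓞 F)})).toFinset,
    fun q hq hmq => ?_⟩
  rw [Multiset.mem_toFinset, Ideal.mem_normalizedFactors_iff hspan,
    Ideal.span_singleton_le_iff_mem]
  exact ⟨hq, hmq⟩

end Inert

section BaseChange

variable {K F L M : Type*} [Field K] [NumberField K] [Field F] [NumberField F]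
  [Field L] [NumberField L] [Field M] [NumberField M]
  [Algebra K F] [Algebra K L] [Algebra F M] [Algebra L M] [Algebra K M]
  [IsScalarTower K F M] [IsScalarTower K L M]
  {G : Type*} [Group G] [Finite G] [MulSemiringAction G L] [IsGaloisGroup G K L]
  {G' : Type*} [Group G'] [Finite G'] [MulSemiringAction G' M] [IsGaloisGroup G' F M]

/-- Base change: a prime `𝔟` of `F` with non-trivial Frobenius in `M/F` has a norm to `K` with
non-trivial Artin symbol in `L/K`, provided the restriction `G' → G` is injective. -/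
theorem artinFun_relNorm_ne_one (hab : ∀ a b : G, a * b = b * a)
    (hab' : ∀ a b : G', a * b = b * a) (hur : IsUnram L G) (res : G' →* G)
    (hres : ∀ (g' : G') (x : L), algebraMap L M (res g' • x) = g' • algebraMap L M x)
    (hinj : Function.Injective res)
    (𝔟 : Ideal (𝓞 F)) [h𝔟1 : 𝔟.IsPrime] (h𝔟 : 𝔟 ≠ ⊥) (hfrob : frob F M G' 𝔟 ≠ 1) :
    artinFun K L G hab (Ideal.relNorm (𝓞 K) 𝔟) ≠ 1 := by
  rw [← ArtinBase.res_artinFun hab hab' hur res hres 𝔟, artinFun_prime hab' 𝔟 h𝔟]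
  intro h
  apply hfrob
  apply hinj
  rw [h, map_one]

/-- Existence of a prime `𝔟` of `F`, prime to `m`, whose norm to `K` has non-trivial Artin
symbol in `L/K`.  The hypothesis `huni` is the analytic input (`Uni.exists_prime_ncard_lt`). -/
theorem exists_common_inert (hab : ∀ a b : G, a * b = b * a)
    (hab' : ∀ a b : G', a * b = b * a) (hur : IsUnram L G) (hur' : IsUnram M G') (res : G' →* G)
    (hres : ∀ (g' : G') (x : L), algebraMap L M (res g' • x) = g' • algebraMap L M x)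
    (hinj : Function.Injective res) (m : ℕ) (hm : m ≠ 0)
    (huni : ∀ S : Finset (Ideal (𝓞 F)), ∃ q : Ideal (𝓞 F), q.IsPrime ∧ q ≠ ⊥ ∧ q ∉ S ∧
      {Q : Ideal (𝓞 M) | Q.IsPrime ∧ Q.under (𝓞 F) = q ∧
        Ideal.absNorm Q = Ideal.absNorm q}.ncard < Module.finrank F M) :
    ∃ 𝔟 : Ideal (𝓞 F), 𝔟.IsPrime ∧ 𝔟 ≠ ⊥ ∧ (m : 𝓞 F) ∉ 𝔟 ∧ frob F M G' 𝔟 ≠ 1 ∧
      artinFun K L G hab (Ideal.relNorm (𝓞 K) 𝔟) ≠ 1 := by
  obtain ⟨S, hS⟩ := exists_finset_primes_natCast F m hm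
  obtain ⟨𝔟, h𝔟1, h𝔟, h𝔟S, hfrob⟩ := exists_frob_ne_one F M G' hab' hur' S (huni S)
  exact ⟨𝔟, h𝔟1, h𝔟, fun hmem => h𝔟S (hS 𝔟 h𝔟1 hmem), hfrob,
    artinFun_relNorm_ne_one hab hab' hur res hres hinj 𝔟 h𝔟 hfrob⟩

end BaseChange

section NormDown

variable {K F₀ F : Type*} [Field K] [NumberField K] [Field F₀] [NumberField F₀]
  [Field F] [NumberField F] [Algebra K F₀] [Algebra F₀ F] [Algebra K F] [IsScalarTower K F₀ F]

/-- Transitivity of the relative norm through an intermediate field. -/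
theorem relNorm_relNorm_eq (𝔟 : Ideal (𝓞 F)) :
    Ideal.relNorm (𝓞 K) (Ideal.relNorm (𝓞 F₀) 𝔟) = Ideal.relNorm (𝓞 K) 𝔟 :=
  Ideal.relNorm_relNorm (𝓞 K) (𝓞 F₀) 𝔟

omit [Algebra K F₀] [Algebra K F] [IsScalarTower K F₀ F] [NumberField K] in
theorem relNorm_ne_bot (𝔟 : Ideal (𝓞 F)) (h𝔟 : 𝔟 ≠ ⊥) : Ideal.relNorm (𝓞 F₀) 𝔟 ≠ ⊥ := by
  rw [Ne, Ideal.relNorm_eq_bot_iff]
  exact h𝔟

omit [Algebra K F₀] [Algebra K F] [IsScalarTower K F₀ F] [NumberField K] in
/-- The norm to `F₀` of a prime of `F` not containing `m` is prime to `m`. -/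
theorem relNorm_sup_span_eq_top (𝔟 : Ideal (𝓞 F)) [h𝔟1 : 𝔟.IsPrime] (h𝔟 : 𝔟 ≠ ⊥) (m : ℕ)
    (hm : (m : 𝓞 F) ∉ 𝔟) :
    Ideal.relNorm (𝓞 F₀) 𝔟 ⊔ Ideal.span {(m : 𝓞 F₀)} = ⊤ := by
  have h𝔟max : 𝔟.IsMaximal := h𝔟1.isMaximal h𝔟
  set 𝔭 := 𝔟.under (𝓞 F₀) with h𝔭
  have : 𝔟.LiesOver 𝔭 := ⟨rfl⟩
  have h𝔭max : 𝔭.IsMaximal := Ideal.IsMaximal.under (𝓞 F₀) 𝔟
  rw [Ideal.relNorm_eq_pow_of_isMaximal 𝔟 𝔭]
  have hm𝔭 : (m : 𝓞 F₀) ∉ 𝔭 := by
    intro h
    apply hm
    have h' : algebraMap (𝓞 F₀) (𝓞 F) (m : 𝓞 F₀) ∈ 𝔟 := h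
    simpa using h'
  have h1 : 𝔭 ⊔ Ideal.span {(m : 𝓞 F₀)} = ⊤ := by
    by_contra hne
    have h2 : 𝔭 = 𝔭 ⊔ Ideal.span {(m : 𝓞 F₀)} := h𝔭max.eq_of_le hne le_sup_left
    apply hm𝔭
    rw [h2]
    exact Ideal.mem_sup_right (Ideal.mem_span_singleton_self _)
  have h3 : IsCoprime (𝔭 ^ (𝔟.inertiaDeg (𝓞 F₀))) (Ideal.span {(m : 𝓞 F₀)}) :=
    (Ideal.isCoprime_iff_sup_eq.mpr h1).pow_left
  exact Ideal.isCoprime_iff_sup_eq.mp h3

end NormDown

end Fermat.Agent.S14.CrossInert
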