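import Mathlib

/-!
# S14, stream E: the cyclotomic symbol

Let `F ⊆ M ⊆ E` be number fields, `M/F` Galois with group `G` (of odd order, unramified),
`E/F` Galois with group `G'` generated over `F` by a root of unity `ζ`, `ζ ^ m = 1`, `m` squarefree.
Let `art` be a multiplicative map from the nonzero ideals of `𝓞 F` to `G` which sends every prime
`q ∤ m` to a Frobenius element and kills the norms from `M`.  Then `art` kills every principal
ideal `(x)` with `x` prime to `m` (`principal_symbol_eq_one`).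

Ingredients:
* `exists_intNorm_sub_mem`: residue norm surjectivity (every `x : 𝓞 F` is a norm from `𝓞 M`
  modulo every prime dividing `m`, if `M/F` is unramified at those primes);
* `dvd_norm_sub_one`: `x ≡ 1` modulo all primes over the squarefree `m` implies
  `N_{F/ℚ}(x) ≡ 1 mod m`;
* `exists_smul_eq_pow_absNorm`: the symbol of an ideal `𝔞` prime to `m` is the restriction of
  an automorphism `ζ ↦ ζ ^ N𝔞` of `E/F`.
-/

set_option autoImplicit false

namespace Fermat.Agent.S14.CycloSymbol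

open NumberField
open scoped Pointwise nonZeroDivisors

section ResidueNorm

attribute [local instance] Ideal.Quotient.field in
/-- Local step: at a maximal ideal `Q` with finite residue field and trivial inertia, every
residue class of the base ring is the "decomposition-group norm" of some element. -/
theorem exists_prod_stabilizer_sub_mem
    {A B : Type*} [CommRing A] [CommRing B] [Algebra A B] (G : Type*) [Group G] [Finite G]
    [MulSemiringAction G B] [SMulCommClass G A B] [Algebra.IsInvariant A B G]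
    (Q : Ideal B) [Q.IsMaximal] [Finite (B ⧸ Q)] (hQ : Q.inertia G = ⊥)
    [Fintype (MulAction.stabilizer G Q)] (x : A) :
    ∃ y : B, ∏ g : MulAction.stabilizer G Q, (g : G) • y - algebraMap A B x ∈ Q := by
  classical
  have hint : Algebra.IsIntegral A B := Algebra.IsInvariant.isIntegral A B G
  set P := Q.under A with hP
  have : Q.LiesOver P := ⟨rfl⟩
  have : P.IsMaximal := Ideal.IsMaximal.under A Q
  obtain ⟨ybar, hy⟩ := FiniteField.norm_surjective (A ⧸ P) (B ⧸ Q) (Ideal.Quotient.mk P x)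
  obtain ⟨y, rfl⟩ := Ideal.Quotient.mk_surjective ybar
  refine ⟨y, ?_⟩
  rw [← Ideal.Quotient.eq]
  have : Finite (A ⧸ P) := Finite.of_injective _ (algebraMap (A ⧸ P) (B ⧸ Q)).injective
  have h1 := Algebra.norm_eq_prod_automorphisms (A ⧸ P) (Ideal.Quotient.mk Q y)
  rw [hy] at h1
  have hinj : Function.Injective (Ideal.Quotient.stabilizerHom Q P G) := by
    rw [← MonoidHom.ker_eq_bot_iff, Ideal.Quotient.ker_stabilizerHom, eq_bot_iff]
    intro g hg
    have : (g : G) ∈ Q.inertia G := fun z => hg z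
    rw [hQ, Subgroup.mem_bot] at this
    exact Subgroup.mem_bot.mpr (Subtype.ext this)
  have hbij : Function.Bijective (Ideal.Quotient.stabilizerHom Q P G) :=
    ⟨hinj, Ideal.Quotient.stabilizerHom_surjective G P Q⟩
  have h2 : ∏ σ : (B ⧸ Q) ≃ₐ[A ⧸ P] (B ⧸ Q), σ (Ideal.Quotient.mk Q y)
      = ∏ g : MulAction.stabilizer G Q, Ideal.Quotient.mk Q ((g : G) • y) := by
    rw [← (Equiv.ofBijective _ hbij).prod_comp]
    rfl
  rw [map_prod, ← h2, ← h1]
  rfl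

/-- The integral norm of a Galois extension of number fields as a product over the group. -/
theorem algebraMap_intNorm_eq_prod
    (F M : Type*) [Field F] [NumberField F] [Field M] [NumberField M] [Algebra F M]
    (G : Type*) [Group G] [Fintype G] [MulSemiringAction G M] [IsGaloisGroup G F M] (y : 𝓞 M) :
    algebraMap (𝓞 F) (𝓞 M) (Algebra.intNorm (𝓞 F) (𝓞 M) y) = ∏ g : G, g • y := by
  have hgal : IsGalois F M := IsGaloisGroup.isGalois G F M
  have hfd : FiniteDimensional F M := IsGaloisGroup.finiteDimensional G F M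
  apply RingOfIntegers.ext
  have h1 : ((algebraMap (𝓞 F) (𝓞 M) (Algebra.intNorm (𝓞 F) (𝓞 M) y) : 𝓞 M) : M)
      = algebraMap F M (algebraMap (𝓞 F) F (Algebra.intNorm (𝓞 F) (𝓞 M) y)) := by
    rw [← IsScalarTower.algebraMap_apply, RingOfIntegers.coe_eq_algebraMap,
      ← IsScalarTower.algebraMap_apply]
  rw [h1, Algebra.algebraMap_intNorm (K := F) (L := M), Algebra.norm_eq_prod_automorphisms,
    ← (IsGaloisGroup.mulEquivAlgEquiv G F M).toEquiv.prod_comp]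
  rw [RingOfIntegers.coe_eq_algebraMap, map_prod]
  refine Finset.prod_congr rfl fun g _ => ?_
  simp only [MulEquiv.toEquiv_eq_coe, EquivLike.coe_coe, IsGaloisGroup.mulEquivAlgEquiv_apply_apply]
  rfl

/-- **Residue norm surjectivity.** For a Galois extension `M/F` of number fields with group `G`,
unramified at the primes dividing `m ≠ 0`: every `x : 𝓞 F` is congruent to a norm modulo every
prime of `𝓞 F` dividing `m`. -/
theorem exists_intNorm_sub_mem
    (F M : Type*) [Field F] [NumberField F] [Field M] [NumberField M] [Algebra F M]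
    (G : Type*) [Group G] [Finite G] [MulSemiringAction G M] [IsGaloisGroup G F M]
    (m : ℕ) (hm : m ≠ 0)
    (hur : ∀ Q : Ideal (𝓞 M), Q.IsPrime → (m : 𝓞 M) ∈ Q → Q.inertia G = ⊥)
    (x : 𝓞 F) :
    ∃ y : 𝓞 M, ∀ P : Ideal (𝓞 F), P.IsPrime → (m : 𝓞 F) ∈ P →
      Algebra.intNorm (𝓞 F) (𝓞 M) y - x ∈ P := by
  classical
  let _ := Fintype.ofFinite G
  have hmB : (m : 𝓞 M) ≠ 0 := Nat.cast_ne_zero.mpr hm
  have hspan : Ideal.span {(m : 𝓞 M)} ≠ ⊥ := by
    simpa [Ideal.span_singleton_eq_bot] using hmB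
  set T : Finset (Ideal (𝓞 M)) :=
    (UniqueFactorizationMonoid.normalizedFactors (Ideal.span {(m : 𝓞 M)})).toFinset with hT
  have hmemT : ∀ Q : Ideal (𝓞 M), Q ∈ T ↔ Q.IsPrime ∧ (m : 𝓞 M) ∈ Q := by
    intro Q
    rw [hT, Multiset.mem_toFinset, Ideal.mem_normalizedFactors_iff hspan,
      Ideal.span_singleton_le_iff_mem]
  have hne : ∀ Q : Ideal (𝓞 M), (m : 𝓞 M) ∈ Q → Q ≠ ⊥ := by
    rintro Q hmQ rfl
    exact hmB (by simpa using hmQ)
  have hmax : ∀ Q : Ideal (𝓞 M), Q.IsPrime → (m : 𝓞 M) ∈ Q → Q.IsMaximal :=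
    fun Q hQ hmQ => hQ.isMaximal (hne Q hmQ)
  -- local solutions
  have hloc : ∀ Q : Ideal (𝓞 M), Q.IsPrime → (m : 𝓞 M) ∈ Q → ∃ y0 : 𝓞 M,
      ∏ g : MulAction.stabilizer G Q, (g : G) • y0 - algebraMap (𝓞 F) (𝓞 M) x ∈ Q := by
    intro Q hQ hmQ
    have := hmax Q hQ hmQ
    have : Finite (𝓞 M ⧸ Q) := Ideal.finiteQuotientOfFreeOfNeBot Q (hne Q hmQ)
    exact exists_prod_stabilizer_sub_mem (A := 𝓞 F) G Q (hur Q hQ hmQ) x
  choose! y0 hy0 using hloc
  -- representatives above the primes of `𝓞 F` dividing `m`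
  have hrepex : ∀ P : Ideal (𝓞 F), P.IsPrime → (m : 𝓞 F) ∈ P →
      ∃ Q : Ideal (𝓞 M), Q.IsPrime ∧ Q.under (𝓞 F) = P := by
    intro P hP _
    obtain ⟨Q, -, hQ, hQP⟩ := Ideal.exists_ideal_over_prime_of_isIntegral P (⊥ : Ideal (𝓞 M))
      (by simp [Ideal.comap_bot_of_injective _ (FaithfulSMul.algebraMap_injective (𝓞 F) (𝓞 M))])
    exact ⟨Q, hQ, hQP⟩
  choose! rep hrep using hrepex
  let c : Ideal (𝓞 M) → 𝓞 M := fun Q => if Q = rep (Q.under (𝓞 F)) then y0 Q else 1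
  obtain ⟨y, hy⟩ := IsDedekindDomain.exists_forall_sub_mem_ideal (s := T) (fun Q => Q)
    (fun _ => 1)
    (fun Q hQ => Ideal.prime_of_isPrime (hne Q ((hmemT Q).mp hQ).2) ((hmemT Q).mp hQ).1)
    (fun Q _ Q' _ h => h) (fun Q => c Q.1)
  refine ⟨y, fun P hP hmP => ?_⟩
  obtain ⟨hQprime, hQP⟩ := hrep P hP hmP
  set Q := rep P with hQdef
  have hmQ : (m : 𝓞 M) ∈ Q := by
    have : algebraMap (𝓞 F) (𝓞 M) (m : 𝓞 F) ∈ Q := by
      have h' : (m : 𝓞 F) ∈ Q.under (𝓞 F) := by rw [hQP]; exact hmP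
      exact h'
    simpa using this
  have key : ∏ g : G, g • y - algebraMap (𝓞 F) (𝓞 M) x ∈ Q := by
    rw [← Ideal.Quotient.eq, map_prod]
    have hg : ∀ g : G, Ideal.Quotient.mk Q (g • y)
        = if g ∈ MulAction.stabilizer G Q then Ideal.Quotient.mk Q (g • y0 Q) else 1 := by
      intro g
      have hgQ : g⁻¹ • Q ∈ T := by
        rw [hmemT]
        refine ⟨inferInstance, ?_⟩
        rw [Ideal.mem_pointwise_smul_iff_inv_smul_mem, inv_inv]
        have hgm : g • (m : 𝓞 M) = m := map_natCast (MulSemiringAction.toRingHom G (𝓞 M) g) m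
        rw [hgm]
        exact hmQ
      have h1 := hy (g⁻¹ • Q) hgQ
      rw [pow_one, Ideal.mem_pointwise_smul_iff_inv_smul_mem, inv_inv, smul_sub] at h1
      have hc : c (g⁻¹ • Q) = if g ∈ MulAction.stabilizer G Q then y0 Q else 1 := by
        simp only [c]
        rw [Ideal.under_smul, hQP]
        by_cases hgs : g ∈ MulAction.stabilizer G Q
        · have h' : g⁻¹ • Q = Q := by
            rw [inv_smul_eq_iff]; exact (MulAction.mem_stabilizer_iff.mp hgs).symm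
          simp [hgs, h', ← hQdef]
        · have h' : g⁻¹ • Q ≠ Q := by
            intro h
            apply hgs
            rw [MulAction.mem_stabilizer_iff]
            rw [inv_smul_eq_iff] at h
            exact h.symm
          simp [hgs, h', ← hQdef]
      rw [hc] at h1
      split_ifs with hgs
      · rw [if_pos hgs] at h1
        exact Ideal.Quotient.eq.mpr h1
      · rw [if_neg hgs, smul_one] at h1
        simpa using Ideal.Quotient.eq.mpr h1
    simp_rw [hg]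
    rw [Finset.prod_ite, Finset.prod_const_one, mul_one,
      Finset.prod_subtype (p := fun g => g ∈ MulAction.stabilizer G Q) _ (fun g => by simp),
      ← map_prod]
    exact Ideal.Quotient.eq.mpr (hy0 Q hQprime hmQ)
  have hnorm := algebraMap_intNorm_eq_prod F M G y
  have h3 : algebraMap (𝓞 F) (𝓞 M) (Algebra.intNorm (𝓞 F) (𝓞 M) y - x) ∈ Q := by
    rw [map_sub, hnorm]; exact key
  rw [← hQP]
  exact h3

end ResidueNorm

section NormCongr

/-- If `x ≡ 1` modulo every prime of `𝓞 F` above the rational prime `ℓ`,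
then `N_{F/ℚ}(x) ≡ 1 mod ℓ`. -/
theorem prime_dvd_norm_sub_one (F : Type*) [Field F] [NumberField F] (ℓ : ℕ) (hℓ : ℓ.Prime)
    (x : 𝓞 F) (hx : ∀ P : Ideal (𝓞 F), P.IsPrime → (ℓ : 𝓞 F) ∈ P → x - 1 ∈ P) :
    (ℓ : ℤ) ∣ Algebra.norm ℤ x - 1 := by
  classical
  let Ω := AlgebraicClosure ℚ
  have hprime : (Ideal.span {(ℓ : ℤ)}).IsPrime := by
    rw [Ideal.span_singleton_prime (by exact_mod_cast hℓ.ne_zero)]
    exact Nat.prime_iff_prime_int.mp hℓ
  have hcoe_inj : Function.Injective (algebraMap (𝓞 Ω) Ω) := RingOfIntegers.coe_injective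
  obtain ⟨𝔓, -, h𝔓, h𝔓ℓ⟩ := Ideal.exists_ideal_over_prime_of_isIntegral
    (Ideal.span {(ℓ : ℤ)}) (⊥ : Ideal (𝓞 Ω)) (by
      intro n hn
      rw [Ideal.mem_comap, Ideal.mem_bot] at hn
      have h0 : ((algebraMap ℤ (𝓞 Ω) n : 𝓞 Ω) : Ω) = 0 := by rw [hn]; rfl
      have h1 : ((n : ℤ) : Ω) = 0 := by simpa using h0
      have h2 : n = 0 := by exact_mod_cast h1
      rw [h2]; exact Ideal.zero_mem _)
  have hℓ𝔓 : ((ℓ : ℕ) : 𝓞 Ω) ∈ 𝔓 := by
    have h1 : (ℓ : ℤ) ∈ Ideal.comap (algebraMap ℤ (𝓞 Ω)) 𝔓 := by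
      rw [h𝔓ℓ]; exact Ideal.mem_span_singleton_self _
    simpa using h1
  -- each conjugate of `x` is `≡ 1 mod 𝔓`
  have hconj : ∀ φ : F →ₐ[ℚ] Ω,
      RingOfIntegers.mapRingHom (φ : F →+* Ω) x - 1 ∈ 𝔓 := by
    intro φ
    have hP : (𝔓.comap (RingOfIntegers.mapRingHom (φ : F →+* Ω))).IsPrime :=
      Ideal.comap_isPrime _ _
    have hmem : (ℓ : 𝓞 F) ∈ 𝔓.comap (RingOfIntegers.mapRingHom (φ : F →+* Ω)) := by
      rw [Ideal.mem_comap, map_natCast]; exact hℓ𝔓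
    have := hx _ hP hmem
    rwa [Ideal.mem_comap, map_sub, map_one] at this
  have hprod : ∏ φ : F →ₐ[ℚ] Ω, RingOfIntegers.mapRingHom (φ : F →+* Ω) x - 1 ∈ 𝔓 := by
    rw [← Ideal.Quotient.eq, map_prod, map_one]
    refine Finset.prod_eq_one fun φ _ => ?_
    rw [← map_one (Ideal.Quotient.mk 𝔓), Ideal.Quotient.eq]
    exact hconj φ
  have hnorm : ∏ φ : F →ₐ[ℚ] Ω, RingOfIntegers.mapRingHom (φ : F →+* Ω) x
      = algebraMap ℤ (𝓞 Ω) (Algebra.norm ℤ x) := by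
    apply hcoe_inj
    rw [map_prod]
    have h1 : (algebraMap (𝓞 Ω) Ω) (algebraMap ℤ (𝓞 Ω) (Algebra.norm ℤ x))
        = algebraMap ℚ Ω (Algebra.norm ℚ (x : F)) := by
      rw [← Algebra.coe_norm_int]
      simp
    rw [h1, Algebra.norm_eq_prod_embeddings ℚ Ω]
    rfl
  rw [hnorm, ← map_one (algebraMap ℤ (𝓞 Ω)), ← map_sub] at hprod
  have h2 : Algebra.norm ℤ x - 1 ∈ Ideal.comap (algebraMap ℤ (𝓞 Ω)) 𝔓 := hprod
  rw [h𝔓ℓ, Ideal.mem_span_singleton] at h2
  exact h2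

/-- If `x ≡ 1` modulo every prime of `𝓞 F` dividing the squarefree integer `m`,
then `N_{F/ℚ}(x) ≡ 1 mod m`. -/
theorem dvd_norm_sub_one (F : Type*) [Field F] [NumberField F] (m : ℕ) (hm : Squarefree m)
    (x : 𝓞 F) (hx : ∀ P : Ideal (𝓞 F), P.IsPrime → (m : 𝓞 F) ∈ P → x - 1 ∈ P) :
    (m : ℤ) ∣ Algebra.norm ℤ x - 1 := by
  rw [Int.natCast_dvd, ← Nat.prod_primeFactors_of_squarefree hm]
  refine Finset.prod_primes_dvd _ (fun ℓ hℓ => (Nat.prime_of_mem_primeFactors hℓ).prime)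
    (fun ℓ hℓ => ?_)
  rw [← Int.natCast_dvd]
  refine prime_dvd_norm_sub_one F ℓ (Nat.prime_of_mem_primeFactors hℓ) x (fun P hP hℓP => ?_)
  refine hx P hP ?_
  obtain ⟨k, hk⟩ := Nat.dvd_of_mem_primeFactors hℓ
  rw [hk, Nat.cast_mul]
  exact Ideal.mul_mem_right _ _ hℓP

/-- Under the hypotheses of `dvd_norm_sub_one`, the absolute norm of `(x²)` is `≡ 1 mod m`. -/
theorem absNorm_span_sq_modEq_one (F : Type*) [Field F] [NumberField F] (m : ℕ)
    (hm : Squarefree m) (x : 𝓞 F)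
    (hx : ∀ P : Ideal (𝓞 F), P.IsPrime → (m : 𝓞 F) ∈ P → x - 1 ∈ P) :
    Ideal.absNorm (Ideal.span {x ^ 2}) ≡ 1 [MOD m] := by
  have h := dvd_norm_sub_one F m hm x hx
  rw [Ideal.absNorm_span_singleton, map_pow, Int.natAbs_pow]
  have h1 : (Algebra.norm ℤ x) ^ 2 ≡ 1 [ZMOD m] := by
    have : Algebra.norm ℤ x ≡ 1 [ZMOD m] := (Int.modEq_iff_dvd.mpr h).symm
    simpa using this.pow 2
  rw [← Int.natCast_modEq_iff]
  push_cast
  rw [sq_abs]
  exact h1

end NormCongr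

section Symbol

variable (F M E : Type*) [Field F] [NumberField F] [Field M] [NumberField M]
  [Field E] [NumberField E] [Algebra F M] [Algebra F E] [Algebra M E] [IsScalarTower F M E]
  (G : Type*) [Group G] [Finite G] [MulSemiringAction G M] [IsGaloisGroup G F M]
  (G' : Type*) [Group G'] [Finite G'] [MulSemiringAction G' E] [IsGaloisGroup G' F E]

omit [NumberField M] [NumberField E] in
/-- Compatibility of the restriction map on rings of integers. -/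
theorem algebraMap_res_smul {G G' : Type*} [Group G] [Group G'] [MulSemiringAction G M]
    [MulSemiringAction G' E]
    (res : G' →* G)
    (hres : ∀ (g : G') (z : M), algebraMap M E (res g • z) = g • algebraMap M E z)
    (g : G') (z : 𝓞 M) :
    algebraMap (𝓞 M) (𝓞 E) (res g • z) = g • algebraMap (𝓞 M) (𝓞 E) z := by
  apply RingOfIntegers.ext
  have h := hres g (z : M)
  exact h

omit [Finite G] in
/-- **Cyclotomic symbol, prime case.** -/
theorem exists_smul_eq_pow_absNorm_prime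
    (res : G' →* G)
    (hres : ∀ (g : G') (z : M), algebraMap M E (res g • z) = g • algebraMap M E z)
    (m : ℕ) (ζ : E) (hζ : ζ ^ m = 1)
    (hur : ∀ Q : Ideal (𝓞 M), Q.IsPrime → Q ≠ ⊥ → (m : 𝓞 M) ∉ Q → Q.inertia G = ⊥)
    (σ : G) (q : Ideal (𝓞 F)) (hq : q.IsPrime) (hq0 : q ≠ ⊥) (hmq : (m : 𝓞 F) ∉ q)
    (hσ : ∀ Q : Ideal (𝓞 M), Q.IsPrime → Q.under (𝓞 F) = q → IsArithFrobAt (𝓞 F) σ Q) :
    ∃ g : G', g • ζ = ζ ^ Ideal.absNorm q ∧ res g = σ := by
  classical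
  have hm0 : m ≠ 0 := by
    rintro rfl
    exact hmq (by simp)
  -- a prime of `E` above `q`
  obtain ⟨Q', -, hQ', hQ'q⟩ := Ideal.exists_ideal_over_prime_of_isIntegral q (⊥ : Ideal (𝓞 E))
    (by simp [Ideal.comap_bot_of_injective _ (FaithfulSMul.algebraMap_injective (𝓞 F) (𝓞 E))])
  have hQ'q' : Q'.under (𝓞 F) = q := hQ'q
  have hQ'0 : Q' ≠ ⊥ := by
    rintro rfl
    apply hq0
    rw [← hQ'q]
    exact Ideal.comap_bot_of_injective _ (FaithfulSMul.algebraMap_injective (𝓞 F) (𝓞 E))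
  have : Finite (𝓞 E ⧸ Q') := Ideal.finiteQuotientOfFreeOfNeBot Q' hQ'0
  obtain ⟨g, hg⟩ := IsArithFrobAt.exists_of_isInvariant (𝓞 F) G' Q'
  refine ⟨g, ?_, ?_⟩
  · -- action on the root of unity
    have hint : IsIntegral ℤ ζ :=
      ⟨Polynomial.X ^ m - 1, Polynomial.monic_X_pow_sub_C 1 hm0, by simp [hζ]⟩
    let ζ' : 𝓞 E := ⟨ζ, hint⟩
    have hcoe : (algebraMap (𝓞 E) E) ζ' = ζ := rfl
    have hζ' : ζ' ^ m = 1 := by
      apply RingOfIntegers.ext
      change (algebraMap (𝓞 E) E) (ζ' ^ m) = (algebraMap (𝓞 E) E) 1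
      rw [map_pow, map_one, hcoe, hζ]
    have hmQ' : (m : 𝓞 E) ∉ Q' := by
      intro h
      apply hmq
      rw [← hQ'q']
      change algebraMap (𝓞 F) (𝓞 E) (m : 𝓞 F) ∈ Q'
      simpa using h
    have h1 := hg.apply_of_pow_eq_one hζ' hmQ'
    rw [hQ'q'] at h1
    have h2 : Nat.card (𝓞 F ⧸ q) = Ideal.absNorm q := by
      rw [Ideal.absNorm_apply, Submodule.cardQuot_apply]
    rw [h2] at h1
    have h3 : (algebraMap (𝓞 E) E) ((MulSemiringAction.toAlgHom (𝓞 F) (𝓞 E) g) ζ')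
        = (algebraMap (𝓞 E) E) (ζ' ^ Ideal.absNorm q) := congrArg _ h1
    rw [map_pow, hcoe] at h3
    exact h3
  · -- restriction is the Frobenius of `M/F`
    have hQ : (Q'.under (𝓞 M)).IsPrime := Ideal.IsPrime.under (𝓞 M) Q'
    have hQq : (Q'.under (𝓞 M)).under (𝓞 F) = q := by
      rw [Ideal.under_under, hQ'q']
    have hQ0 : Q'.under (𝓞 M) ≠ ⊥ := by
      intro h
      apply hq0
      rw [← hQq, h]
      exact Ideal.comap_bot_of_injective _ (FaithfulSMul.algebraMap_injective (𝓞 F) (𝓞 M))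
    have hmQ : (m : 𝓞 M) ∉ Q'.under (𝓞 M) := by
      intro h
      apply hmq
      rw [← hQq]
      change algebraMap (𝓞 F) (𝓞 M) (m : 𝓞 F) ∈ Q'.under (𝓞 M)
      simpa using h
    have hfrob : IsArithFrobAt (𝓞 F) (res g) (Q'.under (𝓞 M)) := by
      intro z
      change algebraMap (𝓞 M) (𝓞 E) _ ∈ Q'
      have h1 := hg (algebraMap (𝓞 M) (𝓞 E) z)
      rw [hQq, ← hQ'q']
      rw [map_sub, map_pow]
      have h2 : algebraMap (𝓞 M) (𝓞 E) ((MulSemiringAction.toAlgHom (𝓞 F) (𝓞 M) (res g)) z)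
          = (MulSemiringAction.toAlgHom (𝓞 F) (𝓞 E) g) (algebraMap (𝓞 M) (𝓞 E) z) :=
        algebraMap_res_smul M E res hres g z
      rw [h2]
      exact h1
    have h3 := hfrob.mul_inv_mem_inertia (hσ _ hQ hQq)
    rw [hur _ hQ hQ0 hmQ, Subgroup.mem_bot, mul_inv_eq_one] at h3
    exact h3

omit [Finite G] in
/-- **Cyclotomic symbol.** Let `F ⊆ M ⊆ E` be number fields, `E/F` and `M/F` Galois with groups
`G'`, `G`, and `ζ ∈ E` with `ζ ^ m = 1`. If `M/F` is unramified outside `m` and `art` is a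
multiplicative map on the nonzero ideals of `F` whose value at every prime `q ∤ m` is a
Frobenius element of `M/F`, then for every ideal `𝔞` prime to `m` the symbol `art 𝔞` is the
restriction of an element `g` of `G'` acting on `ζ` by `ζ ↦ ζ ^ N𝔞`. -/
theorem exists_smul_eq_pow_absNorm
    (res : G' →* G)
    (hres : ∀ (g : G') (z : M), algebraMap M E (res g • z) = g • algebraMap M E z)
    (m : ℕ) (ζ : E) (hζ : ζ ^ m = 1)
    (hur : ∀ Q : Ideal (𝓞 M), Q.IsPrime → Q ≠ ⊥ → (m : 𝓞 M) ∉ Q → Q.inertia G = ⊥)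
    (art : (Ideal (𝓞 F))⁰ →* G)
    (hart : ∀ (q : (Ideal (𝓞 F))⁰) (Q : Ideal (𝓞 M)), (q : Ideal (𝓞 F)).IsPrime →
      (m : 𝓞 F) ∉ (q : Ideal (𝓞 F)) → Q.IsPrime → Q.under (𝓞 F) = q →
      IsArithFrobAt (𝓞 F) (art q) Q)
    (𝔞 : (Ideal (𝓞 F))⁰) (h𝔞 : (𝔞 : Ideal (𝓞 F)) ⊔ Ideal.span {(m : 𝓞 F)} = ⊤) :
    ∃ g : G', g • ζ = ζ ^ Ideal.absNorm (𝔞 : Ideal (𝓞 F)) ∧ res g = art 𝔞 := by
  obtain ⟨I, hI⟩ := 𝔞
  revert hI
  refine UniqueFactorizationMonoid.induction_on_prime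
    (P := fun I : Ideal (𝓞 F) => ∀ hI : I ∈ (Ideal (𝓞 F))⁰,
      I ⊔ Ideal.span {(m : 𝓞 F)} = ⊤ →
      ∃ g : G', g • ζ = ζ ^ Ideal.absNorm I ∧ res g = art ⟨I, hI⟩) I ?_ ?_ ?_
  · intro hI
    exact absurd rfl (nonZeroDivisors.ne_zero hI)
  · intro J hJ hI _
    rw [Ideal.isUnit_iff] at hJ
    subst hJ
    refine ⟨1, by simp, ?_⟩
    rw [map_one]
    have : (⟨⊤, hI⟩ : (Ideal (𝓞 F))⁰) = 1 := Subtype.ext (by simp)
    rw [this, map_one]
  · intro a p ha hp ih hI hsup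
    have hpP : p.IsPrime := Ideal.isPrime_of_prime hp
    have hp0 : p ≠ ⊥ := hp.ne_zero
    have ha' : a ∈ (Ideal (𝓞 F))⁰ := mem_nonZeroDivisors_iff_ne_zero.mpr ha
    have hp' : p ∈ (Ideal (𝓞 F))⁰ := mem_nonZeroDivisors_iff_ne_zero.mpr hp0
    have hmp : (m : 𝓞 F) ∉ p := by
      intro h
      apply hpP.ne_top
      rw [eq_top_iff, ← hsup]
      exact sup_le Ideal.mul_le_left ((Ideal.span_singleton_le_iff_mem _).mpr h)
    have hasup : a ⊔ Ideal.span {(m : 𝓞 F)} = ⊤ := by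
      rw [eq_top_iff, ← hsup]
      exact sup_le_sup_right Ideal.mul_le_right _
    obtain ⟨ga, hga1, hga2⟩ := ih ha' hasup
    obtain ⟨gp, hgp1, hgp2⟩ := exists_smul_eq_pow_absNorm_prime F M E G G' res hres m ζ hζ hur
      (art ⟨p, hp'⟩) p hpP hp0 hmp (fun Q hQ hQp => hart ⟨p, hp'⟩ Q hpP hmp hQ hQp)
    refine ⟨gp * ga, ?_, ?_⟩
    · rw [mul_smul, hga1, smul_pow', hgp1, ← pow_mul, map_mul]
    · rw [map_mul, hga2, hgp2, ← map_mul]
      rfl

omit [Finite G] in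
/-- Ideals prime to `m` whose absolute norm is `≡ 1 mod m` have trivial symbol. -/
theorem art_eq_one_of_absNorm_modEq_one
    (res : G' →* G)
    (hres : ∀ (g : G') (z : M), algebraMap M E (res g • z) = g • algebraMap M E z)
    (m : ℕ) (ζ : E) (hζ : ζ ^ m = 1) (hfaith : ∀ g : G', g • ζ = ζ → g = 1)
    (hur : ∀ Q : Ideal (𝓞 M), Q.IsPrime → Q ≠ ⊥ → (m : 𝓞 M) ∉ Q → Q.inertia G = ⊥)
    (art : (Ideal (𝓞 F))⁰ →* G)
    (hart : ∀ (q : (Ideal (𝓞 F))⁰) (Q : Ideal (𝓞 M)), (q : Ideal (𝓞 F)).IsPrime →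
      (m : 𝓞 F) ∉ (q : Ideal (𝓞 F)) → Q.IsPrime → Q.under (𝓞 F) = q →
      IsArithFrobAt (𝓞 F) (art q) Q)
    (𝔞 : (Ideal (𝓞 F))⁰) (h𝔞 : (𝔞 : Ideal (𝓞 F)) ⊔ Ideal.span {(m : 𝓞 F)} = ⊤)
    (hN : Ideal.absNorm (𝔞 : Ideal (𝓞 F)) ≡ 1 [MOD m]) : art 𝔞 = 1 := by
  obtain ⟨g, hg1, hg2⟩ :=
    exists_smul_eq_pow_absNorm F M E G G' res hres m ζ hζ hur art hart 𝔞 h𝔞
  have hpow : ∀ n : ℕ, ζ ^ n = ζ ^ (n % m) := by
    intro n
    conv_lhs => rw [← Nat.mod_add_div n m, pow_add, pow_mul, hζ, one_pow, mul_one]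
  have h1 : g • ζ = ζ := by
    rw [hg1, hpow, hN, ← hpow, pow_one]
  rw [← hg2, hfaith g h1, map_one]

end Symbol

section Main

variable (F M E : Type*) [Field F] [NumberField F] [Field M] [NumberField M]
  [Field E] [NumberField E] [Algebra F M] [Algebra F E] [Algebra M E] [IsScalarTower F M E]
  (G : Type*) [Group G] [Finite G] [MulSemiringAction G M] [IsGaloisGroup G F M]
  (G' : Type*) [Group G'] [Finite G'] [MulSemiringAction G' E] [IsGaloisGroup G' F E]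

/-- **Principal ideals prime to `m` have trivial symbol.**  `F ⊆ M ⊆ E` number fields, `M/F` and
`E/F` Galois with groups `G` (odd order, unramified) and `G'`, `res : G' →* G` the restriction,
`ζ ∈ E` with `ζ ^ m = 1` on which `G'` acts faithfully, `m` squarefree.  If `art` is
multiplicative on nonzero ideals of `𝓞 F`, is a Frobenius element at each prime `q ∤ m` and is
trivial on norms from `M`, then `art (x) = 1` for every `x ≠ 0` prime to `m`. -/
theorem principal_symbol_eq_one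
    (res : G' →* G)
    (hres : ∀ (g : G') (z : M), algebraMap M E (res g • z) = g • algebraMap M E z)
    (m : ℕ) (hm : Squarefree m) (ζ : E) (hζ : ζ ^ m = 1) (hfaith : ∀ g : G', g • ζ = ζ → g = 1)
    (hodd : Odd (Nat.card G))
    (hur : ∀ Q : Ideal (𝓞 M), Q.IsPrime → Q ≠ ⊥ → Q.inertia G = ⊥)
    (art : (Ideal (𝓞 F))⁰ →* G)
    (hart : ∀ (q : (Ideal (𝓞 F))⁰) (Q : Ideal (𝓞 M)), (q : Ideal (𝓞 F)).IsPrime →
      (m : 𝓞 F) ∉ (q : Ideal (𝓞 F)) → Q.IsPrime → Q.under (𝓞 F) = q →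
      IsArithFrobAt (𝓞 F) (art q) Q)
    (hnorm : ∀ (J : Ideal (𝓞 M)) (hJ : Ideal.relNorm (𝓞 F) J ∈ (Ideal (𝓞 F))⁰),
      art ⟨Ideal.relNorm (𝓞 F) J, hJ⟩ = 1)
    (x : 𝓞 F) (hx0 : Ideal.span {x} ∈ (Ideal (𝓞 F))⁰)
    (hx : Ideal.span {x} ⊔ Ideal.span {(m : 𝓞 F)} = ⊤) :
    art ⟨Ideal.span {x}, hx0⟩ = 1 := by
  classical
  have hm0 : m ≠ 0 := hm.ne_zero
  have hmF : (m : 𝓞 F) ≠ 0 := Nat.cast_ne_zero.mpr hm0
  have hmem : ∀ a : 𝓞 F, a ≠ 0 → Ideal.span {a} ∈ (Ideal (𝓞 F))⁰ := fun a ha =>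
    mem_nonZeroDivisors_iff_ne_zero.mpr (by simpa [Ideal.span_singleton_eq_bot] using ha)
  have hx_ne : x ≠ 0 := by
    rintro rfl
    exact nonZeroDivisors.ne_zero hx0 (by simp)
  have hxP : ∀ P : Ideal (𝓞 F), P.IsPrime → (m : 𝓞 F) ∈ P → x ∉ P := by
    intro P hP hmP hxP
    apply hP.ne_top
    rw [eq_top_iff, ← hx]
    exact sup_le ((Ideal.span_singleton_le_iff_mem _).mpr hxP)
      ((Ideal.span_singleton_le_iff_mem _).mpr hmP)
  have hcop : ∀ a : 𝓞 F, (∀ P : Ideal (𝓞 F), P.IsPrime → (m : 𝓞 F) ∈ P → a ∉ P) →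
      Ideal.span {a} ⊔ Ideal.span {(m : 𝓞 F)} = ⊤ := by
    intro a ha
    by_contra hne
    obtain ⟨P, hPmax, hle⟩ := Ideal.exists_le_maximal _ hne
    exact ha P hPmax.isPrime (hle (Ideal.mem_sup_right (Ideal.mem_span_singleton_self _)))
      (hle (Ideal.mem_sup_left (Ideal.mem_span_singleton_self _)))
  -- elements `≡ 1` modulo all primes over `m` have trivial symbol
  have hone : ∀ (u : 𝓞 F) (hu : u ≠ 0),
      (∀ P : Ideal (𝓞 F), P.IsPrime → (m : 𝓞 F) ∈ P → u - 1 ∈ P) →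
      art ⟨Ideal.span {u}, hmem u hu⟩ = 1 := by
    intro u hu hu1
    have hu2 : u ^ 2 ≠ 0 := pow_ne_zero 2 hu
    have hsq : art ⟨Ideal.span {u ^ 2}, hmem _ hu2⟩ = 1 := by
      refine art_eq_one_of_absNorm_modEq_one F M E G G' res hres m ζ hζ hfaith
        (fun Q hQ hQ0 _ => hur Q hQ hQ0) art hart _ ?_ ?_
      · apply hcop
        intro P hP hmP hmem'
        have h1 : u ∈ P := hP.mem_of_pow_mem 2 hmem'
        have h2 := P.sub_mem h1 (hu1 P hP hmP)
        exact hP.ne_top ((Ideal.eq_top_iff_one P).mpr (by simpa using h2))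
      · exact absNorm_span_sq_modEq_one F m hm u hu1
    have hpow : (⟨Ideal.span {u ^ 2}, hmem _ hu2⟩ : (Ideal (𝓞 F))⁰)
        = ⟨Ideal.span {u}, hmem u hu⟩ ^ 2 :=
      Subtype.ext (by simp [Ideal.span_singleton_pow])
    rw [hpow, map_pow] at hsq
    have hcard : (art ⟨Ideal.span {u}, hmem u hu⟩) ^ Nat.card G = 1 := pow_card_eq_one'
    obtain ⟨k, hk⟩ := hodd
    rw [hk, pow_add, pow_mul, hsq, one_pow, one_mul, pow_one] at hcard
    exact hcard
  -- residue norm surjectivity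
  obtain ⟨y₀, hy₀⟩ := exists_intNorm_sub_mem F M G m hm0
    (fun Q hQ hmQ => hur Q hQ (by
      rintro rfl
      have h0 : (m : 𝓞 M) = 0 := by simpa using hmQ
      exact (Nat.cast_ne_zero (R := 𝓞 M)).mpr hm0 h0)) x
  obtain ⟨y, hy0, hy⟩ : ∃ y : 𝓞 M, y ≠ 0 ∧ ∀ P : Ideal (𝓞 F), P.IsPrime → (m : 𝓞 F) ∈ P →
      Algebra.intNorm (𝓞 F) (𝓞 M) y - x ∈ P := by
    by_cases h0 : y₀ = 0
    · refine ⟨1, one_ne_zero, fun P hP hmP => ?_⟩
      exfalso
      have h1 := hy₀ P hP hmP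
      rw [h0, Algebra.intNorm_zero, zero_sub, neg_mem_iff] at h1
      exact hxP P hP hmP h1
    · exact ⟨y₀, h0, hy₀⟩
  set z := Algebra.intNorm (𝓞 F) (𝓞 M) y with hz
  have hz0 : z ≠ 0 := Algebra.intNorm_ne_zero.mpr hy0
  have hzP : ∀ P : Ideal (𝓞 F), P.IsPrime → (m : 𝓞 F) ∈ P → z ∉ P := by
    intro P hP hmP hzP'
    apply hxP P hP hmP
    have h1 := P.sub_mem hzP' (hy P hP hmP)
    simpa using h1
  obtain ⟨w₀, t, hwt⟩ : ∃ w₀ t : 𝓞 F, w₀ * z + t * (m : 𝓞 F) = 1 := by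
    have h1 : (1 : 𝓞 F) ∈ Ideal.span {z} ⊔ Ideal.span {(m : 𝓞 F)} := by
      rw [hcop z hzP]; trivial
    rw [Submodule.mem_sup] at h1
    obtain ⟨a, ha, b, hb, hab⟩ := h1
    rw [Ideal.mem_span_singleton'] at ha hb
    obtain ⟨w₀, rfl⟩ := ha
    obtain ⟨t, rfl⟩ := hb
    exact ⟨w₀, t, hab⟩
  obtain ⟨w, hw0, hw⟩ : ∃ w : 𝓞 F, w ≠ 0 ∧ ∀ P : Ideal (𝓞 F), P.IsPrime → (m : 𝓞 F) ∈ P →
      w * z - 1 ∈ P := by
    by_cases h0 : w₀ = 0
    · refine ⟨m, hmF, fun P hP hmP => ?_⟩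
      exfalso
      rw [h0, zero_mul, zero_add] at hwt
      exact hP.ne_top ((Ideal.eq_top_iff_one P).mpr (hwt ▸ P.mul_mem_left t hmP))
    · refine ⟨w₀, h0, fun P hP hmP => ?_⟩
      have h1 : w₀ * z - 1 = -(t * (m : 𝓞 F)) := by linear_combination hwt
      rw [h1]
      exact P.neg_mem (P.mul_mem_left t hmP)
  have hu := hone (x * w) (mul_ne_zero hx_ne hw0) (fun P hP hmP => by
    have h1 : x * w - 1 = (w * z - 1) - w * (z - x) := by ring
    rw [h1]
    exact P.sub_mem (hw P hP hmP) (P.mul_mem_left w (hy P hP hmP)))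
  have hv := hone (z * w) (mul_ne_zero hz0 hw0) (fun P hP hmP => by
    have h1 : z * w - 1 = w * z - 1 := by ring
    rw [h1]
    exact hw P hP hmP)
  have hmul : ∀ (a b : 𝓞 F) (ha : a ≠ 0) (hb : b ≠ 0),
      art ⟨Ideal.span {a * b}, hmem _ (mul_ne_zero ha hb)⟩
        = art ⟨Ideal.span {a}, hmem a ha⟩ * art ⟨Ideal.span {b}, hmem b hb⟩ := by
    intro a b ha hb
    rw [← map_mul]
    congr 1
    exact Subtype.ext (by simp [Ideal.span_singleton_mul_span_singleton])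
  rw [hmul x w hx_ne hw0] at hu
  rw [hmul z w hz0 hw0] at hv
  have hzn : art ⟨Ideal.span {z}, hmem z hz0⟩ = 1 := by
    have h1 : Ideal.relNorm (𝓞 F) (Ideal.span {y}) = Ideal.span {z} :=
      Ideal.relNorm_singleton (𝓞 F) y
    have h2 := hnorm (Ideal.span {y}) (h1 ▸ hmem z hz0)
    rw [← h2]
    congr 1
    exact Subtype.ext h1.symm
  rw [hzn, one_mul] at hv
  rw [hv, mul_one] at hu
  exact hu

end Main

end Fermat.Agent.S14.CycloSymbol
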