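import Fermat.Agent.S14.ArtinMap
import Fermat.Agent.S14.CycloSymbol

/-!
# S14, stream E: principal ideals prime to `m` are in the kernel of the Artin map of an
unramified subextension of a cyclotomic extension

Wiring of `CycloSymbol.principal_symbol_eq_one` to the Artin map `ArtinMap.artin` /
`ArtinMap.artinFun` of stream B.

Setting: `F ⊆ M ⊆ E` number fields; `G` a finite abelian group of odd order with
`IsGaloisGroup G F M`, `M/F` unramified (`ArtinMap.IsUnram M G`); `G'` a finite group with
`IsGaloisGroup G' F E`; `ζ : E` with `ζ ^ m = 1` (`m` squarefree) on which `G'` acts faithfully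
(i.e. `E = F(ζ)`).  Then `artinFun F M G hab (span {x}) = 1` for every `x ≠ 0` of `𝓞 F`
prime to `m`.
-/

set_option autoImplicit false

namespace Fermat.Agent.S14.CycloArtin

open NumberField
open scoped nonZeroDivisors
open Fermat.Agent.S14.ArtinMap Fermat.Agent.S14.CycloSymbol

variable (F M E : Type*) [Field F] [NumberField F] [Field M] [NumberField M]
  [Field E] [NumberField E] [Algebra F M] [Algebra F E] [Algebra M E] [IsScalarTower F M E]
  (G : Type*) [Group G] [Finite G] [MulSemiringAction G M] [IsGaloisGroup G F M]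
  (G' : Type*) [Group G'] [Finite G'] [MulSemiringAction G' E] [IsGaloisGroup G' F E]

/-- Principal ideals prime to `m` have trivial Artin symbol (version with an explicit
restriction map `res : G' →* G`). -/
theorem artinFun_span_singleton_eq_one_of_res
    (hab : ∀ a b : G, a * b = b * a) (hur : IsUnram M G)
    (res : G' →* G)
    (hres : ∀ (g : G') (z : M), algebraMap M E (res g • z) = g • algebraMap M E z)
    (m : ℕ) (hm : Squarefree m) (ζ : E) (hζ : ζ ^ m = 1) (hfaith : ∀ g : G', g • ζ = ζ → g = 1)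
    (hodd : Odd (Nat.card G))
    (x : 𝓞 F) (hx0 : x ≠ 0) (hx : Ideal.span {x} ⊔ Ideal.span {(m : 𝓞 F)} = ⊤) :
    artinFun F M G hab (Ideal.span {x}) = 1 := by
  have hmem : Ideal.span {x} ∈ (Ideal (𝓞 F))⁰ :=
    mem_nonZeroDivisors_iff_ne_zero.mpr (by simpa [Ideal.span_singleton_eq_bot] using hx0)
  have h := principal_symbol_eq_one F M E G G' res hres m hm ζ hζ hfaith hodd hur
    (artin F M G hab)
    (fun q Q hq _ hQ hQq => by
      have hq0 : (q : Ideal (𝓞 F)) ≠ ⊥ := nonZeroDivisors.coe_ne_zero q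
      have := hq
      have := hQ
      have : Q.LiesOver (q : Ideal (𝓞 F)) := ⟨hQq.symm⟩
      rw [artin_apply, artinFun_prime hab _ hq0]
      exact frob_spec hab _ hq0 Q)
    (fun J hJ => artin_relNorm hab hur J hJ) x hmem hx
  rwa [artin_mk] at h

/-- **Principal ideals prime to `m` have trivial Artin symbol** in an unramified abelian
subextension `M/F` of odd degree of `E = F(ζ)`, `ζ ^ m = 1`, `m` squarefree. -/
theorem artinFun_span_singleton_eq_one
    (hab : ∀ a b : G, a * b = b * a) (hur : IsUnram M G)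
    (m : ℕ) (hm : Squarefree m) (ζ : E) (hζ : ζ ^ m = 1) (hfaith : ∀ g : G', g • ζ = ζ → g = 1)
    (hodd : Odd (Nat.card G))
    (x : 𝓞 F) (hx0 : x ≠ 0) (hx : Ideal.span {x} ⊔ Ideal.span {(m : 𝓞 F)} = ⊤) :
    artinFun F M G hab (Ideal.span {x}) = 1 :=
  artinFun_span_singleton_eq_one_of_res F M E G G' hab hur
    (IsGaloisGroup.restrictHom G' G F M E)
    (fun g z => IsGaloisGroup.algebraMap_restrictHom_smul G' G F M E g z)
    m hm ζ hζ hfaith hodd x hx0 hx

/-- Bundled form with `IsCoprime`. -/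
theorem artin_span_singleton_eq_one
    (hab : ∀ a b : G, a * b = b * a) (hur : IsUnram M G)
    (m : ℕ) (hm : Squarefree m) (ζ : E) (hζ : ζ ^ m = 1) (hfaith : ∀ g : G', g • ζ = ζ → g = 1)
    (hodd : Odd (Nat.card G))
    (x : 𝓞 F) (hx0 : Ideal.span {x} ∈ (Ideal (𝓞 F))⁰)
    (hx : IsCoprime (Ideal.span {x}) (Ideal.span {(m : 𝓞 F)})) :
    artin F M G hab ⟨Ideal.span {x}, hx0⟩ = 1 := by
  have hx_ne : x ≠ 0 := by
    rintro rfl
    exact nonZeroDivisors.ne_zero hx0 (by simp)
  rw [artin_mk]
  exact artinFun_span_singleton_eq_one F M E G G' hab hur m hm ζ hζ hfaith hodd x hx_ne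
    (Ideal.isCoprime_iff_sup_eq.mp hx)

end Fermat.Agent.S14.CycloArtin
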