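import Mathlib

/-!
# S14, stream E: the kernel of the symbol on ideals prime to the modulus

Pure ideal theory of a Dedekind domain (no Galois theory): the inputs are abstract, so that the
file wires to the Artin map of an unramified extension, the cyclotomic symbol and the universal
norm inequality.

* `exists_coprime_rep`, `exists_coprime_elts` : the moving lemmas (ideals / elements).
* `exists_rel_of_art_eq`, `mem_normClasses_of_art_eq` : a symbol `art` with values in a group of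
  prime order `p`, trivial on norms and on principal ideals prime to `𝔪`, with the universal norm
  inequality `[Cl : H] ≤ p`: two ideals prime to `𝔪` with the same symbol differ by principal
  ideals and norms.
* `normSubmonoid`, `relNorm_eq_of_absNorm_eq`, `uni_of_uni_primes`, `exists_rel_of_artin_eq(')` :
  the number field form.
* `rel_down`, `exists_rel_down_of_artin_eq(')` : the relation pushed down by the relative norm.
-/

set_option autoImplicit false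

namespace Fermat.Agent.S14.KerCyclo

open scoped nonZeroDivisors
open NumberField

section Moving

variable {R : Type*} [CommRing R] [IsDedekindDomain R]

/-- An inverse of the class of `J` which is coprime to `𝔪`. -/
theorem exists_coprime_mul_eq_span (J 𝔪 : Ideal R) (hJ : J ≠ ⊥) (h𝔪 : 𝔪 ≠ ⊥) :
    ∃ (a : R) (K : Ideal R), a ≠ 0 ∧ K ≠ ⊥ ∧ IsCoprime K 𝔪 ∧ J * K = Ideal.span {a} := by
  by_cases htop : 𝔪 = ⊤
  · obtain ⟨a, haJ, ha0⟩ := Submodule.exists_mem_ne_zero_of_ne_bot hJ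
    have haJ' : Ideal.span {a} ≤ J := (Ideal.span_singleton_le_iff_mem J).mpr haJ
    obtain ⟨K, hK⟩ := Ideal.dvd_iff_le.mpr haJ'
    refine ⟨a, K, ha0, ?_, ?_, hK.symm⟩
    · rintro rfl
      rw [Ideal.mul_bot, Ideal.span_singleton_eq_bot] at hK
      exact ha0 hK
    · rw [htop, Ideal.isCoprime_iff_sup_eq]
      exact sup_top_eq K
  · have h1 : J * 𝔪 ≤ J := Ideal.mul_le_left
    have h2 : J * 𝔪 ≠ 0 := mul_ne_zero hJ h𝔪
    obtain ⟨a, ha⟩ := IsDedekindDomain.exists_sup_span_eq h1 h2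
    have haJ : Ideal.span {a} ≤ J := by rw [← ha]; exact le_sup_right
    obtain ⟨K, hK⟩ := Ideal.dvd_iff_le.mpr haJ
    have hcop : 𝔪 ⊔ K = ⊤ := by
      have h3 : J * (𝔪 ⊔ K) = J * ⊤ := by
        rw [Ideal.mul_sup, ← hK, ha, Ideal.mul_top]
      exact mul_left_cancel₀ hJ h3
    have hK0 : K ≠ ⊥ := by
      rintro rfl
      rw [sup_bot_eq] at hcop
      exact htop hcop
    refine ⟨a, K, ?_, hK0, ?_, hK.symm⟩
    · rintro rfl
      have : J * K = ⊥ := by rw [← hK]; simp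
      exact mul_ne_zero hJ hK0 this
    · rw [Ideal.isCoprime_iff_sup_eq, sup_comm]
      exact hcop

/-- **Moving lemma** (ideals): every nonzero ideal is equivalent, modulo principal ideals, to an
ideal coprime to `𝔪`. -/
theorem exists_coprime_rep (I 𝔪 : Ideal R) (hI : I ≠ ⊥) (h𝔪 : 𝔪 ≠ ⊥) :
    ∃ (J : Ideal R) (x y : R), J ≠ ⊥ ∧ x ≠ 0 ∧ y ≠ 0 ∧ IsCoprime J 𝔪 ∧
      Ideal.span {x} * I = Ideal.span {y} * J := by
  obtain ⟨b, hbI, hb0⟩ := Submodule.exists_mem_ne_zero_of_ne_bot hI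
  have hbI' : Ideal.span {b} ≤ I := (Ideal.span_singleton_le_iff_mem I).mpr hbI
  obtain ⟨I', hI'⟩ := Ideal.dvd_iff_le.mpr hbI'
  have hI'0 : I' ≠ ⊥ := by
    rintro rfl
    rw [Ideal.mul_bot, Ideal.span_singleton_eq_bot] at hI'
    exact hb0 hI'
  obtain ⟨a, K, ha0, hK0, hcop, hK⟩ := exists_coprime_mul_eq_span I' 𝔪 hI'0 h𝔪
  refine ⟨K, a, b, hK0, ha0, hb0, hcop, ?_⟩
  rw [← hK, hI']
  ring

/-- **Moving lemma** (elements): a relation `(x) c = (y) a` between ideals coprime to `𝔪` can be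
realised with `x`, `y` coprime to `𝔪`. -/
theorem exists_coprime_elts (c a 𝔪 : Ideal R) (hc : IsCoprime c 𝔪) (ha : IsCoprime a 𝔪)
    (x y : R) (hx : x ≠ 0) (hy : y ≠ 0)
    (h : Ideal.span {x} * c = Ideal.span {y} * a) :
    ∃ x' y' : R, x' ≠ 0 ∧ y' ≠ 0 ∧ IsCoprime (Ideal.span {x'}) 𝔪 ∧ IsCoprime (Ideal.span {y'}) 𝔪 ∧
      Ideal.span {x'} * c = Ideal.span {y'} * a := by
  by_cases htop : 𝔪 = ⊤
  · refine ⟨x, y, hx, hy, ?_, ?_, h⟩ <;>
    · rw [htop, Ideal.isCoprime_iff_sup_eq]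
      exact sup_top_eq _
  obtain ⟨e, he, m, hm, hem⟩ := Submodule.mem_sup.mp
    ((Ideal.eq_top_iff_one _).mp (Ideal.isCoprime_iff_sup_eq.mp hc))
  have he0 : e ≠ 0 := by
    rintro rfl
    rw [zero_add] at hem
    exact htop ((Ideal.eq_top_iff_one _).mpr (hem ▸ hm))
  have hecop : IsCoprime (Ideal.span {e}) 𝔪 := by
    rw [Ideal.isCoprime_iff_sup_eq, Ideal.eq_top_iff_one]
    exact Submodule.mem_sup.mpr ⟨e, Ideal.mem_span_singleton_self e, m, hm, hem⟩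
  -- `x * e ∈ (y)`
  have hxe : x * e ∈ Ideal.span {y} := by
    have h1 : x * e ∈ Ideal.span {x} * c := Ideal.mul_mem_mul (Ideal.mem_span_singleton_self x) he
    rw [h] at h1
    exact Ideal.mul_le_left h1
  obtain ⟨x', hx'⟩ := Ideal.mem_span_singleton'.mp hxe
  have hx'0 : x' ≠ 0 := by
    rintro rfl
    rw [zero_mul] at hx'
    exact mul_ne_zero hx he0 hx'.symm
  have hrel : Ideal.span {x'} * c = Ideal.span {e} * a := by
    have h2 : Ideal.span {y} * (Ideal.span {x'} * c) = Ideal.span {y} * (Ideal.span {e} * a) := by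
      calc Ideal.span {y} * (Ideal.span {x'} * c)
          = Ideal.span {x' * y} * c := by
            rw [← mul_assoc, Ideal.span_singleton_mul_span_singleton, mul_comm y x']
        _ = Ideal.span {e} * (Ideal.span {x} * c) := by
            rw [hx', ← mul_assoc, Ideal.span_singleton_mul_span_singleton, mul_comm e x]
        _ = Ideal.span {y} * (Ideal.span {e} * a) := by
            rw [h]; ring
    exact mul_left_cancel₀ (by simpa using hy) h2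
  refine ⟨x', e, hx'0, he0, ?_, hecop, hrel⟩
  have h3 : IsCoprime (Ideal.span {x'} * c) 𝔪 := by
    rw [hrel]
    exact IsCoprime.mul_left hecop ha
  exact IsCoprime.of_mul_left_left h3

end Moving

section Kernel

variable {R : Type*} [CommRing R] [IsDedekindDomain R] {C : Type*} [Group C]

/-- The nonzero ideals coprime to `𝔪`, as a submonoid. -/
def coprimeSubmonoid (𝔪 : Ideal R) : Submonoid (Ideal R)⁰ where
  carrier := {I | IsCoprime (I : Ideal R) 𝔪}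
  one_mem' := by
    change IsCoprime ((1 : (Ideal R)⁰) : Ideal R) 𝔪
    rw [Submonoid.coe_one]
    exact isCoprime_one_left
  mul_mem' := by
    intro a b ha hb
    change IsCoprime ((a * b : (Ideal R)⁰) : Ideal R) 𝔪
    rw [Submonoid.coe_mul]
    exact IsCoprime.mul_left ha hb

omit [IsDedekindDomain R] in
theorem mem_coprimeSubmonoid {𝔪 : Ideal R} {I : (Ideal R)⁰} :
    I ∈ coprimeSubmonoid 𝔪 ↔ IsCoprime (I : Ideal R) 𝔪 := Iff.rfl

/-- The principal ideal `(x)`, `x ≠ 0`, as an element of `(Ideal R)⁰`. -/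
noncomputable def spanNZ (x : R) (hx : x ≠ 0) : (Ideal R)⁰ :=
  ⟨Ideal.span {x}, mem_nonZeroDivisors_iff_ne_zero.mpr (by simpa using hx)⟩

@[simp] theorem coe_spanNZ (x : R) (hx : x ≠ 0) : (spanNZ x hx : Ideal R) = Ideal.span {x} := rfl

/-- The subgroup of the class group generated by the classes of the elements of `𝒩` coprime to
`𝔪` (`𝒩` = the norms from an extension). -/
noncomputable def normClasses (𝔪 : Ideal R) (𝒩 : Submonoid (Ideal R)⁰) : Subgroup (ClassGroup R) :=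
  Subgroup.closure (ClassGroup.mk0 '' {A : (Ideal R)⁰ | A ∈ 𝒩 ∧ IsCoprime (A : Ideal R) 𝔪})

theorem mk0_mem_normClasses {𝔪 : Ideal R} {𝒩 : Submonoid (Ideal R)⁰} {A : (Ideal R)⁰}
    (hA : A ∈ 𝒩) (hAc : IsCoprime (A : Ideal R) 𝔪) : ClassGroup.mk0 A ∈ normClasses 𝔪 𝒩 :=
  Subgroup.subset_closure ⟨A, ⟨hA, hAc⟩, rfl⟩

theorem exists_of_mem_normClasses {𝔪 : Ideal R} {𝒩 : Submonoid (Ideal R)⁰} {c : ClassGroup R}
    (hc : c ∈ normClasses 𝔪 𝒩) :
    ∃ A B : (Ideal R)⁰, A ∈ 𝒩 ∧ B ∈ 𝒩 ∧ IsCoprime (A : Ideal R) 𝔪 ∧ IsCoprime (B : Ideal R) 𝔪 ∧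
      c * ClassGroup.mk0 B = ClassGroup.mk0 A := by
  induction hc using Subgroup.closure_induction with
  | mem c hc =>
    obtain ⟨A, hA, rfl⟩ := hc
    exact ⟨A, 1, hA.1, one_mem _, hA.2, (coprimeSubmonoid 𝔪).one_mem, by simp⟩
  | one =>
    exact ⟨1, 1, one_mem _, one_mem _, (coprimeSubmonoid 𝔪).one_mem,
      (coprimeSubmonoid 𝔪).one_mem, by simp⟩
  | mul a b _ _ iha ihb =>
    obtain ⟨A, B, hA, hB, hAc, hBc, h⟩ := iha
    obtain ⟨A', B', hA', hB', hAc', hBc', h'⟩ := ihb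
    refine ⟨A * A', B * B', mul_mem hA hA', mul_mem hB hB',
      (coprimeSubmonoid 𝔪).mul_mem hAc hAc', (coprimeSubmonoid 𝔪).mul_mem hBc hBc', ?_⟩
    rw [map_mul, map_mul, ← h, ← h']
    exact mul_mul_mul_comm _ _ _ _
  | inv a _ iha =>
    obtain ⟨A, B, hA, hB, hAc, hBc, h⟩ := iha
    refine ⟨B, A, hB, hA, hBc, hAc, ?_⟩
    rw [← h, inv_mul_cancel_left]

/-- Two ideals coprime to `𝔪` whose classes agree modulo the norm classes satisfy an explicit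
relation with coprime data. -/
theorem exists_rel_of_mem_normClasses {𝔪 : Ideal R} {𝒩 : Submonoid (Ideal R)⁰}
    (I J : (Ideal R)⁰) (hI : IsCoprime (I : Ideal R) 𝔪) (hJ : IsCoprime (J : Ideal R) 𝔪)
    (h : (ClassGroup.mk0 I)⁻¹ * ClassGroup.mk0 J ∈ normClasses 𝔪 𝒩) :
    ∃ (x y : R) (A B : (Ideal R)⁰), x ≠ 0 ∧ y ≠ 0 ∧ A ∈ 𝒩 ∧ B ∈ 𝒩 ∧
      IsCoprime (A : Ideal R) 𝔪 ∧ IsCoprime (B : Ideal R) 𝔪 ∧
      IsCoprime (Ideal.span {x}) 𝔪 ∧ IsCoprime (Ideal.span {y}) 𝔪 ∧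
      Ideal.span {x} * (I : Ideal R) * (A : Ideal R) =
        Ideal.span {y} * (J : Ideal R) * (B : Ideal R) := by
  obtain ⟨A, B, hA, hB, hAc, hBc, hAB⟩ := exists_of_mem_normClasses h
  have h1 : ClassGroup.mk0 (J * B) = ClassGroup.mk0 (I * A) := by
    rw [map_mul, map_mul, ← hAB]
    group
  obtain ⟨x, y, hx, hy, hxy⟩ := ClassGroup.mk0_eq_mk0_iff.mp h1
  rw [Submonoid.coe_mul, Submonoid.coe_mul] at hxy
  obtain ⟨x', y', hx', hy', hxc, hyc, hrel⟩ := exists_coprime_elts _ _ 𝔪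
    (IsCoprime.mul_left hJ hBc) (IsCoprime.mul_left hI hAc) x y hx hy hxy
  refine ⟨y', x', A, B, hy', hx', hA, hB, hAc, hBc, hyc, hxc, ?_⟩
  rw [mul_assoc, mul_assoc, hrel]

/-- A relation with coprime data forces equality of the symbols. -/
theorem art_eq_of_rel (art : (Ideal R)⁰ →* C) (𝔪 : Ideal R) (𝒩 : Submonoid (Ideal R)⁰)
    (hnorm : ∀ A ∈ 𝒩, IsCoprime (A : Ideal R) 𝔪 → art A = 1)
    (hprin : ∀ (x : R) (X : (Ideal R)⁰), (X : Ideal R) = Ideal.span {x} →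
      IsCoprime (X : Ideal R) 𝔪 → art X = 1)
    (I J : (Ideal R)⁰) (x y : R) (A B : (Ideal R)⁰) (hx : x ≠ 0) (hy : y ≠ 0)
    (hA : A ∈ 𝒩) (hB : B ∈ 𝒩) (hAc : IsCoprime (A : Ideal R) 𝔪)
    (hBc : IsCoprime (B : Ideal R) 𝔪) (hxc : IsCoprime (Ideal.span {x}) 𝔪)
    (hyc : IsCoprime (Ideal.span {y}) 𝔪)
    (h : Ideal.span {x} * (I : Ideal R) * (A : Ideal R) =
      Ideal.span {y} * (J : Ideal R) * (B : Ideal R)) : art I = art J := by
  have h1 : spanNZ x hx * I * A = spanNZ y hy * J * B := Subtype.ext h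
  have h2 := congrArg art h1
  rw [map_mul, map_mul, map_mul, map_mul, hnorm A hA hAc, hnorm B hB hBc,
    hprin x (spanNZ x hx) rfl hxc, hprin y (spanNZ y hy) rfl hyc, one_mul, mul_one, one_mul,
    mul_one] at h2
  exact h2

/-- **The kernel of the symbol on ideals prime to `𝔪`, class group form.**  `art` is a symbol
with values in a group of prime order `p`, trivial on the norms prime to `𝔪` (`hnorm`) and on the
principal ideals prime to `𝔪` (`hprin`), non-trivial on some ideal prime to `𝔪` (`hne`); the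
universal norm inequality (`huni`) bounds by `p` the index of any subgroup of the class group
containing the classes of the norms prime to `𝔪`.  Then two ideals prime to `𝔪` with the same
symbol have classes congruent modulo the classes of the norms prime to `𝔪`. -/
theorem mem_normClasses_of_art_eq [Finite (ClassGroup R)] {p : ℕ} (hp : p.Prime)
    (hC : Nat.card C = p) (art : (Ideal R)⁰ →* C) (𝔪 : Ideal R)
    (𝒩 : Submonoid (Ideal R)⁰)
    (hnorm : ∀ A ∈ 𝒩, IsCoprime (A : Ideal R) 𝔪 → art A = 1)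
    (hprin : ∀ (x : R) (X : (Ideal R)⁰), (X : Ideal R) = Ideal.span {x} →
      IsCoprime (X : Ideal R) 𝔪 → art X = 1)
    (hne : ∃ I : (Ideal R)⁰, IsCoprime (I : Ideal R) 𝔪 ∧ art I ≠ 1)
    (huni : ∀ H : Subgroup (ClassGroup R),
      (∀ A ∈ 𝒩, IsCoprime (A : Ideal R) 𝔪 → ClassGroup.mk0 A ∈ H) → H.index ≤ p)
    (I J : (Ideal R)⁰) (hI : IsCoprime (I : Ideal R) 𝔪) (hJ : IsCoprime (J : Ideal R) 𝔪)
    (h : art I = art J) :
    (ClassGroup.mk0 I)⁻¹ * ClassGroup.mk0 J ∈ normClasses 𝔪 𝒩 := by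
  have : Fact p.Prime := ⟨hp⟩
  have hfinC : Finite C := Nat.finite_of_card_ne_zero (hC ▸ hp.ne_zero)
  set H := normClasses 𝔪 𝒩 with hH
  -- well-definedness: classes congruent modulo `H` have the same symbol
  have key : ∀ I J : (Ideal R)⁰, IsCoprime (I : Ideal R) 𝔪 → IsCoprime (J : Ideal R) 𝔪 →
      (ClassGroup.mk0 I)⁻¹ * ClassGroup.mk0 J ∈ H → art I = art J := by
    intro I J hI hJ hIJ
    obtain ⟨x, y, A, B, hx, hy, hA, hB, hAc, hBc, hxc, hyc, hrel⟩ :=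
      exists_rel_of_mem_normClasses I J hI hJ hIJ
    exact art_eq_of_rel art 𝔪 𝒩 hnorm hprin I J x y A B hx hy hA hB hAc hBc hxc hyc hrel
  -- the symbol is onto on ideals prime to `𝔪`
  obtain ⟨I₀, hI₀, hI₀1⟩ := hne
  have hsurj : ∀ c : C, ∃ I : (Ideal R)⁰, IsCoprime (I : Ideal R) 𝔪 ∧ art I = c := by
    intro c
    obtain ⟨k, hk⟩ := mem_powers_of_prime_card (g' := c) hC hI₀1
    exact ⟨I₀ ^ k, (coprimeSubmonoid 𝔪).pow_mem hI₀ k, by rw [map_pow]; exact hk⟩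
  choose rep hrep hart using hsurj
  let f : C → ClassGroup R ⧸ H := fun c => QuotientGroup.mk (ClassGroup.mk0 (rep c))
  have hf : Function.Injective f := by
    intro c c' hcc'
    have h1 : (ClassGroup.mk0 (rep c))⁻¹ * ClassGroup.mk0 (rep c') ∈ H := QuotientGroup.eq.mp hcc'
    have h2 := key _ _ (hrep c) (hrep c') h1
    rwa [hart, hart] at h2
  have hcard : Nat.card (ClassGroup R ⧸ H) ≤ Nat.card C := by
    rw [hC, ← Subgroup.index_eq_card]
    exact huni H fun A hA hAc => mk0_mem_normClasses hA hAc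
  have hbij := hf.bijective_of_nat_card_le hcard
  obtain ⟨c, hc⟩ := hbij.2 (QuotientGroup.mk (ClassGroup.mk0 I))
  obtain ⟨c', hc'⟩ := hbij.2 (QuotientGroup.mk (ClassGroup.mk0 J))
  have e1 : c = art I := by
    have := key _ _ (hrep c) hI (QuotientGroup.eq.mp hc)
    rwa [hart] at this
  have e2 : c' = art J := by
    have := key _ _ (hrep c') hJ (QuotientGroup.eq.mp hc')
    rwa [hart] at this
  have e3 : c = c' := by rw [e1, e2, h]
  have e4 : (QuotientGroup.mk (ClassGroup.mk0 I) : ClassGroup R ⧸ H) =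
      QuotientGroup.mk (ClassGroup.mk0 J) := by rw [← hc, ← hc', e3]
  exact QuotientGroup.eq.mp e4

/-- **The kernel of the symbol on ideals prime to `𝔪`, relation form**: under the hypotheses of
`mem_normClasses_of_art_eq`, two ideals prime to `𝔪` with the same symbol satisfy
`(x) I A = (y) J B` with `x`, `y` prime to `𝔪` and `A`, `B` norms prime to `𝔪`. -/
theorem exists_rel_of_art_eq [Finite (ClassGroup R)] {p : ℕ} (hp : p.Prime)
    (hC : Nat.card C = p) (art : (Ideal R)⁰ →* C) (𝔪 : Ideal R)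
    (𝒩 : Submonoid (Ideal R)⁰)
    (hnorm : ∀ A ∈ 𝒩, IsCoprime (A : Ideal R) 𝔪 → art A = 1)
    (hprin : ∀ (x : R) (X : (Ideal R)⁰), (X : Ideal R) = Ideal.span {x} →
      IsCoprime (X : Ideal R) 𝔪 → art X = 1)
    (hne : ∃ I : (Ideal R)⁰, IsCoprime (I : Ideal R) 𝔪 ∧ art I ≠ 1)
    (huni : ∀ H : Subgroup (ClassGroup R),
      (∀ A ∈ 𝒩, IsCoprime (A : Ideal R) 𝔪 → ClassGroup.mk0 A ∈ H) → H.index ≤ p)
    (I J : (Ideal R)⁰) (hI : IsCoprime (I : Ideal R) 𝔪) (hJ : IsCoprime (J : Ideal R) 𝔪)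
    (h : art I = art J) :
    ∃ (x y : R) (A B : (Ideal R)⁰), x ≠ 0 ∧ y ≠ 0 ∧ A ∈ 𝒩 ∧ B ∈ 𝒩 ∧
      IsCoprime (A : Ideal R) 𝔪 ∧ IsCoprime (B : Ideal R) 𝔪 ∧
      IsCoprime (Ideal.span {x}) 𝔪 ∧ IsCoprime (Ideal.span {y}) 𝔪 ∧
      Ideal.span {x} * (I : Ideal R) * (A : Ideal R) =
        Ideal.span {y} * (J : Ideal R) * (B : Ideal R) :=
  exists_rel_of_mem_normClasses I J hI hJ
    (mem_normClasses_of_art_eq hp hC art 𝔪 𝒩 hnorm hprin hne huni I J hI hJ h)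

end Kernel

section Primes

variable {R : Type*} [CommRing R] [IsDedekindDomain R]

/-- The primes containing a nonzero ideal form a finite set. -/
theorem exists_finset_primes (𝔪 : Ideal R) (h𝔪 : 𝔪 ≠ ⊥) :
    ∃ S : Finset (Ideal R), ∀ q : Ideal R, q.IsPrime → 𝔪 ≤ q → q ∈ S := by
  classical
  have hfin := Ideal.finite_factors (I := 𝔪) h𝔪
  refine ⟨hfin.toFinset.image (fun v => v.asIdeal), fun q hq hle => ?_⟩
  have hq0 : q ≠ ⊥ := by
    rintro rfl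
    exact h𝔪 (le_bot_iff.mp hle)
  rw [Finset.mem_image]
  refine ⟨⟨q, hq, hq0⟩, ?_, rfl⟩
  rw [Set.Finite.mem_toFinset]
  exact Ideal.dvd_iff_le.mpr hle

/-- A nonzero prime not containing `𝔪` is coprime to `𝔪`. -/
theorem isCoprime_of_not_le (q 𝔪 : Ideal R) (hq : q.IsPrime) (hq0 : q ≠ ⊥) (h : ¬ 𝔪 ≤ q) :
    IsCoprime q 𝔪 := by
  have hmax : q.IsMaximal := hq.isMaximal hq0
  rw [Ideal.isCoprime_iff_sup_eq]
  exact hmax.out.2 _ (left_lt_sup.mpr h)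

end Primes

section NumberField

variable (F M : Type*) [Field F] [NumberField F] [Field M] [NumberField M] [Algebra F M]

/-- The nonzero ideals of `𝓞 F` which are relative norms of ideals of `𝓞 M`. -/
def normSubmonoid : Submonoid (Ideal (𝓞 F))⁰ where
  carrier := {A | ∃ B : Ideal (𝓞 M), Ideal.relNorm (𝓞 F) B = (A : Ideal (𝓞 F))}
  one_mem' := ⟨⊤, by rw [Ideal.relNorm_top, Submonoid.coe_one, Ideal.one_eq_top]⟩
  mul_mem' := by
    rintro a b ⟨A, hA⟩ ⟨B, hB⟩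
    exact ⟨A * B, by rw [map_mul, hA, hB, Submonoid.coe_mul]⟩

variable {F M} in
theorem mem_normSubmonoid {A : (Ideal (𝓞 F))⁰} :
    A ∈ normSubmonoid F M ↔ ∃ B : Ideal (𝓞 M), Ideal.relNorm (𝓞 F) B = (A : Ideal (𝓞 F)) :=
  Iff.rfl

/-- A prime of `𝓞 M` of residue degree one is sent by the relative norm to the prime below. -/
theorem relNorm_eq_of_absNorm_eq (q : Ideal (𝓞 F)) (hq : q ≠ ⊥) (Q : Ideal (𝓞 M))
    (hu : Q.under (𝓞 F) = q) (hN : Ideal.absNorm Q = Ideal.absNorm q) :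
    Ideal.relNorm (𝓞 F) Q = q := by
  have hle : Ideal.relNorm (𝓞 F) Q ≤ q := by
    rw [← hu]
    exact Ideal.relNorm_le_comap (𝓞 F) Q
  obtain ⟨J, hJ⟩ := Ideal.dvd_iff_le.mpr hle
  have h1 : Ideal.absNorm q * Ideal.absNorm J = Ideal.absNorm q := by
    rw [← map_mul, ← hJ, Ideal.absNorm_relNorm, hN]
  have hq' : Ideal.absNorm q ≠ 0 := by
    rw [Ne, Ideal.absNorm_eq_zero_iff]
    exact hq
  have h2 : Ideal.absNorm J = 1 := by
    have := Nat.eq_of_mul_eq_mul_left (Nat.pos_of_ne_zero hq') (h1.trans (mul_one _).symm)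
    exact this
  rw [hJ, Ideal.absNorm_eq_one_iff.mp h2, Ideal.mul_top]


variable {F M} in
/-- A prime of degree one not containing `𝔪` has its class in any subgroup containing the classes
of the norms prime to `𝔪` (the hypothesis shape of the universal norm inequality). -/
theorem mk0_mem_of_absNorm_eq (𝔪 : Ideal (𝓞 F)) (H : Subgroup (ClassGroup (𝓞 F)))
    (hH : ∀ A ∈ normSubmonoid F M, IsCoprime (A : Ideal (𝓞 F)) 𝔪 → ClassGroup.mk0 A ∈ H)
    (q : (Ideal (𝓞 F))⁰) (Q : Ideal (𝓞 M)) (hQ : Q.IsPrime)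
    (hu : Q.under (𝓞 F) = (q : Ideal (𝓞 F))) (hq : ¬ 𝔪 ≤ (q : Ideal (𝓞 F)))
    (hN : Ideal.absNorm Q = Ideal.absNorm (q : Ideal (𝓞 F))) : ClassGroup.mk0 q ∈ H := by
  have hq0 : (q : Ideal (𝓞 F)) ≠ ⊥ := nonZeroDivisors.coe_ne_zero q
  have hqp : (q : Ideal (𝓞 F)).IsPrime := hu ▸ Ideal.IsPrime.under (𝓞 F) Q
  exact hH q ⟨Q, relNorm_eq_of_absNorm_eq F M _ hq0 Q hu hN⟩
    (isCoprime_of_not_le _ 𝔪 hqp hq0 hq)

variable {F M} in
/-- The universal norm inequality in the shape "classes of the degree one primes outside a finite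
set" implies the shape "classes of the norms prime to `𝔪`". -/
theorem uni_of_uni_primes (𝔪 : Ideal (𝓞 F)) (h𝔪 : 𝔪 ≠ ⊥) {p : ℕ}
    (huni : ∀ (H : Subgroup (ClassGroup (𝓞 F))) (S : Finset (Ideal (𝓞 F))),
      (∀ (q : (Ideal (𝓞 F))⁰) (Q : Ideal (𝓞 M)), Q.IsPrime →
        Q.under (𝓞 F) = (q : Ideal (𝓞 F)) → (q : Ideal (𝓞 F)) ∉ S →
        Ideal.absNorm Q = Ideal.absNorm (q : Ideal (𝓞 F)) → ClassGroup.mk0 q ∈ H) →
      H.index ≤ p)
    (H : Subgroup (ClassGroup (𝓞 F)))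
    (hH : ∀ A ∈ normSubmonoid F M, IsCoprime (A : Ideal (𝓞 F)) 𝔪 → ClassGroup.mk0 A ∈ H) :
    H.index ≤ p := by
  obtain ⟨S, hS⟩ := exists_finset_primes 𝔪 h𝔪
  exact huni H S fun q Q hQ hu hqS hN =>
    mk0_mem_of_absNorm_eq 𝔪 H hH q Q hQ hu
      (fun hle => hqS (hS _ (hu ▸ Ideal.IsPrime.under (𝓞 F) Q) hle)) hN

variable {F M} in
/-- **The kernel of the symbol on ideals prime to `𝔪`, number field form.**  `M/F` is an extension
of number fields, `art` a symbol on the ideals of `F` with values in a group of prime order `p`,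
trivial on the norms from `M` (`hnorm`) and on the principal ideals prime to `𝔪` (`hprin`),
non-trivial on some ideal prime to `𝔪` (`hne`); `huni` is the universal norm inequality for `M/F`
(any subgroup of the class group containing the classes of the norms prime to `𝔪` has index at
most `p`).  Then two ideals prime to `𝔪` with the same symbol differ by principal ideals and
norms. -/
theorem exists_rel_of_artin_eq' {C : Type*} [Group C] {p : ℕ} (hp : p.Prime)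
    (hC : Nat.card C = p) (art : (Ideal (𝓞 F))⁰ →* C) (𝔪 : Ideal (𝓞 F))
    (hnorm : ∀ (B : Ideal (𝓞 M)) (A : (Ideal (𝓞 F))⁰),
      Ideal.relNorm (𝓞 F) B = (A : Ideal (𝓞 F)) → art A = 1)
    (hprin : ∀ (x : 𝓞 F) (X : (Ideal (𝓞 F))⁰), (X : Ideal (𝓞 F)) = Ideal.span {x} →
      IsCoprime (X : Ideal (𝓞 F)) 𝔪 → art X = 1)
    (hne : ∃ I : (Ideal (𝓞 F))⁰, IsCoprime (I : Ideal (𝓞 F)) 𝔪 ∧ art I ≠ 1)
    (huni : ∀ H : Subgroup (ClassGroup (𝓞 F)),
      (∀ A ∈ normSubmonoid F M, IsCoprime (A : Ideal (𝓞 F)) 𝔪 → ClassGroup.mk0 A ∈ H) →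
      H.index ≤ p)
    (I J : (Ideal (𝓞 F))⁰) (hI : IsCoprime (I : Ideal (𝓞 F)) 𝔪)
    (hJ : IsCoprime (J : Ideal (𝓞 F)) 𝔪) (h : art I = art J) :
    ∃ (x y : 𝓞 F) (A B : Ideal (𝓞 M)), x ≠ 0 ∧ y ≠ 0 ∧ A ≠ ⊥ ∧ B ≠ ⊥ ∧
      Ideal.span {x} * (I : Ideal (𝓞 F)) * Ideal.relNorm (𝓞 F) A =
        Ideal.span {y} * (J : Ideal (𝓞 F)) * Ideal.relNorm (𝓞 F) B := by
  obtain ⟨x, y, A, B, hx, hy, ⟨A', hA'⟩, ⟨B', hB'⟩, -, -, -, -, hrel⟩ :=
    exists_rel_of_art_eq hp hC art 𝔪 (normSubmonoid F M)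
      (fun A hA _ => by obtain ⟨B, hB⟩ := hA; exact hnorm B A hB) hprin hne huni I J hI hJ h
  refine ⟨x, y, A', B', hx, hy, ?_, ?_, ?_⟩
  · rintro rfl
    rw [Ideal.relNorm_bot] at hA'
    exact nonZeroDivisors.coe_ne_zero A hA'.symm
  · rintro rfl
    rw [Ideal.relNorm_bot] at hB'
    exact nonZeroDivisors.coe_ne_zero B hB'.symm
  · rw [hA', hB']
    exact hrel

variable {F M} in
/-- `exists_rel_of_artin_eq'` with the universal norm inequality in the shape "classes of the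
degree one primes outside a finite set". -/
theorem exists_rel_of_artin_eq {C : Type*} [Group C] {p : ℕ} (hp : p.Prime)
    (hC : Nat.card C = p) (art : (Ideal (𝓞 F))⁰ →* C) (𝔪 : Ideal (𝓞 F)) (h𝔪 : 𝔪 ≠ ⊥)
    (hnorm : ∀ (B : Ideal (𝓞 M)) (A : (Ideal (𝓞 F))⁰),
      Ideal.relNorm (𝓞 F) B = (A : Ideal (𝓞 F)) → art A = 1)
    (hprin : ∀ (x : 𝓞 F) (X : (Ideal (𝓞 F))⁰), (X : Ideal (𝓞 F)) = Ideal.span {x} →
      IsCoprime (X : Ideal (𝓞 F)) 𝔪 → art X = 1)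
    (hne : ∃ I : (Ideal (𝓞 F))⁰, IsCoprime (I : Ideal (𝓞 F)) 𝔪 ∧ art I ≠ 1)
    (huni : ∀ (H : Subgroup (ClassGroup (𝓞 F))) (S : Finset (Ideal (𝓞 F))),
      (∀ (q : (Ideal (𝓞 F))⁰) (Q : Ideal (𝓞 M)), Q.IsPrime →
        Q.under (𝓞 F) = (q : Ideal (𝓞 F)) → (q : Ideal (𝓞 F)) ∉ S →
        Ideal.absNorm Q = Ideal.absNorm (q : Ideal (𝓞 F)) → ClassGroup.mk0 q ∈ H) →
      H.index ≤ p)
    (I J : (Ideal (𝓞 F))⁰) (hI : IsCoprime (I : Ideal (𝓞 F)) 𝔪)
    (hJ : IsCoprime (J : Ideal (𝓞 F)) 𝔪) (h : art I = art J) :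
    ∃ (x y : 𝓞 F) (A B : Ideal (𝓞 M)), x ≠ 0 ∧ y ≠ 0 ∧ A ≠ ⊥ ∧ B ≠ ⊥ ∧
      Ideal.span {x} * (I : Ideal (𝓞 F)) * Ideal.relNorm (𝓞 F) A =
        Ideal.span {y} * (J : Ideal (𝓞 F)) * Ideal.relNorm (𝓞 F) B :=
  exists_rel_of_artin_eq' hp hC art 𝔪 hnorm hprin hne (uni_of_uni_primes 𝔪 h𝔪 huni) I J hI hJ h

end NumberField

section Down

variable (K F L M : Type*) [Field K] [NumberField K] [Field F] [NumberField F] [Field L]
  [NumberField L] [Field M] [NumberField M] [Algebra K F] [Algebra K L] [Algebra F M]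
  [Algebra L M] [Algebra K M] [IsScalarTower K F M] [IsScalarTower K L M]

/-- **Norm-down**: a relation `(x) I N_{M/F}(A) = (y) J N_{M/F}(B)` between ideals of `F` is sent
by `N_{F/K}` to a relation `(N x) N(I) N_{L/K}(A') = (N y) N(J) N_{L/K}(B')` between ideals of
`K`, where `A' = N_{M/L}(A)`, `B' = N_{M/L}(B)`. -/
theorem rel_down (I J : Ideal (𝓞 F)) (x y : 𝓞 F) (A B : Ideal (𝓞 M))
    (h : Ideal.span {x} * I * Ideal.relNorm (𝓞 F) A =
      Ideal.span {y} * J * Ideal.relNorm (𝓞 F) B) :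
    Ideal.span {Algebra.intNorm (𝓞 K) (𝓞 F) x} * Ideal.relNorm (𝓞 K) I *
        Ideal.relNorm (𝓞 K) (Ideal.relNorm (𝓞 L) A) =
      Ideal.span {Algebra.intNorm (𝓞 K) (𝓞 F) y} * Ideal.relNorm (𝓞 K) J *
        Ideal.relNorm (𝓞 K) (Ideal.relNorm (𝓞 L) B) := by
  have h1 := congrArg (Ideal.relNorm (𝓞 K)) h
  rw [map_mul, map_mul, map_mul, map_mul, Ideal.relNorm_singleton, Ideal.relNorm_singleton,
    Ideal.relNorm_relNorm (𝓞 K) (𝓞 F) A, Ideal.relNorm_relNorm (𝓞 K) (𝓞 F) B] at h1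
  rw [Ideal.relNorm_relNorm (𝓞 K) (𝓞 L) A, Ideal.relNorm_relNorm (𝓞 K) (𝓞 L) B]
  exact h1


/-- **The crossing step inside one auxiliary field.**  `K ≤ F ≤ M`, `K ≤ L ≤ M`; `art` is the
symbol of `M/F` (hypotheses as in `exists_rel_of_artin_eq'`).  Two ideals of `F` prime to `𝔪`
with the same symbol have norms to `K` which differ by principal ideals of `K` and norms from
`L`. -/
theorem exists_rel_down_of_artin_eq' {C : Type*} [Group C] {p : ℕ} (hp : p.Prime)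
    (hC : Nat.card C = p) (art : (Ideal (𝓞 F))⁰ →* C) (𝔪 : Ideal (𝓞 F))
    (hnorm : ∀ (B : Ideal (𝓞 M)) (A : (Ideal (𝓞 F))⁰),
      Ideal.relNorm (𝓞 F) B = (A : Ideal (𝓞 F)) → art A = 1)
    (hprin : ∀ (x : 𝓞 F) (X : (Ideal (𝓞 F))⁰), (X : Ideal (𝓞 F)) = Ideal.span {x} →
      IsCoprime (X : Ideal (𝓞 F)) 𝔪 → art X = 1)
    (hne : ∃ I : (Ideal (𝓞 F))⁰, IsCoprime (I : Ideal (𝓞 F)) 𝔪 ∧ art I ≠ 1)
    (huni : ∀ H : Subgroup (ClassGroup (𝓞 F)),
      (∀ A ∈ normSubmonoid F M, IsCoprime (A : Ideal (𝓞 F)) 𝔪 → ClassGroup.mk0 A ∈ H) →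
      H.index ≤ p)
    (I J : (Ideal (𝓞 F))⁰) (hI : IsCoprime (I : Ideal (𝓞 F)) 𝔪)
    (hJ : IsCoprime (J : Ideal (𝓞 F)) 𝔪) (h : art I = art J) :
    ∃ (u v : 𝓞 K) (A B : Ideal (𝓞 L)), u ≠ 0 ∧ v ≠ 0 ∧ A ≠ ⊥ ∧ B ≠ ⊥ ∧
      Ideal.span {u} * Ideal.relNorm (𝓞 K) (I : Ideal (𝓞 F)) * Ideal.relNorm (𝓞 K) A =
        Ideal.span {v} * Ideal.relNorm (𝓞 K) (J : Ideal (𝓞 F)) * Ideal.relNorm (𝓞 K) B := by
  obtain ⟨x, y, A, B, hx, hy, hA, hB, hrel⟩ :=
    exists_rel_of_artin_eq' hp hC art 𝔪 hnorm hprin hne huni I J hI hJ h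
  have hnz : ∀ z : 𝓞 F, z ≠ 0 → Algebra.intNorm (𝓞 K) (𝓞 F) z ≠ 0 := by
    intro z hz h0
    have h1 : Ideal.relNorm (𝓞 K) (Ideal.span {z}) = ⊥ := by
      rw [Ideal.relNorm_singleton, h0]
      simp
    rw [Ideal.relNorm_eq_bot_iff, Ideal.span_singleton_eq_bot] at h1
    exact hz h1
  exact ⟨_, _, Ideal.relNorm (𝓞 L) A, Ideal.relNorm (𝓞 L) B, hnz x hx, hnz y hy,
    fun h0 => hA (Ideal.relNorm_eq_bot_iff.mp h0), fun h0 => hB (Ideal.relNorm_eq_bot_iff.mp h0),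
    rel_down K F L M _ _ x y A B hrel⟩

/-- `exists_rel_down_of_artin_eq'` with the universal norm inequality in the shape "classes of
the degree one primes outside a finite set". -/
theorem exists_rel_down_of_artin_eq {C : Type*} [Group C] {p : ℕ} (hp : p.Prime)
    (hC : Nat.card C = p) (art : (Ideal (𝓞 F))⁰ →* C) (𝔪 : Ideal (𝓞 F)) (h𝔪 : 𝔪 ≠ ⊥)
    (hnorm : ∀ (B : Ideal (𝓞 M)) (A : (Ideal (𝓞 F))⁰),
      Ideal.relNorm (𝓞 F) B = (A : Ideal (𝓞 F)) → art A = 1)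
    (hprin : ∀ (x : 𝓞 F) (X : (Ideal (𝓞 F))⁰), (X : Ideal (𝓞 F)) = Ideal.span {x} →
      IsCoprime (X : Ideal (𝓞 F)) 𝔪 → art X = 1)
    (hne : ∃ I : (Ideal (𝓞 F))⁰, IsCoprime (I : Ideal (𝓞 F)) 𝔪 ∧ art I ≠ 1)
    (huni : ∀ (H : Subgroup (ClassGroup (𝓞 F))) (S : Finset (Ideal (𝓞 F))),
      (∀ (q : (Ideal (𝓞 F))⁰) (Q : Ideal (𝓞 M)), Q.IsPrime →
        Q.under (𝓞 F) = (q : Ideal (𝓞 F)) → (q : Ideal (𝓞 F)) ∉ S →
        Ideal.absNorm Q = Ideal.absNorm (q : Ideal (𝓞 F)) → ClassGroup.mk0 q ∈ H) →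
      H.index ≤ p)
    (I J : (Ideal (𝓞 F))⁰) (hI : IsCoprime (I : Ideal (𝓞 F)) 𝔪)
    (hJ : IsCoprime (J : Ideal (𝓞 F)) 𝔪) (h : art I = art J) :
    ∃ (u v : 𝓞 K) (A B : Ideal (𝓞 L)), u ≠ 0 ∧ v ≠ 0 ∧ A ≠ ⊥ ∧ B ≠ ⊥ ∧
      Ideal.span {u} * Ideal.relNorm (𝓞 K) (I : Ideal (𝓞 F)) * Ideal.relNorm (𝓞 K) A =
        Ideal.span {v} * Ideal.relNorm (𝓞 K) (J : Ideal (𝓞 F)) * Ideal.relNorm (𝓞 K) B :=
  exists_rel_down_of_artin_eq' K F L M hp hC art 𝔪 hnorm hprin hne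
    (uni_of_uni_primes 𝔪 h𝔪 huni) I J hI hJ h

end Down

end Fermat.Agent.S14.KerCyclo
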