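import Mathlib

/-!
# S14: the abstract reciprocity assembly (pure group theory)

`I` is a commutative group (the ideal group of `K`), `ψ : I →* C` a homomorphism to a group of
prime order `p` (the Frobenius / Artin map of an unramified cyclic extension `L/K` of degree `p`),
`T ≤ I` a subgroup containing all `p`-th powers (`T = P_K · N(I_L)`).

* `rel_of_aux` : the two-prime relation of Artin's crossing from the data of the two auxiliary
  fields.
* `ker_le_of_cross` : `ker ψ ≤ T` from the two-prime relations on a generating set.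
* `eq_ker_of_ne_top` : `ker ψ ≤ T ≠ ⊤` forces `T = ker ψ` (first inequality + crossing).
* `le_ker_of_cross` : the reciprocity law `P ≤ ker ψ` for any `P ≤ T`.
* `endgame` : the final contradiction from a relation `∏ f c ∈ ker ψ`, `ψ (f c) = ψ Q ^ c`.
-/

set_option autoImplicit false

namespace Fermat.Agent.S14.RecAbs

variable {I C : Type*} [CommGroup I] [Group C]

/-- In a group of prime order, a nontrivial element has order `p`. -/
theorem orderOf_eq_of_card_prime {p : ℕ} (hp : p.Prime) (hC : Nat.card C = p) {g : C}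
    (hg : g ≠ 1) : orderOf g = p := by
  have h1 : orderOf g ∣ p := hC ▸ orderOf_dvd_natCard g
  rcases (Nat.dvd_prime hp).mp h1 with h | h
  · exact absurd (orderOf_eq_one_iff.mp h) hg
  · exact h

/-- In a group of prime order `p`, `g ^ x = 1 ↔ p ∣ x` for `g ≠ 1`. -/
theorem zpow_eq_one_iff_of_card_prime {p : ℕ} (hp : p.Prime) (hC : Nat.card C = p) {g : C}
    (hg : g ≠ 1) (x : ℤ) : g ^ x = 1 ↔ (p : ℤ) ∣ x := by
  rw [← orderOf_eq_of_card_prime hp hC hg, orderOf_dvd_iff_zpow_eq_one]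

/-- In a group of prime order, every element is a power of a given nontrivial element. -/
theorem exists_zpow_eq_of_card_prime {p : ℕ} (hp : p.Prime) (hC : Nat.card C = p) {g : C}
    (hg : g ≠ 1) (c : C) : ∃ d : ℤ, g ^ d = c := by
  have : Finite C := Nat.finite_of_card_ne_zero (hC ▸ hp.ne_zero)
  have h : c ∈ Subgroup.zpowers g := by
    have htop : Subgroup.zpowers g = ⊤ := by
      have hcard : Nat.card (Subgroup.zpowers g) = Nat.card C := by
        rw [Nat.card_zpowers, orderOf_eq_of_card_prime hp hC hg, hC]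
      exact Subgroup.eq_top_of_card_eq _ hcard
    rw [htop]
    exact Subgroup.mem_top c
  exact Subgroup.mem_zpowers_iff.mp h

/-- A `p`-divisible power lies in `T` when `T` contains all `p`-th powers. -/
theorem zpow_mem_of_dvd {p : ℕ} {T : Subgroup I} (hpow : ∀ a : I, a ^ p ∈ T) (a : I) {n : ℤ}
    (hn : (p : ℤ) ∣ n) : a ^ n ∈ T := by
  obtain ⟨m, rfl⟩ := hn
  rw [mul_comm, zpow_mul, zpow_natCast]
  exact hpow _

/-- **The two-prime relation of the crossing.**  `I₁`, `I₂` are the ideal groups of the two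
auxiliary fields, `N₁`, `N₂` the norms down to `K`, `T₁`, `T₂` the subgroups "principal times
norms" there; `Q₁`, `Q₂` primes of degree one over `q₁`, `q₂`; `b₁`, `b₂` the norms of one prime
of the compositum which is inert in the big extension. -/
theorem rel_of_aux {p : ℕ} (hp : p.Prime) (hC : Nat.card C = p) (ψ : I →* C) (T : Subgroup I)
    (hpow : ∀ a : I, a ^ p ∈ T)
    {I₁ I₂ : Type*} [CommGroup I₁] [CommGroup I₂] (N₁ : I₁ →* I) (N₂ : I₂ →* I)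
    (T₁ : Subgroup I₁) (T₂ : Subgroup I₂)
    (hker₁ : (ψ.comp N₁).ker ≤ T₁) (hker₂ : (ψ.comp N₂).ker ≤ T₂)
    (hdown₁ : ∀ t ∈ T₁, N₁ t ∈ T) (hdown₂ : ∀ t ∈ T₂, N₂ t ∈ T)
    (Q₁ : I₁) (Q₂ : I₂) (b₁ : I₁) (b₂ : I₂) (hb : N₁ b₁ = N₂ b₂) (hb1 : ψ (N₁ b₁) ≠ 1)
    (x y : ℤ) (h : ψ (N₁ Q₁ ^ x * N₂ Q₂ ^ y) = 1) : N₁ Q₁ ^ x * N₂ Q₂ ^ y ∈ T := by
  set B : I := N₁ b₁ with hB
  obtain ⟨d₁, hd₁⟩ := exists_zpow_eq_of_card_prime hp hC hb1 (ψ (N₁ Q₁))
  obtain ⟨d₂, hd₂⟩ := exists_zpow_eq_of_card_prime hp hC hb1 (ψ (N₂ Q₂))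
  -- `qᵢ * B ^ (-dᵢ) ∈ T`
  have h1 : N₁ Q₁ * B ^ (-d₁) ∈ T := by
    have hmem : Q₁ * b₁ ^ (-d₁) ∈ (ψ.comp N₁).ker := by
      rw [MonoidHom.mem_ker, MonoidHom.comp_apply, map_mul, map_mul, map_zpow, map_zpow, ← hB,
        ← hd₁, ← zpow_add, add_neg_cancel, zpow_zero]
    have := hdown₁ _ (hker₁ hmem)
    rwa [map_mul, map_zpow] at this
  have h2 : N₂ Q₂ * B ^ (-d₂) ∈ T := by
    have hmem : Q₂ * b₂ ^ (-d₂) ∈ (ψ.comp N₂).ker := by
      rw [MonoidHom.mem_ker, MonoidHom.comp_apply, map_mul, map_mul, map_zpow, map_zpow, ← hb,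
        ← hd₂, ← zpow_add, add_neg_cancel, zpow_zero]
    have := hdown₂ _ (hker₂ hmem)
    rwa [map_mul, map_zpow, ← hb] at this
  -- the exponent of `B` is divisible by `p`
  have h3 : (p : ℤ) ∣ d₁ * x + d₂ * y := by
    rw [← zpow_eq_one_iff_of_card_prime hp hC hb1]
    rw [map_mul, map_zpow, map_zpow, ← hd₁, ← hd₂, ← zpow_mul, ← zpow_mul, ← zpow_add] at h
    exact h
  have h4 : B ^ (d₁ * x + d₂ * y) ∈ T := zpow_mem_of_dvd hpow B h3
  have h5 : N₁ Q₁ ^ x * N₂ Q₂ ^ y =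
      (N₁ Q₁ * B ^ (-d₁)) ^ x * (N₂ Q₂ * B ^ (-d₂)) ^ y * B ^ (d₁ * x + d₂ * y) := by
    rw [mul_zpow, mul_zpow, ← zpow_mul, ← zpow_mul, zpow_add, zpow_mul, zpow_mul, zpow_mul,
      zpow_mul, zpow_neg, zpow_neg, inv_zpow, inv_zpow]
    have e1 : ((B ^ d₁) ^ x)⁻¹ * (B ^ d₁) ^ x = 1 := inv_mul_cancel _
    have e2 : ((B ^ d₂) ^ y)⁻¹ * (B ^ d₂) ^ y = 1 := inv_mul_cancel _
    calc N₁ Q₁ ^ x * N₂ Q₂ ^ y
        = N₁ Q₁ ^ x * N₂ Q₂ ^ y * ((((B ^ d₁) ^ x)⁻¹ * (B ^ d₁) ^ x) *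
            (((B ^ d₂) ^ y)⁻¹ * (B ^ d₂) ^ y)) := by rw [e1, e2, mul_one, mul_one]
      _ = _ := by
        simp only [mul_assoc, mul_left_comm, mul_comm]
  rw [h5]
  exact T.mul_mem (T.mul_mem (T.zpow_mem h1 x) (T.zpow_mem h2 y)) h4

/-- **The crossing, counting part**: if split "primes" lie in `T` and any two inert "primes"
satisfy the two-prime relation, then `ker ψ ≤ T`. -/
theorem ker_le_of_cross {p : ℕ} (hp : p.Prime) (hC : Nat.card C = p) (ψ : I →* C)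
    (T : Subgroup I) (hpow : ∀ a : I, a ^ p ∈ T) (S : Set I) (hS : Subgroup.closure S = ⊤)
    (hsplit : ∀ q ∈ S, ψ q = 1 → q ∈ T)
    (hcross : ∀ q₁ ∈ S, ∀ q₂ ∈ S, ψ q₁ ≠ 1 → ψ q₂ ≠ 1 → ∀ x y : ℤ,
      ψ (q₁ ^ x * q₂ ^ y) = 1 → q₁ ^ x * q₂ ^ y ∈ T) :
    ψ.ker ≤ T := by
  by_cases hall : ∀ q ∈ S, ψ q = 1
  · -- all generators are split: `T = ⊤`
    have : Subgroup.closure S ≤ T := (Subgroup.closure_le T).mpr fun q hq => hsplit q hq (hall q hq)
    rw [hS] at this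
    exact fun a _ => this (Subgroup.mem_top a)
  · push Not at hall
    obtain ⟨q₀, hq₀S, hq₀⟩ := hall
    -- every element is in `(T ⊓ ker ψ) * ⟨q₀⟩`
    have key : ∀ a : I, ∃ n : ℤ, a * q₀ ^ n ∈ T ⊓ ψ.ker := by
      intro a
      have ha : a ∈ Subgroup.closure S := hS ▸ Subgroup.mem_top a
      induction ha using Subgroup.closure_induction with
      | mem q hq =>
        by_cases hq1 : ψ q = 1
        · exact ⟨0, by rw [zpow_zero, mul_one]; exact ⟨hsplit q hq hq1, hq1⟩⟩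
        · obtain ⟨d, hd⟩ := exists_zpow_eq_of_card_prime hp hC hq₀ (ψ q)
          have h1 : ψ (q ^ (1 : ℤ) * q₀ ^ (-d)) = 1 := by
            rw [map_mul, map_zpow, map_zpow, zpow_one, ← hd, ← zpow_add, add_neg_cancel,
              zpow_zero]
          have h2 := hcross q hq q₀ hq₀S hq1 hq₀ 1 (-d) h1
          rw [zpow_one] at h1 h2
          exact ⟨-d, h2, h1⟩
      | one => exact ⟨0, by rw [zpow_zero, mul_one]; exact (T ⊓ ψ.ker).one_mem⟩
      | mul a b _ _ iha ihb =>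
        obtain ⟨n, hn⟩ := iha
        obtain ⟨m, hm⟩ := ihb
        refine ⟨n + m, ?_⟩
        have : a * b * q₀ ^ (n + m) = (a * q₀ ^ n) * (b * q₀ ^ m) := by
          rw [zpow_add]
          simp only [mul_assoc, mul_left_comm]
        rw [this]
        exact (T ⊓ ψ.ker).mul_mem hn hm
      | inv a _ iha =>
        obtain ⟨n, hn⟩ := iha
        refine ⟨-n, ?_⟩
        have : a⁻¹ * q₀ ^ (-n) = (a * q₀ ^ n)⁻¹ := by
          rw [mul_inv, zpow_neg]
        rw [this]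
        exact (T ⊓ ψ.ker).inv_mem hn
    intro a ha
    obtain ⟨n, hn⟩ := key a
    have hnT : a * q₀ ^ n ∈ T := (Subgroup.mem_inf.mp hn).1
    have hnK : ψ (a * q₀ ^ n) = 1 := MonoidHom.mem_ker.mp (Subgroup.mem_inf.mp hn).2
    rw [MonoidHom.mem_ker] at ha
    have h1 : ψ q₀ ^ n = 1 := by
      rw [map_mul, ha, one_mul, map_zpow] at hnK
      exact hnK
    have h2 : (p : ℤ) ∣ n := (zpow_eq_one_iff_of_card_prime hp hC hq₀ n).mp h1
    have h3 : q₀ ^ n ∈ T := zpow_mem_of_dvd hpow q₀ h2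
    have h4 : a = (a * q₀ ^ n) * (q₀ ^ n)⁻¹ := by rw [mul_inv_cancel_right]
    rw [h4]
    exact T.mul_mem hnT (T.inv_mem h3)

/-- **First inequality + crossing**: `ker ψ ≤ T ≠ ⊤` forces `T = ker ψ`. -/
theorem eq_ker_of_ne_top {p : ℕ} (hp : p.Prime) (hC : Nat.card C = p) (ψ : I →* C)
    (T : Subgroup I) (hker : ψ.ker ≤ T) (hT : T ≠ ⊤) : T = ψ.ker := by
  refine le_antisymm (fun t ht => ?_) hker
  rw [MonoidHom.mem_ker]
  by_contra hne
  apply hT
  rw [eq_top_iff]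
  intro a _
  obtain ⟨d, hd⟩ := exists_zpow_eq_of_card_prime hp hC hne (ψ a)
  have h1 : a * t ^ (-d) ∈ ψ.ker := by
    rw [MonoidHom.mem_ker, map_mul, map_zpow, ← hd, ← zpow_add, add_neg_cancel, zpow_zero]
  have h2 : a = (a * t ^ (-d)) * t ^ d := by
    rw [mul_assoc, ← zpow_add, neg_add_cancel, zpow_zero, mul_one]
  rw [h2]
  exact T.mul_mem (hker h1) (T.zpow_mem ht d)

/-- **The reciprocity law, abstract form**: every subgroup `P ≤ T` (the principal ideals) is in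
the kernel of `ψ`. -/
theorem le_ker_of_cross {p : ℕ} (hp : p.Prime) (hC : Nat.card C = p) (ψ : I →* C)
    (T : Subgroup I) (hpow : ∀ a : I, a ^ p ∈ T) (hT : T ≠ ⊤) (S : Set I)
    (hS : Subgroup.closure S = ⊤) (hsplit : ∀ q ∈ S, ψ q = 1 → q ∈ T)
    (hcross : ∀ q₁ ∈ S, ∀ q₂ ∈ S, ψ q₁ ≠ 1 → ψ q₂ ≠ 1 → ∀ x y : ℤ,
      ψ (q₁ ^ x * q₂ ^ y) = 1 → q₁ ^ x * q₂ ^ y ∈ T)
    (P : Subgroup I) (hP : P ≤ T) : P ≤ ψ.ker :=
  hP.trans (eq_ker_of_ne_top hp hC ψ T (ker_le_of_cross hp hC ψ T hpow S hS hsplit hcross) hT).le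

/-- `ψ` is onto as soon as `ker ψ ≤ T ≠ ⊤`: there is an "inert" generator. -/
theorem exists_inert (ψ : I →* C) (T : Subgroup I) (hT : T ≠ ⊤) (S : Set I)
    (hS : Subgroup.closure S = ⊤) (hsplit : ∀ q ∈ S, ψ q = 1 → q ∈ T) :
    ∃ q ∈ S, ψ q ≠ 1 := by
  by_contra hall
  push Not at hall
  apply hT
  rw [eq_top_iff, ← hS]
  exact (Subgroup.closure_le T).mpr fun q hq => hsplit q hq (hall q hq)

/-- `ψ (∏ f c) = ψ Q ^ ∑ c` when `ψ (f c) = ψ Q ^ c` (no commutativity of `C` needed). -/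
theorem map_prod_eq_pow_sum (ψ : I →* C) (Q : I) (s : Finset ℕ) (f : ℕ → I)
    (hf : ∀ c ∈ s, ψ (f c) = ψ Q ^ c) : ψ (∏ c ∈ s, f c) = ψ Q ^ (∑ c ∈ s, c) := by
  classical
  induction s using Finset.induction_on with
  | empty => simp
  | insert a s ha ih =>
    rw [Finset.prod_insert ha, Finset.sum_insert ha, map_mul, hf a (Finset.mem_insert_self a s),
      ih (fun c hc => hf c (Finset.mem_insert_of_mem hc)), pow_add]

/-- **The endgame**: a relation `∏_{0 < c < p/2} f c ∈ ker ψ` with `ψ (f c) = ψ Q ^ c`,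
`ψ Q ≠ 1`, is impossible when `p ∤ ∑_{0 < c < p/2} c`. -/
theorem endgame {p : ℕ} (hp : p.Prime) (hC : Nat.card C = p) (ψ : I →* C) (Q : I)
    (hQ : ψ Q ≠ 1) (s : Finset ℕ) (f : ℕ → I) (hf : ∀ c ∈ s, ψ (f c) = ψ Q ^ c)
    (hJ : ψ (∏ c ∈ s, f c) = 1) (hsum : ¬ p ∣ ∑ c ∈ s, c) : False := by
  rw [map_prod_eq_pow_sum ψ Q s f hf] at hJ
  have h2 : (p : ℤ) ∣ ((∑ c ∈ s, c : ℕ) : ℤ) := by
    rw [← zpow_eq_one_iff_of_card_prime hp hC hQ, zpow_natCast]
    exact hJ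
  exact hsum (Int.natCast_dvd_natCast.mp h2)

end Fermat.Agent.S14.RecAbs
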