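import Mathlib
import Fermat.Agent.S14.RecAbs

/-!
# S14: the reciprocity assembly, monoid / class-group form

`M` is a commutative monoid (the nonzero ideals of `𝓞 K`), `cl : M →* Cl` a surjective
homomorphism onto a commutative group (the class group of `K`), `H ≤ Cl` a subgroup containing
all `p`-th powers (the classes of norms from `L`), `ψ : M →* C` a homomorphism to a group of
prime order `p` (the Artin map of `L/K`).  No group of fractional ideals is needed.

* `CrossDatum ψ cl H q₁ q₂` : what the field side of Artin's crossing has to deliver for a pair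
  of inert primes: two submonoids `𝒩₁ ∋ q₁`, `𝒩₂ ∋ q₂` (norms of ideals of the two auxiliary
  fields) on which "trivial symbol ⇒ class in `H`", and a common element with nontrivial symbol.
* `CrossDatum.rel` : the two-prime relation.
* `mem_iff_of_cross` : `cl a ∈ H ↔ ψ a = 1`.
* `map_eq_one_of_cross` : **reciprocity**: `cl a = 1 → ψ a = 1`.
-/

set_option autoImplicit false

namespace Fermat.Agent.S14.RecCl

open Fermat.Agent.S14.RecAbs

variable {M Cl C : Type*} [CommMonoid M] [CommGroup Cl] [Group C]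

/-- In a group of prime order, every element is a natural power of a given nontrivial element. -/
theorem exists_pow_eq_of_card_prime {p : ℕ} (hp : p.Prime) (hC : Nat.card C = p) {g : C}
    (hg : g ≠ 1) (c : C) : ∃ d : ℕ, g ^ d = c := by
  have : Finite C := Nat.finite_of_card_ne_zero (hC ▸ hp.ne_zero)
  obtain ⟨d, hd⟩ := exists_zpow_eq_of_card_prime hp hC hg c
  have h1 : c ∈ Subgroup.zpowers g := Subgroup.mem_zpowers_iff.mpr ⟨d, hd⟩
  rw [← mem_powers_iff_mem_zpowers] at h1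
  exact (Submonoid.mem_powers_iff _ _).mp h1

/-- In a group of prime order `p`, `g ^ n = 1 ↔ p ∣ n` for `g ≠ 1`. -/
theorem pow_eq_one_iff_of_card_prime {p : ℕ} (hp : p.Prime) (hC : Nat.card C = p) {g : C}
    (hg : g ≠ 1) (n : ℕ) : g ^ n = 1 ↔ p ∣ n := by
  rw [← orderOf_eq_of_card_prime hp hC hg, orderOf_dvd_iff_pow_eq_one]

/-- `g ^ p = 1` in a group of order `p`. -/
theorem pow_card_prime_eq_one {p : ℕ} (hC : Nat.card C = p) (g : C) : g ^ p = 1 := by
  rw [← hC]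
  exact pow_card_eq_one'

/-- A `p`-divisible power lies in `H` when `H` contains all `p`-th powers. -/
theorem pow_mem_of_dvd {p : ℕ} {H : Subgroup Cl} (hpow : ∀ c : Cl, c ^ p ∈ H) (c : Cl) {n : ℕ}
    (hn : p ∣ n) : c ^ n ∈ H := by
  obtain ⟨m, rfl⟩ := hn
  rw [mul_comm, pow_mul]
  exact hpow _

theorem add_pred_mul {p : ℕ} (hp : p.Prime) (d : ℕ) : d + (p - 1) * d = p * d := by
  have h : p - 1 + 1 = p := Nat.sub_add_cancel hp.one_le
  calc d + (p - 1) * d = (p - 1 + 1) * d := by ring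
    _ = p * d := by rw [h]

/-- The data delivered by the field side of Artin's crossing for two "primes" `q₁`, `q₂`:
submonoids `𝒩₁ ∋ q₁`, `𝒩₂ ∋ q₂` (norms of ideals of the two auxiliary fields) on which a trivial
symbol forces the class into `H`, and a common element with nontrivial symbol. -/
def CrossDatum (ψ : M →* C) (cl : M →* Cl) (H : Subgroup Cl) (q₁ q₂ : M) : Prop :=
  ∃ N₁ N₂ : Submonoid M, (∀ a ∈ N₁, ψ a = 1 → cl a ∈ H) ∧ (∀ a ∈ N₂, ψ a = 1 → cl a ∈ H) ∧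
    q₁ ∈ N₁ ∧ q₂ ∈ N₂ ∧ ∃ B : M, B ∈ N₁ ∧ B ∈ N₂ ∧ ψ B ≠ 1

/-- One half of the crossing: `cl q * cl B ^ ((p - 1) d) ∈ H` when `ψ q = ψ B ^ d`. -/
theorem mul_pow_mem_of_mem {p : ℕ} (hp : p.Prime) (hC : Nat.card C = p) (ψ : M →* C)
    (cl : M →* Cl) (H : Subgroup Cl) (N : Submonoid M) (hN : ∀ a ∈ N, ψ a = 1 → cl a ∈ H)
    {q B : M} (hq : q ∈ N) (hB : B ∈ N) {d : ℕ} (hd : ψ B ^ d = ψ q) :
    cl q * cl B ^ ((p - 1) * d) ∈ H := by
  have h1 : q * B ^ ((p - 1) * d) ∈ N := N.mul_mem hq (N.pow_mem hB _)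
  have h2 : ψ (q * B ^ ((p - 1) * d)) = 1 := by
    rw [map_mul, map_pow, ← hd, ← pow_add, add_pred_mul hp, pow_mul,
      pow_card_prime_eq_one hC, one_pow]
  have h3 := hN _ h1 h2
  rwa [map_mul, map_pow] at h3

/-- **The two-prime relation** from a crossing datum. -/
theorem CrossDatum.rel {p : ℕ} (hp : p.Prime) (hC : Nat.card C = p) {ψ : M →* C}
    {cl : M →* Cl} {H : Subgroup Cl} (hpow : ∀ c : Cl, c ^ p ∈ H) {q₁ q₂ : M}
    (h : CrossDatum ψ cl H q₁ q₂) (x y : ℕ) (hxy : ψ (q₁ ^ x * q₂ ^ y) = 1) :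
    cl (q₁ ^ x * q₂ ^ y) ∈ H := by
  obtain ⟨N₁, N₂, hN₁, hN₂, hq₁, hq₂, B, hB₁, hB₂, hB⟩ := h
  obtain ⟨d₁, hd₁⟩ := exists_pow_eq_of_card_prime hp hC hB (ψ q₁)
  obtain ⟨d₂, hd₂⟩ := exists_pow_eq_of_card_prime hp hC hB (ψ q₂)
  have h1 := mul_pow_mem_of_mem hp hC ψ cl H N₁ hN₁ hq₁ hB₁ hd₁
  have h2 := mul_pow_mem_of_mem hp hC ψ cl H N₂ hN₂ hq₂ hB₂ hd₂
  -- `p ∣ d₁ x + d₂ y`
  have h3 : p ∣ d₁ * x + d₂ * y := by
    rw [← pow_eq_one_iff_of_card_prime hp hC hB]
    rw [map_mul, map_pow, map_pow, ← hd₁, ← hd₂, ← pow_mul, ← pow_mul, ← pow_add] at hxy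
    exact hxy
  -- `cl B ^ (p * ((p-1) * (d₁ x + d₂ y))) ∈ H` etc.
  have h4 : (cl q₁ * cl B ^ ((p - 1) * d₁)) ^ x * (cl q₂ * cl B ^ ((p - 1) * d₂)) ^ y ∈ H :=
    H.mul_mem (H.pow_mem h1 x) (H.pow_mem h2 y)
  have h5 : cl B ^ ((p - 1) * (d₁ * x + d₂ * y)) ∈ H :=
    pow_mem_of_dvd hpow _ (Dvd.dvd.mul_left h3 _)
  have h6 : cl (q₁ ^ x * q₂ ^ y) * cl B ^ ((p - 1) * (d₁ * x + d₂ * y)) =
      (cl q₁ * cl B ^ ((p - 1) * d₁)) ^ x * (cl q₂ * cl B ^ ((p - 1) * d₂)) ^ y := by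
    rw [map_mul, map_pow, map_pow, mul_pow, mul_pow, ← pow_mul, ← pow_mul]
    have e : (p - 1) * (d₁ * x + d₂ * y) = (p - 1) * d₁ * x + (p - 1) * d₂ * y := by ring
    rw [e, pow_add]
    simp only [mul_assoc, mul_left_comm]
  have h7 : cl (q₁ ^ x * q₂ ^ y) =
      (cl (q₁ ^ x * q₂ ^ y) * cl B ^ ((p - 1) * (d₁ * x + d₂ * y))) *
        (cl B ^ ((p - 1) * (d₁ * x + d₂ * y)))⁻¹ := by
    rw [mul_inv_cancel_right]
  rw [h7, h6]
  exact H.mul_mem h4 (H.inv_mem h5)

section Main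

variable {p : ℕ} (hp : p.Prime) (hC : Nat.card C = p) (ψ : M →* C) (cl : M →* Cl)
  (hcl : Function.Surjective cl) (H : Subgroup Cl) (hpow : ∀ c : Cl, c ^ p ∈ H) (hH : H ≠ ⊤)
  (S : Set M) (hS : Submonoid.closure S = ⊤) (hsplit : ∀ q ∈ S, ψ q = 1 → cl q ∈ H)
  (hcross : ∀ q₁ ∈ S, ∀ q₂ ∈ S, ψ q₁ ≠ 1 → ψ q₂ ≠ 1 → CrossDatum ψ cl H q₁ q₂)

include hcl hH hS hsplit in
/-- There is an "inert" generator. -/
theorem exists_inert : ∃ q ∈ S, ψ q ≠ 1 := by
  by_contra hall
  push Not at hall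
  apply hH
  rw [eq_top_iff]
  rintro c -
  obtain ⟨a, rfl⟩ := hcl c
  have ha : a ∈ Submonoid.closure S := hS ▸ Submonoid.mem_top a
  induction ha using Submonoid.closure_induction with
  | mem q hq => exact hsplit q hq (hall q hq)
  | one => rw [map_one]; exact H.one_mem
  | mul a b _ _ iha ihb => rw [map_mul]; exact H.mul_mem iha ihb

include hp hC hpow hS hsplit hcross in
/-- `ker ψ` is contained in the preimage of `H`. -/
theorem mem_of_map_eq_one (a : M) (ha : ψ a = 1) : cl a ∈ H := by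
  by_cases hall : ∀ q ∈ S, ψ q = 1
  · have ha' : a ∈ Submonoid.closure S := hS ▸ Submonoid.mem_top a
    clear ha
    induction ha' using Submonoid.closure_induction with
    | mem q hq => exact hsplit q hq (hall q hq)
    | one => rw [map_one]; exact H.one_mem
    | mul a b _ _ iha ihb => rw [map_mul]; exact H.mul_mem iha ihb
  · push Not at hall
    obtain ⟨q₀, hq₀S, hq₀⟩ := hall
    have key : ∀ a : M, ∃ n : ℕ, ψ (a * q₀ ^ n) = 1 ∧ cl (a * q₀ ^ n) ∈ H := by
      intro a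
      have ha' : a ∈ Submonoid.closure S := hS ▸ Submonoid.mem_top a
      induction ha' using Submonoid.closure_induction with
      | mem q hq =>
        by_cases hq1 : ψ q = 1
        · exact ⟨0, by rw [pow_zero, mul_one]; exact hq1,
            by rw [pow_zero, mul_one]; exact hsplit q hq hq1⟩
        · obtain ⟨d, hd⟩ := exists_pow_eq_of_card_prime hp hC hq₀ (ψ q)
          have h1 : ψ (q ^ 1 * q₀ ^ ((p - 1) * d)) = 1 := by
            rw [pow_one, map_mul, map_pow, ← hd, ← pow_add, add_pred_mul hp, pow_mul,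
              pow_card_prime_eq_one hC, one_pow]
          have h2 := (hcross q hq q₀ hq₀S hq1 hq₀).rel hp hC hpow 1 _ h1
          rw [pow_one] at h1 h2
          exact ⟨_, h1, h2⟩
      | one => exact ⟨0, by simp, by simp [H.one_mem]⟩
      | mul a b _ _ iha ihb =>
        obtain ⟨n, hn1, hn2⟩ := iha
        obtain ⟨m, hm1, hm2⟩ := ihb
        have e : a * b * q₀ ^ (n + m) = (a * q₀ ^ n) * (b * q₀ ^ m) := by
          rw [pow_add]
          simp only [mul_assoc, mul_left_comm]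
        refine ⟨n + m, ?_, ?_⟩
        · rw [e, map_mul, hn1, hm1, one_mul]
        · rw [e, map_mul]
          exact H.mul_mem hn2 hm2
    obtain ⟨n, hn1, hn2⟩ := key a
    have h1 : ψ q₀ ^ n = 1 := by
      rw [map_mul, ha, one_mul, map_pow] at hn1
      exact hn1
    have h2 : p ∣ n := (pow_eq_one_iff_of_card_prime hp hC hq₀ n).mp h1
    have h3 : cl q₀ ^ n ∈ H := pow_mem_of_dvd hpow _ h2
    have h4 : cl a = cl (a * q₀ ^ n) * (cl q₀ ^ n)⁻¹ := by
      rw [map_mul, map_pow, mul_inv_cancel_right]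
    rw [h4]
    exact H.mul_mem hn2 (H.inv_mem h3)

include hp hC hcl hpow hH hS hsplit hcross in
/-- **First inequality + crossing**: the preimage of `H` is exactly `ker ψ`. -/
theorem mem_iff_of_cross (a : M) : cl a ∈ H ↔ ψ a = 1 := by
  refine ⟨fun ha => ?_, mem_of_map_eq_one hp hC ψ cl H hpow S hS hsplit hcross a⟩
  by_contra hne
  apply hH
  rw [eq_top_iff]
  rintro c -
  obtain ⟨b, rfl⟩ := hcl c
  obtain ⟨e, he⟩ := exists_pow_eq_of_card_prime hp hC hne (ψ b)
  have h1 : ψ (b * a ^ ((p - 1) * e)) = 1 := by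
    rw [map_mul, map_pow, ← he, ← pow_add, add_pred_mul hp, pow_mul, pow_card_prime_eq_one hC,
      one_pow]
  have h2 := mem_of_map_eq_one hp hC ψ cl H hpow S hS hsplit hcross _ h1
  rw [map_mul, map_pow] at h2
  have h3 : cl b = (cl b * cl a ^ ((p - 1) * e)) * (cl a ^ ((p - 1) * e))⁻¹ := by
    rw [mul_inv_cancel_right]
  rw [h3]
  exact H.mul_mem h2 (H.inv_mem (H.pow_mem ha _))

include hp hC hcl hpow hH hS hsplit hcross in
/-- **Reciprocity**: elements with trivial class have trivial symbol. -/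
theorem map_eq_one_of_cross (a : M) (ha : cl a = 1) : ψ a = 1 :=
  (mem_iff_of_cross hp hC ψ cl hcl H hpow hH S hS hsplit hcross a).mp (ha ▸ H.one_mem)

end Main

end Fermat.Agent.S14.RecCl
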