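import Mathlib

set_option autoImplicit false
set_option linter.unusedSectionVars false

/-!
# Euler products over the ideals of a Dedekind domain, as limits of finite products

For a multiplicative summable `g : Ideal R → ℂ` with `g 1 = 1` and `g ⊥ = 0`:
`∏ v ∈ T, (1 - g v)⁻¹ → ∑' I, g I` along finite sets `T` of primes.
-/

namespace Fermat.Agent.S14.IdealEuler

open Filter Topology IsDedekindDomain

variable {R : Type*} [CommRing R] [IsDedekindDomain R]

/-- The ideals prime to all the primes in `T`. -/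
def copSet (T : Finset (HeightOneSpectrum R)) : Set (Ideal R) :=
  {I | ∀ v ∈ T, ¬ v.asIdeal ∣ I}

theorem copSet_empty : copSet (∅ : Finset (HeightOneSpectrum R)) = Set.univ := by
  ext I; simp [copSet]

theorem one_mem_copSet (T : Finset (HeightOneSpectrum R)) : (1 : Ideal R) ∈ copSet T := by
  intro v _ hv
  exact v.prime.not_isUnit (isUnit_of_dvd_one hv)

theorem dvd_mul_iff_of_ne {v w : HeightOneSpectrum R} (h : v ≠ w) (I : Ideal R) :
    v.asIdeal ∣ w.asIdeal * I ↔ v.asIdeal ∣ I := by
  constructor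
  · intro hd
    rcases v.prime.dvd_or_dvd hd with h1 | h1
    · exfalso
      apply h
      have hass : Associated v.asIdeal w.asIdeal :=
        v.prime.irreducible.associated_of_dvd w.prime.irreducible h1
      exact HeightOneSpectrum.ext (associated_iff_eq.mp hass)
    · exact h1
  · intro hd
    exact Dvd.dvd.mul_left hd _

theorem mul_mem_copSet_iff {T : Finset (HeightOneSpectrum R)} {w : HeightOneSpectrum R}
    (hw : w ∉ T) (I : Ideal R) : w.asIdeal * I ∈ copSet T ↔ I ∈ copSet T := by
  have hne : ∀ v ∈ T, v ≠ w := fun v hv e => hw (e ▸ hv)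
  constructor
  · intro h v hv hd
    exact h v hv ((dvd_mul_iff_of_ne (hne v hv) I).mpr hd)
  · intro h v hv hd
    exact h v hv ((dvd_mul_iff_of_ne (hne v hv) I).mp hd)

open scoped Classical in
theorem copSet_insert (T : Finset (HeightOneSpectrum R)) (w : HeightOneSpectrum R) :
    copSet (insert w T) = copSet T ∩ {I | ¬ w.asIdeal ∣ I} := by
  ext I
  constructor
  · intro h
    exact ⟨fun v hv => h v (Finset.mem_insert_of_mem hv), h w (Finset.mem_insert_self w T)⟩
  · rintro ⟨h1, h2⟩ v hv
    rcases Finset.mem_insert.mp hv with rfl | hv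
    · exact h2
    · exact h1 v hv

/-- The sieve identity. -/
theorem sieve (g : Ideal R → ℂ) (hmul : ∀ I J, g (I * J) = g I * g J) (hg : Summable g)
    (T : Finset (HeightOneSpectrum R)) :
    (∏ v ∈ T, (1 - g v.asIdeal)) * ∑' I, g I = ∑' I, (copSet T).indicator g I := by
  classical
  induction T using Finset.induction_on with
  | empty => simp [copSet_empty]
  | insert w T hw ih =>
    rw [Finset.prod_insert hw, mul_assoc, ih]
    set f : Ideal R → ℂ := (copSet T).indicator g with hf
    have hfs : Summable f := hg.indicator _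
    have hinj : Function.Injective (fun I : Ideal R => w.asIdeal * I) := by
      intro I J hIJ
      exact mul_left_cancel₀ w.ne_bot hIJ
    have h1 : ∀ I, f (w.asIdeal * I) = g w.asIdeal * f I := by
      intro I
      by_cases hI : I ∈ copSet T
      · have : w.asIdeal * I ∈ copSet T := (mul_mem_copSet_iff hw I).mpr hI
        simp [hf, Set.indicator_of_mem, hI, this, hmul]
      · have : w.asIdeal * I ∉ copSet T := fun h => hI ((mul_mem_copSet_iff hw I).mp h)
        simp [hf, Set.indicator_of_notMem, hI, this]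
    have h2 : ∑' I, ({J | w.asIdeal ∣ J} : Set (Ideal R)).indicator f (w.asIdeal * I)
        = ∑' J, ({J | w.asIdeal ∣ J} : Set (Ideal R)).indicator f J := by
      apply hinj.tsum_eq
      intro J hJ
      have hJ' : J ∈ ({J | w.asIdeal ∣ J} : Set (Ideal R)) := by
        by_contra hcon
        exact hJ (Set.indicator_of_notMem hcon _)
      obtain ⟨I, rfl⟩ := hJ'
      exact ⟨I, rfl⟩
    have h3 : ∀ I, ({J | w.asIdeal ∣ J} : Set (Ideal R)).indicator f (w.asIdeal * I)
        = g w.asIdeal * f I := by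
      intro I
      rw [Set.indicator_of_mem (show w.asIdeal * I ∈ ({J | w.asIdeal ∣ J} : Set (Ideal R)) from
        Dvd.intro _ rfl), h1]
    have h4 : ∑' I, g w.asIdeal * f I = g w.asIdeal * ∑' I, f I := hfs.tsum_mul_left _
    have h5 : ∀ I, (copSet (insert w T)).indicator g I
        = f I - ({J | w.asIdeal ∣ J} : Set (Ideal R)).indicator f I := by
      intro I
      rw [copSet_insert]
      by_cases hI : I ∈ copSet T <;> by_cases hd : w.asIdeal ∣ I <;>
        simp [hf, Set.indicator, hI, hd]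
    have hs2 : Summable (({J | w.asIdeal ∣ J} : Set (Ideal R)).indicator f) := hfs.indicator _
    rw [tsum_congr h5, hfs.tsum_sub hs2, ← h2, tsum_congr h3, h4]
    ring

theorem exists_prime_dvd {I : Ideal R} (h1 : I ≠ 1) (h0 : I ≠ ⊥) :
    ∃ v : HeightOneSpectrum R, v.asIdeal ∣ I := by
  rw [Ideal.one_eq_top] at h1
  obtain ⟨M, hM, hIM⟩ := Ideal.exists_le_maximal I h1
  have hM0 : M ≠ ⊥ := by
    rintro rfl
    exact h0 (le_bot_iff.mp hIM)
  exact ⟨⟨M, hM.isPrime, hM0⟩, Ideal.dvd_iff_le.mpr hIM⟩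

open scoped Classical in
theorem exists_finset_primes (F : Finset (Ideal R)) :
    ∃ T : Finset (HeightOneSpectrum R), ∀ I ∈ F, I ≠ 1 → I ≠ ⊥ → ∃ v ∈ T, v.asIdeal ∣ I := by
  induction F using Finset.induction_on with
  | empty => exact ⟨∅, by simp⟩
  | insert J F _ ih =>
    obtain ⟨T, hT⟩ := ih
    by_cases hJ : J ≠ 1 ∧ J ≠ ⊥
    · obtain ⟨v, hv⟩ := exists_prime_dvd hJ.1 hJ.2
      refine ⟨insert v T, ?_⟩
      intro I hI h1 h0
      rcases Finset.mem_insert.mp hI with rfl | hI
      · exact ⟨v, Finset.mem_insert_self _ _, hv⟩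
      · obtain ⟨u, hu, hud⟩ := hT I hI h1 h0
        exact ⟨u, Finset.mem_insert_of_mem hu, hud⟩
    · refine ⟨T, ?_⟩
      intro I hI h1 h0
      rcases Finset.mem_insert.mp hI with rfl | hI
      · exact absurd ⟨h1, h0⟩ hJ
      · exact hT I hI h1 h0

/-- The sieved sums tend to `1`. -/
theorem tendsto_sieved (g : Ideal R → ℂ) (h1 : g 1 = 1) (h0 : g ⊥ = 0) (hg : Summable g) :
    Tendsto (fun T : Finset (HeightOneSpectrum R) => ∑' I, (copSet T).indicator g I)
      atTop (𝓝 1) := by
  classical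
  have hgn : Summable fun I => ‖g I‖ := hg.norm
  rw [Metric.tendsto_atTop]
  intro ε hε
  have htail := tendsto_tsum_compl_atTop_zero (fun I : Ideal R => ‖g I‖)
  rw [Metric.tendsto_atTop] at htail
  obtain ⟨F, hF⟩ := htail ε hε
  have hFε : ∑' a : {x // x ∉ F}, ‖g a‖ < ε := by
    have := hF F le_rfl
    rw [Real.dist_eq, sub_zero] at this
    exact lt_of_le_of_lt (le_abs_self _) this
  obtain ⟨T₀, hT₀⟩ := exists_finset_primes F
  refine ⟨T₀, fun T hT => ?_⟩
  rw [dist_eq_norm]
  -- pointwise bound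
  have hpt : ∀ I, ‖(copSet T).indicator g I - ({1} : Set (Ideal R)).indicator g I‖
      ≤ ((↑F : Set (Ideal R))ᶜ).indicator (fun I => ‖g I‖) I := by
    intro I
    by_cases hI1 : I = 1
    · subst hI1
      rw [Set.indicator_of_mem (one_mem_copSet T),
        Set.indicator_of_mem (show (1 : Ideal R) ∈ ({1} : Set (Ideal R)) from rfl), sub_self,
        norm_zero]
      exact Set.indicator_nonneg (fun _ _ => norm_nonneg _) _
    · rw [Set.indicator_of_notMem (show I ∉ ({1} : Set (Ideal R)) from hI1), sub_zero]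
      by_cases hIF : I ∈ F
      · by_cases hI0 : I = ⊥
        · subst hI0
          simp [Set.indicator, h0]
        · obtain ⟨v, hv, hvd⟩ := hT₀ I hIF hI1 hI0
          have : I ∉ copSet T := fun hc => hc v (hT hv) hvd
          rw [Set.indicator_of_notMem this, norm_zero]
          exact Set.indicator_nonneg (fun _ _ => norm_nonneg _) _
      · rw [Set.indicator_of_mem (show I ∈ ((↑F : Set (Ideal R))ᶜ) from hIF)]
        by_cases hc : I ∈ copSet T
        · rw [Set.indicator_of_mem hc]
        · rw [Set.indicator_of_notMem hc]; simp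
  have hs1 : Summable ((copSet T).indicator g) := hg.indicator _
  have hs2 : Summable (({1} : Set (Ideal R)).indicator g) := hg.indicator _
  have hs3 : Summable (((↑F : Set (Ideal R))ᶜ).indicator (fun I => ‖g I‖)) := hgn.indicator _
  have hone : ∑' I, ({1} : Set (Ideal R)).indicator g I = 1 := by
    rw [← tsum_subtype, tsum_singleton (1 : Ideal R) g, h1]
  have hdiff : (∑' I, (copSet T).indicator g I) - 1
      = ∑' I, ((copSet T).indicator g I - ({1} : Set (Ideal R)).indicator g I) := by
    rw [hs1.tsum_sub hs2, hone]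
  rw [hdiff]
  calc ‖∑' I, ((copSet T).indicator g I - ({1} : Set (Ideal R)).indicator g I)‖
      ≤ ∑' I, ‖(copSet T).indicator g I - ({1} : Set (Ideal R)).indicator g I‖ :=
        norm_tsum_le_tsum_norm (hs1.sub hs2).norm
    _ ≤ ∑' I, ((↑F : Set (Ideal R))ᶜ).indicator (fun I => ‖g I‖) I :=
        (hs1.sub hs2).norm.tsum_le_tsum hpt hs3
    _ = ∑' a : {x // x ∉ F}, ‖g a‖ := by
        rw [← tsum_subtype]; rfl
    _ < ε := hFε

/-- **Euler product over ideals** as a limit of finite products. -/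
theorem tendsto_eulerProd (g : Ideal R → ℂ) (h1 : g 1 = 1) (h0 : g ⊥ = 0)
    (hmul : ∀ I J, g (I * J) = g I * g J) (hg : Summable g) :
    Tendsto (fun T : Finset (HeightOneSpectrum R) => ∏ v ∈ T, (1 - g v.asIdeal)⁻¹)
      atTop (𝓝 (∑' I, g I)) := by
  have hw := tendsto_sieved g h1 h0 hg
  have hne : ∀ᶠ T : Finset (HeightOneSpectrum R) in atTop,
      ∑' I, (copSet T).indicator g I ≠ 0 := hw.eventually_ne one_ne_zero
  have hdiv : Tendsto (fun T : Finset (HeightOneSpectrum R) =>
      (∑' I, g I) / ∑' I, (copSet T).indicator g I) atTop (𝓝 ((∑' I, g I) / 1)) :=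
    tendsto_const_nhds.div hw one_ne_zero
  rw [div_one] at hdiv
  refine hdiv.congr' ?_
  filter_upwards [hne] with T hT
  rw [← sieve g hmul hg T] at hT ⊢
  have hP : ∏ v ∈ T, (1 - g v.asIdeal) ≠ 0 := left_ne_zero_of_mul hT
  have hZ : ∑' I, g I ≠ 0 := right_ne_zero_of_mul hT
  rw [Finset.prod_inv_distrib]
  field_simp

/-- For nonnegative real data, finite Euler products are bounded by the full sum. -/
theorem eulerProd_le_tsum (g : Ideal R → ℝ) (h1 : g 1 = 1)
    (hmul : ∀ I J, g (I * J) = g I * g J) (hnn : ∀ I, 0 ≤ g I) (hg : Summable g)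
    (hlt : ∀ v : HeightOneSpectrum R, g v.asIdeal < 1) (T : Finset (HeightOneSpectrum R)) :
    ∏ v ∈ T, (1 - g v.asIdeal)⁻¹ ≤ ∑' I, g I := by
  have hgc : Summable fun I => (g I : ℂ) := by
    exact_mod_cast (Complex.summable_ofReal.mpr hg)
  have hs := sieve (fun I => (g I : ℂ)) (fun I J => by push_cast [hmul]; ring_nf) hgc T
  have hind : ∀ I, (copSet T).indicator (fun I => (g I : ℂ)) I
      = (((copSet T).indicator g I : ℝ) : ℂ) := by
    intro I
    by_cases hI : I ∈ copSet T
    · simp [Set.indicator_of_mem hI]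
    · simp [Set.indicator_of_notMem hI]
  rw [tsum_congr hind, ← Complex.ofReal_tsum, ← Complex.ofReal_tsum] at hs
  have hs' : (∏ v ∈ T, (1 - g v.asIdeal)) * ∑' I, g I = ∑' I, (copSet T).indicator g I := by
    have : ((∏ v ∈ T, (1 - g v.asIdeal) : ℝ) : ℂ) = ∏ v ∈ T, (1 - (g v.asIdeal : ℂ)) := by
      push_cast; rfl
    rw [← this, ← Complex.ofReal_mul] at hs
    exact_mod_cast hs
  have hpos : 0 < ∏ v ∈ T, (1 - g v.asIdeal) :=
    Finset.prod_pos fun v _ => sub_pos.mpr (hlt v)
  have hge : 1 ≤ ∑' I, (copSet T).indicator g I := by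
    have hsum : Summable ((copSet T).indicator g) := hg.indicator _
    calc (1 : ℝ) = (copSet T).indicator g 1 := by
          rw [Set.indicator_of_mem (one_mem_copSet T), h1]
      _ ≤ ∑' I, (copSet T).indicator g I :=
          hsum.le_tsum 1 (fun I _ => Set.indicator_nonneg (fun _ _ => hnn _) _)
  rw [Finset.prod_inv_distrib, inv_le_iff_one_le_mul₀ hpos, mul_comm]
  rw [hs']
  exact hge

/-- Real-valued version of `tendsto_eulerProd`. -/
theorem tendsto_eulerProd_real (g : Ideal R → ℝ) (h1 : g 1 = 1) (h0 : g ⊥ = 0)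
    (hmul : ∀ I J, g (I * J) = g I * g J) (hg : Summable g) :
    Tendsto (fun T : Finset (HeightOneSpectrum R) => ∏ v ∈ T, (1 - g v.asIdeal)⁻¹)
      atTop (𝓝 (∑' I, g I)) := by
  have hgc : Summable fun I => (g I : ℂ) := by
    exact_mod_cast (Complex.summable_ofReal.mpr hg)
  have h := tendsto_eulerProd (fun I => (g I : ℂ)) (by rw [h1]; rfl) (by rw [h0]; rfl)
    (fun I J => by push_cast [hmul]; ring_nf) hgc
  rw [← Complex.ofReal_tsum] at h
  have h2 := (Complex.continuous_re.tendsto _).comp h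
  simp only [Complex.ofReal_re] at h2
  refine h2.congr (fun T => ?_)
  have : ∏ v ∈ T, (1 - (g v.asIdeal : ℂ))⁻¹ = ((∏ v ∈ T, (1 - g v.asIdeal)⁻¹ : ℝ) : ℂ) := by
    push_cast; rfl
  simp only [Function.comp_apply]
  rw [this, Complex.ofReal_re]

end Fermat.Agent.S14.IdealEuler
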