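import Mathlib

set_option autoImplicit false
set_option linter.unusedSectionVars false

/-!
# Local Euler factors of the product over all characters of a finite abelian group
-/

namespace Fermat.Agent.S14.UniChar

open Filter Topology

variable {G : Type*} [CommGroup G] [Finite G]

theorem hasEnough : HasEnoughRootsOfUnity ℂ (Monoid.exponent G) := by
  have : NeZero (Monoid.exponent G) := ⟨Monoid.exponent_ne_zero_of_finite⟩
  infer_instance

theorem finite_char : Finite (G →* ℂˣ) := by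
  have := hasEnough (G := G)
  exact Finite.of_equiv G
    (CommGroup.monoidHom_mulEquiv_of_hasEnoughRootsOfUnity G ℂ).some.symm.toEquiv

theorem card_char : Nat.card (G →* ℂˣ) = Nat.card G := by
  have := hasEnough (G := G)
  exact CommGroup.card_monoidHom_of_hasEnoughRootsOfUnity G ℂ

theorem char_norm (χ : G →* ℂˣ) (x : G) : ‖(χ x : ℂ)‖ = 1 := by
  have h1 : (χ x) ^ Nat.card G = 1 := by
    rw [← map_pow, pow_card_eq_one', map_one]
  have h2 : (χ x : ℂ) ^ Nat.card G = 1 := by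
    have := congrArg (fun u : ℂˣ => (u : ℂ)) h1
    simpa using this
  exact Complex.norm_eq_one_of_pow_eq_one h2 Nat.card_pos.ne'

variable [Fintype (G →* ℂˣ)]

theorem sum_char (x : G) : ∃ a : ℕ, ∑ χ : G →* ℂˣ, (χ x : ℂ) = (a : ℂ) := by
  by_cases h : ∃ χ₀ : G →* ℂˣ, χ₀ x ≠ 1
  · obtain ⟨χ₀, hχ₀⟩ := h
    refine ⟨0, ?_⟩
    have hreidx : ∑ χ : G →* ℂˣ, ((χ₀ * χ) x : ℂ) = ∑ χ : G →* ℂˣ, (χ x : ℂ) :=
      Fintype.sum_equiv (Equiv.mulLeft χ₀) _ _ (fun χ => rfl)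
    have hmul : ∑ χ : G →* ℂˣ, ((χ₀ * χ) x : ℂ) = (χ₀ x : ℂ) * ∑ χ : G →* ℂˣ, (χ x : ℂ) := by
      rw [Finset.mul_sum]
      refine Finset.sum_congr rfl (fun χ _ => ?_)
      simp
    have hne : (χ₀ x : ℂ) - 1 ≠ 0 := by
      intro h0
      apply hχ₀
      apply Units.ext
      simpa using sub_eq_zero.mp h0
    have : ((χ₀ x : ℂ) - 1) * ∑ χ : G →* ℂˣ, (χ x : ℂ) = 0 := by
      rw [sub_mul, one_mul, ← hmul, hreidx, sub_self]
    rcases mul_eq_zero.mp this with h0 | h0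
    · exact absurd h0 hne
    · simpa using h0
  · simp only [not_exists, not_not] at h
    refine ⟨Fintype.card (G →* ℂˣ), ?_⟩
    simp [h]

/-- The product over all characters of the local factors is a real number `≥ 1`. -/
theorem prod_local (x : G) (t : ℝ) (ht0 : 0 ≤ t) (ht1 : t < 1) :
    ∃ r : ℝ, 1 ≤ r ∧ ∏ χ : G →* ℂˣ, (1 - (χ x : ℂ) * (t : ℂ))⁻¹ = (r : ℂ) := by
  have hz : ∀ χ : G →* ℂˣ, ‖(χ x : ℂ) * (t : ℂ)‖ < 1 := by
    intro χ
    rw [norm_mul, char_norm, one_mul, Complex.norm_real, Real.norm_eq_abs, abs_of_nonneg ht0]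
    exact ht1
  -- each factor is an exponential
  have hexp : ∀ χ : G →* ℂˣ, (1 - (χ x : ℂ) * (t : ℂ))⁻¹
      = Complex.exp (-Complex.log (1 - (χ x : ℂ) * (t : ℂ))) := by
    intro χ
    have hne : (1 : ℂ) - (χ x : ℂ) * (t : ℂ) ≠ 0 := by
      intro h0
      have h1 : (χ x : ℂ) * (t : ℂ) = 1 := (sub_eq_zero.mp h0).symm
      have := hz χ
      rw [h1, norm_one] at this
      exact lt_irrefl _ this
    rw [Complex.exp_neg, Complex.exp_log hne]
  have hsumlog : ∀ χ : G →* ℂˣ, HasSum (fun n : ℕ => ((χ x : ℂ) * (t : ℂ)) ^ n / n)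
      (-Complex.log (1 - (χ x : ℂ) * (t : ℂ))) := fun χ =>
    Complex.hasSum_taylorSeries_neg_log (hz χ)
  have htot : HasSum (fun n : ℕ => ∑ χ : G →* ℂˣ, ((χ x : ℂ) * (t : ℂ)) ^ n / n)
      (∑ χ : G →* ℂˣ, -Complex.log (1 - (χ x : ℂ) * (t : ℂ))) :=
    hasSum_sum (fun χ _ => hsumlog χ)
  -- the terms are nonnegative reals
  have hterm : ∀ n : ℕ, ∃ b : ℝ, 0 ≤ b ∧
      ∑ χ : G →* ℂˣ, ((χ x : ℂ) * (t : ℂ)) ^ n / n = (b : ℂ) := by
    intro n
    obtain ⟨a, ha⟩ := sum_char (x ^ n)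
    refine ⟨a * t ^ n / n, by positivity, ?_⟩
    have : ∀ χ : G →* ℂˣ, ((χ x : ℂ) * (t : ℂ)) ^ n / n = ((χ (x ^ n) : ℂ)) * ((t : ℂ) ^ n / n) := by
      intro χ
      rw [map_pow, Units.val_pow_eq_pow_val, mul_pow]
      ring
    rw [Finset.sum_congr rfl (fun χ _ => this χ), ← Finset.sum_mul, ha]
    push_cast
    ring
  choose b hb0 hb using hterm
  have htot' : HasSum (fun n : ℕ => ((b n : ℝ) : ℂ))
      (∑ χ : G →* ℂˣ, -Complex.log (1 - (χ x : ℂ) * (t : ℂ))) := by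
    convert htot using 2 with n
    exact (hb n).symm
  rw [Complex.hasSum_iff] at htot'
  obtain ⟨hre, him⟩ := htot'
  set c := ∑ χ : G →* ℂˣ, -Complex.log (1 - (χ x : ℂ) * (t : ℂ)) with hc
  have him0 : c.im = 0 := by
    have h0 : HasSum (fun n : ℕ => ((b n : ℝ) : ℂ).im) 0 := by
      simp only [Complex.ofReal_im]
      exact hasSum_zero
    exact him.unique h0
  have hre0 : 0 ≤ c.re := by
    have h0 : HasSum (fun n : ℕ => b n) c.re := by
      simpa using hre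
    exact h0.nonneg hb0
  have hcreal : c = ((c.re : ℝ) : ℂ) := by
    apply Complex.ext <;> simp [him0]
  refine ⟨Real.exp c.re, Real.one_le_exp hre0, ?_⟩
  rw [Finset.prod_congr rfl (fun χ _ => hexp χ), ← Complex.exp_sum, ← hc, Complex.ofReal_exp,
    ← hcreal]

theorem prod_local_one (t : ℝ) :
    ∏ χ : G →* ℂˣ, (1 - (χ 1 : ℂ) * (t : ℂ))⁻¹
      = ((((1 - t)⁻¹) ^ Fintype.card (G →* ℂˣ) : ℝ) : ℂ) := by
  simp [Finset.prod_const, Finset.card_univ]

end Fermat.Agent.S14.UniChar
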