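import Mathlib

set_option autoImplicit false
set_option linter.unusedSectionVars false

/-!
# The Dedekind zeta function as a sum over ideals (real variable)
-/

namespace Fermat.Agent.S14.ZetaIdeal

open Filter Topology NumberField Ideal

variable (K : Type*) [Field K] [NumberField K]

/-- `N(I)^(-s)`. -/
noncomputable def nrm (s : ℝ) (I : Ideal (𝓞 K)) : ℝ := (absNorm I : ℝ) ^ (-s)

variable {K}

theorem nrm_nonneg (s : ℝ) (I : Ideal (𝓞 K)) : 0 ≤ nrm K s I :=
  Real.rpow_nonneg (Nat.cast_nonneg _) _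

theorem nrm_one (s : ℝ) : nrm K s 1 = 1 := by
  simp [nrm]

theorem nrm_bot {s : ℝ} (hs : s ≠ 0) : nrm K s ⊥ = 0 := by
  simp [nrm, Real.zero_rpow (neg_ne_zero.mpr hs)]

theorem nrm_mul (s : ℝ) (I J : Ideal (𝓞 K)) : nrm K s (I * J) = nrm K s I * nrm K s J := by
  simp [nrm, Real.mul_rpow (Nat.cast_nonneg _) (Nat.cast_nonneg _)]

variable (K)

/-- The counting function. -/
noncomputable def cnt (n : ℕ) : ℕ := Nat.card {I : Ideal (𝓞 K) // absNorm I = n}

theorem tendsto_cnt :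
    Tendsto (fun n : ℕ ↦ (∑ k ∈ Finset.Icc 1 n, (cnt K k : ℝ)) / (n : ℝ)) atTop
      (𝓝 (dedekindZeta_residue K)) := by
  unfold cnt
  refine ((Ideal.tendsto_norm_le_div_atTop₀ K).comp tendsto_natCast_atTop_atTop).congr fun n ↦ ?_
  simp only [Function.comp_apply, Nat.cast_le, ← Nat.cast_sum]
  congr
  rw [← add_left_inj 1, ← card_norm_le_eq_card_norm_le_add_one,
    show Finset.Icc 1 n = Finset.Ioc 0 n from Finset.Icc_succ_left_eq_Ioc _ _,
    show 1 = Nat.card {I : Ideal (𝓞 K) // absNorm I = 0} by simp [Ideal.absNorm_eq_zero_iff],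
    Finset.sum_Ioc_add_eq_sum_Icc (n.zero_le),
    ← Finset.card_preimage_eq_sum_card_image_eq (fun k _ ↦ finite_setOfPred_absNorm_eq k)]
  simp [Set.coe_eq_subtype]

theorem lseriesSummable_cnt {s : ℝ} (hs : 1 < s) :
    LSeriesSummable (fun n ↦ ((cnt K n : ℝ) : ℂ)) (s : ℂ) := by
  refine LSeriesSummable_of_sum_norm_bigO_and_nonneg ?_ (fun n => Nat.cast_nonneg _) zero_le_one
    (by simpa using hs)
  exact Asymptotics.isBigO_atTop_natCast_rpow_of_tendsto_div_rpow (by simpa using tendsto_cnt K)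

theorem term_cnt {s : ℝ} (hs : s ≠ 0) (n : ℕ) :
    LSeries.term (fun n ↦ ((cnt K n : ℝ) : ℂ)) (s : ℂ) n
      = (((cnt K n : ℝ) * (n : ℝ) ^ (-s) : ℝ) : ℂ) := by
  rcases Nat.eq_zero_or_pos n with rfl | hn
  · simp [LSeries.term, Real.zero_rpow (neg_ne_zero.mpr hs)]
  · rw [LSeries.term_of_ne_zero hn.ne']
    rw [Real.rpow_neg (Nat.cast_nonneg _)]
    push_cast
    rw [Complex.ofReal_cpow (Nat.cast_nonneg _)]
    simp [div_eq_mul_inv]

theorem summable_cnt {s : ℝ} (hs : 1 < s) :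
    Summable fun n : ℕ => (cnt K n : ℝ) * (n : ℝ) ^ (-s) := by
  have h := lseriesSummable_cnt K hs
  unfold LSeriesSummable at h
  have h2 : Summable fun n : ℕ => (((cnt K n : ℝ) * (n : ℝ) ^ (-s) : ℝ) : ℂ) :=
    h.congr (fun n => term_cnt K (by linarith) n)
  exact Complex.summable_ofReal.mp h2

instance finite_fiber (n : ℕ) : Finite {I : Ideal (𝓞 K) // absNorm I = n} :=
  (Ideal.finite_setOfPred_absNorm_eq n).to_subtype

theorem summable_sigma_nrm {s : ℝ} (hs : 1 < s) :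
    Summable fun x : (Σ n : ℕ, {I : Ideal (𝓞 K) // absNorm I = n}) => nrm K s x.2.1 := by
  rw [summable_sigma_of_nonneg (fun x => nrm_nonneg _ _)]
  refine ⟨fun n => Summable.of_finite, ?_⟩
  refine (summable_cnt K hs).congr (fun n => ?_)
  have : ∀ y : {I : Ideal (𝓞 K) // absNorm I = n}, nrm K s y.1 = (n : ℝ) ^ (-s) := by
    rintro ⟨I, hI⟩
    simp [nrm, hI]
  rw [tsum_congr this, tsum_const, cnt]
  simp

theorem summable_nrm {s : ℝ} (hs : 1 < s) : Summable (nrm K s) := by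
  have h := summable_sigma_nrm K hs
  have e := Equiv.sigmaFiberEquiv (fun I : Ideal (𝓞 K) => absNorm I)
  rw [← (Equiv.sigmaFiberEquiv (fun I : Ideal (𝓞 K) => absNorm I)).summable_iff]
  exact h

/-- The Dedekind zeta function at a real argument, as a sum over ideals. -/
noncomputable def zetaR (s : ℝ) : ℝ := ∑' I : Ideal (𝓞 K), nrm K s I

theorem zetaR_eq_tsum_cnt {s : ℝ} (hs : 1 < s) :
    zetaR K s = ∑' n : ℕ, (cnt K n : ℝ) * (n : ℝ) ^ (-s) := by
  unfold zetaR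
  rw [← (Equiv.sigmaFiberEquiv (fun I : Ideal (𝓞 K) => absNorm I)).tsum_eq]
  have h := summable_sigma_nrm K hs
  have h' : Summable fun c : (Σ n : ℕ, {I : Ideal (𝓞 K) // absNorm I = n}) =>
      nrm K s ((Equiv.sigmaFiberEquiv (fun I : Ideal (𝓞 K) => absNorm I)) c) := h
  rw [Summable.tsum_sigma' (fun n => Summable.of_finite) h']
  refine tsum_congr (fun n => ?_)
  have : ∀ y : {I : Ideal (𝓞 K) // absNorm I = n},
      nrm K s ((Equiv.sigmaFiberEquiv (fun I : Ideal (𝓞 K) => absNorm I)) ⟨n, y⟩)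
        = (n : ℝ) ^ (-s) := by
    rintro ⟨I, hI⟩
    simp [nrm, hI]
  rw [tsum_congr this, tsum_const, cnt]
  simp

theorem dedekindZeta_eq {s : ℝ} (hs : 1 < s) : dedekindZeta K (s : ℂ) = ((zetaR K s : ℝ) : ℂ) := by
  rw [zetaR_eq_tsum_cnt K hs, Complex.ofReal_tsum]
  unfold dedekindZeta LSeries
  refine tsum_congr (fun n => ?_)
  have := term_cnt K (show s ≠ 0 by linarith) n
  rw [← this]
  simp [cnt]

theorem tendsto_zetaR :
    Tendsto (fun s : ℝ => (s - 1) * zetaR K s) (𝓝[>] 1) (𝓝 (dedekindZeta_residue K)) := by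
  have h := tendsto_sub_one_mul_dedekindZeta_nhdsGT K
  have h2 : Tendsto (fun s : ℝ => (((s - 1) * zetaR K s : ℝ) : ℂ)) (𝓝[>] 1)
      (𝓝 ((dedekindZeta_residue K : ℝ) : ℂ)) := by
    refine h.congr' ?_
    filter_upwards [self_mem_nhdsWithin] with s hs
    rw [dedekindZeta_eq K hs]
    push_cast
    ring
  exact (Complex.continuous_re.tendsto _).comp h2 |>.congr (fun s => by simp)

theorem one_le_zetaR {s : ℝ} (hs : 1 < s) : 1 ≤ zetaR K s := by
  calc (1 : ℝ) = nrm K s 1 := (nrm_one s).symm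
    _ ≤ zetaR K s := (summable_nrm K hs).le_tsum 1 (fun I _ => nrm_nonneg _ _)

/-- Two-sided bounds near `s = 1`. -/
theorem exists_bounds : ∃ δ : ℝ, 0 < δ ∧ ∃ c : ℝ, 0 < c ∧ ∃ C : ℝ, 0 < C ∧
    ∀ s : ℝ, 1 < s → s < 1 + δ → c ≤ (s - 1) * zetaR K s ∧ (s - 1) * zetaR K s ≤ C := by
  have h := tendsto_zetaR K
  have hpos := dedekindZeta_residue_pos K
  set ρ := dedekindZeta_residue K with hρ
  have hev : ∀ᶠ s in 𝓝[>] (1 : ℝ), (s - 1) * zetaR K s ∈ Set.Ioo (ρ / 2) (2 * ρ) :=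
    h.eventually (Ioo_mem_nhds (by linarith) (by linarith))
  rw [eventually_nhdsWithin_iff, Metric.eventually_nhds_iff] at hev
  obtain ⟨δ, hδ, hball⟩ := hev
  refine ⟨δ, hδ, ρ / 2, by linarith, 2 * ρ, by linarith, fun s hs1 hs2 => ?_⟩
  have := hball (show dist s 1 < δ by rw [Real.dist_eq, abs_lt]; constructor <;> linarith) hs1
  exact ⟨this.1.le, this.2.le⟩

end Fermat.Agent.S14.ZetaIdeal
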