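import Mathlib
import Fermat.Agent.S14.IdealEuler
import Fermat.Agent.S14.ZetaIdeal
import Fermat.Agent.S14.UniChar

set_option autoImplicit false
set_option linter.unusedSectionVars false

/-!
# The second inequality (analytic), class-group form
-/

namespace Fermat.Agent.S14.Uni

open Filter Topology NumberField Ideal IsDedekindDomain nonZeroDivisors
open Fermat.Agent.S14

variable (F : Type*) [Field F] [NumberField F]

open scoped Classical in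
/-- The class of an ideal (junk value `1` at the zero ideal). -/
noncomputable def cls (I : Ideal (𝓞 F)) : ClassGroup (𝓞 F) :=
  if h : I ∈ (Ideal (𝓞 F))⁰ then ClassGroup.mk0 ⟨I, h⟩ else 1

variable {F}

theorem mem_nzd_iff {I : Ideal (𝓞 F)} : I ∈ (Ideal (𝓞 F))⁰ ↔ I ≠ ⊥ := by
  rw [mem_nonZeroDivisors_iff_ne_zero, Ideal.zero_eq_bot]

theorem cls_of_mem (I : (Ideal (𝓞 F))⁰) : cls F (I : Ideal (𝓞 F)) = ClassGroup.mk0 I := by
  unfold cls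
  rw [dif_pos I.2]

theorem cls_one : cls F 1 = 1 := by
  have h : (1 : Ideal (𝓞 F)) ∈ (Ideal (𝓞 F))⁰ := one_mem _
  unfold cls
  rw [dif_pos h]
  exact map_one ClassGroup.mk0

theorem cls_mul {I J : Ideal (𝓞 F)} (hI : I ≠ ⊥) (hJ : J ≠ ⊥) :
    cls F (I * J) = cls F I * cls F J := by
  have hI' : I ∈ (Ideal (𝓞 F))⁰ := mem_nzd_iff.mpr hI
  have hJ' : J ∈ (Ideal (𝓞 F))⁰ := mem_nzd_iff.mpr hJ
  have hIJ' : I * J ∈ (Ideal (𝓞 F))⁰ := mul_mem hI' hJ'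
  unfold cls
  rw [dif_pos hI', dif_pos hJ', dif_pos hIJ', ← map_mul]
  rfl

variable (H : Subgroup (ClassGroup (𝓞 F)))

/-- A character of `Cl(F)/H` as a function on ideals. -/
noncomputable def chiI (χ : (ClassGroup (𝓞 F) ⧸ H) →* ℂˣ) (I : Ideal (𝓞 F)) : ℂ :=
  if I = ⊥ then 0 else (χ (QuotientGroup.mk (cls F I)) : ℂ)

theorem chiI_bot (χ : (ClassGroup (𝓞 F) ⧸ H) →* ℂˣ) : chiI H χ ⊥ = 0 := by
  simp [chiI]

theorem chiI_of_ne (χ : (ClassGroup (𝓞 F) ⧸ H) →* ℂˣ) {I : Ideal (𝓞 F)} (hI : I ≠ ⊥) :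
    chiI H χ I = (χ (QuotientGroup.mk (cls F I)) : ℂ) := by
  simp [chiI, hI]

theorem one_ne_bot' : (1 : Ideal (𝓞 F)) ≠ ⊥ := by
  rw [Ideal.one_eq_top]; exact top_ne_bot

theorem chiI_one (χ : (ClassGroup (𝓞 F) ⧸ H) →* ℂˣ) : chiI H χ 1 = 1 := by
  rw [chiI_of_ne H χ one_ne_bot', cls_one]
  simp

theorem chiI_mul (χ : (ClassGroup (𝓞 F) ⧸ H) →* ℂˣ) (I J : Ideal (𝓞 F)) :
    chiI H χ (I * J) = chiI H χ I * chiI H χ J := by
  by_cases hI : I = ⊥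
  · subst hI; simp [chiI_bot]
  by_cases hJ : J = ⊥
  · subst hJ; simp [chiI_bot]
  have hIJ : I * J ≠ ⊥ := by
    rw [← Ideal.zero_eq_bot]
    exact mul_ne_zero hI hJ
  rw [chiI_of_ne H χ hIJ, chiI_of_ne H χ hI, chiI_of_ne H χ hJ, cls_mul hI hJ]
  simp

theorem norm_chiI_le (χ : (ClassGroup (𝓞 F) ⧸ H) →* ℂˣ) (I : Ideal (𝓞 F)) :
    ‖chiI H χ I‖ ≤ 1 := by
  by_cases hI : I = ⊥
  · subst hI; simp [chiI_bot]
  · rw [chiI_of_ne H χ hI, UniChar.char_norm]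

/-- The Dirichlet-series coefficient `χ(I) N(I)^(-s)`. -/
noncomputable def gfun (χ : (ClassGroup (𝓞 F) ⧸ H) →* ℂˣ) (s : ℝ) (I : Ideal (𝓞 F)) : ℂ :=
  chiI H χ I * ((ZetaIdeal.nrm F s I : ℝ) : ℂ)

theorem gfun_one (χ : (ClassGroup (𝓞 F) ⧸ H) →* ℂˣ) (s : ℝ) : gfun H χ s 1 = 1 := by
  rw [gfun, chiI_one, ZetaIdeal.nrm_one]
  simp

theorem gfun_bot (χ : (ClassGroup (𝓞 F) ⧸ H) →* ℂˣ) (s : ℝ) : gfun H χ s ⊥ = 0 := by
  simp [gfun, chiI_bot]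

theorem gfun_mul (χ : (ClassGroup (𝓞 F) ⧸ H) →* ℂˣ) (s : ℝ) (I J : Ideal (𝓞 F)) :
    gfun H χ s (I * J) = gfun H χ s I * gfun H χ s J := by
  simp only [gfun, chiI_mul, ZetaIdeal.nrm_mul]
  push_cast
  ring

theorem norm_gfun_le (χ : (ClassGroup (𝓞 F) ⧸ H) →* ℂˣ) (s : ℝ) (I : Ideal (𝓞 F)) :
    ‖gfun H χ s I‖ ≤ ZetaIdeal.nrm F s I := by
  rw [gfun, norm_mul, Complex.norm_real, Real.norm_eq_abs, abs_of_nonneg (ZetaIdeal.nrm_nonneg _ _)]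
  calc ‖chiI H χ I‖ * ZetaIdeal.nrm F s I ≤ 1 * ZetaIdeal.nrm F s I :=
        mul_le_mul_of_nonneg_right (norm_chiI_le H χ I) (ZetaIdeal.nrm_nonneg _ _)
    _ = _ := one_mul _

theorem summable_gfun (χ : (ClassGroup (𝓞 F) ⧸ H) →* ℂˣ) {s : ℝ} (hs : 1 < s) :
    Summable (gfun H χ s) :=
  Summable.of_norm_bounded (ZetaIdeal.summable_nrm F hs) (norm_gfun_le H χ s)

/-- The `L`-function of a character of `Cl(F)/H`. -/
noncomputable def Lfun (χ : (ClassGroup (𝓞 F) ⧸ H) →* ℂˣ) (s : ℝ) : ℂ := ∑' I, gfun H χ s I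

theorem gfun_one_char {s : ℝ} (hs : s ≠ 0) (I : Ideal (𝓞 F)) :
    gfun H (1 : (ClassGroup (𝓞 F) ⧸ H) →* ℂˣ) s I = ((ZetaIdeal.nrm F s I : ℝ) : ℂ) := by
  by_cases hI : I = ⊥
  · subst hI; simp [gfun_bot, ZetaIdeal.nrm_bot hs]
  · simp [gfun, chiI_of_ne H _ hI]

theorem Lfun_one {s : ℝ} (hs : s ≠ 0) :
    Lfun H (1 : (ClassGroup (𝓞 F) ⧸ H) →* ℂˣ) s = ((ZetaIdeal.zetaR F s : ℝ) : ℂ) := by
  unfold Lfun ZetaIdeal.zetaR
  rw [Complex.ofReal_tsum]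
  exact tsum_congr (gfun_one_char H hs)

/-- Comparison with the shape of the `D1` bound. -/
theorem Lfun_eq_tsum (χ : (ClassGroup (𝓞 F) ⧸ H) →* ℂˣ) (s : ℝ) :
    Lfun H χ s = ∑' I : (Ideal (𝓞 F))⁰,
      ((χ.comp (QuotientGroup.mk' H)) (ClassGroup.mk0 I) : ℂ)
        * (((Ideal.absNorm (I : Ideal (𝓞 F)) : ℝ) ^ (-s) : ℝ) : ℂ) := by
  unfold Lfun
  have hsupp : Function.support (gfun H χ s) ⊆ ((Ideal (𝓞 F))⁰ : Set (Ideal (𝓞 F))) := by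
    intro I hI
    rw [SetLike.mem_coe, mem_nzd_iff]
    rintro rfl
    exact hI (gfun_bot H χ s)
  rw [← tsum_subtype_eq_of_support_subset hsupp]
  refine tsum_congr (fun I => ?_)
  have hI : (I : Ideal (𝓞 F)) ≠ ⊥ := mem_nzd_iff.mp I.2
  rw [gfun, chiI_of_ne H χ hI]
  have : cls F (I : Ideal (𝓞 F)) = ClassGroup.mk0 I := cls_of_mem I
  rw [this]
  rfl

theorem two_le_absNorm (v : HeightOneSpectrum (𝓞 F)) : 2 ≤ absNorm v.asIdeal := by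
  have h0 : absNorm v.asIdeal ≠ 0 := fun h => v.ne_bot (Ideal.absNorm_eq_zero_iff.mp h)
  have h1 : absNorm v.asIdeal ≠ 1 := fun h => v.isPrime.ne_top (Ideal.absNorm_eq_one_iff.mp h)
  omega

theorem nrm_prime_lt_one (v : HeightOneSpectrum (𝓞 F)) {s : ℝ} (hs : 0 < s) :
    ZetaIdeal.nrm F s v.asIdeal < 1 := by
  unfold ZetaIdeal.nrm
  apply Real.rpow_lt_one_of_one_lt_of_neg _ (by linarith)
  have := two_le_absNorm v
  exact_mod_cast this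

theorem prod_le_prod_of_subset_real {ι : Type*} {T₀ T : Finset ι} (hT : T₀ ⊆ T) (r : ι → ℝ)
    (hr : ∀ i, 1 ≤ r i) : ∏ i ∈ T₀, r i ≤ ∏ i ∈ T, r i := by
  classical
  rw [← Finset.prod_sdiff hT]
  have h1 : (1 : ℝ) ≤ ∏ i ∈ T \ T₀, r i :=
    Finset.prod_induction _ (fun x => (1 : ℝ) ≤ x)
      (fun a b ha hb => one_le_mul_of_one_le_of_one_le ha hb) le_rfl (fun i _ => hr i)
  have h0 : (0 : ℝ) ≤ ∏ i ∈ T₀, r i :=
    Finset.prod_nonneg (fun i _ => le_trans zero_le_one (hr i))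
  calc ∏ i ∈ T₀, r i = 1 * ∏ i ∈ T₀, r i := (one_mul _).symm
    _ ≤ (∏ i ∈ T \ T₀, r i) * ∏ i ∈ T₀, r i := mul_le_mul_of_nonneg_right h1 h0

section ClaimA

variable [Fintype ((ClassGroup (𝓞 F) ⧸ H) →* ℂˣ)]

theorem exists_local (v : HeightOneSpectrum (𝓞 F)) {s : ℝ} (hs : 0 < s) :
    ∃ r : ℝ, 1 ≤ r ∧
      ∏ χ : (ClassGroup (𝓞 F) ⧸ H) →* ℂˣ, (1 - gfun H χ s v.asIdeal)⁻¹ = (r : ℂ) ∧
      (cls F v.asIdeal ∈ H → r = ((1 - ZetaIdeal.nrm F s v.asIdeal)⁻¹) ^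
        Fintype.card ((ClassGroup (𝓞 F) ⧸ H) →* ℂˣ)) := by
  set t := ZetaIdeal.nrm F s v.asIdeal with ht
  have ht0 : 0 ≤ t := ZetaIdeal.nrm_nonneg _ _
  have ht1 : t < 1 := nrm_prime_lt_one v hs
  have hg : ∀ χ : (ClassGroup (𝓞 F) ⧸ H) →* ℂˣ,
      gfun H χ s v.asIdeal = (χ (QuotientGroup.mk (cls F v.asIdeal)) : ℂ) * (t : ℂ) := by
    intro χ
    rw [gfun, chiI_of_ne H χ v.ne_bot]
  by_cases hmem : cls F v.asIdeal ∈ H
  · have h1 : (QuotientGroup.mk (cls F v.asIdeal) : ClassGroup (𝓞 F) ⧸ H) = 1 :=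
      (QuotientGroup.eq_one_iff _).mpr hmem
    refine ⟨((1 - t)⁻¹) ^ Fintype.card ((ClassGroup (𝓞 F) ⧸ H) →* ℂˣ), ?_, ?_, fun _ => rfl⟩
    · apply one_le_pow₀
      rw [one_le_inv₀ (by linarith)]
      linarith
    · rw [Finset.prod_congr rfl (fun χ _ => by rw [hg χ, h1])]
      exact UniChar.prod_local_one t
  · obtain ⟨r, hr1, hr⟩ := UniChar.prod_local
      (QuotientGroup.mk (cls F v.asIdeal) : ClassGroup (𝓞 F) ⧸ H) t ht0 ht1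
    refine ⟨r, hr1, ?_, fun h => absurd h hmem⟩
    rw [Finset.prod_congr rfl (fun χ _ => by rw [hg χ])]
    exact hr

/-- Lower bound for the product of all `L`-functions by finite Euler products over primes
whose class lies in `H`. -/
theorem claimA {s : ℝ} (hs : 1 < s) (T₀ : Finset (HeightOneSpectrum (𝓞 F)))
    (hT₀ : ∀ v ∈ T₀, cls F v.asIdeal ∈ H) :
    (∏ v ∈ T₀, (1 - ZetaIdeal.nrm F s v.asIdeal)⁻¹) ^
        Fintype.card ((ClassGroup (𝓞 F) ⧸ H) →* ℂˣ)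
      ≤ ‖∏ χ : (ClassGroup (𝓞 F) ⧸ H) →* ℂˣ, Lfun H χ s‖ := by
  have hs0 : 0 < s := by linarith
  have htend : Tendsto (fun T : Finset (HeightOneSpectrum (𝓞 F)) =>
      ∏ χ : (ClassGroup (𝓞 F) ⧸ H) →* ℂˣ, ∏ v ∈ T, (1 - gfun H χ s v.asIdeal)⁻¹) atTop
      (𝓝 (∏ χ : (ClassGroup (𝓞 F) ⧸ H) →* ℂˣ, Lfun H χ s)) :=
    tendsto_finsetProd _ (fun χ _ => IdealEuler.tendsto_eulerProd (gfun H χ s)
      (gfun_one H χ s) (gfun_bot H χ s) (gfun_mul H χ s) (summable_gfun H χ hs))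
  have hloc := fun v : HeightOneSpectrum (𝓞 F) => exists_local H v hs0
  choose r hr1 hrprod hrH using hloc
  have hre : ∀ T : Finset (HeightOneSpectrum (𝓞 F)),
      (∏ χ : (ClassGroup (𝓞 F) ⧸ H) →* ℂˣ, ∏ v ∈ T, (1 - gfun H χ s v.asIdeal)⁻¹)
        = ((∏ v ∈ T, r v : ℝ) : ℂ) := by
    intro T
    rw [Finset.prod_comm]
    push_cast
    exact Finset.prod_congr rfl (fun v _ => hrprod v)
  have hge : ∀ᶠ T : Finset (HeightOneSpectrum (𝓞 F)) in atTop,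
      (∏ v ∈ T₀, (1 - ZetaIdeal.nrm F s v.asIdeal)⁻¹) ^
        Fintype.card ((ClassGroup (𝓞 F) ⧸ H) →* ℂˣ)
      ≤ (∏ χ : (ClassGroup (𝓞 F) ⧸ H) →* ℂˣ, ∏ v ∈ T, (1 - gfun H χ s v.asIdeal)⁻¹).re := by
    filter_upwards [eventually_ge_atTop T₀] with T hT
    rw [hre T, Complex.ofReal_re]
    calc (∏ v ∈ T₀, (1 - ZetaIdeal.nrm F s v.asIdeal)⁻¹) ^
          Fintype.card ((ClassGroup (𝓞 F) ⧸ H) →* ℂˣ)
        = ∏ v ∈ T₀, r v := by
          rw [← Finset.prod_pow]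
          exact Finset.prod_congr rfl (fun v hv => (hrH v (hT₀ v hv)).symm)
      _ ≤ ∏ v ∈ T, r v := prod_le_prod_of_subset_real hT r hr1
  have hlim := ge_of_tendsto ((Complex.continuous_re.tendsto _).comp htend) hge
  exact hlim.trans (Complex.re_le_norm _)

end ClaimA

/-- The shape of the `D1` input: boundedness of the class-group `L`-series on `(1, 2]`. -/
def D1Hyp (F : Type*) [Field F] [NumberField F] : Prop :=
  ∀ ψ : ClassGroup (𝓞 F) →* ℂˣ, ψ ≠ 1 → ∃ B : ℝ, ∀ s : ℝ, 1 < s → s ≤ 2 →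
    ‖∑' I : (Ideal (𝓞 F))⁰, (ψ (ClassGroup.mk0 I) : ℂ)
      * (((Ideal.absNorm (I : Ideal (𝓞 F)) : ℝ) ^ (-s) : ℝ) : ℂ)‖ ≤ B

/-- The shape of the arithmetic comparison of Euler products of `L` and `F`. -/
def CmpHyp (F L : Type*) [Field F] [NumberField F] [Field L] [NumberField L] [Algebra F L]
    (S : Finset (Ideal (𝓞 F))) : Prop :=
  ∃ C : ℝ, 0 < C ∧ ∀ s : ℝ, 1 < s → s ≤ 2 → ∀ T' : Finset (HeightOneSpectrum (𝓞 L)),
    ∃ T : Finset (HeightOneSpectrum (𝓞 F)),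
      (∀ v ∈ T, v.asIdeal ∉ S ∧ ∃ Q : Ideal (𝓞 L), Q.IsPrime ∧ Q.under (𝓞 F) = v.asIdeal ∧
        Ideal.absNorm Q = Ideal.absNorm v.asIdeal) ∧
      ∏ Q ∈ T', (1 - ZetaIdeal.nrm L s Q.asIdeal)⁻¹
        ≤ C * (∏ v ∈ T, (1 - ZetaIdeal.nrm F s v.asIdeal)⁻¹) ^ Module.finrank F L

section Bound

variable [Fintype ((ClassGroup (𝓞 F) ⧸ H) →* ℂˣ)]

theorem exists_bound_prod (hD1 : D1Hyp F) :
    ∃ B : ℝ, 1 ≤ B ∧ ∀ s : ℝ, 1 < s → s ≤ 2 →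
      ‖∏ χ : (ClassGroup (𝓞 F) ⧸ H) →* ℂˣ, Lfun H χ s‖ ≤ ZetaIdeal.zetaR F s * B := by
  classical
  have hex : ∀ χ : (ClassGroup (𝓞 F) ⧸ H) →* ℂˣ, ∃ b : ℝ, 1 ≤ b ∧
      (χ ≠ 1 → ∀ s : ℝ, 1 < s → s ≤ 2 → ‖Lfun H χ s‖ ≤ b) := by
    intro χ
    by_cases hχ : χ = 1
    · exact ⟨1, le_rfl, fun h => absurd hχ h⟩
    · have hψ : χ.comp (QuotientGroup.mk' H) ≠ 1 := by
        intro h
        apply hχ
        exact QuotientGroup.monoidHom_ext _ (by rw [h]; rfl)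
      obtain ⟨B, hB⟩ := hD1 _ hψ
      refine ⟨max B 1, le_max_right _ _, fun _ s hs hs2 => ?_⟩
      rw [Lfun_eq_tsum]
      exact (hB s hs hs2).trans (le_max_left _ _)
  choose b hb1 hb using hex
  refine ⟨∏ χ : (ClassGroup (𝓞 F) ⧸ H) →* ℂˣ, b χ, ?_, fun s hs hs2 => ?_⟩
  · exact Finset.prod_induction _ (fun x => (1 : ℝ) ≤ x)
      (fun a c ha hc => one_le_mul_of_one_le_of_one_le ha hc) le_rfl (fun χ _ => hb1 χ)
  · rw [norm_prod]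
    rw [← Finset.mul_prod_erase Finset.univ _ (Finset.mem_univ (1 : (ClassGroup (𝓞 F) ⧸ H) →* ℂˣ)),
      ← Finset.mul_prod_erase Finset.univ b (Finset.mem_univ (1 : (ClassGroup (𝓞 F) ⧸ H) →* ℂˣ))]
    have hz1 : 1 ≤ ZetaIdeal.zetaR F s := ZetaIdeal.one_le_zetaR F hs
    have h1 : ‖Lfun H (1 : (ClassGroup (𝓞 F) ⧸ H) →* ℂˣ) s‖ = ZetaIdeal.zetaR F s := by
      rw [Lfun_one H (by linarith), Complex.norm_real, Real.norm_eq_abs,
        abs_of_nonneg (by linarith)]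
    rw [h1]
    have h2 : ∏ χ ∈ Finset.univ.erase (1 : (ClassGroup (𝓞 F) ⧸ H) →* ℂˣ), ‖Lfun H χ s‖
        ≤ ∏ χ ∈ Finset.univ.erase (1 : (ClassGroup (𝓞 F) ⧸ H) →* ℂˣ), b χ :=
      Finset.prod_le_prod (fun χ _ => norm_nonneg _)
        (fun χ hχ => hb χ (Finset.ne_of_mem_erase hχ) s hs hs2)
    have h3 : (0 : ℝ) ≤ ∏ χ ∈ Finset.univ.erase (1 : (ClassGroup (𝓞 F) ⧸ H) →* ℂˣ), b χ :=
      Finset.prod_nonneg (fun χ _ => le_trans zero_le_one (hb1 χ))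
    calc ZetaIdeal.zetaR F s
          * ∏ χ ∈ Finset.univ.erase (1 : (ClassGroup (𝓞 F) ⧸ H) →* ℂˣ), ‖Lfun H χ s‖
        ≤ ZetaIdeal.zetaR F s
          * ∏ χ ∈ Finset.univ.erase (1 : (ClassGroup (𝓞 F) ⧸ H) →* ℂˣ), b χ :=
          mul_le_mul_of_nonneg_left h2 (by linarith)
      _ = ZetaIdeal.zetaR F s
          * (1 * ∏ χ ∈ Finset.univ.erase (1 : (ClassGroup (𝓞 F) ⧸ H) →* ℂˣ), b χ) := by
          rw [one_mul]
      _ ≤ ZetaIdeal.zetaR F s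
          * (b 1 * ∏ χ ∈ Finset.univ.erase (1 : (ClassGroup (𝓞 F) ⧸ H) →* ℂˣ), b χ) :=
          mul_le_mul_of_nonneg_left (mul_le_mul_of_nonneg_right (hb1 1) h3) (by linarith)

end Bound

/-- **The second inequality**, with the two inputs as explicit hypotheses. -/
theorem index_le_finrank_of (F L : Type*) [Field F] [NumberField F] [Field L] [NumberField L]
    [Algebra F L] (H : Subgroup (ClassGroup (𝓞 F))) (S : Finset (Ideal (𝓞 F)))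
    (hH : ∀ (q : (Ideal (𝓞 F))⁰) (Q : Ideal (𝓞 L)), Q.IsPrime →
      Q.under (𝓞 F) = (q : Ideal (𝓞 F)) → (q : Ideal (𝓞 F)) ∉ S →
      Ideal.absNorm Q = Ideal.absNorm (q : Ideal (𝓞 F)) → ClassGroup.mk0 q ∈ H)
    (hD1 : D1Hyp F) (hC : CmpHyp F L S) :
    H.index ≤ Module.finrank F L := by
  classical
  have : Finite ((ClassGroup (𝓞 F) ⧸ H) →* ℂˣ) := UniChar.finite_char
  let _ : Fintype ((ClassGroup (𝓞 F) ⧸ H) →* ℂˣ) := Fintype.ofFinite _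
  set n := Fintype.card ((ClassGroup (𝓞 F) ⧸ H) →* ℂˣ) with hn
  set d := Module.finrank F L with hd
  have hnidx : H.index = n := by
    rw [hn, Fintype.card_eq_nat_card, UniChar.card_char]
    rfl
  rw [hnidx]
  obtain ⟨B, hB1, hB⟩ := exists_bound_prod H hD1
  obtain ⟨C₁, hC₁, hCs⟩ := hC
  -- the key inequality
  have key : ∀ s : ℝ, 1 < s → s ≤ 2 →
      ZetaIdeal.zetaR L s ^ n ≤ C₁ ^ n * (ZetaIdeal.zetaR F s * B) ^ d := by
    intro s hs hs2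
    have hs0 : 0 < s := by linarith
    have hT' : ∀ T' : Finset (HeightOneSpectrum (𝓞 L)),
        (∏ Q ∈ T', (1 - ZetaIdeal.nrm L s Q.asIdeal)⁻¹) ^ n
          ≤ C₁ ^ n * (ZetaIdeal.zetaR F s * B) ^ d := by
      intro T'
      obtain ⟨T, hT, hle⟩ := hCs s hs hs2 T'
      have hTH : ∀ v ∈ T, cls F v.asIdeal ∈ H := by
        intro v hv
        obtain ⟨hvS, Q, hQ, hQu, hQN⟩ := hT v hv
        have := hH ⟨v.asIdeal, mem_nzd_iff.mpr v.ne_bot⟩ Q hQ hQu hvS hQN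
        rwa [← cls_of_mem] at this
      have hA := claimA H hs T hTH
      have hP0 : 0 ≤ ∏ v ∈ T, (1 - ZetaIdeal.nrm F s v.asIdeal)⁻¹ :=
        Finset.prod_nonneg (fun v _ => inv_nonneg.mpr
          (sub_nonneg.mpr (nrm_prime_lt_one v hs0).le))
      have hQ0 : 0 ≤ ∏ Q ∈ T', (1 - ZetaIdeal.nrm L s Q.asIdeal)⁻¹ :=
        Finset.prod_nonneg (fun v _ => inv_nonneg.mpr
          (sub_nonneg.mpr (nrm_prime_lt_one v hs0).le))
      calc (∏ Q ∈ T', (1 - ZetaIdeal.nrm L s Q.asIdeal)⁻¹) ^ n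
          ≤ (C₁ * (∏ v ∈ T, (1 - ZetaIdeal.nrm F s v.asIdeal)⁻¹) ^ d) ^ n :=
            pow_le_pow_left₀ hQ0 hle n
        _ = C₁ ^ n * ((∏ v ∈ T, (1 - ZetaIdeal.nrm F s v.asIdeal)⁻¹) ^ n) ^ d := by ring
        _ ≤ C₁ ^ n * (ZetaIdeal.zetaR F s * B) ^ d := by
            apply mul_le_mul_of_nonneg_left _ (pow_nonneg hC₁.le n)
            exact pow_le_pow_left₀ (pow_nonneg hP0 n) (hA.trans (hB s hs hs2)) d
    have htend := (IdealEuler.tendsto_eulerProd_real (ZetaIdeal.nrm L s) (ZetaIdeal.nrm_one s)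
      (ZetaIdeal.nrm_bot hs0.ne') (ZetaIdeal.nrm_mul s) (ZetaIdeal.summable_nrm L hs)).pow n
    exact le_of_tendsto' htend hT'
  -- conclusion
  by_contra hlt
  have hdn : d < n := not_le.mp hlt
  obtain ⟨δF, hδF, cF, hcF, CF, hCF, hF⟩ := ZetaIdeal.exists_bounds F
  obtain ⟨δL, hδL, cL, hcL, CL, hCL, hL⟩ := ZetaIdeal.exists_bounds L
  set K := C₁ ^ n * (CF * B) ^ d with hK
  have hKpos : 0 < K := by positivity
  set ε := min (min (δF / 2) (δL / 2)) (min (1 / 2) (cL ^ n / (2 * K))) with hε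
  have hεpos : 0 < ε := by
    refine lt_min (lt_min (by linarith) (by linarith)) (lt_min (by norm_num) (by positivity))
  have hε1 : ε < δF := lt_of_le_of_lt ((min_le_left _ _).trans (min_le_left _ _)) (by linarith)
  have hε2 : ε < δL := lt_of_le_of_lt ((min_le_left _ _).trans (min_le_right _ _)) (by linarith)
  have hε3 : ε ≤ 1 / 2 := (min_le_right _ _).trans (min_le_left _ _)
  have hε4 : ε ≤ cL ^ n / (2 * K) := (min_le_right _ _).trans (min_le_right _ _)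
  have hs1 : (1 : ℝ) < 1 + ε := by linarith
  have hs2 : 1 + ε ≤ 2 := by linarith
  have hkey := key (1 + ε) hs1 hs2
  have hFb := (hF (1 + ε) hs1 (by linarith)).2
  have hLb := (hL (1 + ε) hs1 (by linarith)).1
  simp only [add_sub_cancel_left] at hFb hLb
  have hzL : cL / ε ≤ ZetaIdeal.zetaR L (1 + ε) := by
    rw [div_le_iff₀ hεpos]; linarith
  have hzF : ZetaIdeal.zetaR F (1 + ε) ≤ CF / ε := by
    rw [le_div_iff₀ hεpos]; linarith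
  have hzF0 : 0 ≤ ZetaIdeal.zetaR F (1 + ε) :=
    le_trans zero_le_one (ZetaIdeal.one_le_zetaR F hs1)
  have h1 : (cL / ε) ^ n ≤ C₁ ^ n * (CF / ε * B) ^ d := by
    calc (cL / ε) ^ n ≤ ZetaIdeal.zetaR L (1 + ε) ^ n :=
          pow_le_pow_left₀ (by positivity) hzL n
      _ ≤ C₁ ^ n * (ZetaIdeal.zetaR F (1 + ε) * B) ^ d := hkey
      _ ≤ C₁ ^ n * (CF / ε * B) ^ d := by
          apply mul_le_mul_of_nonneg_left _ (pow_nonneg hC₁.le n)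
          apply pow_le_pow_left₀ (mul_nonneg hzF0 (by linarith))
          exact mul_le_mul_of_nonneg_right hzF (by linarith)
  obtain ⟨m, hm⟩ : ∃ m, n = d + 1 + m := ⟨n - d - 1, by omega⟩
  have h2 : cL ^ n ≤ K * ε := by
    have e1 : cL ^ n = (cL / ε) ^ n * ε ^ n := by
      rw [div_pow, div_mul_cancel₀ _ (pow_ne_zero n hεpos.ne')]
    have hεd : ε ^ d ≠ 0 := pow_ne_zero d hεpos.ne'
    have e2a : (CF / ε * B) ^ d = (CF * B) ^ d / ε ^ d := by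
      rw [div_mul_eq_mul_div, div_pow]
    have e2b : ε ^ n = ε ^ d * (ε * ε ^ m) := by
      rw [hm]; ring
    have e2 : C₁ ^ n * (CF / ε * B) ^ d * ε ^ n = K * (ε * ε ^ m) := by
      rw [e2a, e2b, hK]
      field_simp
    have e3 : ε * ε ^ m ≤ ε := by
      have : ε ^ m ≤ 1 := pow_le_one₀ hεpos.le (by linarith)
      calc ε * ε ^ m ≤ ε * 1 := mul_le_mul_of_nonneg_left this hεpos.le
        _ = ε := mul_one ε
    calc cL ^ n = (cL / ε) ^ n * ε ^ n := e1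
      _ ≤ C₁ ^ n * (CF / ε * B) ^ d * ε ^ n :=
          mul_le_mul_of_nonneg_right h1 (pow_nonneg hεpos.le n)
      _ = K * (ε * ε ^ m) := e2
      _ ≤ K * ε := mul_le_mul_of_nonneg_left e3 hKpos.le
  have h3 : K * ε ≤ cL ^ n / 2 := by
    calc K * ε ≤ K * (cL ^ n / (2 * K)) := mul_le_mul_of_nonneg_left hε4 hKpos.le
      _ = cL ^ n / 2 := by field_simp
  have h4 : 0 < cL ^ n := pow_pos hcL n
  linarith

end Fermat.Agent.S14.Uni
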