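import Mathlib
import Fermat.Agent.S14.Uni

set_option autoImplicit false
set_option linter.unusedSectionVars false

/-!
# Not all primes split completely (analytic)
-/

namespace Fermat.Agent.S14.UniSplit

open Filter Topology NumberField Ideal IsDedekindDomain nonZeroDivisors
open Fermat.Agent.S14

variable (F L : Type*) [Field F] [NumberField F] [Field L] [NumberField L] [Algebra F L]

/-- The degree-one primes of `L` above a prime `v` of `F`. -/
def degOne (v : HeightOneSpectrum (𝓞 F)) : Set (HeightOneSpectrum (𝓞 L)) :=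
  {w | w.under (𝓞 F) = v ∧ absNorm w.asIdeal = absNorm v.asIdeal}

theorem asIdeal_image_degOne (v : HeightOneSpectrum (𝓞 F)) :
    HeightOneSpectrum.asIdeal '' (degOne F L v)
      = {Q : Ideal (𝓞 L) | Q.IsPrime ∧ Q.under (𝓞 F) = v.asIdeal ∧
          absNorm Q = absNorm v.asIdeal} := by
  ext Q
  constructor
  · rintro ⟨w, ⟨hw1, hw2⟩, rfl⟩
    refine ⟨w.isPrime, ?_, hw2⟩
    have := congrArg HeightOneSpectrum.asIdeal hw1
    exact this
  · rintro ⟨hQ, hQu, hQN⟩
    have hQ0 : Q ≠ ⊥ := by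
      rintro rfl
      apply v.ne_bot
      rw [← hQu]
      ext x
      simp [Ideal.under]
    refine ⟨⟨Q, hQ, hQ0⟩, ⟨?_, hQN⟩, rfl⟩
    exact HeightOneSpectrum.ext hQu

theorem ncard_degOne (v : HeightOneSpectrum (𝓞 F)) :
    (degOne F L v).ncard = {Q : Ideal (𝓞 L) | Q.IsPrime ∧ Q.under (𝓞 F) = v.asIdeal ∧
          absNorm Q = absNorm v.asIdeal}.ncard := by
  rw [← asIdeal_image_degOne]
  exact (Set.ncard_image_of_injective _ (fun a b h => HeightOneSpectrum.ext h)).symm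

theorem finrank_pos' : 0 < Module.finrank F L := Module.finrank_pos

variable {F L}

theorem one_le_factor (v : HeightOneSpectrum (𝓞 F)) {s : ℝ} (hs : 0 < s) :
    1 ≤ (1 - ZetaIdeal.nrm F s v.asIdeal)⁻¹ := by
  have h1 := Uni.nrm_prime_lt_one v hs
  have h0 := ZetaIdeal.nrm_nonneg (K := F) s v.asIdeal
  rw [one_le_inv₀ (by linarith)]
  linarith

/-- If every prime outside `S` has at least `[L:F]` degree-one primes above it, the partial Euler
products of `F` outside `S`, raised to the power `[L:F]`, are bounded by `ζ_L`. -/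
theorem pow_le_zetaR (S : Finset (Ideal (𝓞 F)))
    (hall : ∀ v : HeightOneSpectrum (𝓞 F), v.asIdeal ∉ S →
      Module.finrank F L ≤ (degOne F L v).ncard)
    {s : ℝ} (hs : 1 < s) (T : Finset (HeightOneSpectrum (𝓞 F))) (hT : ∀ v ∈ T, v.asIdeal ∉ S) :
    (∏ v ∈ T, (1 - ZetaIdeal.nrm F s v.asIdeal)⁻¹) ^ Module.finrank F L
      ≤ ZetaIdeal.zetaR L s := by
  classical
  have hs0 : 0 < s := by linarith
  have hfin : ∀ v ∈ T, (degOne F L v).Finite := by
    intro v hv
    apply Set.finite_of_ncard_pos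
    exact lt_of_lt_of_le (finrank_pos' F L) (hall v (hT v hv))
  -- the finset of degree-one primes above `v`
  let E : HeightOneSpectrum (𝓞 F) → Finset (HeightOneSpectrum (𝓞 L)) := fun v =>
    if h : (degOne F L v).Finite then h.toFinset else ∅
  have hE : ∀ v ∈ T, ∀ w, w ∈ E v ↔ w ∈ degOne F L v := by
    intro v hv w
    simp only [E, dif_pos (hfin v hv), Set.Finite.mem_toFinset]
  have hEcard : ∀ v ∈ T, Module.finrank F L ≤ (E v).card := by
    intro v hv
    have : (E v).card = (degOne F L v).ncard := by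
      simp only [E, dif_pos (hfin v hv)]
      exact (Set.ncard_eq_toFinset_card _ (hfin v hv)).symm
    rw [this]
    exact hall v (hT v hv)
  have hdisj : (T : Set (HeightOneSpectrum (𝓞 F))).PairwiseDisjoint E := by
    intro v hv v' hv' hne
    rw [Function.onFun, Finset.disjoint_left]
    intro w hw hw'
    apply hne
    rw [← ((hE v hv w).mp hw).1, ← ((hE v' hv' w).mp hw').1]
  have hprod : ∏ w ∈ T.biUnion E, (1 - ZetaIdeal.nrm L s w.asIdeal)⁻¹
      = ∏ v ∈ T, ((1 - ZetaIdeal.nrm F s v.asIdeal)⁻¹) ^ (E v).card := by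
    rw [Finset.prod_biUnion hdisj]
    refine Finset.prod_congr rfl (fun v hv => ?_)
    rw [Finset.prod_congr rfl (fun w hw => by
      have := ((hE v hv w).mp hw).2
      show (1 - ZetaIdeal.nrm L s w.asIdeal)⁻¹ = (1 - ZetaIdeal.nrm F s v.asIdeal)⁻¹
      unfold ZetaIdeal.nrm
      rw [this])]
    rw [Finset.prod_const]
  have hle : ∏ w ∈ T.biUnion E, (1 - ZetaIdeal.nrm L s w.asIdeal)⁻¹ ≤ ZetaIdeal.zetaR L s :=
    IdealEuler.eulerProd_le_tsum (ZetaIdeal.nrm L s) (ZetaIdeal.nrm_one s) (ZetaIdeal.nrm_mul s)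
      (ZetaIdeal.nrm_nonneg s) (ZetaIdeal.summable_nrm L hs)
      (fun w => Uni.nrm_prime_lt_one w hs0) _
  calc (∏ v ∈ T, (1 - ZetaIdeal.nrm F s v.asIdeal)⁻¹) ^ Module.finrank F L
      = ∏ v ∈ T, ((1 - ZetaIdeal.nrm F s v.asIdeal)⁻¹) ^ Module.finrank F L :=
        (Finset.prod_pow _ _ _).symm
    _ ≤ ∏ v ∈ T, ((1 - ZetaIdeal.nrm F s v.asIdeal)⁻¹) ^ (E v).card :=
        Finset.prod_le_prod (fun v _ => pow_nonneg (le_trans zero_le_one (one_le_factor v hs0)) _)
          (fun v hv => pow_le_pow_right₀ (one_le_factor v hs0) (hEcard v hv))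
    _ = ∏ w ∈ T.biUnion E, (1 - ZetaIdeal.nrm L s w.asIdeal)⁻¹ := hprod.symm
    _ ≤ ZetaIdeal.zetaR L s := hle

theorem nrm_prime_le_half (v : HeightOneSpectrum (𝓞 F)) {s : ℝ} (hs : 1 ≤ s) :
    ZetaIdeal.nrm F s v.asIdeal ≤ 1 / 2 := by
  unfold ZetaIdeal.nrm
  have h2 : (2 : ℝ) ≤ (absNorm v.asIdeal : ℝ) := by exact_mod_cast Uni.two_le_absNorm v
  calc (absNorm v.asIdeal : ℝ) ^ (-s) ≤ (absNorm v.asIdeal : ℝ) ^ (-1 : ℝ) :=
        Real.rpow_le_rpow_of_exponent_le (by linarith) (by linarith)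
    _ = ((absNorm v.asIdeal : ℝ))⁻¹ := Real.rpow_neg_one _
    _ ≤ 1 / 2 := by
        rw [one_div]
        exact inv_anti₀ (by norm_num) h2

theorem factor_le_two (v : HeightOneSpectrum (𝓞 F)) {s : ℝ} (hs : 1 ≤ s) :
    (1 - ZetaIdeal.nrm F s v.asIdeal)⁻¹ ≤ 2 := by
  have h := nrm_prime_le_half v hs
  rw [inv_le_comm₀ (by linarith) (by norm_num)]
  linarith

variable (F L)

/-- **Not all primes split completely**: outside any finite set there is a prime of `F` with
fewer than `[L:F]` degree-one primes of `L` above it (`[L:F] ≥ 2`). -/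
theorem exists_not_split (S : Finset (Ideal (𝓞 F))) (hd : 2 ≤ Module.finrank F L) :
    ∃ v : HeightOneSpectrum (𝓞 F), v.asIdeal ∉ S ∧
      (degOne F L v).ncard < Module.finrank F L := by
  classical
  by_contra hcon
  have hall : ∀ v : HeightOneSpectrum (𝓞 F), v.asIdeal ∉ S →
      Module.finrank F L ≤ (degOne F L v).ncard := by
    intro v hv
    by_contra h
    exact hcon ⟨v, hv, not_le.mp h⟩
  set d := Module.finrank F L with hd'
  set M : ℝ := ((2 : ℝ) ^ S.card) ^ d with hM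
  have hMpos : 0 < M := by positivity
  -- the key inequality
  have key : ∀ s : ℝ, 1 < s → ZetaIdeal.zetaR F s ^ d ≤ M * ZetaIdeal.zetaR L s := by
    intro s hs
    have hs0 : 0 < s := by linarith
    have hT : ∀ T : Finset (HeightOneSpectrum (𝓞 F)),
        (∏ v ∈ T, (1 - ZetaIdeal.nrm F s v.asIdeal)⁻¹) ^ d ≤ M * ZetaIdeal.zetaR L s := by
      intro T
      have hsplit := Finset.prod_filter_mul_prod_filter_not T (fun v => v.asIdeal ∉ S)
        (fun v => (1 - ZetaIdeal.nrm F s v.asIdeal)⁻¹)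
      have h1 := pow_le_zetaR S hall hs (T.filter (fun v => v.asIdeal ∉ S))
        (fun v hv => (Finset.mem_filter.mp hv).2)
      have hcard : (T.filter (fun v => ¬ v.asIdeal ∉ S)).card ≤ S.card := by
        apply Finset.card_le_card_of_injOn (fun v => v.asIdeal)
        · intro v hv
          have := (Finset.mem_filter.mp (Finset.mem_coe.mp hv)).2
          exact Finset.mem_coe.mpr (not_not.mp this)
        · intro a _ b _ hab
          exact HeightOneSpectrum.ext hab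
      have h2 : ∏ v ∈ T.filter (fun v => ¬ v.asIdeal ∉ S), (1 - ZetaIdeal.nrm F s v.asIdeal)⁻¹
          ≤ (2 : ℝ) ^ S.card := by
        calc ∏ v ∈ T.filter (fun v => ¬ v.asIdeal ∉ S), (1 - ZetaIdeal.nrm F s v.asIdeal)⁻¹
            ≤ ∏ _v ∈ T.filter (fun v => ¬ v.asIdeal ∉ S), (2 : ℝ) :=
              Finset.prod_le_prod
                (fun v _ => le_trans zero_le_one (one_le_factor v hs0))
                (fun v _ => factor_le_two v hs.le)
          _ = (2 : ℝ) ^ (T.filter (fun v => ¬ v.asIdeal ∉ S)).card := by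
              rw [Finset.prod_const]
          _ ≤ (2 : ℝ) ^ S.card := pow_le_pow_right₀ (by norm_num) hcard
      have hP0 : 0 ≤ ∏ v ∈ T.filter (fun v => v.asIdeal ∉ S),
          (1 - ZetaIdeal.nrm F s v.asIdeal)⁻¹ :=
        Finset.prod_nonneg (fun v _ => le_trans zero_le_one (one_le_factor v hs0))
      have hQ0 : 0 ≤ ∏ v ∈ T.filter (fun v => ¬ v.asIdeal ∉ S),
          (1 - ZetaIdeal.nrm F s v.asIdeal)⁻¹ :=
        Finset.prod_nonneg (fun v _ => le_trans zero_le_one (one_le_factor v hs0))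
      rw [← hsplit, mul_pow, mul_comm]
      calc (∏ v ∈ T.filter (fun v => ¬ v.asIdeal ∉ S), (1 - ZetaIdeal.nrm F s v.asIdeal)⁻¹) ^ d
            * (∏ v ∈ T.filter (fun v => v.asIdeal ∉ S), (1 - ZetaIdeal.nrm F s v.asIdeal)⁻¹) ^ d
          ≤ M * (∏ v ∈ T.filter (fun v => v.asIdeal ∉ S),
              (1 - ZetaIdeal.nrm F s v.asIdeal)⁻¹) ^ d :=
            mul_le_mul_of_nonneg_right (pow_le_pow_left₀ hQ0 h2 d) (pow_nonneg hP0 d)
        _ ≤ M * ZetaIdeal.zetaR L s := mul_le_mul_of_nonneg_left h1 hMpos.le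
    have htend := (IdealEuler.tendsto_eulerProd_real (ZetaIdeal.nrm F s) (ZetaIdeal.nrm_one s)
      (ZetaIdeal.nrm_bot hs0.ne') (ZetaIdeal.nrm_mul s) (ZetaIdeal.summable_nrm F hs)).pow d
    exact le_of_tendsto' htend hT
  obtain ⟨δF, hδF, cF, hcF, CF, hCF, hF⟩ := ZetaIdeal.exists_bounds F
  obtain ⟨δL, hδL, cL, hcL, CL, hCL, hL⟩ := ZetaIdeal.exists_bounds L
  set K := M * CL with hK
  have hKpos : 0 < K := by positivity
  set ε := min (min (δF / 2) (δL / 2)) (min (1 / 2) (cF ^ d / (2 * K))) with hε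
  have hεpos : 0 < ε := by
    refine lt_min (lt_min (by linarith) (by linarith)) (lt_min (by norm_num) (by positivity))
  have hε1 : ε < δF := lt_of_le_of_lt ((min_le_left _ _).trans (min_le_left _ _)) (by linarith)
  have hε2 : ε < δL := lt_of_le_of_lt ((min_le_left _ _).trans (min_le_right _ _)) (by linarith)
  have hε3 : ε ≤ 1 / 2 := (min_le_right _ _).trans (min_le_left _ _)
  have hε4 : ε ≤ cF ^ d / (2 * K) := (min_le_right _ _).trans (min_le_right _ _)
  have hs1 : (1 : ℝ) < 1 + ε := by linarith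
  have hkey := key (1 + ε) hs1
  have hFb := (hF (1 + ε) hs1 (by linarith)).1
  have hLb := (hL (1 + ε) hs1 (by linarith)).2
  simp only [add_sub_cancel_left] at hFb hLb
  have hzF : cF / ε ≤ ZetaIdeal.zetaR F (1 + ε) := by
    rw [div_le_iff₀ hεpos]; linarith
  have hzL : ZetaIdeal.zetaR L (1 + ε) ≤ CL / ε := by
    rw [le_div_iff₀ hεpos]; linarith
  have h1 : (cF / ε) ^ d ≤ M * (CL / ε) :=
    calc (cF / ε) ^ d ≤ ZetaIdeal.zetaR F (1 + ε) ^ d := pow_le_pow_left₀ (by positivity) hzF d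
      _ ≤ M * ZetaIdeal.zetaR L (1 + ε) := hkey
      _ ≤ M * (CL / ε) := mul_le_mul_of_nonneg_left hzL hMpos.le
  obtain ⟨m, hm⟩ : ∃ m, d = 2 + m := ⟨d - 2, by omega⟩
  have h2 : cF ^ d ≤ K * ε := by
    have e1 : cF ^ d = (cF / ε) ^ d * ε ^ d := by
      rw [div_pow, div_mul_cancel₀ _ (pow_ne_zero d hεpos.ne')]
    have e2b : ε ^ d = ε * (ε * ε ^ m) := by
      rw [hm]; ring
    have e2 : M * (CL / ε) * ε ^ d = K * (ε * ε ^ m) := by
      rw [e2b, hK]
      field_simp
    have e3 : ε * ε ^ m ≤ ε := by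
      have : ε ^ m ≤ 1 := pow_le_one₀ hεpos.le (by linarith)
      calc ε * ε ^ m ≤ ε * 1 := mul_le_mul_of_nonneg_left this hεpos.le
        _ = ε := mul_one ε
    calc cF ^ d = (cF / ε) ^ d * ε ^ d := e1
      _ ≤ M * (CL / ε) * ε ^ d := mul_le_mul_of_nonneg_right h1 (pow_nonneg hεpos.le d)
      _ = K * (ε * ε ^ m) := e2
      _ ≤ K * ε := mul_le_mul_of_nonneg_left e3 hKpos.le
  have h3 : K * ε ≤ cF ^ d / 2 := by
    calc K * ε ≤ K * (cF ^ d / (2 * K)) := mul_le_mul_of_nonneg_left hε4 hKpos.le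
      _ = cF ^ d / 2 := by field_simp
  have h4 : 0 < cF ^ d := pow_pos hcF d
  linarith

/-- **Not all primes split completely**, in terms of ideals. -/
theorem exists_prime_ncard_lt (hd : 2 ≤ Module.finrank F L) (S : Finset (Ideal (𝓞 F))) :
    ∃ q : Ideal (𝓞 F), q.IsPrime ∧ q ≠ ⊥ ∧ q ∉ S ∧
      {Q : Ideal (𝓞 L) | Q.IsPrime ∧ Q.under (𝓞 F) = q ∧
        Ideal.absNorm Q = Ideal.absNorm q}.ncard < Module.finrank F L := by
  obtain ⟨v, hvS, hv⟩ := exists_not_split F L S hd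
  refine ⟨v.asIdeal, v.isPrime, v.ne_bot, hvS, ?_⟩
  rw [← ncard_degOne]
  exact hv

end Fermat.Agent.S14.UniSplit
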