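import Mathlib
import Fermat.Agent.S14.CrossField
import Fermat.Agent.S14.ArtinBase
import Fermat.Agent.S14.KerCyclo
import Fermat.Agent.S14.CycloArtin
import Fermat.Agent.S14.CrossInert
import Fermat.Agent.S14.UniSplit
import Fermat.Agent.S14.RecCl

/-!
# S14, stream E: one crossing datum per pair of inert primes

From a finite Galois extension `Ω/K` containing the unramified cyclic extension `L/K` of prime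
degree `p`, an `m`-th root of unity `ζ ∈ Ω` (`m` squarefree) and two subgroups `H₁ H₂` of
`Gal(Ω/K)` acting faithfully on `ζ` whose intersection restricts onto `Gal(L/K)`, we produce
the `RecCl.CrossDatum` for two primes `q₁ q₂` of `K` having Frobenius elements in `H₁`, `H₂`.
The second inequality for the two auxiliary extensions enters as the hypothesis `UniHyp`.
-/

set_option autoImplicit false
set_option linter.unusedSectionVars false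

open NumberField
open scoped nonZeroDivisors

namespace Fermat.Agent.S14.CrossPair

open Fermat.Agent.S14.ArtinMap Fermat.Agent.S14.CrossField

variable (K L Ω : Type*) [Field K] [NumberField K] [Field L] [NumberField L] [Field Ω]
  [NumberField Ω] [Algebra K L] [Algebra K Ω] [Algebra L Ω] [IsScalarTower K L Ω]
  [IsGalois K Ω] [IsGalois K L]

/-- The second inequality for the auxiliary extension `M_H / F_H`, in the shape consumed by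
`KerCyclo.exists_rel_down_of_artin_eq`. -/
def UniHyp (H : Subgroup (Ω ≃ₐ[K] Ω)) (p : ℕ) : Prop :=
  ∀ (Hc : Subgroup (ClassGroup (𝓞 (FH K Ω H)))) (S : Finset (Ideal (𝓞 (FH K Ω H)))),
    (∀ (q : (Ideal (𝓞 (FH K Ω H)))⁰) (Q : Ideal (𝓞 (MH K L Ω H))), Q.IsPrime →
      Q.under (𝓞 (FH K Ω H)) = (q : Ideal (𝓞 (FH K Ω H))) →
      (q : Ideal (𝓞 (FH K Ω H))) ∉ S →
      Ideal.absNorm Q = Ideal.absNorm (q : Ideal (𝓞 (FH K Ω H))) → ClassGroup.mk0 q ∈ Hc) →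
    Hc.index ≤ p

/-- The submonoid of the norms to `K` of the nonzero ideals of `Ω^H` prime to `m`. -/
def normsTo (H : Subgroup (Ω ≃ₐ[K] Ω)) (m : ℕ) : Submonoid (Ideal (𝓞 K))⁰ where
  carrier := {a | ∃ I : Ideal (𝓞 (FH K Ω H)), I ≠ ⊥ ∧
    IsCoprime I (Ideal.span {(m : 𝓞 (FH K Ω H))}) ∧
    Ideal.relNorm (𝓞 K) I = (a : Ideal (𝓞 K))}
  one_mem' := ⟨1, one_ne_zero, isCoprime_one_left, by rw [map_one]; rfl⟩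
  mul_mem' := by
    rintro a b ⟨I, hI0, hIc, hI⟩ ⟨J, hJ0, hJc, hJ⟩
    exact ⟨I * J, mul_ne_zero hI0 hJ0, hIc.mul_left hJc, by rw [map_mul, hI, hJ]; rfl⟩

theorem mem_normsTo {H : Subgroup (Ω ≃ₐ[K] Ω)} {m : ℕ} {a : (Ideal (𝓞 K))⁰} :
    a ∈ normsTo K Ω H m ↔ ∃ I : Ideal (𝓞 (FH K Ω H)), I ≠ ⊥ ∧
      IsCoprime I (Ideal.span {(m : 𝓞 (FH K Ω H))}) ∧
      Ideal.relNorm (𝓞 K) I = (a : Ideal (𝓞 K)) := Iff.rfl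


/-- Base change `M_H/F_H → L/K` for the Artin map. -/
theorem resQ_artinFun (hab : ∀ a b : L ≃ₐ[K] L, a * b = b * a)
    (hur : IsUnram L (L ≃ₐ[K] L)) (H : Subgroup (Ω ≃ₐ[K] Ω))
    (J : Ideal (𝓞 (FH K Ω H))) :
    resQ K L Ω H (artinFun (FH K Ω H) (MH K L Ω H) (GH K L Ω H) (GH_comm K L Ω H hab) J) =
      artinFun K L (L ≃ₐ[K] L) hab (Ideal.relNorm (𝓞 K) J) :=
  ArtinBase.res_artinFun hab (GH_comm K L Ω H hab) hur (resQ K L Ω H)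
    (algebraMap_resQ_smul K L Ω H) J

/-- **The crossing step for one auxiliary field**: a norm to `K` of an ideal of `Ω^H` prime to
`m` with trivial Artin symbol in `L/K` has its class in every subgroup containing the norm
classes from `L`. -/
theorem mk0_mem_of_artin_eq_one {p : ℕ} (hp : p.Prime) (hp2 : p ≠ 2)
    (hdeg : Module.finrank K L = p) (hab : ∀ a b : L ≃ₐ[K] L, a * b = b * a)
    (hur : IsUnram L (L ≃ₐ[K] L)) (m : ℕ) (hm : Squarefree m) (ζ : Ω) (hζ : ζ ^ m = 1)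
    (H : Subgroup (Ω ≃ₐ[K] Ω)) (hf : ∀ g ∈ H, g ζ = ζ → g = 1)
    (hs : ∀ c : L ≃ₐ[K] L, ∃ h ∈ H, AlgEquiv.restrictNormalHom L h = c)
    (huni : UniHyp K L Ω H p) (Hn : Subgroup (ClassGroup (𝓞 K)))
    (hHn : ∀ (I : Ideal (𝓞 L)) (hI : Ideal.relNorm (𝓞 K) I ∈ (Ideal (𝓞 K))⁰),
      ClassGroup.mk0 ⟨Ideal.relNorm (𝓞 K) I, hI⟩ ∈ Hn)
    (hne : ∃ a ∈ normsTo K Ω H m, artin K L (L ≃ₐ[K] L) hab a ≠ 1)
    (a : (Ideal (𝓞 K))⁰) (ha : a ∈ normsTo K Ω H m)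
    (h1 : artin K L (L ≃ₐ[K] L) hab a = 1) : ClassGroup.mk0 a ∈ Hn := by
  obtain ⟨I, hI0, hIc, hIa⟩ := ha
  have hab' := GH_comm K L Ω H hab
  have hur' := isUnram_MH K L Ω H hur
  have hcard : Nat.card (GH K L Ω H) = p := (card_GH K L Ω H hs).trans hdeg
  have hm0 : m ≠ 0 := hm.ne_zero
  have h𝔪0 : Ideal.span {(m : 𝓞 (FH K Ω H))} ≠ ⊥ := by
    rw [Ne, Ideal.span_singleton_eq_bot]
    exact Nat.cast_ne_zero.mpr hm0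
  have hnz : ∀ J : Ideal (𝓞 (FH K Ω H)), J ≠ ⊥ → J ∈ (Ideal (𝓞 (FH K Ω H)))⁰ :=
    fun J hJ => mem_nonZeroDivisors_iff_ne_zero.mpr hJ
  -- the four inputs of `KerCyclo`
  have hnorm : ∀ (B : Ideal (𝓞 (MH K L Ω H))) (A : (Ideal (𝓞 (FH K Ω H)))⁰),
      Ideal.relNorm (𝓞 (FH K Ω H)) B = (A : Ideal (𝓞 (FH K Ω H))) →
      artin (FH K Ω H) (MH K L Ω H) (GH K L Ω H) hab' A = 1 := by
    intro B A hBA
    rw [artin_apply, ← hBA]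
    exact artinFun_relNorm hab' hur' B
  have hfaith : ∀ g : ↥H, g • ζ = ζ → g = 1 := by
    intro g hg
    exact Subtype.ext (hf g.1 g.2 hg)
  have hodd : Odd (Nat.card (GH K L Ω H)) := hcard ▸ hp.odd_of_ne_two hp2
  have hprin : ∀ (x : 𝓞 (FH K Ω H)) (X : (Ideal (𝓞 (FH K Ω H)))⁰),
      (X : Ideal (𝓞 (FH K Ω H))) = Ideal.span {x} →
      IsCoprime (X : Ideal (𝓞 (FH K Ω H))) (Ideal.span {(m : 𝓞 (FH K Ω H))}) →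
      artin (FH K Ω H) (MH K L Ω H) (GH K L Ω H) hab' X = 1 := by
    rintro x ⟨X, hX⟩ hXx hXc
    simp only at hXx hXc
    subst hXx
    exact CycloArtin.artin_span_singleton_eq_one (FH K Ω H) (MH K L Ω H) Ω (GH K L Ω H) (↥H)
      hab' hur' m hm ζ hζ hfaith hodd x hX hXc
  have hne' : ∃ I' : (Ideal (𝓞 (FH K Ω H)))⁰,
      IsCoprime (I' : Ideal (𝓞 (FH K Ω H))) (Ideal.span {(m : 𝓞 (FH K Ω H))}) ∧
      artin (FH K Ω H) (MH K L Ω H) (GH K L Ω H) hab' I' ≠ 1 := by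
    obtain ⟨a₀, ⟨I₀, hI₀0, hI₀c, hI₀a⟩, ha₀⟩ := hne
    refine ⟨⟨I₀, hnz I₀ hI₀0⟩, hI₀c, fun h => ha₀ ?_⟩
    rw [artin_apply] at h ⊢
    rw [← hI₀a, ← resQ_artinFun K L Ω hab hur H I₀]
    show resQ K L Ω H (artinFun (FH K Ω H) (MH K L Ω H) (GH K L Ω H) hab' I₀) = 1
    rw [h, map_one]
  -- the symbol of `I` is trivial
  have hI1 : artin (FH K Ω H) (MH K L Ω H) (GH K L Ω H) hab' ⟨I, hnz I hI0⟩ =
      artin (FH K Ω H) (MH K L Ω H) (GH K L Ω H) hab' 1 := by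
    rw [map_one, artin_mk]
    apply resQ_injective K L Ω H
    rw [map_one, resQ_artinFun K L Ω hab hur H I, hIa]
    exact h1
  obtain ⟨u, v, A, B, hu, hv, hA, hB, hrel⟩ :=
    KerCyclo.exists_rel_down_of_artin_eq K (FH K Ω H) L (MH K L Ω H) hp hcard
      (artin (FH K Ω H) (MH K L Ω H) (GH K L Ω H) hab') (Ideal.span {(m : 𝓞 (FH K Ω H))}) h𝔪0
      hnorm hprin hne' huni ⟨I, hnz I hI0⟩ 1 hIc isCoprime_one_left hI1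
  have hA' : Ideal.relNorm (𝓞 K) A ∈ (Ideal (𝓞 K))⁰ :=
    mem_nonZeroDivisors_iff_ne_zero.mpr fun h => hA (Ideal.relNorm_eq_bot_iff.mp h)
  have hB' : Ideal.relNorm (𝓞 K) B ∈ (Ideal (𝓞 K))⁰ :=
    mem_nonZeroDivisors_iff_ne_zero.mpr fun h => hB (Ideal.relNorm_eq_bot_iff.mp h)
  have hrel' : Ideal.span {u} * ((a : Ideal (𝓞 K)) * Ideal.relNorm (𝓞 K) A) =
      Ideal.span {v} * Ideal.relNorm (𝓞 K) B := by
    have h2 : Ideal.relNorm (𝓞 K) (((1 : (Ideal (𝓞 (FH K Ω H)))⁰) : Ideal (𝓞 (FH K Ω H)))) = 1 := by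
      rw [Submonoid.coe_one, map_one]
    rw [h2, mul_one] at hrel
    rw [← mul_assoc, ← hIa]
    exact hrel
  have h3 : ClassGroup.mk0 (a * ⟨Ideal.relNorm (𝓞 K) A, hA'⟩) =
      ClassGroup.mk0 ⟨Ideal.relNorm (𝓞 K) B, hB'⟩ :=
    ClassGroup.mk0_eq_mk0_iff.mpr ⟨u, v, hu, hv, hrel'⟩
  rw [map_mul] at h3
  have h4 : ClassGroup.mk0 a = ClassGroup.mk0 ⟨Ideal.relNorm (𝓞 K) B, hB'⟩ *
      (ClassGroup.mk0 ⟨Ideal.relNorm (𝓞 K) A, hA'⟩)⁻¹ := by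
    rw [← h3, mul_inv_cancel_right]
  rw [h4]
  exact Hn.mul_mem (hHn B hB') (Hn.inv_mem (hHn A hA'))


/-- The prime of `Ω^H` below a prime `P` of `Ω` not containing `m` is prime to `m`. -/
theorem isCoprime_under (H : Subgroup (Ω ≃ₐ[K] Ω)) (m : ℕ) (P : Ideal (𝓞 Ω)) [hP1 : P.IsPrime]
    (hP : P ≠ ⊥) (hmP : (m : 𝓞 Ω) ∉ P) :
    IsCoprime (P.under (𝓞 (FH K Ω H))) (Ideal.span {(m : 𝓞 (FH K Ω H))}) := by
  apply KerCyclo.isCoprime_of_not_le _ _ (Ideal.IsPrime.under _ P) (Ideal.under_ne_bot _ hP)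
  intro hle
  apply hmP
  have h1 : (m : 𝓞 (FH K Ω H)) ∈ P.under (𝓞 (FH K Ω H)) :=
    hle (Ideal.subset_span (Set.mem_singleton _))
  have h2 : algebraMap (𝓞 (FH K Ω H)) (𝓞 Ω) (m : 𝓞 (FH K Ω H)) ∈ P := h1
  rwa [map_natCast] at h2

/-- The prime of `K` below a prime `P` of `Ω` (not containing `m`) having a Frobenius element
in `H` is the norm of an ideal of `Ω^H` prime to `m`. -/
theorem mem_normsTo_of_frob (H : Subgroup (Ω ≃ₐ[K] Ω)) (m : ℕ) (P : Ideal (𝓞 Ω))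
    [hP1 : P.IsPrime] (hP : P ≠ ⊥) (hmP : (m : 𝓞 Ω) ∉ P) (φ : Ω ≃ₐ[K] Ω) (hφH : φ ∈ H)
    (hφ : IsArithFrobAt (𝓞 K) φ P) (q : (Ideal (𝓞 K))⁰)
    (hq : (q : Ideal (𝓞 K)) = P.under (𝓞 K)) : q ∈ normsTo K Ω H m :=
  ⟨P.under (𝓞 (FH K Ω H)), Ideal.under_ne_bot _ hP, isCoprime_under K Ω H m P hP hmP,
    (relNorm_under_of_frob K Ω H P hP φ hφH hφ).trans hq.symm⟩

/-- The norm to `K` of the prime of `Ω^H'` below `P` is the norm of an ideal of `Ω^H` prime to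
`m`, for `H' ≤ H`. -/
theorem mem_normsTo_of_le (H H' : Subgroup (Ω ≃ₐ[K] Ω)) (hle : H' ≤ H) (m : ℕ)
    (P : Ideal (𝓞 Ω)) [hP1 : P.IsPrime] (hP : P ≠ ⊥) (hmP : (m : 𝓞 Ω) ∉ P)
    (B : (Ideal (𝓞 K))⁰)
    (hB : (B : Ideal (𝓞 K)) = Ideal.relNorm (𝓞 K) (P.under (𝓞 (FH K Ω H')))) :
    B ∈ normsTo K Ω H m := by
  obtain ⟨n, -, hn⟩ := exists_pow_relNorm_eq K Ω H H' hle P hP
  exact ⟨(P.under (𝓞 (FH K Ω H))) ^ n, pow_ne_zero n (Ideal.under_ne_bot _ hP),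
    (isCoprime_under K Ω H m P hP hmP).pow_left, hn.trans hB.symm⟩

/-- **The crossing datum for a pair of primes.** -/
theorem crossDatum {p : ℕ} (hp : p.Prime) (hp2 : p ≠ 2) (hdeg : Module.finrank K L = p)
    (hab : ∀ a b : L ≃ₐ[K] L, a * b = b * a) (hur : IsUnram L (L ≃ₐ[K] L))
    (m : ℕ) (hm : Squarefree m) (ζ : Ω) (hζ : ζ ^ m = 1)
    (H₁ H₂ : Subgroup (Ω ≃ₐ[K] Ω))
    (hf₁ : ∀ g ∈ H₁, g ζ = ζ → g = 1) (hf₂ : ∀ g ∈ H₂, g ζ = ζ → g = 1)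
    (hs : ∀ c : L ≃ₐ[K] L, ∃ h ∈ H₁ ⊓ H₂, AlgEquiv.restrictNormalHom L h = c)
    (huni₁ : UniHyp K L Ω H₁ p) (huni₂ : UniHyp K L Ω H₂ p)
    (P₁ P₂ : Ideal (𝓞 Ω)) [hP₁' : P₁.IsPrime] [hP₂' : P₂.IsPrime] (hP₁ : P₁ ≠ ⊥) (hP₂ : P₂ ≠ ⊥)
    (hm₁ : (m : 𝓞 Ω) ∉ P₁) (hm₂ : (m : 𝓞 Ω) ∉ P₂)
    (φ₁ φ₂ : Ω ≃ₐ[K] Ω) (hφ₁ : φ₁ ∈ H₁) (hφ₂ : φ₂ ∈ H₂)
    (hfr₁ : IsArithFrobAt (𝓞 K) φ₁ P₁) (hfr₂ : IsArithFrobAt (𝓞 K) φ₂ P₂)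
    (Hn : Subgroup (ClassGroup (𝓞 K)))
    (hHn : ∀ (I : Ideal (𝓞 L)) (hI : Ideal.relNorm (𝓞 K) I ∈ (Ideal (𝓞 K))⁰),
      ClassGroup.mk0 ⟨Ideal.relNorm (𝓞 K) I, hI⟩ ∈ Hn)
    (q₁ q₂ : (Ideal (𝓞 K))⁰) (hq₁ : (q₁ : Ideal (𝓞 K)) = P₁.under (𝓞 K))
    (hq₂ : (q₂ : Ideal (𝓞 K)) = P₂.under (𝓞 K))
    (hne₁ : artin K L (L ≃ₐ[K] L) hab q₁ ≠ 1) (hne₂ : artin K L (L ≃ₐ[K] L) hab q₂ ≠ 1) :
    RecCl.CrossDatum (artin K L (L ≃ₐ[K] L) hab) ClassGroup.mk0 Hn q₁ q₂ := by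
  have hs₁ : ∀ c : L ≃ₐ[K] L, ∃ h ∈ H₁, AlgEquiv.restrictNormalHom L h = c := fun c => by
    obtain ⟨h, hh, hc⟩ := hs c
    exact ⟨h, hh.1, hc⟩
  have hs₂ : ∀ c : L ≃ₐ[K] L, ∃ h ∈ H₂, AlgEquiv.restrictNormalHom L h = c := fun c => by
    obtain ⟨h, hh, hc⟩ := hs c
    exact ⟨h, hh.2, hc⟩
  have hq₁mem : q₁ ∈ normsTo K Ω H₁ m := mem_normsTo_of_frob K Ω H₁ m P₁ hP₁ hm₁ φ₁ hφ₁ hfr₁ q₁ hq₁
  have hq₂mem : q₂ ∈ normsTo K Ω H₂ m := mem_normsTo_of_frob K Ω H₂ m P₂ hP₂ hm₂ φ₂ hφ₂ hfr₂ q₂ hq₂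
  refine ⟨normsTo K Ω H₁ m, normsTo K Ω H₂ m,
    fun a ha h1 => mk0_mem_of_artin_eq_one K L Ω hp hp2 hdeg hab hur m hm ζ hζ H₁ hf₁ hs₁ huni₁
      Hn hHn ⟨q₁, hq₁mem, hne₁⟩ a ha h1,
    fun a ha h1 => mk0_mem_of_artin_eq_one K L Ω hp hp2 hdeg hab hur m hm ζ hζ H₂ hf₂ hs₂ huni₂
      Hn hHn ⟨q₂, hq₂mem, hne₂⟩ a ha h1,
    hq₁mem, hq₂mem, ?_⟩
  -- the common inert norm
  have hfin : Module.finrank (FH K Ω (H₁ ⊓ H₂)) (MH K L Ω (H₁ ⊓ H₂)) = p :=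
    (finrank_MH K L Ω (H₁ ⊓ H₂) hs).trans hdeg
  have hd : 2 ≤ Module.finrank (FH K Ω (H₁ ⊓ H₂)) (MH K L Ω (H₁ ⊓ H₂)) := hfin ▸ hp.two_le
  obtain ⟨𝔟, h𝔟1, h𝔟0, hm𝔟, -, hart⟩ :=
    CrossInert.exists_common_inert (K := K) (L := L) (F := FH K Ω (H₁ ⊓ H₂))
      (M := MH K L Ω (H₁ ⊓ H₂)) (G' := GH K L Ω (H₁ ⊓ H₂)) hab
      (GH_comm K L Ω (H₁ ⊓ H₂) hab) hur (isUnram_MH K L Ω (H₁ ⊓ H₂) hur)
      (resQ K L Ω (H₁ ⊓ H₂)) (algebraMap_resQ_smul K L Ω (H₁ ⊓ H₂))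
      (resQ_injective K L Ω (H₁ ⊓ H₂)) m hm.ne_zero
      (fun S => UniSplit.exists_prime_ncard_lt (FH K Ω (H₁ ⊓ H₂)) (MH K L Ω (H₁ ⊓ H₂)) hd S)
  obtain ⟨P, hPp, hPo⟩ := (𝔟.nonempty_primesOver (S := 𝓞 Ω)).some
  have hP0 : P ≠ ⊥ := ne_bot_of_liesOver 𝔟 h𝔟0 P
  have hPu : P.under (𝓞 (FH K Ω (H₁ ⊓ H₂))) = 𝔟 := hPo.over.symm
  have hmP : (m : 𝓞 Ω) ∉ P := by
    intro h
    apply hm𝔟
    rw [← hPu]
    show algebraMap (𝓞 (FH K Ω (H₁ ⊓ H₂))) (𝓞 Ω) (m : 𝓞 (FH K Ω (H₁ ⊓ H₂))) ∈ P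
    rwa [map_natCast]
  have hB0 : Ideal.relNorm (𝓞 K) 𝔟 ∈ (Ideal (𝓞 K))⁰ :=
    mem_nonZeroDivisors_iff_ne_zero.mpr fun h => h𝔟0 (Ideal.relNorm_eq_bot_iff.mp h)
  refine ⟨⟨Ideal.relNorm (𝓞 K) 𝔟, hB0⟩,
    mem_normsTo_of_le K Ω H₁ (H₁ ⊓ H₂) inf_le_left m P hP0 hmP _ (by rw [hPu]),
    mem_normsTo_of_le K Ω H₂ (H₁ ⊓ H₂) inf_le_right m P hP0 hmP _ (by rw [hPu]), ?_⟩
  rw [artin_mk]
  exact hart

end Fermat.Agent.S14.CrossPair
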