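import Mathlib
import Fermat.Agent.S14.Defs

/-!
# S14, stream E: the disjointness input of the Artin crossing

* `exists_gal_two`: in a finite Galois extension `E/ℚ` containing a primitive `p`-th root `ζp` and
  a primitive `M`-th root `ζM` of unity (`p`, `M` coprime), with a normal subgroup `Nn` (the
  subgroup fixing `L`) such that every automorphism fixing `ζp` lies in `Nn ⊔ commutator`, every
  automorphism `c` fixing `ζp` can be corrected modulo `Nn` so that it acts on `ζM` by any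
  prescribed exponent coprime to `M` and still fixes `ζp`.
* `restrictScalars_mem_commutator`: under `ConjInv p K L` (`p` an odd prime, `[L : K] = p`),
  `Gal(L/K)` lies in the commutator subgroup of `Gal(L/ℚ)`.
* `exists_algEquiv_restrict`: the field form (G1): for `K = ℚ(ζ_p)`, `L/K` of degree `p` with
  `ConjInv`, `Ω ⊇ L` Galois over `ℚ` with a primitive `M`-th root of unity `ζ`, `p ∤ M`: every
  pair (`c ∈ Gal(L/K)`, exponent `a` coprime to `M`) is realised by some `g ∈ Gal(Ω/K)`.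
* `eq_one_of_restrict_eq_one`: (G2) for `Ω = L(ζ)`.
-/

set_option autoImplicit false

namespace Fermat.Agent.S14.CrossDisj

open Polynomial NumberField
open scoped commutatorElement

/-- Galois conjugates of a primitive root of unity over `ℚ`: every coprime power is attained. -/
theorem exists_algEquiv_pow (E : Type*) [Field E] [CharZero E] [FiniteDimensional ℚ E]
    [IsGalois ℚ E] (n : ℕ) (hn : 0 < n) (ζ : E) (hζ : IsPrimitiveRoot ζ n) (b : ℕ)
    (hb : Nat.Coprime b n) : ∃ g : E ≃ₐ[ℚ] E, g ζ = ζ ^ b := by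
  have hζb : IsPrimitiveRoot (ζ ^ b) n := hζ.pow_of_coprime b hb
  have hmin : minpoly ℚ ζ = cyclotomic n ℚ := (cyclotomic_eq_minpoly_rat hζ hn).symm
  have hroot : aeval (ζ ^ b) (minpoly ℚ ζ) = 0 := by
    rw [hmin, cyclotomic_eq_minpoly_rat hζb hn]
    exact minpoly.aeval ℚ (ζ ^ b)
  exact minpoly.exists_algEquiv_of_root' (Algebra.IsAlgebraic.isAlgebraic ζ) hroot

/-- Powers of an element of finite exponent only depend on the exponent modulo that exponent. -/
theorem pow_eq_pow_of_modEq' {E : Type*} [Monoid E] {x : E} {n : ℕ} (hx : x ^ n = 1) {a b : ℕ}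
    (hab : a ≡ b [MOD n]) : x ^ a = x ^ b := by
  rw [pow_eq_pow_mod a hx, pow_eq_pow_mod b hx, hab]

/-- **Disjointness input of the crossing**, abstract form inside one Galois extension of `ℚ`. -/
theorem exists_gal_two (E : Type*) [Field E] [CharZero E] [FiniteDimensional ℚ E] [IsGalois ℚ E]
    (p M : ℕ) (hp : 0 < p) (hM : 0 < M) (hpM : Nat.Coprime p M)
    (ζp ζM : E) (hζp : IsPrimitiveRoot ζp p) (hζM : IsPrimitiveRoot ζM M)
    (Nn : Subgroup (E ≃ₐ[ℚ] E)) [Nn.Normal]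
    (hcomm : ∀ k : E ≃ₐ[ℚ] E, k ζp = ζp → k ∈ Nn ⊔ _root_.commutator (E ≃ₐ[ℚ] E))
    (c : E ≃ₐ[ℚ] E) (hc : c ζp = ζp) (a : ℕ) (ha : Nat.Coprime a M) :
    ∃ g : E ≃ₐ[ℚ] E, c⁻¹ * g ∈ Nn ∧ g ζp = ζp ∧ g ζM = ζM ^ a := by
  have hn : 0 < p * M := Nat.mul_pos hp hM
  have : NeZero (p * M) := ⟨hn.ne'⟩
  -- the primitive `p * M`-th root
  set ζ : E := ζp * ζM with hζdef
  have hζ : IsPrimitiveRoot ζ (p * M) := by
    rw [IsPrimitiveRoot.iff_orderOf]
    have h1 : orderOf ζp = p := hζp.eq_orderOf.symm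
    have h2 : orderOf ζM = M := hζM.eq_orderOf.symm
    have := (Commute.all ζp ζM).orderOf_mul_eq_mul_orderOf_of_coprime (by rw [h1, h2]; exact hpM)
    rw [this, h1, h2]
  obtain ⟨i, -, hi⟩ := hζ.eq_pow_of_pow_eq_one (ξ := ζp) (by rw [pow_mul, hζp.pow_eq_one, one_pow])
  obtain ⟨j, -, hj⟩ := hζ.eq_pow_of_pow_eq_one (ξ := ζM)
    (by rw [mul_comm, pow_mul, hζM.pow_eq_one, one_pow])
  -- the CRT exponent
  obtain ⟨b, hb1, hba⟩ := Nat.chineseRemainder hpM 1 a
  have hbp : Nat.Coprime b p := by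
    have := hb1.gcd_eq
    rw [Nat.Coprime, this]; simp
  have hbM : Nat.Coprime b M := by
    have := hba.gcd_eq
    rw [Nat.Coprime, this]; exact ha
  obtain ⟨g₁, hg₁⟩ := exists_algEquiv_pow E (p * M) hn ζ hζ b (Nat.Coprime.mul_right hbp hbM)
  have hg₁p : g₁ ζp = ζp := by
    rw [← hi, map_pow, hg₁, ← pow_mul, mul_comm, pow_mul, hi]
    conv_rhs => rw [← pow_one ζp]
    exact pow_eq_pow_of_modEq' hζp.pow_eq_one hb1
  have hg₁M : g₁ ζM = ζM ^ a := by
    rw [← hj, map_pow, hg₁, ← pow_mul, mul_comm, pow_mul, hj]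
    exact pow_eq_pow_of_modEq' hζM.pow_eq_one hba
  -- the cyclotomic character and its kernel
  set χ : (E ≃ₐ[ℚ] E) →* (ZMod (p * M))ˣ := hζ.autToPow ℚ with hχ
  have hker : ∀ x : E ≃ₐ[ℚ] E, x ∈ χ.ker → x ζ = ζ := by
    intro x hx
    rcases Nat.lt_or_ge 1 (p * M) with h1 | h1
    · have : Fact (1 < p * M) := ⟨h1⟩
      have h1 := hζ.autToPow_spec ℚ x
      rw [← hχ, MonoidHom.mem_ker.mp hx, Units.val_one, ZMod.val_one, pow_one] at h1
      exact h1.symm
    · have h2 : p * M = 1 := le_antisymm h1 hn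
      have h3 : ζ = 1 := by
        have := hζ.pow_eq_one
        rwa [h2, pow_one] at this
      rw [h3, map_one]
  have hker' : ∀ (x : E ≃ₐ[ℚ] E) (k : ℕ), x ∈ χ.ker → x (ζ ^ k) = ζ ^ k := by
    intro x k hx
    rw [map_pow, hker x hx]
  have hcomker : _root_.commutator (E ≃ₐ[ℚ] E) ≤ χ.ker := Abelianization.commutator_subset_ker χ
  have hle : Nn ⊔ _root_.commutator (E ≃ₐ[ℚ] E) ≤ Nn ⊔ χ.ker := sup_le_sup_left hcomker Nn
  have hmem : c⁻¹ * g₁ ∈ Nn ⊔ χ.ker :=
    mul_mem (inv_mem (hle (hcomm c hc))) (hle (hcomm g₁ hg₁p))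
  have hmem' : c⁻¹ * g₁ ∈ ((Nn ⊔ χ.ker : Subgroup (E ≃ₐ[ℚ] E)) : Set (E ≃ₐ[ℚ] E)) := hmem
  rw [Subgroup.normal_mul] at hmem'
  obtain ⟨n, hn', x, hx, hnx⟩ := Set.mem_mul.mp hmem'
  have hxp : x⁻¹ ζp = ζp := by rw [← hi]; exact hker' x⁻¹ i (inv_mem hx)
  have hxM : x⁻¹ ζM = ζM := by rw [← hj]; exact hker' x⁻¹ j (inv_mem hx)
  refine ⟨g₁ * x⁻¹, ?_, ?_, ?_⟩
  · have : c⁻¹ * (g₁ * x⁻¹) = n := by
      rw [← mul_assoc, ← hnx, mul_inv_cancel_right]
    rw [this]; exact hn'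
  · rw [AlgEquiv.mul_apply, hxp, hg₁p]
  · rw [AlgEquiv.mul_apply, hxM, hg₁M]

/-- Pure group form: if `g t g⁻¹ = t⁻¹` and `t ^ p = 1` with `p` odd, then `t` is a commutator
power. -/
theorem mem_commutator_of_conj_eq_inv {G : Type*} [Group G] (g t : G) (p : ℕ) (hp : Odd p)
    (htp : t ^ p = 1) (h : g * t * g⁻¹ = t⁻¹) : t ∈ _root_.commutator G := by
  have h1 : ⁅g, t⁆ = (t ^ 2)⁻¹ := by
    rw [commutatorElement_def, h, pow_two, mul_inv_rev]
  have h2 : t ^ 2 ∈ _root_.commutator G := by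
    have : ⁅g, t⁆ ∈ _root_.commutator G := by
      rw [commutator_def]
      exact Subgroup.commutator_mem_commutator (Subgroup.mem_top g) (Subgroup.mem_top t)
    rw [h1] at this
    exact (Subgroup.inv_mem_iff _).mp this
  obtain ⟨m, hm⟩ := hp
  have h3 : t = ((t ^ 2) ^ (m + 1)) := by
    rw [← pow_mul]
    have : 2 * (m + 1) = p + 1 := by omega
    rw [this, pow_succ, htp, one_mul]
  rw [h3]
  exact Subgroup.pow_mem _ h2 _

/-- Under `ConjInv`, `Gal(L/K)` lies in the commutator subgroup of `Gal(L/ℚ)`. -/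
theorem restrictScalars_mem_commutator (p : ℕ) (hp : p.Prime) (hp2 : p ≠ 2)
    (K L : Type*) [Field K] [Field L] [NumberField K] [NumberField L] [Algebra K L]
    [IsCyclotomicExtension {p} ℚ K] [IsGalois ℚ L] [IsGalois K L]
    (hdeg : Module.finrank K L = p) (hconj : ConjInv p K L) (τ : L ≃ₐ[K] L) :
    τ.restrictScalars ℚ ∈ _root_.commutator (L ≃ₐ[ℚ] L) := by
  have hpodd : Odd p := hp.odd_of_ne_two hp2
  obtain ⟨ζ, hζ⟩ := IsCyclotomicExtension.exists_isPrimitiveRoot ℚ K (Set.mem_singleton p)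
    hp.ne_zero
  have hζL : IsPrimitiveRoot (algebraMap K L ζ) p :=
    hζ.map_of_injective (algebraMap K L).injective
  have hcop : Nat.Coprime (p - 1) p := by
    have h1 : 1 ≤ p := hp.one_lt.le
    have : Nat.Coprime (p - 1) (p - 1 + 1) := (Nat.coprime_self_add_right).mpr (Nat.coprime_one_right _)
    rwa [Nat.sub_add_cancel h1] at this
  obtain ⟨g, hg⟩ := exists_algEquiv_pow L p hp.pos (algebraMap K L ζ) hζL (p - 1) hcop
  have hg' : g (algebraMap K L ζ) = algebraMap K L (ζ ^ (p - 1)) := by rw [hg, map_pow]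
  have hc := hconj g τ ζ (p - 1) hζ hg'
  set t : L ≃ₐ[ℚ] L := τ.restrictScalars ℚ with ht
  have hτp : τ ^ p = 1 := by
    have := pow_card_eq_one' (G := L ≃ₐ[K] L) (x := τ)
    rwa [IsGalois.card_aut_eq_finrank K L, hdeg] at this
  have htp : t ^ p = 1 := by
    have h1 : t = AlgEquiv.restrictScalarsHom ℚ τ := rfl
    rw [h1, ← map_pow, hτp, map_one]
  have hsp : (g * t * g⁻¹) ^ p = 1 := by
    rw [conj_pow, htp, mul_one, mul_inv_cancel]
  have hinv : g * t * g⁻¹ = t⁻¹ := by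
    have h1 : (g * t * g⁻¹) ^ (p - 1) * (g * t * g⁻¹) = 1 := by
      rw [← pow_succ, Nat.sub_add_cancel hp.one_lt.le, hsp]
    rw [hc] at h1
    exact (eq_inv_of_mul_eq_one_right h1)
  exact mem_commutator_of_conj_eq_inv g t p hpodd htp hinv



/-- A `ℚ`-automorphism fixing the primitive `p`-th root of unity of `K = ℚ(ζ_p)` fixes `K`. -/
theorem algebraMap_fixed_of_zeta (p : ℕ) (hp : p ≠ 0) (K E : Type*) [Field K] [Field E]
    [CharZero K] [CharZero E] [Algebra K E] [IsCyclotomicExtension {p} ℚ K] (ζ : K)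
    (hζ : IsPrimitiveRoot ζ p) (g : E ≃ₐ[ℚ] E) (hg : g (algebraMap K E ζ) = algebraMap K E ζ)
    (x : K) : g (algebraMap K E x) = algebraMap K E x := by
  have : NeZero p := ⟨hp⟩
  have htop : Algebra.adjoin ℚ ({ζ} : Set K) = ⊤ :=
    IsCyclotomicExtension.adjoin_primitive_root_eq_top hζ
  have h := AlgHom.ext_of_adjoin_eq_top htop
    (φ₁ := (g : E →ₐ[ℚ] E).comp (IsScalarTower.toAlgHom ℚ K E))
    (φ₂ := IsScalarTower.toAlgHom ℚ K E) (by
      intro y hy
      rw [Set.mem_singleton_iff] at hy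
      subst hy
      simpa using hg)
  have := DFunLike.congr_fun h x
  simpa using this

/-- **(G1)** the field form of the disjointness input. -/
theorem exists_algEquiv_restrict (p : ℕ) (hp : p.Prime) (hp2 : p ≠ 2)
    (K L Ω : Type*) [Field K] [Field L] [Field Ω] [NumberField K] [NumberField L] [NumberField Ω]
    [Algebra K L] [Algebra K Ω] [Algebra L Ω] [IsScalarTower K L Ω]
    [IsCyclotomicExtension {p} ℚ K] [IsGalois ℚ L] [IsGalois K L] [IsGalois ℚ Ω]
    (hdeg : Module.finrank K L = p) (hconj : ConjInv p K L)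
    (M : ℕ) (hM : 0 < M) (hpM : Nat.Coprime p M) (ζ : Ω) (hζ : IsPrimitiveRoot ζ M)
    (c : L ≃ₐ[K] L) (a : ℕ) (ha : Nat.Coprime a M) :
    ∃ g : Ω ≃ₐ[K] Ω, (∀ x : L, g (algebraMap L Ω x) = algebraMap L Ω (c x)) ∧ g ζ = ζ ^ a := by
  obtain ⟨ζK, hζK⟩ := IsCyclotomicExtension.exists_isPrimitiveRoot ℚ K (Set.mem_singleton p)
    hp.ne_zero
  have hζΩ : IsPrimitiveRoot (algebraMap K Ω ζK) p :=
    hζK.map_of_injective (algebraMap K Ω).injective
  set res : (Ω ≃ₐ[ℚ] Ω) →* (L ≃ₐ[ℚ] L) := AlgEquiv.restrictNormalHom L with hres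
  have hres_surj : Function.Surjective res := AlgEquiv.restrictNormalHom_surjective Ω
  have hres_apply : ∀ (k : Ω ≃ₐ[ℚ] Ω) (x : L), algebraMap L Ω (res k x) = k (algebraMap L Ω x) :=
    fun k x => AlgEquiv.restrictNormal_commutes k L x
  have hKLΩ : ∀ x : K, algebraMap K Ω x = algebraMap L Ω (algebraMap K L x) :=
    fun x => IsScalarTower.algebraMap_apply K L Ω x
  -- automorphisms fixing `ζ_p` restrict into the commutator subgroup
  have hcomm : ∀ k : Ω ≃ₐ[ℚ] Ω, k (algebraMap K Ω ζK) = algebraMap K Ω ζK →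
      k ∈ res.ker ⊔ _root_.commutator (Ω ≃ₐ[ℚ] Ω) := by
    intro k hk
    have hkL : res k (algebraMap K L ζK) = algebraMap K L ζK := by
      apply (algebraMap L Ω).injective
      rw [hres_apply, ← hKLΩ, hk]
    have hfix := algebraMap_fixed_of_zeta p hp.ne_zero K L ζK hζK (res k) hkL
    let τ : L ≃ₐ[K] L := AlgEquiv.ofRingEquiv (f := (res k).toRingEquiv) hfix
    have hτ : τ.restrictScalars ℚ = res k := by
      ext x; rfl
    have hmem : res k ∈ _root_.commutator (L ≃ₐ[ℚ] L) := by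
      rw [← hτ]
      exact restrictScalars_mem_commutator p hp hp2 K L hdeg hconj τ
    have hmap : _root_.commutator (L ≃ₐ[ℚ] L) =
        (_root_.commutator (Ω ≃ₐ[ℚ] Ω)).map res := by
      rw [commutator_def, commutator_def, Subgroup.map_commutator,
        Subgroup.map_top_of_surjective res hres_surj]
    rw [hmap] at hmem
    obtain ⟨k', hk', hkk'⟩ := hmem
    have h1 : k * k'⁻¹ ∈ res.ker := by
      rw [MonoidHom.mem_ker, map_mul, map_inv, hkk', mul_inv_cancel]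
    have h2 : k = (k * k'⁻¹) * k' := by rw [inv_mul_cancel_right]
    rw [h2]
    exact Subgroup.mul_mem_sup h1 hk'
  -- lift `c`
  obtain ⟨cΩ, hcΩ⟩ := hres_surj (c.restrictScalars ℚ)
  have hcΩζ : cΩ (algebraMap K Ω ζK) = algebraMap K Ω ζK := by
    rw [hKLΩ, ← hres_apply, hcΩ]
    congr 1
    exact c.commutes ζK
  obtain ⟨g, hg1, hg2, hg3⟩ := exists_gal_two Ω p M hp.pos hM hpM (algebraMap K Ω ζK) ζ hζΩ hζ
    res.ker hcomm cΩ hcΩζ a ha
  have hresg : res g = c.restrictScalars ℚ := by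
    rw [MonoidHom.mem_ker, map_mul, map_inv, inv_mul_eq_one] at hg1
    rw [← hg1, hcΩ]
  have hgfix := algebraMap_fixed_of_zeta p hp.ne_zero K Ω ζK hζK g hg2
  refine ⟨AlgEquiv.ofRingEquiv (f := g.toRingEquiv) hgfix, ?_, ?_⟩
  · intro x
    change g (algebraMap L Ω x) = _
    rw [← hres_apply, hresg]
    rfl
  · exact hg3



/-- `L(ζ_M)` is Galois over `ℚ` when `L` is. -/
theorem isGalois_rat_of_isCyclotomicExtension (M : ℕ) (hM : M ≠ 0) (L Ω : Type*) [Field L]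
    [Field Ω] [CharZero L] [CharZero Ω] [FiniteDimensional ℚ L] [Algebra L Ω] [IsGalois ℚ L]
    [IsCyclotomicExtension {M} L Ω] : IsGalois ℚ Ω := by
  have : NeZero M := ⟨hM⟩
  obtain ⟨f₀, hf₀⟩ := Normal.exists_isSplittingField ℚ L
  obtain ⟨f, hf0, hf⟩ : ∃ f : ℚ[X], f ≠ 0 ∧ IsSplittingField ℚ L f := by
    by_cases h0 : f₀ = 0
    · refine ⟨1, one_ne_zero, ⟨by simp, ?_⟩⟩
      have h1 := hf₀.adjoin_rootSet'
      rw [h0] at h1
      simpa [rootSet] using h1
    · exact ⟨f₀, h0, hf₀⟩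
  have hg0 : (X ^ M - 1 : ℚ[X]) ≠ 0 := X_pow_sub_C_ne_zero (Nat.pos_of_ne_zero hM) (1 : ℚ)
  have h2 : IsSplittingField L Ω ((X ^ M - 1 : ℚ[X]).map (algebraMap ℚ L)) := by
    have := IsCyclotomicExtension.isSplittingField_X_pow_sub_one M (K := L) (L := Ω)
    simpa using this
  have h3 : IsSplittingField ℚ Ω (f * (X ^ M - 1)) := IsSplittingField.mul (K := L) Ω f _ hf0 hg0
  have h4 : Normal ℚ Ω := Normal.of_isSplittingField (f * (X ^ M - 1))
  exact isGalois_iff.mpr ⟨inferInstance, h4⟩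



/-- **(G1)**, `restrictNormalHom` / unit form. -/
theorem exists_gal (p : ℕ) (hp : p.Prime) (hp2 : p ≠ 2)
    (K L Ω : Type*) [Field K] [Field L] [Field Ω] [NumberField K] [NumberField L] [NumberField Ω]
    [Algebra K L] [Algebra K Ω] [Algebra L Ω] [IsScalarTower K L Ω]
    [IsCyclotomicExtension {p} ℚ K] [IsGalois ℚ L] [IsGalois K L] [IsGalois ℚ Ω]
    (hdeg : Module.finrank K L = p) (hconj : ConjInv p K L)
    (M : ℕ) (hM : 0 < M) (hpM : Nat.Coprime p M) (ζ : Ω) (hζ : IsPrimitiveRoot ζ M)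
    (c : L ≃ₐ[K] L) (u : (ZMod M)ˣ) :
    ∃ g : Ω ≃ₐ[K] Ω, AlgEquiv.restrictNormalHom L g = c ∧ g ζ = ζ ^ (u : ZMod M).val := by
  obtain ⟨g, hg1, hg2⟩ := exists_algEquiv_restrict p hp hp2 K L Ω hdeg hconj M hM hpM ζ hζ c
    (u : ZMod M).val (ZMod.val_coe_unit_coprime u)
  refine ⟨g, ?_, hg2⟩
  ext x
  apply (algebraMap L Ω).injective
  rw [← hg1 x]
  exact AlgEquiv.restrictNormal_commutes g L x

/-- **(G1)** for `Ω = L(ζ_M)`. -/
theorem exists_gal_of_isCyclotomicExtension (p : ℕ) (hp : p.Prime) (hp2 : p ≠ 2)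
    (K L Ω : Type*) [Field K] [Field L] [Field Ω] [NumberField K] [NumberField L] [NumberField Ω]
    [Algebra K L] [Algebra K Ω] [Algebra L Ω] [IsScalarTower K L Ω]
    [IsCyclotomicExtension {p} ℚ K] [IsGalois ℚ L] [IsGalois K L]
    (hdeg : Module.finrank K L = p) (hconj : ConjInv p K L)
    (M : ℕ) (hM : 0 < M) (hpM : Nat.Coprime p M) [IsCyclotomicExtension {M} L Ω]
    (ζ : Ω) (hζ : IsPrimitiveRoot ζ M) (c : L ≃ₐ[K] L) (u : (ZMod M)ˣ) :
    ∃ g : Ω ≃ₐ[K] Ω, AlgEquiv.restrictNormalHom L g = c ∧ g ζ = ζ ^ (u : ZMod M).val := by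
  have : IsGalois ℚ Ω := isGalois_rat_of_isCyclotomicExtension M hM.ne' L Ω
  exact exists_gal p hp hp2 K L Ω hdeg hconj M hM hpM ζ hζ c u

/-- **(G2)**: an element of `Gal(L(ζ_M)/K)` is determined by its restriction to `L` and its value
at `ζ_M`. -/
theorem eq_one_of_restrict_eq_one (K L Ω : Type*) [Field K] [Field L] [Field Ω] [Algebra K L]
    [Algebra K Ω] [Algebra L Ω] [IsScalarTower K L Ω] [Normal K L] (M : ℕ) (hM : M ≠ 0)
    [IsCyclotomicExtension {M} L Ω] (ζ : Ω) (hζ : IsPrimitiveRoot ζ M) (g : Ω ≃ₐ[K] Ω)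
    (h1 : AlgEquiv.restrictNormalHom L g = 1) (h2 : g ζ = ζ) : g = 1 := by
  have : NeZero M := ⟨hM⟩
  have hfix : ∀ x : L, g (algebraMap L Ω x) = algebraMap L Ω x := by
    intro x
    have := AlgEquiv.restrictNormal_commutes g L x
    rw [← this]
    congr 1
    exact DFunLike.congr_fun h1 x
  let gL : Ω →ₐ[L] Ω := { (g : Ω →+* Ω) with commutes' := hfix }
  have htop : Algebra.adjoin L ({ζ} : Set Ω) = ⊤ :=
    IsCyclotomicExtension.adjoin_primitive_root_eq_top hζ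
  have h := AlgHom.ext_of_adjoin_eq_top htop (φ₁ := gL) (φ₂ := AlgHom.id L Ω) (by
    intro y hy
    rw [Set.mem_singleton_iff] at hy
    subst hy
    exact h2)
  ext x
  exact DFunLike.congr_fun h x

/-- Two elements of `Gal(L(ζ_M)/K)` with the same restriction to `L` and the same value at `ζ_M`
are equal. -/
theorem eq_of_restrict_eq (K L Ω : Type*) [Field K] [Field L] [Field Ω] [Algebra K L]
    [Algebra K Ω] [Algebra L Ω] [IsScalarTower K L Ω] [Normal K L] (M : ℕ) (hM : M ≠ 0)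
    [IsCyclotomicExtension {M} L Ω] (ζ : Ω) (hζ : IsPrimitiveRoot ζ M) (g g' : Ω ≃ₐ[K] Ω)
    (h1 : AlgEquiv.restrictNormalHom L g = AlgEquiv.restrictNormalHom L g')
    (h2 : g ζ = g' ζ) : g = g' := by
  have h := eq_one_of_restrict_eq_one K L Ω M hM ζ hζ (g'⁻¹ * g)
    (by rw [map_mul, map_inv, h1, inv_mul_cancel])
    (by rw [AlgEquiv.mul_apply, h2]; exact g'.symm_apply_apply ζ)
  exact (inv_mul_eq_one.mp h).symm

end Fermat.Agent.S14.CrossDisj
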