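import Mathlib

/-!
# S14, stream E: the arithmetic and the group theory of Artin's lemma

* `exists_prime_orderOf`: for an odd prime `p`, `a > 1` with `a ≡ 1 mod p` and `k ≥ 1` there is a
  prime `ℓ ≠ p` such that `a` has multiplicative order exactly `p ^ k` modulo `ℓ`.
* `exists_primes_avoiding`: two such primes (orders `p ^ k < p ^ k'`) outside any finite set.
* `closure_pair`: the crossing subgroup `H = ⟨(σ, T), (σ ^ d, a)⟩` of `C × U` meets `C × 1`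
  trivially as soon as `T ^ x * a ^ y = 1` forces `p ∣ x` and `p ∣ y`.
* `zpow_mul_zpow_eq_one`, `exists_unit_two`, `exists_unit_four`: the unit `T` modulo
  `ℓ * ℓ'` (resp. `ℓ₁ * ℓ₁' * ℓ₂ * ℓ₂'`).
-/

set_option autoImplicit false

namespace Fermat.Agent.S14.ArtinLemma

open Finset

theorem nat_geom_sum_mul (b n : ℕ) (hb : 1 ≤ b) :
    (∑ i ∈ range n, b ^ i) * (b - 1) = b ^ n - 1 := by
  have h1 : 1 ≤ b ^ n := Nat.one_le_pow _ _ hb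
  zify [hb, h1]
  exact geom_sum_mul (b : ℤ) n

/-- `p` exactly divides `1 + b + ... + b ^ (p - 1)` when `b ≡ 1 mod p`, `p` odd. -/
theorem padicValNat_geom_sum {p : ℕ} (hp : p.Prime) (hp2 : p ≠ 2) {b : ℕ} (hb : 1 < b)
    (hbp : b % p = 1) : padicValNat p (∑ i ∈ range p, b ^ i) = 1 := by
  have : Fact p.Prime := ⟨hp⟩
  have hodd : Odd p := hp.odd_of_ne_two hp2
  have hdvd : p ∣ b - 1 := by
    have : b % p = 1 % p := by rw [hbp, Nat.mod_eq_of_lt hp.one_lt]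
    exact (Nat.modEq_iff_dvd' hb.le).mp this.symm
  have hnd : ¬ p ∣ b := by
    intro h
    have := Nat.mod_eq_zero_of_dvd h
    omega
  have h1 := padicValNat.pow_sub_pow hodd hb hdvd hnd hp.ne_zero
  rw [one_pow, padicValNat_self] at h1
  have hgeom := nat_geom_sum_mul b p hb.le
  have hS : (∑ i ∈ range p, b ^ i) ≠ 0 := by
    have : 0 < ∑ i ∈ range p, b ^ i :=
      Finset.sum_pos (fun i _ => pow_pos (by omega) i) ⟨0, Finset.mem_range.mpr hp.pos⟩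
    omega
  have hb1 : b - 1 ≠ 0 := by omega
  rw [← hgeom, padicValNat.mul hS hb1] at h1
  omega

theorem lt_geom_sum {p b : ℕ} (hp : 2 ≤ p) (hb : 2 ≤ b) : p < ∑ i ∈ range p, b ^ i := by
  have h1 : ∀ i ∈ range p, 1 ≤ b ^ i := fun i _ => Nat.one_le_pow _ _ (by omega)
  have h2 : ∑ i ∈ range p, 1 < ∑ i ∈ range p, b ^ i := by
    apply Finset.sum_lt_sum h1
    refine ⟨1, Finset.mem_range.mpr (by omega), ?_⟩
    rw [pow_one]; omega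
  simpa using h2

/-- **Primitive prime divisors of `a ^ (p ^ k) - 1`.** -/
theorem exists_prime_orderOf (p : ℕ) (hp : p.Prime) (hp2 : p ≠ 2) (a : ℕ) (ha : 1 < a)
    (hap : a % p = 1) (k : ℕ) (hk : 1 ≤ k) :
    ∃ ℓ : ℕ, ℓ.Prime ∧ ℓ ≠ p ∧ ¬ ℓ ∣ a ∧ orderOf (a : ZMod ℓ) = p ^ k := by
  have : Fact p.Prime := ⟨hp⟩
  obtain ⟨n, rfl⟩ : ∃ n, k = n + 1 := ⟨k - 1, by omega⟩
  set b : ℕ := a ^ p ^ n with hb_def
  have hb : 1 < b := Nat.one_lt_pow (pow_ne_zero _ hp.ne_zero) ha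
  have hbp : b % p = 1 := by
    rw [hb_def, Nat.pow_mod, hap, one_pow, Nat.mod_eq_of_lt hp.one_lt]
  set Φ : ℕ := ∑ i ∈ range p, b ^ i with hΦ
  have hv : padicValNat p Φ = 1 := padicValNat_geom_sum hp hp2 hb hbp
  have hlt : p < Φ := lt_geom_sum hp.two_le hb
  have hΦ0 : Φ ≠ 0 := by omega
  -- `Φ = p * Φ'` with `p ∤ Φ'`, `1 < Φ'`
  have hpΦ : p ∣ Φ := by
    have := (padicValNat_dvd_iff_le (p := p) (n := 1) hΦ0).mpr (by omega)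
    simpa using this
  obtain ⟨Φ', hΦ'⟩ := hpΦ
  have hΦ'1 : 1 < Φ' := by
    rcases Nat.lt_or_ge 1 Φ' with h | h
    · exact h
    · interval_cases Φ' <;> omega
  have hpΦ' : ¬ p ∣ Φ' := by
    rintro ⟨c, hc⟩
    have : p ^ 2 ∣ Φ := ⟨c, by rw [hΦ', hc]; ring⟩
    have := (padicValNat_dvd_iff_le (p := p) (n := 2) hΦ0).mp this
    omega
  obtain ⟨ℓ, hℓ, hℓΦ'⟩ := Nat.exists_prime_and_dvd (show Φ' ≠ 1 by omega)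
  have hℓp : ℓ ≠ p := by
    rintro rfl
    exact hpΦ' hℓΦ'
  have : Fact ℓ.Prime := ⟨hℓ⟩
  have hℓΦ : ℓ ∣ Φ := hΦ' ▸ Dvd.dvd.mul_left hℓΦ' p
  -- in `ZMod ℓ`
  have hsum : ∑ i ∈ range p, ((a : ZMod ℓ) ^ p ^ n) ^ i = 0 := by
    have := (ZMod.natCast_eq_zero_iff Φ ℓ).mpr hℓΦ
    rw [hΦ, Nat.cast_sum] at this
    simpa [hb_def] using this
  have hfin : (a : ZMod ℓ) ^ p ^ (n + 1) = 1 := by
    have := geom_sum_mul ((a : ZMod ℓ) ^ p ^ n) p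
    rw [hsum, zero_mul] at this
    rw [pow_succ, pow_mul]
    exact (sub_eq_zero.mp this.symm)
  have hnot : ¬ (a : ZMod ℓ) ^ p ^ n = 1 := by
    intro h1
    rw [h1] at hsum
    simp only [one_pow, sum_const, card_range, nsmul_eq_mul, mul_one] at hsum
    have := (ZMod.natCast_eq_zero_iff p ℓ).mp hsum
    exact hℓp ((Nat.prime_dvd_prime_iff_eq hℓ hp).mp this)
  refine ⟨ℓ, hℓ, hℓp, ?_, orderOf_eq_prime_pow hnot hfin⟩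
  intro hdvd
  have h0 : (a : ZMod ℓ) = 0 := (ZMod.natCast_eq_zero_iff a ℓ).mpr hdvd
  rw [h0, zero_pow (pow_ne_zero _ hp.ne_zero)] at hfin
  exact zero_ne_one hfin

/-- Two primes with orders `p ^ k < p ^ k'`, outside a given finite set. -/
theorem exists_primes_avoiding (p : ℕ) (hp : p.Prime) (hp2 : p ≠ 2) (a : ℕ) (ha : 1 < a)
    (hap : a % p = 1) (S : Finset ℕ) :
    ∃ ℓ ℓ' k k' : ℕ, ℓ.Prime ∧ ℓ'.Prime ∧ ℓ ∉ S ∧ ℓ' ∉ S ∧ ℓ ≠ ℓ' ∧ ℓ ≠ p ∧ ℓ' ≠ p ∧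
      ¬ ℓ ∣ a ∧ ¬ ℓ' ∣ a ∧ 1 ≤ k ∧ k < k' ∧
      orderOf (a : ZMod ℓ) = p ^ k ∧ orderOf (a : ZMod ℓ') = p ^ k' := by
  choose f hf using fun n : ℕ => exists_prime_orderOf p hp hp2 a ha hap (n + 1) (by omega)
  have hinj : Function.Injective f := by
    intro m n hmn
    have h1 := (hf m).2.2.2
    have h2 := (hf n).2.2.2
    rw [hmn, h2] at h1
    have := Nat.pow_right_injective hp.two_le h1
    omega
  have hinf : (Set.range f).Infinite := Set.infinite_range_of_injective hinj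
  obtain ⟨x, ⟨m, rfl⟩, hm⟩ := hinf.exists_notMem_finset S
  obtain ⟨y, ⟨n, rfl⟩, hn⟩ := hinf.exists_notMem_finset (insert (f m) S)
  have hn1 : f n ≠ f m := fun h => hn (by rw [h]; exact Finset.mem_insert_self _ _)
  have hn2 : f n ∉ S := fun h => hn (Finset.mem_insert_of_mem h)
  have hmn : m ≠ n := fun h => hn1 (by rw [h])
  rcases lt_or_gt_of_ne hmn with h | h
  · exact ⟨f m, f n, m + 1, n + 1, (hf m).1, (hf n).1, hm, hn2, hn1.symm, (hf m).2.1, (hf n).2.1,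
      (hf m).2.2.1, (hf n).2.2.1, by omega, by omega, (hf m).2.2.2, (hf n).2.2.2⟩
  · exact ⟨f n, f m, n + 1, m + 1, (hf n).1, (hf m).1, hn2, hm, hn1, (hf n).2.1, (hf m).2.1,
      (hf n).2.2.1, (hf m).2.2.1, by omega, by omega, (hf n).2.2.2, (hf m).2.2.2⟩

/-! ### The crossing subgroup -/

section Group

variable {C U : Type*} [Group C] [CommGroup U]

/-- Every element of `⟨(σ, T), (σ ^ d, a)⟩` is `(σ ^ (x + d y), T ^ x a ^ y)`. -/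
theorem mem_closure_pair {σ : C} {T a : U} {d : ℕ} {h : C × U}
    (hh : h ∈ Subgroup.closure ({((σ, T) : C × U), (σ ^ d, a)} : Set (C × U))) :
    ∃ x y : ℤ, h = (σ ^ (x + d * y), T ^ x * a ^ y) := by
  induction hh using Subgroup.closure_induction with
  | mem g hg =>
    rcases hg with rfl | rfl
    · exact ⟨1, 0, by simp⟩
    · exact ⟨0, 1, by simp⟩
  | one => exact ⟨0, 0, by simp; rfl⟩
  | mul g g' _ _ hg hg' =>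
    obtain ⟨x, y, rfl⟩ := hg
    obtain ⟨x', y', rfl⟩ := hg'
    refine ⟨x + x', y + y', ?_⟩
    rw [Prod.mk_mul_mk, ← zpow_add]
    congr 1
    · congr 1; ring
    · rw [zpow_add, zpow_add]; exact mul_mul_mul_comm _ _ _ _
  | inv g _ hg =>
    obtain ⟨x, y, rfl⟩ := hg
    refine ⟨-x, -y, ?_⟩
    rw [Prod.inv_mk, ← zpow_neg, mul_inv, ← zpow_neg, ← zpow_neg]
    congr 2; ring

/-- **The crossing subgroup.** If `T ^ x * a ^ y = 1` forces `p ∣ x` and `p ∣ y`, then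
`H = ⟨(σ, T), (σ ^ d, a)⟩` contains `(σ, T)` and `(σ ^ d, a)` and meets `C × 1` trivially. -/
theorem closure_pair (p : ℕ) {σ : C} (hσ : σ ^ p = 1) {T a : U}
    (hTa : ∀ x y : ℤ, T ^ x * a ^ y = 1 → (p : ℤ) ∣ x ∧ (p : ℤ) ∣ y) (d : ℕ) :
    ((σ, T) : C × U) ∈ Subgroup.closure ({((σ, T) : C × U), (σ ^ d, a)} : Set (C × U)) ∧
    ((σ ^ d, a) : C × U) ∈ Subgroup.closure ({((σ, T) : C × U), (σ ^ d, a)} : Set (C × U)) ∧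
    ∀ c : C, ((c, 1) : C × U) ∈
      Subgroup.closure ({((σ, T) : C × U), (σ ^ d, a)} : Set (C × U)) → c = 1 := by
  refine ⟨Subgroup.subset_closure (by simp), Subgroup.subset_closure (by simp), fun c hc => ?_⟩
  obtain ⟨x, y, hxy⟩ := mem_closure_pair hc
  rw [Prod.mk.injEq] at hxy
  obtain ⟨⟨x', rfl⟩, ⟨y', rfl⟩⟩ := hTa x y hxy.2.symm
  rw [hxy.1, show (p : ℤ) * x' + d * (p * y') = p * (x' + d * y') by ring, zpow_mul, zpow_natCast,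
    hσ, one_zpow]

end Group

/-! ### The unit `T` -/

/-- The key computation: if `T ≡ u mod ℓ`, `T ≡ 1 mod ℓ'` and `u` has orders `p ^ k < p ^ k'`
modulo `ℓ`, `ℓ'`, then `T ^ x * u ^ y = 1` forces `p ∣ x` and `p ∣ y`. -/
theorem zpow_mul_zpow_eq_one (p : ℕ) {M ℓ ℓ' : ℕ} (hℓ : ℓ ∣ M) (hℓ' : ℓ' ∣ M)
    (T u : (ZMod M)ˣ)
    (hT : ZMod.castHom hℓ (ZMod ℓ) (T : ZMod M) = ZMod.castHom hℓ (ZMod ℓ) (u : ZMod M))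
    (hT' : ZMod.castHom hℓ' (ZMod ℓ') (T : ZMod M) = 1)
    {k k' : ℕ} (hk : 1 ≤ k) (hkk' : k < k')
    (ho : orderOf (ZMod.castHom hℓ (ZMod ℓ) (u : ZMod M)) = p ^ k)
    (ho' : orderOf (ZMod.castHom hℓ' (ZMod ℓ') (u : ZMod M)) = p ^ k')
    (x y : ℤ) (hxy : T ^ x * u ^ y = 1) : (p : ℤ) ∣ x ∧ (p : ℤ) ∣ y := by
  set φ : (ZMod M)ˣ →* (ZMod ℓ)ˣ := Units.map (ZMod.castHom hℓ (ZMod ℓ)).toMonoidHom with hφ
  set φ' : (ZMod M)ˣ →* (ZMod ℓ')ˣ := Units.map (ZMod.castHom hℓ' (ZMod ℓ')).toMonoidHom with hφ'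
  have hφT : φ T = φ u := Units.ext (by simpa [hφ] using hT)
  have hφ'T : φ' T = 1 := Units.ext (by simpa [hφ'] using hT')
  have oφ : orderOf (φ u) = p ^ k := by
    rw [← orderOf_units]; simpa [hφ] using ho
  have oφ' : orderOf (φ' u) = p ^ k' := by
    rw [← orderOf_units]; simpa [hφ'] using ho'
  have e1 : φ u ^ (x + y) = 1 := by
    have := congrArg φ hxy
    rw [map_mul, map_zpow, map_zpow, hφT, map_one, ← zpow_add] at this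
    exact this
  have e2 : φ' u ^ y = 1 := by
    have := congrArg φ' hxy
    rw [map_mul, map_zpow, map_zpow, hφ'T, map_one, one_zpow, one_mul] at this
    exact this
  have d1 : ((p ^ k : ℕ) : ℤ) ∣ x + y := by
    rw [← oφ]; exact orderOf_dvd_iff_zpow_eq_one.mpr e1
  have d2 : ((p ^ k' : ℕ) : ℤ) ∣ y := by
    rw [← oφ']; exact orderOf_dvd_iff_zpow_eq_one.mpr e2
  have hpk : ((p : ℕ) : ℤ) ∣ ((p ^ k : ℕ) : ℤ) :=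
    Int.natCast_dvd_natCast.mpr (dvd_pow_self p (by omega))
  have hpkk : ((p ^ k : ℕ) : ℤ) ∣ ((p ^ k' : ℕ) : ℤ) :=
    Int.natCast_dvd_natCast.mpr (pow_dvd_pow p hkk'.le)
  have d3 : ((p ^ k : ℕ) : ℤ) ∣ y := hpkk.trans d2
  have d4 : ((p ^ k : ℕ) : ℤ) ∣ x := (Int.dvd_add_left d3).mp d1
  exact ⟨hpk.trans d4, hpk.trans d3⟩

theorem natCast_ne_zero_of_orderOf {p ℓ a k : ℕ} (hp : p.Prime) (hℓ : ℓ.Prime)
    (ho : orderOf (a : ZMod ℓ) = p ^ k) : ¬ ℓ ∣ a := by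
  intro h
  have : Fact ℓ.Prime := ⟨hℓ⟩
  have h0 : (a : ZMod ℓ) = 0 := (ZMod.natCast_eq_zero_iff a ℓ).mpr h
  have hpos : 0 < orderOf (a : ZMod ℓ) := by rw [ho]; exact pow_pos hp.pos k
  have hfin := orderOf_pos_iff.mp hpos
  rw [h0] at hfin
  obtain ⟨n, hn, hn1⟩ := hfin.exists_pow_eq_one
  rw [zero_pow hn.ne'] at hn1
  exact zero_ne_one hn1

theorem not_dvd_of_modEq {ℓ t b : ℕ} (h : t ≡ b [MOD ℓ]) (hb : ¬ ℓ ∣ b) : ¬ ℓ ∣ t :=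
  fun ht => hb ((Nat.modEq_zero_iff_dvd.mp) (h.symm.trans (Nat.modEq_zero_iff_dvd.mpr ht)))

/-- The unit `T` for one prime `𝔮` (norm `a`) and the modulus `m = ℓ * ℓ'`. -/
theorem exists_unit_two (p : ℕ) (hp : p.Prime) {ℓ ℓ' a k k' : ℕ} (hℓ : ℓ.Prime) (hℓ' : ℓ'.Prime)
    (hne : ℓ ≠ ℓ') (hk : 1 ≤ k) (hkk' : k < k')
    (ho : orderOf (a : ZMod ℓ) = p ^ k) (ho' : orderOf (a : ZMod ℓ') = p ^ k') :
    ∃ T : (ZMod (ℓ * ℓ'))ˣ, ∀ u : (ZMod (ℓ * ℓ'))ˣ, (u : ZMod (ℓ * ℓ')) = (a : ZMod (ℓ * ℓ')) →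
      ∀ x y : ℤ, T ^ x * u ^ y = 1 → (p : ℤ) ∣ x ∧ (p : ℤ) ∣ y := by
  have hco : ℓ.Coprime ℓ' := (Nat.coprime_primes hℓ hℓ').mpr hne
  obtain ⟨t, ht, ht'⟩ := Nat.chineseRemainder hco a 1
  have h1 : ¬ ℓ ∣ t := not_dvd_of_modEq ht (natCast_ne_zero_of_orderOf hp hℓ ho)
  have h2 : ¬ ℓ' ∣ t := not_dvd_of_modEq ht' (Nat.Prime.not_dvd_one hℓ')
  have htco : t.Coprime (ℓ * ℓ') :=
    Nat.Coprime.mul_right ((Nat.Prime.coprime_iff_not_dvd hℓ).mpr h1).symm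
      ((Nat.Prime.coprime_iff_not_dvd hℓ').mpr h2).symm
  refine ⟨ZMod.unitOfCoprime t htco, fun u hu x y hxy => ?_⟩
  refine zpow_mul_zpow_eq_one p (dvd_mul_right ℓ ℓ') (dvd_mul_left ℓ' ℓ) _ u ?_ ?_ hk hkk' ?_ ?_
    x y hxy
  · rw [ZMod.coe_unitOfCoprime, hu, map_natCast, map_natCast]
    exact (ZMod.natCast_eq_natCast_iff _ _ _).mpr ht
  · rw [ZMod.coe_unitOfCoprime, map_natCast]
    simpa using (ZMod.natCast_eq_natCast_iff _ _ _).mpr ht'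
  · rw [hu, map_natCast]; exact ho
  · rw [hu, map_natCast]; exact ho'

/-- The unit `T` for two primes `𝔮₁, 𝔮₂` (norms `a₁, a₂`) and the single modulus
`M = ℓ₁ * ℓ₁' * (ℓ₂ * ℓ₂')`. -/
theorem exists_unit_four (p : ℕ) (hp : p.Prime) {ℓ₁ ℓ₁' ℓ₂ ℓ₂' a₁ a₂ k₁ k₁' k₂ k₂' : ℕ}
    (hℓ₁ : ℓ₁.Prime) (hℓ₁' : ℓ₁'.Prime) (hℓ₂ : ℓ₂.Prime) (hℓ₂' : ℓ₂'.Prime)
    (h11 : ℓ₁ ≠ ℓ₁') (h12 : ℓ₁ ≠ ℓ₂) (h12' : ℓ₁ ≠ ℓ₂') (h1'2 : ℓ₁' ≠ ℓ₂) (h1'2' : ℓ₁' ≠ ℓ₂')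
    (h22 : ℓ₂ ≠ ℓ₂')
    (hk₁ : 1 ≤ k₁) (hkk₁ : k₁ < k₁') (hk₂ : 1 ≤ k₂) (hkk₂ : k₂ < k₂')
    (ho₁ : orderOf (a₁ : ZMod ℓ₁) = p ^ k₁) (ho₁' : orderOf (a₁ : ZMod ℓ₁') = p ^ k₁')
    (ho₂ : orderOf (a₂ : ZMod ℓ₂) = p ^ k₂) (ho₂' : orderOf (a₂ : ZMod ℓ₂') = p ^ k₂') :
    ∃ T : (ZMod (ℓ₁ * ℓ₁' * (ℓ₂ * ℓ₂')))ˣ,
      (∀ u : (ZMod (ℓ₁ * ℓ₁' * (ℓ₂ * ℓ₂')))ˣ,
        (u : ZMod (ℓ₁ * ℓ₁' * (ℓ₂ * ℓ₂'))) = (a₁ : ZMod (ℓ₁ * ℓ₁' * (ℓ₂ * ℓ₂'))) →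
        ∀ x y : ℤ, T ^ x * u ^ y = 1 → (p : ℤ) ∣ x ∧ (p : ℤ) ∣ y) ∧
      (∀ u : (ZMod (ℓ₁ * ℓ₁' * (ℓ₂ * ℓ₂')))ˣ,
        (u : ZMod (ℓ₁ * ℓ₁' * (ℓ₂ * ℓ₂'))) = (a₂ : ZMod (ℓ₁ * ℓ₁' * (ℓ₂ * ℓ₂'))) →
        ∀ x y : ℤ, T ^ x * u ^ y = 1 → (p : ℤ) ∣ x ∧ (p : ℤ) ∣ y) := by
  have c11 : ℓ₁.Coprime ℓ₁' := (Nat.coprime_primes hℓ₁ hℓ₁').mpr h11
  have c22 : ℓ₂.Coprime ℓ₂' := (Nat.coprime_primes hℓ₂ hℓ₂').mpr h22
  have c12 : ℓ₁.Coprime ℓ₂ := (Nat.coprime_primes hℓ₁ hℓ₂).mpr h12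
  have c12' : ℓ₁.Coprime ℓ₂' := (Nat.coprime_primes hℓ₁ hℓ₂').mpr h12'
  have c1'2 : ℓ₁'.Coprime ℓ₂ := (Nat.coprime_primes hℓ₁' hℓ₂).mpr h1'2
  have c1'2' : ℓ₁'.Coprime ℓ₂' := (Nat.coprime_primes hℓ₁' hℓ₂').mpr h1'2'
  have cM : (ℓ₁ * ℓ₁').Coprime (ℓ₂ * ℓ₂') :=
    Nat.Coprime.mul_left (Nat.Coprime.mul_right c12 c12') (Nat.Coprime.mul_right c1'2 c1'2')
  obtain ⟨t₁, ht₁, ht₁'⟩ := Nat.chineseRemainder c11 a₁ 1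
  obtain ⟨t₂, ht₂, ht₂'⟩ := Nat.chineseRemainder c22 a₂ 1
  obtain ⟨t, ht, ht'⟩ := Nat.chineseRemainder cM t₁ t₂
  have e1 : t ≡ a₁ [MOD ℓ₁] := (Nat.ModEq.of_mul_right _ ht).trans ht₁
  have e1' : t ≡ 1 [MOD ℓ₁'] := (Nat.ModEq.of_mul_left _ ht).trans ht₁'
  have e2 : t ≡ a₂ [MOD ℓ₂] := (Nat.ModEq.of_mul_right _ ht').trans ht₂
  have e2' : t ≡ 1 [MOD ℓ₂'] := (Nat.ModEq.of_mul_left _ ht').trans ht₂'
  have n1 : ¬ ℓ₁ ∣ t := not_dvd_of_modEq e1 (natCast_ne_zero_of_orderOf hp hℓ₁ ho₁)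
  have n1' : ¬ ℓ₁' ∣ t := not_dvd_of_modEq e1' (Nat.Prime.not_dvd_one hℓ₁')
  have n2 : ¬ ℓ₂ ∣ t := not_dvd_of_modEq e2 (natCast_ne_zero_of_orderOf hp hℓ₂ ho₂)
  have n2' : ¬ ℓ₂' ∣ t := not_dvd_of_modEq e2' (Nat.Prime.not_dvd_one hℓ₂')
  have htco : t.Coprime (ℓ₁ * ℓ₁' * (ℓ₂ * ℓ₂')) :=
    Nat.Coprime.mul_right
      (Nat.Coprime.mul_right ((Nat.Prime.coprime_iff_not_dvd hℓ₁).mpr n1).symm
        ((Nat.Prime.coprime_iff_not_dvd hℓ₁').mpr n1').symm)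
      (Nat.Coprime.mul_right ((Nat.Prime.coprime_iff_not_dvd hℓ₂).mpr n2).symm
        ((Nat.Prime.coprime_iff_not_dvd hℓ₂').mpr n2').symm)
  have d1 : ℓ₁ ∣ ℓ₁ * ℓ₁' * (ℓ₂ * ℓ₂') := Dvd.dvd.mul_right (dvd_mul_right ℓ₁ ℓ₁') _
  have d1' : ℓ₁' ∣ ℓ₁ * ℓ₁' * (ℓ₂ * ℓ₂') := Dvd.dvd.mul_right (dvd_mul_left ℓ₁' ℓ₁) _
  have d2 : ℓ₂ ∣ ℓ₁ * ℓ₁' * (ℓ₂ * ℓ₂') := Dvd.dvd.mul_left (dvd_mul_right ℓ₂ ℓ₂') _
  have d2' : ℓ₂' ∣ ℓ₁ * ℓ₁' * (ℓ₂ * ℓ₂') := Dvd.dvd.mul_left (dvd_mul_left ℓ₂' ℓ₂) _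
  refine ⟨ZMod.unitOfCoprime t htco, fun u hu x y hxy => ?_, fun u hu x y hxy => ?_⟩
  · refine zpow_mul_zpow_eq_one p d1 d1' _ u ?_ ?_ hk₁ hkk₁ ?_ ?_ x y hxy
    · rw [ZMod.coe_unitOfCoprime, hu, map_natCast, map_natCast]
      exact (ZMod.natCast_eq_natCast_iff _ _ _).mpr e1
    · rw [ZMod.coe_unitOfCoprime, map_natCast]
      simpa using (ZMod.natCast_eq_natCast_iff _ _ _).mpr e1'
    · rw [hu, map_natCast]; exact ho₁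
    · rw [hu, map_natCast]; exact ho₁'
  · refine zpow_mul_zpow_eq_one p d2 d2' _ u ?_ ?_ hk₂ hkk₂ ?_ ?_ x y hxy
    · rw [ZMod.coe_unitOfCoprime, hu, map_natCast, map_natCast]
      exact (ZMod.natCast_eq_natCast_iff _ _ _).mpr e2
    · rw [ZMod.coe_unitOfCoprime, map_natCast]
      simpa using (ZMod.natCast_eq_natCast_iff _ _ _).mpr e2'
    · rw [hu, map_natCast]; exact ho₂
    · rw [hu, map_natCast]; exact ho₂'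

end Fermat.Agent.S14.ArtinLemma
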