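import Mathlib

/-!
# S14, Artin crossing: arithmetic and group-theoretic core

* `exists_prime_orderOf`: for an odd prime `p`, `n ≥ 2` and `k ≥ 1` there is a prime `ℓ ≠ p`
  such that `n` has multiplicative order exactly `p ^ k` modulo `ℓ`.
* `exists_primes_orderOf`: two such primes, outside a given finite set, with exponents `k < k'`.
* `ArtinGroup`: the subgroup `H = ⟨(σ, (n₁, 1)), (σ ^ d, (n₁, n₂))⟩` of `C × (A₁ × A₂)`
  used in Artin's lemma and its basic properties.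
-/

open Finset

namespace Fermat.Agent.S14.CrossCore

/-! ### Primes with prescribed order -/

/-- `1 + y + ⋯ + y ^ (p - 1)` with `y = x + 1 ≥ 2` is bigger than `p`. -/
theorem lt_geomSum (p : ℕ) (hp : 2 ≤ p) (x : ℕ) (hx : 1 ≤ x) :
    p < ∑ i ∈ range p, (x + 1) ^ i := by
  have h1 : ∀ i ∈ range p, 1 ≤ (x + 1) ^ i := fun i _ => Nat.one_le_pow _ _ (Nat.succ_pos _)
  have hmem : 1 ∈ range p := mem_range.mpr (by omega)
  have h2 : ∑ i ∈ range p, (1 : ℕ) < ∑ i ∈ range p, (x + 1) ^ i := by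
    apply Finset.sum_lt_sum h1
    exact ⟨1, hmem, by rw [pow_one]; omega⟩
  simpa using h2

/-- `p ^ 2` does not divide `1 + y + ⋯ + y ^ (p - 1)`, `y = x + 1 ≥ 2`, for an odd prime `p`. -/
theorem not_sq_dvd_geomSum (p : ℕ) [hp : Fact p.Prime] (hp2 : p ≠ 2) (x : ℕ) (hx : 1 ≤ x) :
    ¬ p ^ 2 ∣ ∑ i ∈ range p, (x + 1) ^ i := by
  set N := ∑ i ∈ range p, (x + 1) ^ i with hN
  have hgeom : N * x + 1 = (x + 1) ^ p := geom_sum_mul_add x p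
  have hNpos : N ≠ 0 := by
    have := lt_geomSum p hp.out.two_le x hx
    omega
  by_cases hpx : p ∣ x
  · -- lifting the exponent
    have hodd : Odd p := hp.out.odd_of_ne_two hp2
    have hnd : ¬ p ∣ x + 1 := by
      intro h
      have : p ∣ 1 := (Nat.dvd_add_right hpx).mp h
      exact hp.out.one_lt.ne' (Nat.dvd_one.mp this)
    have hlte := padicValNat.pow_sub_pow (p := p) hodd (show 1 < x + 1 by omega)
      (by simpa using hpx) hnd (n := p) hp.out.ne_zero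
    have h1 : (x + 1) ^ p - 1 ^ p = N * x := by rw [one_pow, ← hgeom]; simp
    rw [h1, padicValNat.mul hNpos (by omega), Nat.add_sub_cancel, padicValNat_self] at hlte
    have hv : padicValNat p N = 1 := by omega
    rw [padicValNat_dvd_iff_le hNpos, hv]
    omega
  · -- `N ≡ 1 mod p`
    intro hdvd
    have hpN : p ∣ N := dvd_trans (dvd_pow_self p two_ne_zero) hdvd
    have hz : ((N * x + 1 : ℕ) : ZMod p) = ((x + 1 : ℕ) : ZMod p) := by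
      rw [hgeom, Nat.cast_pow, ZMod.pow_card]
    have hN0 : (N : ZMod p) = 0 := (ZMod.natCast_eq_zero_iff N p).mpr hpN
    have hx0 : (x : ZMod p) ≠ 0 := fun h => hpx ((ZMod.natCast_eq_zero_iff x p).mp h)
    push_cast at hz
    rw [hN0, zero_mul, zero_add] at hz
    exact hx0 (by linear_combination -hz)

/-- `1 + y + ⋯ + y ^ (p - 1)`, `y ≥ 2`, has a prime factor different from the odd prime `p`. -/
theorem exists_prime_dvd_geomSum (p : ℕ) (hp : p.Prime) (hp2 : p ≠ 2) (y : ℕ) (hy : 2 ≤ y) :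
    ∃ ℓ : ℕ, ℓ.Prime ∧ ℓ ≠ p ∧ ℓ ∣ ∑ i ∈ range p, y ^ i := by
  have : Fact p.Prime := ⟨hp⟩
  obtain ⟨x, rfl⟩ : ∃ x, y = x + 1 := ⟨y - 1, by omega⟩
  have hx : 1 ≤ x := by omega
  set N := ∑ i ∈ range p, (x + 1) ^ i with hN
  have hlt : p < N := lt_geomSum p hp.two_le x hx
  have hsq : ¬ p ^ 2 ∣ N := not_sq_dvd_geomSum p hp2 x hx
  by_contra hcon
  push Not at hcon
  have hall : ∀ {d : ℕ}, d.Prime → d ∣ N → d = p := by
    intro d hd hdN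
    by_contra hne
    exact hcon d hd hne hdN
  have hpow := Nat.eq_prime_pow_of_unique_prime_dvd (by omega : N ≠ 0) hall
  set j := N.primeFactorsList.length with hj
  have hj2 : 2 ≤ j := by
    by_contra hlt2
    have hj1 : j ≤ 1 := by omega
    have : N ≤ p := by
      rw [hpow]
      calc p ^ j ≤ p ^ 1 := Nat.pow_le_pow_right hp.pos hj1
        _ = p := pow_one p
    omega
  exact hsq (hpow ▸ pow_dvd_pow p hj2)

/-- For an odd prime `p`, `n ≥ 2` and `k ≥ 1` there is a prime `ℓ ≠ p` such that `n` has order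
exactly `p ^ k` in `ZMod ℓ`. -/
theorem exists_prime_orderOf (p : ℕ) (hp : p.Prime) (hp2 : p ≠ 2) (n : ℕ) (hn : 2 ≤ n)
    (k : ℕ) (hk : 1 ≤ k) :
    ∃ ℓ : ℕ, ℓ.Prime ∧ ℓ ≠ p ∧ orderOf ((n : ZMod ℓ)) = p ^ k := by
  obtain ⟨k, rfl⟩ : ∃ k', k = k' + 1 := ⟨k - 1, by omega⟩
  have hy : 2 ≤ n ^ p ^ k := le_trans hn (Nat.le_self_pow (pow_ne_zero _ hp.ne_zero) n)
  obtain ⟨ℓ, hℓ, hℓp, hdvd⟩ := exists_prime_dvd_geomSum p hp hp2 (n ^ p ^ k) hy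
  refine ⟨ℓ, hℓ, hℓp, ?_⟩
  have : Fact ℓ.Prime := ⟨hℓ⟩
  set a : ZMod ℓ := (n : ZMod ℓ) with ha
  have hsum : ∑ i ∈ range p, (a ^ p ^ k) ^ i = 0 := by
    have := (ZMod.natCast_eq_zero_iff _ ℓ).mpr hdvd
    push_cast at this
    exact this
  have hpow : a ^ p ^ (k + 1) = 1 := by
    have h := geom_sum_mul (a ^ p ^ k) p
    rw [hsum, zero_mul] at h
    rw [pow_succ, pow_mul]
    exact (sub_eq_zero.mp h.symm)
  obtain ⟨j, hj, hord⟩ := (Nat.dvd_prime_pow hp).mp (orderOf_dvd_of_pow_eq_one hpow)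
  rcases Nat.lt_or_ge j (k + 1) with hlt | hge
  · exfalso
    have hdvd' : orderOf a ∣ p ^ k := by
      rw [hord]
      exact pow_dvd_pow p (by omega)
    have h1 : a ^ p ^ k = 1 := orderOf_dvd_iff_pow_eq_one.mp hdvd'
    rw [h1] at hsum
    simp only [one_pow, sum_const, card_range, nsmul_eq_mul, mul_one] at hsum
    have : ℓ ∣ p := (ZMod.natCast_eq_zero_iff p ℓ).mp hsum
    exact hℓp ((Nat.prime_dvd_prime_iff_eq hℓ hp).mp this)
  · rw [hord]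
    congr 1
    omega

/-- Primes with prescribed order outside a finite set, with arbitrarily large exponent. -/
theorem exists_prime_orderOf_notMem (p : ℕ) (hp : p.Prime) (hp2 : p ≠ 2) (n : ℕ) (hn : 2 ≤ n)
    (S : Finset ℕ) (k₀ : ℕ) :
    ∃ (ℓ k : ℕ), ℓ.Prime ∧ ℓ ≠ p ∧ ℓ ∉ S ∧ k₀ < k ∧ orderOf ((n : ZMod ℓ)) = p ^ k := by
  classical
  have hex : ∀ k : ℕ, ∃ ℓ : ℕ, ℓ.Prime ∧ ℓ ≠ p ∧ orderOf ((n : ZMod ℓ)) = p ^ (k + 1) :=
    fun k => exists_prime_orderOf p hp hp2 n hn (k + 1) (by omega)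
  choose f hf1 hf2 hf3 using hex
  have hinj : Function.Injective f := by
    intro k k' h
    have h3 := hf3 k
    rw [h, hf3 k'] at h3
    have := Nat.pow_right_injective hp.two_le h3
    omega
  set t : Finset ℕ := (Finset.Ico k₀ (k₀ + S.card + 1)).image f with ht
  have hcard : S.card < t.card := by
    rw [ht, Finset.card_image_of_injective _ hinj, Nat.card_Ico]
    omega
  obtain ⟨e, het, heS⟩ := Finset.exists_mem_notMem_of_card_lt_card hcard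
  obtain ⟨k, hk, rfl⟩ := Finset.mem_image.mp het
  exact ⟨f k, k + 1, hf1 k, hf2 k, heS, by have := (Finset.mem_Ico.mp hk).1; omega, hf3 k⟩

/-- Two primes `ℓ ≠ ℓ'` outside a finite set `S`, different from `p`, such that `n` has order
`p ^ k` modulo `ℓ` and `p ^ k'` modulo `ℓ'` with `1 ≤ k < k'`. -/
theorem exists_primes_orderOf (p : ℕ) (hp : p.Prime) (hp2 : p ≠ 2) (n : ℕ) (hn : 2 ≤ n)
    (S : Finset ℕ) :
    ∃ (ℓ ℓ' k k' : ℕ), ℓ.Prime ∧ ℓ'.Prime ∧ ℓ ∉ S ∧ ℓ' ∉ S ∧ ℓ ≠ ℓ' ∧ ℓ ≠ p ∧ ℓ' ≠ p ∧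
      1 ≤ k ∧ k < k' ∧ orderOf ((n : ZMod ℓ)) = p ^ k ∧ orderOf ((n : ZMod ℓ')) = p ^ k' := by
  obtain ⟨ℓ, k, hℓ, hℓp, hℓS, hk, hord⟩ := exists_prime_orderOf_notMem p hp hp2 n hn S 0
  obtain ⟨ℓ', k', hℓ', hℓ'p, hℓ'S, hk', hord'⟩ := exists_prime_orderOf_notMem p hp hp2 n hn S k
  refine ⟨ℓ, ℓ', k, k', hℓ, hℓ', hℓS, hℓ'S, ?_, hℓp, hℓ'p, hk, hk', hord, hord'⟩
  rintro rfl
  rw [hord] at hord'
  have := Nat.pow_right_injective hp.two_le hord'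
  omega

/-! ### Group theory of Artin's lemma -/

section ArtinGroup

variable {C A₁ A₂ : Type*} [CommGroup C] [CommGroup A₁] [CommGroup A₂]

/-- The subgroup `H = ⟨(σ, (n₁, 1)), (σ ^ d, (n₁, n₂))⟩` of `C × (A₁ × A₂)`:
`C = Gal(L/K)`, `A₁ × A₂ = (ℤ/ℓ)ˣ × (ℤ/ℓ')ˣ = Gal(K(ζ_m)/K)`, `(n₁, n₂)` the class of the norm
of the prime `𝔮`, `σ ^ d` its Frobenius in `L/K`. -/
def artinSubgroup (σ : C) (n₁ : A₁) (n₂ : A₂) (d : ℕ) : Subgroup (C × (A₁ × A₂)) :=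
  Subgroup.closure {(σ, (n₁, 1)), (σ ^ d, (n₁, n₂))}

theorem gen_mem_artinSubgroup (σ : C) (n₁ : A₁) (n₂ : A₂) (d : ℕ) :
    (σ, (n₁, (1 : A₂))) ∈ artinSubgroup σ n₁ n₂ d :=
  Subgroup.subset_closure (Set.mem_insert _ _)

theorem frob_mem_artinSubgroup (σ : C) (n₁ : A₁) (n₂ : A₂) (d : ℕ) :
    (σ ^ d, (n₁, n₂)) ∈ artinSubgroup σ n₁ n₂ d :=
  Subgroup.subset_closure (Set.mem_insert_of_mem _ rfl)

theorem mem_artinSubgroup_iff {σ : C} {n₁ : A₁} {n₂ : A₂} {d : ℕ} {x : C × (A₁ × A₂)} :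
    x ∈ artinSubgroup σ n₁ n₂ d ↔
      ∃ a b : ℤ, x = (σ ^ (a + d * b), (n₁ ^ (a + b), n₂ ^ b)) := by
  rw [artinSubgroup, Subgroup.mem_closure_pair]
  have key : ∀ a b : ℤ, ((σ, (n₁, (1 : A₂))) : C × (A₁ × A₂)) ^ a * (σ ^ d, (n₁, n₂)) ^ b =
      (σ ^ (a + d * b), (n₁ ^ (a + b), n₂ ^ b)) := by
    intro a b
    rw [Prod.pow_mk, Prod.pow_mk, Prod.pow_mk, Prod.pow_mk, Prod.mk_mul_mk, Prod.mk_mul_mk,
      one_zpow, one_mul, zpow_add, zpow_add, zpow_mul, zpow_natCast]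
  constructor
  · rintro ⟨a, b, rfl⟩
    exact ⟨a, b, key a b⟩
  · rintro ⟨a, b, rfl⟩
    exact ⟨a, b, key a b⟩

/-- `H ∩ (C × 1) = 1`: an element of `H` with trivial cyclotomic component is trivial.
(Field side: `L · F ⊆ F(ζ_m)` for the fixed field `F` of `H`.) -/
theorem eq_one_of_mem_artinSubgroup_of_snd_eq_one (p : ℕ) {σ : C}
    (hσ : σ ^ p = 1) {n₁ : A₁} {n₂ : A₂} {k k' : ℕ} (hk : 1 ≤ k) (hk' : 1 ≤ k')
    (h₁ : orderOf n₁ = p ^ k) (h₂ : orderOf n₂ = p ^ k') {d : ℕ} {x : C × (A₁ × A₂)}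
    (hx : x ∈ artinSubgroup σ n₁ n₂ d) (hx2 : x.2 = 1) : x = 1 := by
  obtain ⟨a, b, rfl⟩ := mem_artinSubgroup_iff.mp hx
  have e1 : n₁ ^ (a + b) = 1 := congrArg Prod.fst hx2
  have e2 : n₂ ^ b = 1 := congrArg Prod.snd hx2
  have hpk : (p : ℤ) ∣ ((p ^ k : ℕ) : ℤ) := by
    rw [Nat.cast_pow]; exact dvd_pow_self _ (by omega)
  have hpk' : (p : ℤ) ∣ ((p ^ k' : ℕ) : ℤ) := by
    rw [Nat.cast_pow]; exact dvd_pow_self _ (by omega)
  have d1 : (p : ℤ) ∣ a + b := by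
    have := orderOf_dvd_iff_zpow_eq_one.mpr e1
    rw [h₁] at this
    exact dvd_trans hpk this
  have d2 : (p : ℤ) ∣ b := by
    have := orderOf_dvd_iff_zpow_eq_one.mpr e2
    rw [h₂] at this
    exact dvd_trans hpk' this
  have d3 : (p : ℤ) ∣ a + d * b := by
    have ha : (p : ℤ) ∣ a := (Int.dvd_add_left d2).mp d1
    exact dvd_add ha (Dvd.dvd.mul_left d2 _)
  obtain ⟨c, hc⟩ := d3
  have e3 : σ ^ (a + d * b) = 1 := by
    rw [hc, zpow_mul, zpow_natCast, hσ, one_zpow]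
  ext
  · exact e3
  · exact e1
  · exact e2

/-- The cyclotomic component determines the element of `H`.
(Field side: the symbol of an ideal of `F` in `L F / F` only depends on its norm modulo `m`.) -/
theorem fst_eq_of_mem_artinSubgroup_of_snd_eq (p : ℕ) {σ : C}
    (hσ : σ ^ p = 1) {n₁ : A₁} {n₂ : A₂} {k k' : ℕ} (hk : 1 ≤ k) (hk' : 1 ≤ k')
    (h₁ : orderOf n₁ = p ^ k) (h₂ : orderOf n₂ = p ^ k') {d : ℕ} {x y : C × (A₁ × A₂)}
    (hx : x ∈ artinSubgroup σ n₁ n₂ d) (hy : y ∈ artinSubgroup σ n₁ n₂ d) (hxy : x.2 = y.2) :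
    x = y := by
  have h := eq_one_of_mem_artinSubgroup_of_snd_eq_one p hσ hk hk' h₁ h₂
    ((artinSubgroup σ n₁ n₂ d).mul_mem hx ((artinSubgroup σ n₁ n₂ d).inv_mem hy))
    (by rw [Prod.snd_mul, Prod.snd_inv, hxy, mul_inv_cancel])
  exact mul_inv_eq_one.mp h

/-- `H` projects onto `C` as soon as `σ` generates `C`.
(Field side: `L F / F` is cyclic of the same degree as `L / K`.) -/
theorem exists_mem_artinSubgroup_fst_eq {σ : C} (hgen : ∀ c : C, c ∈ Subgroup.zpowers σ)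
    (n₁ : A₁) (n₂ : A₂) (d : ℕ) (c : C) : ∃ x ∈ artinSubgroup σ n₁ n₂ d, x.1 = c := by
  obtain ⟨a, rfl⟩ := Subgroup.mem_zpowers_iff.mp (hgen c)
  exact ⟨(σ, (n₁, (1 : A₂))) ^ a,
    (artinSubgroup σ n₁ n₂ d).zpow_mem (gen_mem_artinSubgroup σ n₁ n₂ d) a, by simp⟩

end ArtinGroup

/-! ### Two moduli at once -/

section TwoModuli

variable {C B₁ B₂ : Type*} [CommGroup C] [CommGroup B₁] [CommGroup B₂]

/-- Preimage in `C × (B₁ × B₂)` of a subgroup of `C × B₁`. -/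
def liftLeft (H₁ : Subgroup (C × B₁)) : Subgroup (C × (B₁ × B₂)) :=
  H₁.comap ((MonoidHom.id C).prodMap (MonoidHom.fst B₁ B₂))

/-- Preimage in `C × (B₁ × B₂)` of a subgroup of `C × B₂`. -/
def liftRight (H₂ : Subgroup (C × B₂)) : Subgroup (C × (B₁ × B₂)) :=
  H₂.comap ((MonoidHom.id C).prodMap (MonoidHom.snd B₁ B₂))

@[simp] theorem mem_liftLeft {H₁ : Subgroup (C × B₁)} {x : C × (B₁ × B₂)} :
    x ∈ liftLeft (B₂ := B₂) H₁ ↔ (x.1, x.2.1) ∈ H₁ := Iff.rfl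

@[simp] theorem mem_liftRight {H₂ : Subgroup (C × B₂)} {x : C × (B₁ × B₂)} :
    x ∈ liftRight (B₁ := B₁) H₂ ↔ (x.1, x.2.2) ∈ H₂ := Iff.rfl

/-- If `(σ, τ₁) ∈ H₁` and `(σ, τ₂) ∈ H₂` with `σ` a generator of `C`, the intersection of the
two preimages still projects onto `C`.
(Field side: `L ⊄ F₁ F₂`, so `L F₁ F₂ / F₁ F₂` is again cyclic of the same degree.) -/
theorem exists_mem_inf_fst_eq {σ : C} (hgen : ∀ c : C, c ∈ Subgroup.zpowers σ)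
    {H₁ : Subgroup (C × B₁)} {H₂ : Subgroup (C × B₂)} {τ₁ : B₁} {τ₂ : B₂}
    (h₁ : (σ, τ₁) ∈ H₁) (h₂ : (σ, τ₂) ∈ H₂) (c : C) :
    ∃ x ∈ liftLeft (B₂ := B₂) H₁ ⊓ liftRight (B₁ := B₁) H₂, x.1 = c := by
  obtain ⟨a, rfl⟩ := Subgroup.mem_zpowers_iff.mp (hgen c)
  have hmem : ((σ, (τ₁, τ₂)) : C × (B₁ × B₂)) ∈
      liftLeft (B₂ := B₂) H₁ ⊓ liftRight (B₁ := B₁) H₂ :=
    ⟨h₁, h₂⟩
  exact ⟨(σ, (τ₁, τ₂)) ^ a, Subgroup.zpow_mem _ hmem a, by simp⟩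

end TwoModuli

end Fermat.Agent.S14.CrossCore
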