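import Mathlib
import Fermat.Agent.S14.ArtinLemma
import Fermat.Agent.S14.CrossCore

/-!
# S14, stream E1b: the crossing subgroups `H₁`, `H₂` of `Gal(L(ζ_M)/K)`

## Abstract core

`res : G →* C` (restriction to `L`), `χ : G →* U` (cyclotomic character), jointly injective.
For `g₀ φ : G` the subgroup `pairSubgroup res χ hab g₀ φ` consists of the `g` whose image under
`(res, χ)` is `(res g₀, χ g₀) ^ a * (res φ, χ φ) ^ b` for some `a b : ℤ`.  It contains `g₀` and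
`φ`; if `χ g₀ ^ a * χ φ ^ b = 1` forces `res g₀ ^ a * res φ ^ b = 1` (Artin's lemma), the only
element of it with trivial character is `1`; and if `C` has prime order and `res g₀ ≠ 1`, then
`⟨g₀⟩ ≤ pairSubgroup g₀ φ₁ ⊓ pairSubgroup g₀ φ₂` already surjects onto `C`.

## Field form

`K ≤ L ≤ Ω`, `Ω/K` and `L/K` normal, `Gal(L/K)` of prime order `p`, `ζ ∈ Ω` a primitive `M`-th
root of unity such that an element of `Gal(Ω/K)` fixing `L` and `ζ` is trivial (`Ω = L(ζ)`).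
`exists_subgroups` produces `H₁ H₂ ≤ Gal(Ω/K)` containing two given elements `φ₁`, `φ₂`
(Frobenius elements), acting faithfully on `ζ`, with `H₁ ⊓ H₂` surjecting onto `Gal(L/K)`.
-/

set_option autoImplicit false

namespace Fermat.Agent.S14.CrossH

section Abstract

variable {G C U : Type*} [Group G] [Group C] [CommGroup U] (res : G →* C) (χ : G →* U)

/-- The subgroup of `G` of the elements whose image under `(res, χ)` lies in the subgroup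
generated by the images of `g₀` and `φ`. -/
def pairSubgroup (hab : ∀ x y : C, x * y = y * x) (g₀ φ : G) : Subgroup G where
  carrier := {g | ∃ a b : ℤ, res g = res g₀ ^ a * res φ ^ b ∧ χ g = χ g₀ ^ a * χ φ ^ b}
  one_mem' := ⟨0, 0, by simp, by simp⟩
  mul_mem' := by
    rintro g g' ⟨a, b, h1, h2⟩ ⟨a', b', h1', h2'⟩
    refine ⟨a + a', b + b', ?_, ?_⟩
    · rw [map_mul, h1, h1', zpow_add, zpow_add]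
      have hc : res φ ^ b * res g₀ ^ a' = res g₀ ^ a' * res φ ^ b := hab _ _
      calc res g₀ ^ a * res φ ^ b * (res g₀ ^ a' * res φ ^ b')
          = res g₀ ^ a * (res φ ^ b * res g₀ ^ a') * res φ ^ b' := by simp only [mul_assoc]
        _ = res g₀ ^ a * (res g₀ ^ a' * res φ ^ b) * res φ ^ b' := by rw [hc]
        _ = res g₀ ^ a * res g₀ ^ a' * (res φ ^ b * res φ ^ b') := by simp only [mul_assoc]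
    · rw [map_mul, h2, h2', zpow_add, zpow_add]
      exact mul_mul_mul_comm _ _ _ _
  inv_mem' := by
    rintro g ⟨a, b, h1, h2⟩
    refine ⟨-a, -b, ?_, ?_⟩
    · rw [map_inv, h1, mul_inv_rev, zpow_neg, zpow_neg]
      exact hab _ _
    · rw [map_inv, h2, mul_inv, zpow_neg, zpow_neg]

variable {res χ}

theorem mem_pairSubgroup_iff {hab : ∀ x y : C, x * y = y * x} {g₀ φ g : G} :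
    g ∈ pairSubgroup res χ hab g₀ φ ↔
      ∃ a b : ℤ, res g = res g₀ ^ a * res φ ^ b ∧ χ g = χ g₀ ^ a * χ φ ^ b := Iff.rfl

theorem gen_mem_pairSubgroup (hab : ∀ x y : C, x * y = y * x) (g₀ φ : G) :
    g₀ ∈ pairSubgroup res χ hab g₀ φ := ⟨1, 0, by simp, by simp⟩

theorem frob_mem_pairSubgroup (hab : ∀ x y : C, x * y = y * x) (g₀ φ : G) :
    φ ∈ pairSubgroup res χ hab g₀ φ := ⟨0, 1, by simp, by simp⟩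

/-- **Faithfulness.** Under Artin's independence condition the only element of the pair subgroup
with trivial character is `1`. -/
theorem eq_one_of_mem_pairSubgroup (hinj : ∀ g : G, res g = 1 → χ g = 1 → g = 1)
    {hab : ∀ x y : C, x * y = y * x} {g₀ φ : G}
    (hind : ∀ a b : ℤ, χ g₀ ^ a * χ φ ^ b = 1 → res g₀ ^ a * res φ ^ b = 1)
    {g : G} (hg : g ∈ pairSubgroup res χ hab g₀ φ) (hχ : χ g = 1) : g = 1 := by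
  obtain ⟨a, b, h1, h2⟩ := hg
  refine hinj g ?_ hχ
  rw [h1]
  exact hind a b (by rw [← h2, hχ])

/-- **Surjectivity.** If `C` has prime order and `res g₀ ≠ 1`, the intersection of two pair
subgroups with the same `g₀` surjects onto `C`. -/
theorem exists_mem_inf_res_eq {p : ℕ} (hp : p.Prime) (hC : Nat.card C = p)
    (hab : ∀ x y : C, x * y = y * x) {g₀ : G} (hg₀ : res g₀ ≠ 1) (φ₁ φ₂ : G) (c : C) :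
    ∃ h ∈ pairSubgroup res χ hab g₀ φ₁ ⊓ pairSubgroup res χ hab g₀ φ₂, res h = c := by
  have : Fact p.Prime := ⟨hp⟩
  have hc : c ∈ Subgroup.zpowers (res g₀) := by
    rw [zpowers_eq_top_of_prime_card hC hg₀]
    trivial
  obtain ⟨k, rfl⟩ := Subgroup.mem_zpowers_iff.mp hc
  refine ⟨g₀ ^ k, ⟨?_, ?_⟩, by rw [map_zpow]⟩
  · exact Subgroup.zpow_mem _ (gen_mem_pairSubgroup hab g₀ φ₁) k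
  · exact Subgroup.zpow_mem _ (gen_mem_pairSubgroup hab g₀ φ₂) k

end Abstract

section Root

variable {Ω : Type*} [Field Ω] {M : ℕ} [NeZero M] {ζ : Ω}

omit [NeZero M] in
theorem pow_mod_eq (hζ : IsPrimitiveRoot ζ M) (n : ℕ) : ζ ^ (n % M) = ζ ^ n := by
  conv_rhs => rw [← Nat.mod_add_div n M, pow_add, pow_mul, hζ.pow_eq_one, one_pow, mul_one]

/-- For a primitive `M`-th root of unity, `ζ ^ a = ζ ^ b` iff `a = b` in `ZMod M`. -/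
theorem natCast_eq_of_pow_eq (hζ : IsPrimitiveRoot ζ M) {a b : ℕ} (h : ζ ^ a = ζ ^ b) :
    (a : ZMod M) = (b : ZMod M) := by
  rw [← pow_mod_eq hζ a, ← pow_mod_eq hζ b] at h
  have h1 := hζ.pow_inj (Nat.mod_lt _ (NeZero.pos M)) (Nat.mod_lt _ (NeZero.pos M)) h
  rw [← ZMod.natCast_mod a, ← ZMod.natCast_mod b, h1]

variable {K : Type*} [Field K] [Algebra K Ω]

/-- The cyclotomic character of `g` is `n` as soon as `g ζ = ζ ^ n`. -/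
theorem coe_autToPow_eq (hζ : IsPrimitiveRoot ζ M) (g : Ω ≃ₐ[K] Ω) {n : ℕ} (hg : g ζ = ζ ^ n) :
    ((hζ.autToPow K g : (ZMod M)ˣ) : ZMod M) = (n : ZMod M) := by
  have h1 : ζ ^ ((hζ.autToPow K g : (ZMod M)ˣ) : ZMod M).val = ζ ^ n := by
    rw [hζ.autToPow_spec K g, hg]
  have h2 := natCast_eq_of_pow_eq hζ h1
  rwa [ZMod.natCast_zmod_val] at h2

theorem autToPow_eq_one (hζ : IsPrimitiveRoot ζ M) (g : Ω ≃ₐ[K] Ω) (hg : g ζ = ζ) :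
    hζ.autToPow K g = 1 := by
  have h := coe_autToPow_eq hζ g (n := 1) (by rw [pow_one]; exact hg)
  ext
  rw [h, Units.val_one, Nat.cast_one]

theorem autToPow_eq (hζ : IsPrimitiveRoot ζ M) (g : Ω ≃ₐ[K] Ω) (u : (ZMod M)ˣ)
    (hg : g ζ = ζ ^ (u : ZMod M).val) : hζ.autToPow K g = u := by
  have h := coe_autToPow_eq hζ g hg
  ext
  rw [h, ZMod.natCast_zmod_val]

end Root

section Field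

variable (K L Ω : Type*) [Field K] [Field L] [Field Ω] [Algebra K L] [Algebra K Ω] [Algebra L Ω]
  [IsScalarTower K L Ω] [Normal K L]

/-- **The crossing subgroups (general form).**  Given `g₀ ∈ Gal(Ω/K)` restricting to `σ ≠ 1` on
`L` with `g₀ ζ = ζ ^ T`, and `φ₁ φ₂ ∈ Gal(Ω/K)` with `φᵢ ζ = ζ ^ nᵢ`, such that `T` is
independent of `n₁` and of `n₂` in Artin's sense, there are subgroups `H₁ ∋ φ₁`, `H₂ ∋ φ₂` of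
`Gal(Ω/K)` acting faithfully on `ζ` whose intersection surjects onto `Gal(L/K)`. -/
theorem exists_subgroups_of_gen {p : ℕ} (hp : p.Prime) (hC : Nat.card (L ≃ₐ[K] L) = p)
    {M : ℕ} [NeZero M] (ζ : Ω) (hζ : IsPrimitiveRoot ζ M)
    (hG2 : ∀ g : Ω ≃ₐ[K] Ω, AlgEquiv.restrictNormalHom L g = 1 → g ζ = ζ → g = 1)
    (T : (ZMod M)ˣ) (g₀ : Ω ≃ₐ[K] Ω) (hg₀ : AlgEquiv.restrictNormalHom L g₀ ≠ 1)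
    (hg₀ζ : g₀ ζ = ζ ^ (T : ZMod M).val)
    (φ₁ φ₂ : Ω ≃ₐ[K] Ω) (n₁ n₂ : ℕ) (hφ₁ : φ₁ ζ = ζ ^ n₁) (hφ₂ : φ₂ ζ = ζ ^ n₂)
    (hT₁ : ∀ u : (ZMod M)ˣ, (u : ZMod M) = (n₁ : ZMod M) →
      ∀ x y : ℤ, T ^ x * u ^ y = 1 → (p : ℤ) ∣ x ∧ (p : ℤ) ∣ y)
    (hT₂ : ∀ u : (ZMod M)ˣ, (u : ZMod M) = (n₂ : ZMod M) →
      ∀ x y : ℤ, T ^ x * u ^ y = 1 → (p : ℤ) ∣ x ∧ (p : ℤ) ∣ y) :
    ∃ H₁ H₂ : Subgroup (Ω ≃ₐ[K] Ω), φ₁ ∈ H₁ ∧ φ₂ ∈ H₂ ∧ g₀ ∈ H₁ ⊓ H₂ ∧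
      (∀ g ∈ H₁, g ζ = ζ → g = 1) ∧ (∀ g ∈ H₂, g ζ = ζ → g = 1) ∧
      (∀ c : L ≃ₐ[K] L, ∃ h ∈ H₁ ⊓ H₂, AlgEquiv.restrictNormalHom L h = c) := by
  have : Fact p.Prime := ⟨hp⟩
  have hcyc : IsCyclic (L ≃ₐ[K] L) := isCyclic_of_prime_card hC
  have hab : ∀ x y : L ≃ₐ[K] L, x * y = y * x := fun x y => (IsCyclic.commGroup).mul_comm x y
  have hpow : ∀ x : L ≃ₐ[K] L, x ^ p = 1 := fun x => by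
    have := pow_card_eq_one' (G := L ≃ₐ[K] L) (x := x)
    rwa [hC] at this
  have hzpow : ∀ (x : L ≃ₐ[K] L) (a : ℤ), (p : ℤ) ∣ a → x ^ a = 1 := by
    rintro x a ⟨b, rfl⟩
    rw [zpow_mul, zpow_natCast, hpow, one_zpow]
  set res : (Ω ≃ₐ[K] Ω) →* (L ≃ₐ[K] L) := AlgEquiv.restrictNormalHom L with hres
  set χ : (Ω ≃ₐ[K] Ω) →* (ZMod M)ˣ := hζ.autToPow K with hχ
  have hinj : ∀ g : Ω ≃ₐ[K] Ω, res g = 1 → χ g = 1 → g = 1 := by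
    intro g h1 h2
    refine hG2 g h1 ?_
    have h3 := hζ.autToPow_spec K g
    rw [← hχ, h2, Units.val_one, ZMod.val_one_eq_one_mod] at h3
    rw [← h3, pow_mod_eq hζ, pow_one]
  have hχg₀ : χ g₀ = T := autToPow_eq hζ g₀ T hg₀ζ
  have hind : ∀ (φ : Ω ≃ₐ[K] Ω) (n : ℕ), φ ζ = ζ ^ n →
      (∀ u : (ZMod M)ˣ, (u : ZMod M) = (n : ZMod M) →
        ∀ x y : ℤ, T ^ x * u ^ y = 1 → (p : ℤ) ∣ x ∧ (p : ℤ) ∣ y) →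
      ∀ a b : ℤ, χ g₀ ^ a * χ φ ^ b = 1 → res g₀ ^ a * res φ ^ b = 1 := by
    intro φ n hφ hT a b hab'
    rw [hχg₀] at hab'
    obtain ⟨ha, hb⟩ := hT (χ φ) (coe_autToPow_eq hζ φ hφ) a b hab'
    rw [hzpow _ a ha, hzpow _ b hb, one_mul]
  have hfaith : ∀ (φ : Ω ≃ₐ[K] Ω) (n : ℕ), φ ζ = ζ ^ n →
      (∀ u : (ZMod M)ˣ, (u : ZMod M) = (n : ZMod M) →
        ∀ x y : ℤ, T ^ x * u ^ y = 1 → (p : ℤ) ∣ x ∧ (p : ℤ) ∣ y) →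
      ∀ g ∈ pairSubgroup res χ hab g₀ φ, g ζ = ζ → g = 1 := by
    intro φ n hφ hT g hg hgζ
    exact eq_one_of_mem_pairSubgroup hinj (hind φ n hφ hT) hg (autToPow_eq_one hζ g hgζ)
  refine ⟨pairSubgroup res χ hab g₀ φ₁, pairSubgroup res χ hab g₀ φ₂,
    frob_mem_pairSubgroup hab g₀ φ₁, frob_mem_pairSubgroup hab g₀ φ₂,
    ⟨gen_mem_pairSubgroup hab g₀ φ₁, gen_mem_pairSubgroup hab g₀ φ₂⟩,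
    hfaith φ₁ n₁ hφ₁ hT₁, hfaith φ₂ n₂ hφ₂ hT₂, ?_⟩
  intro c
  exact exists_mem_inf_res_eq hp hC hab hg₀ φ₁ φ₂ c

/-- **The crossing subgroups, from surjectivity of `(restriction, cyclotomic character)`.**
`hG1` is the statement `CycloGal (G1)`: every pair `(c, u)` is realised by an element of
`Gal(Ω/K)`; `hG2` is `CycloGal (G2)`: `Ω = L(ζ)`. -/
theorem exists_subgroups_of_unit {p : ℕ} (hp : p.Prime) (hC : Nat.card (L ≃ₐ[K] L) = p)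
    {M : ℕ} [NeZero M] (ζ : Ω) (hζ : IsPrimitiveRoot ζ M)
    (hG1 : ∀ (c : L ≃ₐ[K] L) (u : (ZMod M)ˣ), ∃ g : Ω ≃ₐ[K] Ω,
      AlgEquiv.restrictNormalHom L g = c ∧ g ζ = ζ ^ (u : ZMod M).val)
    (hG2 : ∀ g : Ω ≃ₐ[K] Ω, AlgEquiv.restrictNormalHom L g = 1 → g ζ = ζ → g = 1)
    (T : (ZMod M)ˣ)
    (φ₁ φ₂ : Ω ≃ₐ[K] Ω) (n₁ n₂ : ℕ) (hφ₁ : φ₁ ζ = ζ ^ n₁) (hφ₂ : φ₂ ζ = ζ ^ n₂)
    (hT₁ : ∀ u : (ZMod M)ˣ, (u : ZMod M) = (n₁ : ZMod M) →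
      ∀ x y : ℤ, T ^ x * u ^ y = 1 → (p : ℤ) ∣ x ∧ (p : ℤ) ∣ y)
    (hT₂ : ∀ u : (ZMod M)ˣ, (u : ZMod M) = (n₂ : ZMod M) →
      ∀ x y : ℤ, T ^ x * u ^ y = 1 → (p : ℤ) ∣ x ∧ (p : ℤ) ∣ y) :
    ∃ H₁ H₂ : Subgroup (Ω ≃ₐ[K] Ω), φ₁ ∈ H₁ ∧ φ₂ ∈ H₂ ∧
      (∀ g ∈ H₁, g ζ = ζ → g = 1) ∧ (∀ g ∈ H₂, g ζ = ζ → g = 1) ∧
      (∀ c : L ≃ₐ[K] L, ∃ h ∈ H₁ ⊓ H₂, AlgEquiv.restrictNormalHom L h = c) := by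
  have hnt : Nontrivial (L ≃ₐ[K] L) := by
    have h1 : 1 < Nat.card (L ≃ₐ[K] L) := by rw [hC]; exact hp.one_lt
    have hfin : Finite (L ≃ₐ[K] L) := Nat.finite_of_card_ne_zero (by omega)
    exact Finite.one_lt_card_iff_nontrivial.mp h1
  obtain ⟨σ, hσ⟩ := exists_ne (1 : L ≃ₐ[K] L)
  obtain ⟨g₀, hg₀, hg₀ζ⟩ := hG1 σ T
  obtain ⟨H₁, H₂, h1, h2, -, h3, h4, h5⟩ :=
    exists_subgroups_of_gen K L Ω hp hC ζ hζ hG2 T g₀ (by rw [hg₀]; exact hσ) hg₀ζ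
      φ₁ φ₂ n₁ n₂ hφ₁ hφ₂ hT₁ hT₂
  exact ⟨H₁, H₂, h1, h2, h3, h4, h5⟩

/-- **The crossing subgroups, four-prime form of Artin's lemma.**  `M = ℓ₁ ℓ₁' ℓ₂ ℓ₂'` with
`nᵢ` of order `p ^ kᵢ` modulo `ℓᵢ` and of order `p ^ kᵢ'` modulo `ℓᵢ'`, `1 ≤ kᵢ < kᵢ'`
(`ArtinLemma.exists_primes_avoiding` / `CrossCore.exists_primes_orderOf`). -/
theorem exists_subgroups {p : ℕ} (hp : p.Prime) (hC : Nat.card (L ≃ₐ[K] L) = p)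
    {ℓ₁ ℓ₁' ℓ₂ ℓ₂' n₁ n₂ k₁ k₁' k₂ k₂' : ℕ}
    (hℓ₁ : ℓ₁.Prime) (hℓ₁' : ℓ₁'.Prime) (hℓ₂ : ℓ₂.Prime) (hℓ₂' : ℓ₂'.Prime)
    (h11 : ℓ₁ ≠ ℓ₁') (h12 : ℓ₁ ≠ ℓ₂) (h12' : ℓ₁ ≠ ℓ₂') (h1'2 : ℓ₁' ≠ ℓ₂) (h1'2' : ℓ₁' ≠ ℓ₂')
    (h22 : ℓ₂ ≠ ℓ₂')
    (hk₁ : 1 ≤ k₁) (hkk₁ : k₁ < k₁') (hk₂ : 1 ≤ k₂) (hkk₂ : k₂ < k₂')
    (ho₁ : orderOf (n₁ : ZMod ℓ₁) = p ^ k₁) (ho₁' : orderOf (n₁ : ZMod ℓ₁') = p ^ k₁')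
    (ho₂ : orderOf (n₂ : ZMod ℓ₂) = p ^ k₂) (ho₂' : orderOf (n₂ : ZMod ℓ₂') = p ^ k₂')
    (ζ : Ω) (hζ : IsPrimitiveRoot ζ (ℓ₁ * ℓ₁' * (ℓ₂ * ℓ₂')))
    (hG1 : ∀ (c : L ≃ₐ[K] L) (u : (ZMod (ℓ₁ * ℓ₁' * (ℓ₂ * ℓ₂')))ˣ), ∃ g : Ω ≃ₐ[K] Ω,
      AlgEquiv.restrictNormalHom L g = c ∧ g ζ = ζ ^ (u : ZMod (ℓ₁ * ℓ₁' * (ℓ₂ * ℓ₂'))).val)
    (hG2 : ∀ g : Ω ≃ₐ[K] Ω, AlgEquiv.restrictNormalHom L g = 1 → g ζ = ζ → g = 1)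
    (φ₁ φ₂ : Ω ≃ₐ[K] Ω) (hφ₁ : φ₁ ζ = ζ ^ n₁) (hφ₂ : φ₂ ζ = ζ ^ n₂) :
    ∃ H₁ H₂ : Subgroup (Ω ≃ₐ[K] Ω), φ₁ ∈ H₁ ∧ φ₂ ∈ H₂ ∧
      (∀ g ∈ H₁, g ζ = ζ → g = 1) ∧ (∀ g ∈ H₂, g ζ = ζ → g = 1) ∧
      (∀ c : L ≃ₐ[K] L, ∃ h ∈ H₁ ⊓ H₂, AlgEquiv.restrictNormalHom L h = c) := by
  have hM : NeZero (ℓ₁ * ℓ₁' * (ℓ₂ * ℓ₂')) :=
    ⟨Nat.mul_ne_zero (Nat.mul_ne_zero hℓ₁.ne_zero hℓ₁'.ne_zero)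
      (Nat.mul_ne_zero hℓ₂.ne_zero hℓ₂'.ne_zero)⟩
  obtain ⟨T, hT₁, hT₂⟩ := Fermat.Agent.S14.ArtinLemma.exists_unit_four p hp hℓ₁ hℓ₁' hℓ₂ hℓ₂'
    h11 h12 h12' h1'2 h1'2' h22 hk₁ hkk₁ hk₂ hkk₂ ho₁ ho₁' ho₂ ho₂'
  exact exists_subgroups_of_unit K L Ω hp hC ζ hζ hG1 hG2 T φ₁ φ₂ n₁ n₂ hφ₁ hφ₂ hT₁ hT₂

/-- Consumer form of `exists_subgroups`: the surjectivity onto `Gal(L/K)` is also stated for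
`H₁` and `H₂` separately, and faithfulness for `H₁ ⊓ H₂`. -/
theorem exists_subgroups' {p : ℕ} (hp : p.Prime) (hC : Nat.card (L ≃ₐ[K] L) = p)
    {ℓ₁ ℓ₁' ℓ₂ ℓ₂' n₁ n₂ k₁ k₁' k₂ k₂' : ℕ}
    (hℓ₁ : ℓ₁.Prime) (hℓ₁' : ℓ₁'.Prime) (hℓ₂ : ℓ₂.Prime) (hℓ₂' : ℓ₂'.Prime)
    (h11 : ℓ₁ ≠ ℓ₁') (h12 : ℓ₁ ≠ ℓ₂) (h12' : ℓ₁ ≠ ℓ₂') (h1'2 : ℓ₁' ≠ ℓ₂) (h1'2' : ℓ₁' ≠ ℓ₂')
    (h22 : ℓ₂ ≠ ℓ₂')
    (hk₁ : 1 ≤ k₁) (hkk₁ : k₁ < k₁') (hk₂ : 1 ≤ k₂) (hkk₂ : k₂ < k₂')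
    (ho₁ : orderOf (n₁ : ZMod ℓ₁) = p ^ k₁) (ho₁' : orderOf (n₁ : ZMod ℓ₁') = p ^ k₁')
    (ho₂ : orderOf (n₂ : ZMod ℓ₂) = p ^ k₂) (ho₂' : orderOf (n₂ : ZMod ℓ₂') = p ^ k₂')
    (ζ : Ω) (hζ : IsPrimitiveRoot ζ (ℓ₁ * ℓ₁' * (ℓ₂ * ℓ₂')))
    (hG1 : ∀ (c : L ≃ₐ[K] L) (u : (ZMod (ℓ₁ * ℓ₁' * (ℓ₂ * ℓ₂')))ˣ), ∃ g : Ω ≃ₐ[K] Ω,
      AlgEquiv.restrictNormalHom L g = c ∧ g ζ = ζ ^ (u : ZMod (ℓ₁ * ℓ₁' * (ℓ₂ * ℓ₂'))).val)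
    (hG2 : ∀ g : Ω ≃ₐ[K] Ω, AlgEquiv.restrictNormalHom L g = 1 → g ζ = ζ → g = 1)
    (φ₁ φ₂ : Ω ≃ₐ[K] Ω) (hφ₁ : φ₁ ζ = ζ ^ n₁) (hφ₂ : φ₂ ζ = ζ ^ n₂) :
    ∃ H₁ H₂ : Subgroup (Ω ≃ₐ[K] Ω), φ₁ ∈ H₁ ∧ φ₂ ∈ H₂ ∧
      (∀ g ∈ H₁, g ζ = ζ → g = 1) ∧ (∀ g ∈ H₂, g ζ = ζ → g = 1) ∧
      (∀ g ∈ H₁ ⊓ H₂, g ζ = ζ → g = 1) ∧
      (∀ c : L ≃ₐ[K] L, ∃ h ∈ H₁, AlgEquiv.restrictNormalHom L h = c) ∧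
      (∀ c : L ≃ₐ[K] L, ∃ h ∈ H₂, AlgEquiv.restrictNormalHom L h = c) ∧
      (∀ c : L ≃ₐ[K] L, ∃ h ∈ H₁ ⊓ H₂, AlgEquiv.restrictNormalHom L h = c) := by
  obtain ⟨H₁, H₂, h1, h2, h3, h4, h5⟩ := exists_subgroups K L Ω hp hC hℓ₁ hℓ₁' hℓ₂ hℓ₂'
    h11 h12 h12' h1'2 h1'2' h22 hk₁ hkk₁ hk₂ hkk₂ ho₁ ho₁' ho₂ ho₂' ζ hζ hG1 hG2 φ₁ φ₂ hφ₁ hφ₂
  refine ⟨H₁, H₂, h1, h2, h3, h4, fun g hg => h3 g hg.1, fun c => ?_, fun c => ?_, h5⟩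
  · obtain ⟨h, hh, hc⟩ := h5 c
    exact ⟨h, hh.1, hc⟩
  · obtain ⟨h, hh, hc⟩ := h5 c
    exact ⟨h, hh.2, hc⟩

end Field

section Arith

/-- **Choice of the four primes** for two numbers `n₁ n₂ ≥ 2` (the absolute norms of two primes
of `K`), outside a finite set `S` and different from `p`. -/
theorem exists_four_primes (p : ℕ) (hp : p.Prime) (hp2 : p ≠ 2) (n₁ n₂ : ℕ) (hn₁ : 2 ≤ n₁)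
    (hn₂ : 2 ≤ n₂) (S : Finset ℕ) :
    ∃ ℓ₁ ℓ₁' ℓ₂ ℓ₂' k₁ k₁' k₂ k₂' : ℕ,
      (ℓ₁.Prime ∧ ℓ₁'.Prime ∧ ℓ₂.Prime ∧ ℓ₂'.Prime) ∧
      (ℓ₁ ≠ ℓ₁' ∧ ℓ₁ ≠ ℓ₂ ∧ ℓ₁ ≠ ℓ₂' ∧ ℓ₁' ≠ ℓ₂ ∧ ℓ₁' ≠ ℓ₂' ∧ ℓ₂ ≠ ℓ₂') ∧
      (ℓ₁ ∉ S ∧ ℓ₁' ∉ S ∧ ℓ₂ ∉ S ∧ ℓ₂' ∉ S) ∧
      (ℓ₁ ≠ p ∧ ℓ₁' ≠ p ∧ ℓ₂ ≠ p ∧ ℓ₂' ≠ p) ∧
      (1 ≤ k₁ ∧ k₁ < k₁' ∧ 1 ≤ k₂ ∧ k₂ < k₂') ∧
      orderOf (n₁ : ZMod ℓ₁) = p ^ k₁ ∧ orderOf (n₁ : ZMod ℓ₁') = p ^ k₁' ∧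
      orderOf (n₂ : ZMod ℓ₂) = p ^ k₂ ∧ orderOf (n₂ : ZMod ℓ₂') = p ^ k₂' := by
  classical
  obtain ⟨ℓ₁, ℓ₁', k₁, k₁', hℓ₁, hℓ₁', hS₁, hS₁', h11, hp₁, hp₁', hk₁, hkk₁, ho₁, ho₁'⟩ :=
    Fermat.Agent.S14.CrossCore.exists_primes_orderOf p hp hp2 n₁ hn₁ S
  obtain ⟨ℓ₂, ℓ₂', k₂, k₂', hℓ₂, hℓ₂', hS₂, hS₂', h22, hp₂, hp₂', hk₂, hkk₂, ho₂, ho₂'⟩ :=
    Fermat.Agent.S14.CrossCore.exists_primes_orderOf p hp hp2 n₂ hn₂ (S ∪ {ℓ₁, ℓ₁'})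
  simp only [Finset.mem_union, Finset.mem_insert, Finset.mem_singleton, not_or] at hS₂ hS₂'
  exact ⟨ℓ₁, ℓ₁', ℓ₂, ℓ₂', k₁, k₁', k₂, k₂', ⟨hℓ₁, hℓ₁', hℓ₂, hℓ₂'⟩,
    ⟨h11, fun h => hS₂.2.1 h.symm, fun h => hS₂'.2.1 h.symm, fun h => hS₂.2.2 h.symm,
      fun h => hS₂'.2.2 h.symm, h22⟩,
    ⟨hS₁, hS₁', hS₂.1, hS₂'.1⟩, ⟨hp₁, hp₁', hp₂, hp₂'⟩, ⟨hk₁, hkk₁, hk₂, hkk₂⟩,
    ho₁, ho₁', ho₂, ho₂'⟩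

/-- The modulus `ℓ₁ ℓ₁' ℓ₂ ℓ₂'` is squarefree. -/
theorem squarefree_four {ℓ₁ ℓ₁' ℓ₂ ℓ₂' : ℕ} (hℓ₁ : ℓ₁.Prime) (hℓ₁' : ℓ₁'.Prime) (hℓ₂ : ℓ₂.Prime)
    (hℓ₂' : ℓ₂'.Prime) (h11 : ℓ₁ ≠ ℓ₁') (h12 : ℓ₁ ≠ ℓ₂) (h12' : ℓ₁ ≠ ℓ₂') (h1'2 : ℓ₁' ≠ ℓ₂)
    (h1'2' : ℓ₁' ≠ ℓ₂') (h22 : ℓ₂ ≠ ℓ₂') : Squarefree (ℓ₁ * ℓ₁' * (ℓ₂ * ℓ₂')) := by
  have c11 : ℓ₁.Coprime ℓ₁' := (Nat.coprime_primes hℓ₁ hℓ₁').mpr h11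
  have c22 : ℓ₂.Coprime ℓ₂' := (Nat.coprime_primes hℓ₂ hℓ₂').mpr h22
  have c12 : ℓ₁.Coprime ℓ₂ := (Nat.coprime_primes hℓ₁ hℓ₂).mpr h12
  have c12' : ℓ₁.Coprime ℓ₂' := (Nat.coprime_primes hℓ₁ hℓ₂').mpr h12'
  have c1'2 : ℓ₁'.Coprime ℓ₂ := (Nat.coprime_primes hℓ₁' hℓ₂).mpr h1'2
  have c1'2' : ℓ₁'.Coprime ℓ₂' := (Nat.coprime_primes hℓ₁' hℓ₂').mpr h1'2'
  have cM : (ℓ₁ * ℓ₁').Coprime (ℓ₂ * ℓ₂') :=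
    Nat.Coprime.mul_left (Nat.Coprime.mul_right c12 c12') (Nat.Coprime.mul_right c1'2 c1'2')
  rw [Nat.squarefree_mul_iff]
  refine ⟨cM, ?_, ?_⟩
  · rw [Nat.squarefree_mul_iff]
    exact ⟨c11, hℓ₁.squarefree, hℓ₁'.squarefree⟩
  · rw [Nat.squarefree_mul_iff]
    exact ⟨c22, hℓ₂.squarefree, hℓ₂'.squarefree⟩

/-- A prime different from the four primes does not divide the modulus. -/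
theorem not_dvd_four {ℓ₁ ℓ₁' ℓ₂ ℓ₂' q : ℕ} (hℓ₁ : ℓ₁.Prime) (hℓ₁' : ℓ₁'.Prime) (hℓ₂ : ℓ₂.Prime)
    (hℓ₂' : ℓ₂'.Prime) (hq : q.Prime) (h1 : ℓ₁ ≠ q) (h1' : ℓ₁' ≠ q) (h2 : ℓ₂ ≠ q)
    (h2' : ℓ₂' ≠ q) : ¬ q ∣ ℓ₁ * ℓ₁' * (ℓ₂ * ℓ₂') := by
  intro h
  rcases (Nat.Prime.dvd_mul hq).mp h with h | h
  · rcases (Nat.Prime.dvd_mul hq).mp h with h | h
    · exact h1 ((Nat.prime_dvd_prime_iff_eq hq hℓ₁).mp h).symm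
    · exact h1' ((Nat.prime_dvd_prime_iff_eq hq hℓ₁').mp h).symm
  · rcases (Nat.Prime.dvd_mul hq).mp h with h | h
    · exact h2 ((Nat.prime_dvd_prime_iff_eq hq hℓ₂).mp h).symm
    · exact h2' ((Nat.prime_dvd_prime_iff_eq hq hℓ₂').mp h).symm

end Arith

end Fermat.Agent.S14.CrossH
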