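import Mathlib
import Fermat.Agent.S14.ArtinBase

/-!
# S14, stream E (leaf G3): Frobenius elements in a big Galois extension `Ω / K`

`K ≤ L ≤ Ω` is a tower of number fields, `G'` a Galois group for `Ω / K`, `G` a Galois group for
`L / K`, and `res : G' →* G` a compatible restriction map.  For a nonzero prime `P` of `𝓞 Ω` and
an arithmetic Frobenius `φ ∈ G'` at `P`:

* `smul_zeta` / `frob_apply_zeta`: `φ ζ = ζ ^ N(P ∩ 𝓞 K)` for every root of unity `ζ` whose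
  order is not in `P`;
* `res_isArithFrobAt`: `res φ` is an arithmetic Frobenius at `P ∩ 𝓞 L`;
* `res_eq_frob` / `frob_restrict`: if `L / K` is abelian and unramified, `res φ` is the Frobenius
  of `P ∩ 𝓞 K` in the sense of `ArtinMap.frob`;
* `exists_arithFrobAt`, `exists_prime_frob`, `exists_frob_zeta`: existence of Frobenius elements.
-/

set_option autoImplicit false

open NumberField

namespace Fermat.Agent.S14.CycloFrob

open Fermat.Agent.S14.ArtinMap Fermat.Agent.S14.ArtinBase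

section Zeta

variable {K Ω : Type*} [Field K] [NumberField K] [Field Ω] [NumberField Ω] [Algebra K Ω]
  {G' : Type*} [Group G'] [Finite G'] [MulSemiringAction G' Ω] [IsGaloisGroup G' K Ω]

omit [Finite G'] in
/-- An arithmetic Frobenius at `P` raises every root of unity whose order is not in `P` to the
power `N(P ∩ 𝓞 K)`. -/
theorem smul_zeta {M : ℕ} (ζ : Ω) (hζ : ζ ^ M = 1) (P : Ideal (𝓞 Ω))
    (hPM : (M : 𝓞 Ω) ∉ P) (φ : G') (hφ : IsArithFrobAt (𝓞 K) φ P) :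
    φ • ζ = ζ ^ Ideal.absNorm (P.under (𝓞 K)) := by
  have hM : M ≠ 0 := by
    rintro rfl
    exact hPM (by simp)
  have hint : IsIntegral ℤ ζ := by
    refine ⟨Polynomial.X ^ M - 1, Polynomial.monic_X_pow_sub_C 1 hM, ?_⟩
    simp [hζ]
  let ζ' : 𝓞 Ω := ⟨ζ, hint⟩
  have hζ' : ζ' ^ M = 1 := by
    apply RingOfIntegers.ext
    show ζ ^ M = 1
    exact hζ
  have h := hφ.apply_of_pow_eq_one hζ' hPM
  exact congrArg (fun x : 𝓞 Ω => (x : Ω)) h

/-- Existence of an arithmetic Frobenius at a nonzero prime. -/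
theorem exists_arithFrobAt (P : Ideal (𝓞 Ω)) [P.IsPrime] (hP : P ≠ ⊥) :
    ∃ φ : G', IsArithFrobAt (𝓞 K) φ P := by
  have : Finite (𝓞 Ω ⧸ P) := P.finiteQuotientOfFreeOfNeBot hP
  exact IsArithFrobAt.exists_of_isInvariant (𝓞 K) G' P

/-- Above every nonzero prime of `𝓞 K` there is a prime of `𝓞 Ω` with a Frobenius element. -/
theorem exists_prime_frob (q : Ideal (𝓞 K)) [q.IsPrime] (hq : q ≠ ⊥) :
    ∃ (P : Ideal (𝓞 Ω)) (φ : G'), P.IsPrime ∧ P ≠ ⊥ ∧ P.under (𝓞 K) = q ∧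
      IsArithFrobAt (𝓞 K) φ P := by
  obtain ⟨P, hP1, hP2⟩ := (q.nonempty_primesOver (S := 𝓞 Ω)).some
  have := hP1
  have hPne : P ≠ ⊥ := ne_bot_of_liesOver q hq P
  obtain ⟨φ, hφ⟩ := exists_arithFrobAt (K := K) (G' := G') P hPne
  exact ⟨P, φ, hP1, hPne, hP2.over.symm, hφ⟩

end Zeta

section Restrict

variable {K L Ω : Type*} [Field K] [NumberField K] [Field L] [NumberField L] [Field Ω]
  [NumberField Ω] [Algebra K L] [Algebra K Ω] [Algebra L Ω] [IsScalarTower K L Ω]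
  {G : Type*} [Group G] [Finite G] [MulSemiringAction G L] [IsGaloisGroup G K L]
  {G' : Type*} [Group G'] [Finite G'] [MulSemiringAction G' Ω] [IsGaloisGroup G' K Ω]

omit [Finite G] [Finite G'] in
/-- The restriction of an arithmetic Frobenius at `P` is an arithmetic Frobenius at `P ∩ 𝓞 L`. -/
theorem res_isArithFrobAt (res : G' →* G)
    (hres : ∀ (g' : G') (x : L), algebraMap L Ω (res g' • x) = g' • algebraMap L Ω x)
    (P : Ideal (𝓞 Ω)) (φ : G') (hφ : IsArithFrobAt (𝓞 K) φ P) :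
    IsArithFrobAt (𝓞 K) (res φ) (P.under (𝓞 L)) := by
  intro x
  have h1 : (P.under (𝓞 L)).under (𝓞 K) = P.under (𝓞 K) := Ideal.under_under P
  show res φ • x - x ^ Nat.card (𝓞 K ⧸ (P.under (𝓞 L)).under (𝓞 K)) ∈ P.under (𝓞 L)
  rw [h1, Ideal.under_def, Ideal.mem_comap, map_sub, map_pow, algebraMap_res_smul res hres]
  exact hφ (algebraMap (𝓞 L) (𝓞 Ω) x)

omit [Finite G'] in
/-- If `L / K` is abelian and unramified, the restriction of an arithmetic Frobenius at `P` is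
the Frobenius of `P ∩ 𝓞 K`. -/
theorem res_eq_frob (hab : ∀ a b : G, a * b = b * a) (hur : IsUnram L G) (res : G' →* G)
    (hres : ∀ (g' : G') (x : L), algebraMap L Ω (res g' • x) = g' • algebraMap L Ω x)
    (P : Ideal (𝓞 Ω)) [P.IsPrime] (hP : P ≠ ⊥) (φ : G') (hφ : IsArithFrobAt (𝓞 K) φ P) :
    res φ = frob K L G (P.under (𝓞 K)) := by
  have hq1 : (P.under (𝓞 K)).IsPrime := Ideal.IsPrime.under (𝓞 K) P
  have hq : P.under (𝓞 K) ≠ ⊥ := fun h => hP (Ideal.eq_bot_of_comap_eq_bot (R := 𝓞 K) h)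
  have hQ1 : (P.under (𝓞 L)).IsPrime := Ideal.IsPrime.under (𝓞 L) P
  have hQq : (P.under (𝓞 L)).LiesOver (P.under (𝓞 K)) := ⟨(Ideal.under_under P).symm⟩
  exact frob_unique hab hur (P.under (𝓞 K)) hq (P.under (𝓞 L))
    (res_isArithFrobAt res hres P φ hφ)

end Restrict

section Gal

variable {K L Ω : Type*} [Field K] [NumberField K] [Field L] [NumberField L] [Field Ω]
  [NumberField Ω] [Algebra K L] [Algebra K Ω] [Algebra L Ω] [IsScalarTower K L Ω]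

/-- `smul_zeta` for the Galois group `Gal(Ω/K)`. -/
theorem frob_apply_zeta [IsGalois K Ω] {M : ℕ} (ζ : Ω) (hζ : ζ ^ M = 1) (P : Ideal (𝓞 Ω))
    (hPM : (M : 𝓞 Ω) ∉ P) (φ : Ω ≃ₐ[K] Ω) (hφ : IsArithFrobAt (𝓞 K) φ P) :
    φ ζ = ζ ^ Ideal.absNorm (P.under (𝓞 K)) :=
  smul_zeta ζ hζ P hPM φ hφ

omit [NumberField K] [NumberField L] [NumberField Ω] in
/-- The restriction map `Gal(Ω/K) → Gal(L/K)` is compatible with the actions. -/
theorem restrictNormalHom_smul [Normal K L] (φ : Ω ≃ₐ[K] Ω) (x : L) :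
    algebraMap L Ω (AlgEquiv.restrictNormalHom L φ • x) = φ • algebraMap L Ω x :=
  AlgEquiv.restrictNormal_commutes φ L x

/-- `res_isArithFrobAt` for the Galois groups. -/
theorem restrict_isArithFrobAt [IsGalois K L] [IsGalois K Ω] (P : Ideal (𝓞 Ω))
    (φ : Ω ≃ₐ[K] Ω) (hφ : IsArithFrobAt (𝓞 K) φ P) :
    IsArithFrobAt (𝓞 K) (AlgEquiv.restrictNormalHom L φ) (P.under (𝓞 L)) :=
  res_isArithFrobAt (AlgEquiv.restrictNormalHom L) restrictNormalHom_smul P φ hφ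

/-- If `L / K` is abelian and unramified, every arithmetic Frobenius `φ ∈ Gal(Ω/K)` at a nonzero
prime `P` of `𝓞 Ω` restricts to the Frobenius of `P ∩ 𝓞 K` in `Gal(L/K)`. -/
theorem frob_restrict [IsGalois K L] [IsGalois K Ω] (hab : ∀ a b : L ≃ₐ[K] L, a * b = b * a)
    (hur : IsUnram L (L ≃ₐ[K] L)) (P : Ideal (𝓞 Ω)) [P.IsPrime] (hP : P ≠ ⊥)
    (φ : Ω ≃ₐ[K] Ω) (hφ : IsArithFrobAt (𝓞 K) φ P) :
    AlgEquiv.restrictNormalHom L φ = frob K L (L ≃ₐ[K] L) (P.under (𝓞 K)) :=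
  res_eq_frob hab hur (AlgEquiv.restrictNormalHom L) restrictNormalHom_smul P hP φ hφ

omit [NumberField L] [Algebra K L] [Algebra L Ω] [IsScalarTower K L Ω] in
/-- For a nonzero prime `q` of `𝓞 K` not containing `M`: a prime `P` of `𝓞 Ω` above `q` and a
Frobenius `φ ∈ Gal(Ω/K)` at `P`, which raises `M`-th roots of unity to the power `N(q)`. -/
theorem exists_frob_zeta [IsGalois K Ω] {M : ℕ} (q : Ideal (𝓞 K)) [q.IsPrime] (hq : q ≠ ⊥)
    (hqM : (M : 𝓞 K) ∉ q) :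
    ∃ (P : Ideal (𝓞 Ω)) (φ : Ω ≃ₐ[K] Ω), P.IsPrime ∧ P ≠ ⊥ ∧ P.under (𝓞 K) = q ∧
      IsArithFrobAt (𝓞 K) φ P ∧ ∀ ζ : Ω, ζ ^ M = 1 → φ ζ = ζ ^ Ideal.absNorm q := by
  obtain ⟨P, φ, hP1, hPne, hPq, hφ⟩ := exists_prime_frob (Ω := Ω) (G' := Ω ≃ₐ[K] Ω) q hq
  refine ⟨P, φ, hP1, hPne, hPq, hφ, fun ζ hζ => ?_⟩
  have hPM : (M : 𝓞 Ω) ∉ P := by
    intro h
    apply hqM
    rw [← hPq, Ideal.under_def, Ideal.mem_comap, map_natCast]
    exact h
  rw [frob_apply_zeta ζ hζ P hPM φ hφ, hPq]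

/-- For a nonzero prime `q` of `𝓞 K` not containing `M`, with `L / K` abelian and unramified:
a Frobenius `φ ∈ Gal(Ω/K)` over `q` acting as `ζ ↦ ζ ^ N(q)` on `M`-th roots of unity and
restricting to `ArtinMap.frob K L _ q` on `L`. -/
theorem exists_frob_zeta_restrict [IsGalois K L] [IsGalois K Ω]
    (hab : ∀ a b : L ≃ₐ[K] L, a * b = b * a) (hur : IsUnram L (L ≃ₐ[K] L)) {M : ℕ}
    (q : Ideal (𝓞 K)) [q.IsPrime] (hq : q ≠ ⊥) (hqM : (M : 𝓞 K) ∉ q) :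
    ∃ (P : Ideal (𝓞 Ω)) (φ : Ω ≃ₐ[K] Ω), P.IsPrime ∧ P ≠ ⊥ ∧ P.under (𝓞 K) = q ∧
      IsArithFrobAt (𝓞 K) φ P ∧ (∀ ζ : Ω, ζ ^ M = 1 → φ ζ = ζ ^ Ideal.absNorm q) ∧
      AlgEquiv.restrictNormalHom L φ = frob K L (L ≃ₐ[K] L) q := by
  obtain ⟨P, φ, hP1, hPne, hPq, hφ, hζ⟩ := exists_frob_zeta (Ω := Ω) (M := M) q hq hqM
  have := hP1
  refine ⟨P, φ, hP1, hPne, hPq, hφ, hζ, ?_⟩
  rw [frob_restrict hab hur P hPne φ hφ, hPq]

end Gal

end Fermat.Agent.S14.CycloFrob
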