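import Mathlib

/-!
# S14, stream C: counting lemmas for the first inequality

* `relIndex_le_of_rel`, `relIndex_le_of_mul_rel`: index inequalities from a relation between two
  groups (no well-definedness of a map on quotients is needed).
* `relIndex_eq_of_finite`: the Herbrand quotient of a finite module is `1`.
* `clLift`: homomorphisms out of the class group of a Dedekind domain from multiplicative maps on
  nonzero ideals killing the principal ideals.
-/

set_option autoImplicit false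
set_option linter.overlappingInstances false
set_option linter.unusedSectionVars false
open scoped nonZeroDivisors

namespace Fermat.Agent.S14.FICount

/-- Pairwise counting lemma: if every `a ∈ HA` is related to some `b ∈ HB`, and two related pairs
whose `b`-components agree modulo `B'` have `a`-components agreeing modulo `A'`, then
`[HA : A' ⊓ HA] ≤ [HB : B' ⊓ HB]`. -/
theorem relIndex_le_of_rel {A B : Type*} [Group A] [Group B] (A' HA : Subgroup A)
    (B' HB : Subgroup B) (P : A → B → Prop)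
    (hex : ∀ a ∈ HA, ∃ b ∈ HB, P a b)
    (hpair : ∀ a₁ a₂ b₁ b₂, a₁ ∈ HA → a₂ ∈ HA → b₁ ∈ HB → b₂ ∈ HB → P a₁ b₁ → P a₂ b₂ →
      b₁⁻¹ * b₂ ∈ B' → a₁⁻¹ * a₂ ∈ A')
    (hfin : B'.relIndex HB ≠ 0) :
    A'.relIndex HA ≤ B'.relIndex HB ∧ A'.relIndex HA ≠ 0 := by
  classical
  choose! f hfmem hfP using hex
  let φ : (HA ⧸ A'.subgroupOf HA) → (HB ⧸ B'.subgroupOf HB) := fun q =>
    QuotientGroup.mk (⟨f (q.out : A), hfmem _ q.out.2⟩ : HB)
  have hφ : Function.Injective φ := by
    intro q₁ q₂ h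
    have h' : (⟨f (q₁.out : A), hfmem _ q₁.out.2⟩ : HB)⁻¹ * ⟨f (q₂.out : A), hfmem _ q₂.out.2⟩ ∈
        B'.subgroupOf HB := QuotientGroup.eq.mp h
    rw [Subgroup.mem_subgroupOf] at h'
    have h2 := hpair _ _ _ _ q₁.out.2 q₂.out.2 (hfmem _ q₁.out.2) (hfmem _ q₂.out.2)
      (hfP _ q₁.out.2) (hfP _ q₂.out.2) h'
    have h3 : (q₁.out)⁻¹ * q₂.out ∈ A'.subgroupOf HA := by
      rw [Subgroup.mem_subgroupOf]; exact h2
    have h4 : (QuotientGroup.mk q₁.out : HA ⧸ A'.subgroupOf HA) = QuotientGroup.mk q₂.out :=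
      QuotientGroup.eq.mpr h3
    rwa [QuotientGroup.out_eq', QuotientGroup.out_eq'] at h4
  have hfinB : Finite (HB ⧸ B'.subgroupOf HB) := by
    apply Nat.finite_of_card_ne_zero
    exact hfin
  have hfinA : Finite (HA ⧸ A'.subgroupOf HA) := Finite.of_injective φ hφ
  refine ⟨Nat.card_le_card_of_injective φ hφ, ?_⟩
  show Nat.card (HA ⧸ A'.subgroupOf HA) ≠ 0
  exact Nat.card_pos.ne'

/-- Multiplicative counting lemma: a multiplicative relation with a "kernel" condition gives an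
index inequality, provided both quotients are killed by a common exponent. -/
theorem relIndex_le_of_mul_rel {A B : Type*} [CommGroup A] [CommGroup B] (A' HA : Subgroup A)
    (B' HB : Subgroup B) (P : A → B → Prop) (m : ℕ) (hm : 0 < m)
    (hA : ∀ a ∈ HA, a ^ m ∈ A') (hB : ∀ b ∈ HB, b ^ m ∈ B')
    (hex : ∀ a ∈ HA, ∃ b ∈ HB, P a b)
    (hone : P 1 1)
    (hmul : ∀ a₁ a₂ b₁ b₂, P a₁ b₁ → P a₂ b₂ → P (a₁ * a₂) (b₁ * b₂))
    (hker : ∀ a b, a ∈ HA → b ∈ HB → P a b → b ∈ B' → a ∈ A')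
    (hfin : B'.relIndex HB ≠ 0) :
    A'.relIndex HA ≤ B'.relIndex HB ∧ A'.relIndex HA ≠ 0 := by
  refine relIndex_le_of_rel A' HA B' HB P hex ?_ hfin
  intro a₁ a₂ b₁ b₂ ha₁ ha₂ hb₁ hb₂ h₁ h₂ hb
  have hpow : ∀ k : ℕ, P (a₁ ^ k) (b₁ ^ k) := by
    intro k
    induction k with
    | zero => simpa using hone
    | succ k ih => rw [pow_succ, pow_succ]; exact hmul _ _ _ _ ih h₁
  have h3 : P (a₁ ^ (m - 1) * a₂) (b₁ ^ (m - 1) * b₂) := hmul _ _ _ _ (hpow _) h₂
  have h4 : b₁ ^ (m - 1) * b₂ ∈ B' := by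
    have : b₁ ^ (m - 1) * b₂ = b₁ ^ m * (b₁⁻¹ * b₂) := by
      obtain ⟨k, rfl⟩ : ∃ k, m = k + 1 := ⟨m - 1, by omega⟩
      rw [Nat.add_sub_cancel, pow_succ]
      group
    rw [this]
    exact B'.mul_mem (hB _ hb₁) hb
  have h5 : a₁ ^ (m - 1) * a₂ ∈ A' :=
    hker _ _ (HA.mul_mem (HA.pow_mem ha₁ _) ha₂) (HB.mul_mem (HB.pow_mem hb₁ _) hb₂) h3 h4
  have h6 : a₁⁻¹ * a₂ = (a₁ ^ m)⁻¹ * (a₁ ^ (m - 1) * a₂) := by
    obtain ⟨k, rfl⟩ : ∃ k, m = k + 1 := ⟨m - 1, by omega⟩
    rw [Nat.add_sub_cancel, pow_succ]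
    group
  rw [h6]
  exact A'.mul_mem (A'.inv_mem (hA _ ha₁)) h5

/-- The Herbrand quotient of a finite module is `1`. -/
theorem relIndex_eq_of_finite {M : Type*} [CommGroup M] [Finite M] (f g : M →* M)
    (hfg : ∀ x, f (g x) = 1) (hgf : ∀ x, g (f x) = 1) :
    g.range.relIndex f.ker = f.range.relIndex g.ker := by
  have hgle : g.range ≤ f.ker := by
    rintro _ ⟨x, rfl⟩; exact hfg x
  have hfle : f.range ≤ g.ker := by
    rintro _ ⟨x, rfl⟩; exact hgf x
  have h1 : Nat.card g.range * g.range.relIndex f.ker = Nat.card f.ker := by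
    have := Subgroup.relIndex_mul_relIndex (⊥ : Subgroup M) g.range f.ker bot_le hgle
    rwa [Subgroup.relIndex_bot_left, Subgroup.relIndex_bot_left] at this
  have h2 : Nat.card f.range * f.range.relIndex g.ker = Nat.card g.ker := by
    have := Subgroup.relIndex_mul_relIndex (⊥ : Subgroup M) f.range g.ker bot_le hfle
    rwa [Subgroup.relIndex_bot_left, Subgroup.relIndex_bot_left] at this
  have h3 : Nat.card f.ker * Nat.card f.range = Nat.card M := by
    rw [← Subgroup.index_ker]; exact Subgroup.card_mul_index _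
  have h4 : Nat.card g.ker * Nat.card g.range = Nat.card M := by
    rw [← Subgroup.index_ker]; exact Subgroup.card_mul_index _
  have hpos1 : 0 < Nat.card g.range := Nat.card_pos
  have hpos2 : 0 < Nat.card f.range := Nat.card_pos
  have h5 : Nat.card g.range * Nat.card f.range * g.range.relIndex f.ker =
      Nat.card g.range * Nat.card f.range * f.range.relIndex g.ker := by
    calc Nat.card g.range * Nat.card f.range * g.range.relIndex f.ker
        = (Nat.card g.range * g.range.relIndex f.ker) * Nat.card f.range := by ring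
      _ = Nat.card M := by rw [h1, h3]
      _ = (Nat.card f.range * f.range.relIndex g.ker) * Nat.card g.range := by rw [h2, h4]
      _ = Nat.card g.range * Nat.card f.range * f.range.relIndex g.ker := by ring
  exact Nat.eq_of_mul_eq_mul_left (Nat.mul_pos hpos1 hpos2) h5

section ClassGroupLift

variable {R : Type*} [CommRing R] [IsDomain R] [IsDedekindDomain R]
variable {M : Type*} [CommGroup M]

/-- The principal ideal generated by a nonzero element, as a nonzero ideal. -/
def spanNZ (x : R) (hx : x ≠ 0) : (Ideal R)⁰ :=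
  ⟨Ideal.span {x}, mem_nonZeroDivisors_iff_ne_zero.mpr
    (by rw [Ne, Ideal.zero_eq_bot, Ideal.span_singleton_eq_bot]; exact hx)⟩

@[simp] theorem coe_spanNZ (x : R) (hx : x ≠ 0) : (spanNZ x hx : Ideal R) = Ideal.span {x} := rfl

theorem mk0_spanNZ (x : R) (hx : x ≠ 0) : ClassGroup.mk0 (spanNZ x hx) = 1 := by
  rw [spanNZ, ClassGroup.mk0_eq_one_iff]
  exact ⟨⟨x, rfl⟩⟩

theorem exists_clLift (φ : (Ideal R)⁰ →* M)
    (hφ : ∀ (x : R) (hx : x ≠ 0), φ (spanNZ x hx) = 1) :
    ∃ ψ : ClassGroup R →* M, ∀ I, ψ (ClassGroup.mk0 I) = φ I := by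
  classical
  have key : ∀ I J : (Ideal R)⁰, ClassGroup.mk0 I = ClassGroup.mk0 J → φ I = φ J := by
    intro I J h
    obtain ⟨x, y, hx, hy, hxy⟩ := ClassGroup.mk0_eq_mk0_iff.mp h
    have h1 : spanNZ x hx * I = spanNZ y hy * J := Subtype.ext hxy
    have h2 := congrArg φ h1
    rwa [map_mul, map_mul, hφ, hφ, one_mul, one_mul] at h2
  let g : ClassGroup R → (Ideal R)⁰ := fun c => Classical.choose (ClassGroup.mk0_surjective c)
  have hg : ∀ c, ClassGroup.mk0 (g c) = c := fun c =>
    Classical.choose_spec (ClassGroup.mk0_surjective c)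
  have hψ : ∀ I, φ (g (ClassGroup.mk0 I)) = φ I := fun I => key _ _ (hg _)
  refine ⟨{ toFun := fun c => φ (g c), map_one' := ?_, map_mul' := ?_ }, hψ⟩
  · have := hψ 1
    rwa [map_one, map_one] at this
  · intro c d
    obtain ⟨I, rfl⟩ := ClassGroup.mk0_surjective c
    obtain ⟨J, rfl⟩ := ClassGroup.mk0_surjective d
    rw [← map_mul, hψ, hψ, hψ, map_mul]

/-- The homomorphism on the class group induced by a multiplicative map on nonzero ideals that
kills the principal ideals. -/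
noncomputable def clLift (φ : (Ideal R)⁰ →* M)
    (hφ : ∀ (x : R) (hx : x ≠ 0), φ (spanNZ x hx) = 1) : ClassGroup R →* M :=
  Classical.choose (exists_clLift φ hφ)

@[simp] theorem clLift_mk0 (φ : (Ideal R)⁰ →* M)
    (hφ : ∀ (x : R) (hx : x ≠ 0), φ (spanNZ x hx) = 1) (I : (Ideal R)⁰) :
    clLift φ hφ (ClassGroup.mk0 I) = φ I :=
  Classical.choose_spec (exists_clLift φ hφ) I

end ClassGroupLift

end Fermat.Agent.S14.FICount
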