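import Mathlib
import Fermat.Agent.S14.Ambig
import Fermat.Agent.S14.FICount
import Fermat.Agent.S14.FIAbs
import Fermat.Agent.S14.UnitHerbrand

/-!
# S14, stream C: the first inequality for an unramified cyclic extension of prime degree

`L/K` Galois of prime degree `p`, unramified at all finite primes.  Given the value `1/p` of the
Herbrand quotient of the units of `L` (hypothesis `hU`), the norm map on ideal classes
`Cl(L) → Cl(K)` is not surjective.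
-/

set_option autoImplicit false
set_option linter.unusedSectionVars false
open NumberField
open scoped Pointwise nonZeroDivisors

namespace Fermat.Agent.S14.FirstIneq

open Fermat.Agent.S14.FICount Fermat.Agent.S14.FIAbs

section maps

variable (K L : Type*) [Field K] [NumberField K] [Field L] [NumberField L] [Algebra K L]

/-- Extension of nonzero ideals from `𝓞 K` to `𝓞 L`. -/
noncomputable def extI : (Ideal (𝓞 K))⁰ →* (Ideal (𝓞 L))⁰ where
  toFun I := ⟨(I : Ideal (𝓞 K)).map (algebraMap (𝓞 K) (𝓞 L)), by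
    refine mem_nonZeroDivisors_iff_ne_zero.mpr fun h => ?_
    have := (Ideal.map_eq_bot_iff_of_injective (RingOfIntegers.algebraMap.injective K L)).mp h
    exact nonZeroDivisors.coe_ne_zero I this⟩
  map_one' := Subtype.ext (by simp [Ideal.one_eq_top, Ideal.map_top])
  map_mul' I J := Subtype.ext (by simp [Ideal.map_mul])

@[simp] theorem coe_extI (I : (Ideal (𝓞 K))⁰) :
    (extI K L I : Ideal (𝓞 L)) = (I : Ideal (𝓞 K)).map (algebraMap (𝓞 K) (𝓞 L)) := rfl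

/-- The relative norm on nonzero ideals. -/
noncomputable def normI : (Ideal (𝓞 L))⁰ →* (Ideal (𝓞 K))⁰ where
  toFun J := ⟨Ideal.relNorm (𝓞 K) (J : Ideal (𝓞 L)), by
    refine mem_nonZeroDivisors_iff_ne_zero.mpr fun h => ?_
    exact nonZeroDivisors.coe_ne_zero J (Ideal.relNorm_eq_bot_iff.mp h)⟩
  map_one' := Subtype.ext (by simp)
  map_mul' I J := Subtype.ext (by simp)

@[simp] theorem coe_normI (J : (Ideal (𝓞 L))⁰) :
    (normI K L J : Ideal (𝓞 K)) = Ideal.relNorm (𝓞 K) (J : Ideal (𝓞 L)) := rfl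

/-- The Galois action on nonzero ideals. -/
noncomputable def smulI (σ : L ≃ₐ[K] L) : (Ideal (𝓞 L))⁰ →* (Ideal (𝓞 L))⁰ where
  toFun J := ⟨σ • (J : Ideal (𝓞 L)), by
    refine mem_nonZeroDivisors_iff_ne_zero.mpr fun h => ?_
    exact nonZeroDivisors.coe_ne_zero J ((smul_eq_zero_iff_eq σ).mp h)⟩
  map_one' := Subtype.ext (by
    simp only [OneMemClass.coe_one, Ideal.one_eq_top]
    rw [Ideal.pointwise_smul_def, Ideal.map_top])
  map_mul' I J := Subtype.ext (by simp [smul_mul'])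

@[simp] theorem coe_smulI (σ : L ≃ₐ[K] L) (J : (Ideal (𝓞 L))⁰) :
    (smulI K L σ J : Ideal (𝓞 L)) = σ • (J : Ideal (𝓞 L)) := rfl

theorem smul_span_singleton (σ : L ≃ₐ[K] L) (x : 𝓞 L) :
    σ • (Ideal.span {x} : Ideal (𝓞 L)) = Ideal.span {σ • x} := by
  rw [Ideal.pointwise_smul_def, Ideal.map_span, Set.image_singleton]
  rfl

theorem extI_spanNZ (x : 𝓞 K) (hx : x ≠ 0) :
    extI K L (spanNZ x hx) = spanNZ (algebraMap (𝓞 K) (𝓞 L) x)
      (fun h => hx (RingOfIntegers.algebraMap.injective K L (by rw [h, map_zero]))) := by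
  apply Subtype.ext
  rw [coe_extI, coe_spanNZ, coe_spanNZ, Ideal.map_span, Set.image_singleton]

theorem normI_spanNZ (x : 𝓞 L) (hx : x ≠ 0) :
    normI K L (spanNZ x hx) = spanNZ (Algebra.intNorm (𝓞 K) (𝓞 L) x)
      (fun h => hx (Algebra.intNorm_eq_zero.mp h)) := by
  apply Subtype.ext
  rw [coe_normI, coe_spanNZ, coe_spanNZ, Ideal.relNorm_singleton]

theorem smulI_spanNZ (σ : L ≃ₐ[K] L) (x : 𝓞 L) (hx : x ≠ 0) :
    smulI K L σ (spanNZ x hx) = spanNZ (σ • x) (fun h => hx ((smul_eq_zero_iff_eq σ).mp h)) := by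
  apply Subtype.ext
  rw [coe_smulI, coe_spanNZ, coe_spanNZ, smul_span_singleton]

/-- Extension of ideal classes `Cl(K) → Cl(L)`. -/
noncomputable def jCl : ClassGroup (𝓞 K) →* ClassGroup (𝓞 L) :=
  clLift (ClassGroup.mk0.comp (extI K L)) (by
    intro x hx
    rw [MonoidHom.comp_apply, extI_spanNZ, mk0_spanNZ])

@[simp] theorem jCl_mk0 (I : (Ideal (𝓞 K))⁰) :
    jCl K L (ClassGroup.mk0 I) = ClassGroup.mk0 (extI K L I) := by
  rw [jCl, clLift_mk0, MonoidHom.comp_apply]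

/-- The norm on ideal classes `Cl(L) → Cl(K)`. -/
noncomputable def nCl : ClassGroup (𝓞 L) →* ClassGroup (𝓞 K) :=
  clLift (ClassGroup.mk0.comp (normI K L)) (by
    intro x hx
    rw [MonoidHom.comp_apply, normI_spanNZ, mk0_spanNZ])

@[simp] theorem nCl_mk0 (J : (Ideal (𝓞 L))⁰) :
    nCl K L (ClassGroup.mk0 J) = ClassGroup.mk0 (normI K L J) := by
  rw [nCl, clLift_mk0, MonoidHom.comp_apply]

/-- The Galois action on ideal classes of `L`. -/
noncomputable def sCl (σ : L ≃ₐ[K] L) : ClassGroup (𝓞 L) →* ClassGroup (𝓞 L) :=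
  clLift (ClassGroup.mk0.comp (smulI K L σ)) (by
    intro x hx
    rw [MonoidHom.comp_apply, smulI_spanNZ, mk0_spanNZ])

@[simp] theorem sCl_mk0 (σ : L ≃ₐ[K] L) (J : (Ideal (𝓞 L))⁰) :
    sCl K L σ (ClassGroup.mk0 J) = ClassGroup.mk0 (smulI K L σ J) := by
  rw [sCl, clLift_mk0, MonoidHom.comp_apply]

theorem nCl_sCl [IsGalois K L] (σ : L ≃ₐ[K] L) (c : ClassGroup (𝓞 L)) :
    nCl K L (sCl K L σ c) = nCl K L c := by
  obtain ⟨J, rfl⟩ := ClassGroup.mk0_surjective c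
  rw [sCl_mk0, nCl_mk0, nCl_mk0]
  congr 1
  apply Subtype.ext
  rw [coe_normI, coe_normI, coe_smulI]
  have : SMulCommClass (L ≃ₐ[K] L) (𝓞 K) (𝓞 L) := IsGaloisGroup.commutes
  exact Ideal.relNorm_smul (𝓞 K) σ _

theorem sCl_jCl [IsGalois K L] (σ : L ≃ₐ[K] L) (c : ClassGroup (𝓞 K)) :
    sCl K L σ (jCl K L c) = jCl K L c := by
  obtain ⟨I, rfl⟩ := ClassGroup.mk0_surjective c
  rw [jCl_mk0, sCl_mk0]
  congr 1
  apply Subtype.ext
  rw [coe_smulI, coe_extI]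
  exact Ambig.smul_map_algebraMap K L (L ≃ₐ[K] L) σ _

end maps

section cyclic

variable (K L : Type) [Field K] [NumberField K] [Field L] [NumberField L] [Algebra K L]
  [IsGalois K L]

/-- The action of `σ` on the units of `𝓞 L`. -/
noncomputable def sU (σ : L ≃ₐ[K] L) : (𝓞 L)ˣ →* (𝓞 L)ˣ :=
  Units.map (MulSemiringAction.toRingHom (L ≃ₐ[K] L) (𝓞 L) σ : 𝓞 L →* 𝓞 L)

@[simp] theorem coe_sU (σ : L ≃ₐ[K] L) (u : (𝓞 L)ˣ) :
    ((sU K L σ u : (𝓞 L)ˣ) : 𝓞 L) = σ • (u : 𝓞 L) := rfl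

theorem sU_iterate (σ : L ≃ₐ[K] L) (i : ℕ) (u : (𝓞 L)ˣ) :
    (sU K L σ)^[i] u = sU K L (σ ^ i) u := by
  induction i with
  | zero => apply Units.ext; simp
  | succ i ih =>
    rw [Function.iterate_succ_apply', ih, pow_succ']
    apply Units.ext
    simp [mul_smul]

/-- `∏_{i<p} σ^i x` on `𝓞 L`. -/
noncomputable def normS (σ : L ≃ₐ[K] L) (p : ℕ) (x : 𝓞 L) : 𝓞 L :=
  ∏ i ∈ Finset.range p, (σ ^ i) • x

theorem normS_mul (σ : L ≃ₐ[K] L) (p : ℕ) (x y : 𝓞 L) :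
    normS K L σ p (x * y) = normS K L σ p x * normS K L σ p y := by
  simp only [normS, smul_mul', Finset.prod_mul_distrib]

theorem normS_one (σ : L ≃ₐ[K] L) (p : ℕ) : normS K L σ p 1 = 1 := by
  simp [normS]

theorem coe_normHom_sU (σ : L ≃ₐ[K] L) (p : ℕ) (u : (𝓞 L)ˣ) :
    ((FIAbs.normHom (sU K L σ) p u : (𝓞 L)ˣ) : 𝓞 L) = normS K L σ p (u : 𝓞 L) := by
  rw [FIAbs.normHom_apply, Units.coe_prod, normS]
  refine Finset.prod_congr rfl fun i _ => ?_
  rw [sU_iterate, coe_sU]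

variable {K L}

/-- A nontrivial element of a Galois group of prime order generates it. -/
theorem mem_zpowers_of_ne_one {p : ℕ} (hp : p.Prime) (hdeg : Module.finrank K L = p)
    {σ : L ≃ₐ[K] L} (hσ : σ ≠ 1) (τ : L ≃ₐ[K] L) : τ ∈ Subgroup.zpowers σ := by
  have : Fact p.Prime := ⟨hp⟩
  exact mem_zpowers_of_prime_card ((IsGalois.card_aut_eq_finrank K L).trans hdeg) hσ

theorem orderOf_eq {p : ℕ} (hp : p.Prime) (hdeg : Module.finrank K L = p)
    {σ : L ≃ₐ[K] L} (hσ : σ ≠ 1) : orderOf σ = p := by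
  rw [orderOf_eq_card_of_forall_mem_zpowers (mem_zpowers_of_ne_one hp hdeg hσ),
    IsGalois.card_aut_eq_finrank K L, hdeg]

/-- The product over the powers of a generator is the product over the group. -/
theorem prod_range_eq_prod_univ {M : Type*} [CommMonoid M] {p : ℕ} (hp : p.Prime)
    (hdeg : Module.finrank K L = p) {σ : L ≃ₐ[K] L} (hσ : σ ≠ 1) (f : (L ≃ₐ[K] L) → M) :
    ∏ i ∈ Finset.range p, f (σ ^ i) = ∏ τ : L ≃ₐ[K] L, f τ := by
  classical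
  have h1 := IsCyclic.image_range_orderOf (mem_zpowers_of_ne_one hp hdeg hσ)
  rw [orderOf_eq hp hdeg hσ] at h1
  rw [← h1, Finset.prod_image]
  intro i hi j hj hij
  have := pow_injOn_Iio_orderOf (x := σ)
  rw [orderOf_eq hp hdeg hσ] at this
  exact this (Finset.mem_range.mp hi) (Finset.mem_range.mp hj) hij

theorem coe_normS {p : ℕ} (hp : p.Prime) (hdeg : Module.finrank K L = p)
    {σ : L ≃ₐ[K] L} (hσ : σ ≠ 1) (x : 𝓞 L) :
    ((normS K L σ p x : 𝓞 L) : L) = algebraMap K L (Algebra.norm K (x : L)) := by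
  rw [Algebra.norm_eq_prod_automorphisms, ← prod_range_eq_prod_univ hp hdeg hσ, normS,
    RingOfIntegers.coe_eq_algebraMap, map_prod]
  rfl

theorem algebraMap_intNorm {p : ℕ} (hp : p.Prime) (hdeg : Module.finrank K L = p)
    {σ : L ≃ₐ[K] L} (hσ : σ ≠ 1) (x : 𝓞 L) :
    algebraMap (𝓞 K) (𝓞 L) (Algebra.intNorm (𝓞 K) (𝓞 L) x) = normS K L σ p x := by
  apply RingOfIntegers.ext
  rw [coe_normS hp hdeg hσ]
  show algebraMap K L (algebraMap (𝓞 K) K (Algebra.intNorm (𝓞 K) (𝓞 L) x)) = _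
  rw [Algebra.algebraMap_intNorm (K := K) (L := L)]

/-- Hilbert 90 with cleared denominators. -/
theorem exists_eq_mul_apply {p : ℕ} (hp : p.Prime) (hdeg : Module.finrank K L = p)
    {σ : L ≃ₐ[K] L} (hσ : σ ≠ 1) (w : L) (hw : Algebra.norm K w = 1) :
    ∃ b : 𝓞 L, b ≠ 0 ∧ (b : L) = w * σ (b : L) := by
  have hgen := mem_zpowers_of_ne_one hp hdeg hσ
  have : IsCyclic (L ≃ₐ[K] L) := ⟨σ, hgen⟩
  obtain ⟨y, hy⟩ := groupCohomology.exists_div_of_norm_eq_one hgen hw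
  have halg : IsAlgebraic ℤ (y : L) :=
    (IsFractionRing.isAlgebraic_iff ℤ ℚ L).mpr (Algebra.IsAlgebraic.isAlgebraic _)
  obtain ⟨n, hn, hint⟩ := halg.exists_integral_multiple
  refine ⟨IsIntegralClosure.mk' (𝓞 L) (n • (y : L)) hint, ?_, ?_⟩
  · intro h
    have h2 := congrArg (algebraMap (𝓞 L) L) h
    rw [IsIntegralClosure.algebraMap_mk', map_zero, zsmul_eq_mul] at h2
    rcases mul_eq_zero.mp h2 with h3 | h3
    · exact hn (by exact_mod_cast h3)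
    · exact y.ne_zero h3
  · rw [RingOfIntegers.coe_eq_algebraMap, IsIntegralClosure.algebraMap_mk', zsmul_eq_mul, map_mul,
      map_intCast, ← hy]
    have hy0 : σ (y : L) ≠ 0 := by
      simp
    field_simp

end cyclic

section chain

variable {K L : Type} [Field K] [NumberField K] [Field L] [NumberField L] [Algebra K L]
  [IsGalois K L]

theorem smul_eq_of_forall_mem_zpowers {σ : L ≃ₐ[K] L} (hgen : ∀ τ, τ ∈ Subgroup.zpowers σ)
    (B : Ideal (𝓞 L)) (h : σ • B = B) (τ : L ≃ₐ[K] L) : τ • B = B := by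
  have h1 : σ ∈ MulAction.stabilizer (L ≃ₐ[K] L) B := MulAction.mem_stabilizer_iff.mpr h
  have h2 : Subgroup.zpowers σ ≤ MulAction.stabilizer (L ≃ₐ[K] L) B :=
    Subgroup.zpowers_le.mpr h1
  exact MulAction.mem_stabilizer_iff.mp (h2 (hgen τ))

theorem norm_eq_one_of_normS_eq_one {p : ℕ} (hp : p.Prime) (hdeg : Module.finrank K L = p)
    {σ : L ≃ₐ[K] L} (hσ : σ ≠ 1) {x : 𝓞 L} (h : normS K L σ p x = 1) :
    Algebra.norm K (x : L) = 1 := by
  have h1 := coe_normS hp hdeg hσ x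
  rw [h] at h1
  apply (algebraMap K L).injective
  rw [← h1, map_one]
  rfl

/-- Step (a): `ker N / (σ - 1)` on units injects into the capitulation kernel. -/
theorem step_a {p : ℕ} (hp : p.Prime) (hdeg : Module.finrank K L = p)
    (hur : ∀ Q : Ideal (𝓞 L), Q.IsPrime → Q ≠ ⊥ → Q.inertia (L ≃ₐ[K] L) = ⊥)
    {σ : L ≃ₐ[K] L} (hσ : σ ≠ 1) :
    (FIAbs.divHom (sU K L σ)).range.relIndex (FIAbs.normHom (sU K L σ) p).ker ≤
      Nat.card (jCl K L).ker := by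
  have hgen := mem_zpowers_of_ne_one hp hdeg hσ
  have key := relIndex_le_of_rel (FIAbs.divHom (sU K L σ)).range
    (FIAbs.normHom (sU K L σ) p).ker (⊥ : Subgroup (ClassGroup (𝓞 K))) (jCl K L).ker
    (fun u c => ∃ (α : 𝓞 L) (𝔞 : (Ideal (𝓞 K))⁰), α ≠ 0 ∧ σ • α = (u : 𝓞 L) * α ∧
      Ideal.span {α} = (𝔞 : Ideal (𝓞 K)).map (algebraMap (𝓞 K) (𝓞 L)) ∧ c = ClassGroup.mk0 𝔞)
    ?_ ?_ ?_
  · rw [Subgroup.relIndex_bot_left] at key
    exact key.1
  · -- existence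
    intro u hu
    have hu1 : normS K L σ p (u : 𝓞 L) = 1 := by
      rw [← coe_normHom_sU, MonoidHom.mem_ker.mp hu]; rfl
    have hN : Algebra.norm K ((u : 𝓞 L) : L) = 1 := norm_eq_one_of_normS_eq_one hp hdeg hσ hu1
    have hN' : Algebra.norm K (((u : 𝓞 L) : L)⁻¹) = 1 := by rw [Algebra.norm_inv, hN, inv_one]
    obtain ⟨α, hα0, hα⟩ := exists_eq_mul_apply hp hdeg hσ _ hN'
    have hu0 : ((u : 𝓞 L) : L) ≠ 0 := by
      intro h
      rw [h, Algebra.norm_zero] at hN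
      exact zero_ne_one hN
    have hσα : σ • α = (u : 𝓞 L) * α := by
      apply RingOfIntegers.ext
      show σ (α : L) = ((u : 𝓞 L) : L) * (α : L)
      calc σ (α : L) = ((u : 𝓞 L) : L) * ((((u : 𝓞 L) : L))⁻¹ * σ (α : L)) := by field_simp
        _ = ((u : 𝓞 L) : L) * (α : L) := by rw [← hα]
    have hstab : σ • (Ideal.span {α} : Ideal (𝓞 L)) = Ideal.span {α} := by
      rw [smul_span_singleton, hσα, Ideal.span_singleton_mul_left_unit u.isUnit]
    obtain ⟨𝔞, h𝔞0, h𝔞⟩ := Ambig.exists_map_eq_of_smul_eq K L (L ≃ₐ[K] L) hur (Ideal.span {α})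
      (by rwa [Ne, Ideal.span_singleton_eq_bot])
      (smul_eq_of_forall_mem_zpowers hgen _ hstab)
    have h𝔞mem : 𝔞 ∈ (Ideal (𝓞 K))⁰ := mem_nonZeroDivisors_iff_ne_zero.mpr h𝔞0
    refine ⟨ClassGroup.mk0 ⟨𝔞, h𝔞mem⟩, ?_, α, ⟨𝔞, h𝔞mem⟩, hα0, hσα, h𝔞, rfl⟩
    rw [MonoidHom.mem_ker, jCl_mk0]
    have : extI K L ⟨𝔞, h𝔞mem⟩ = spanNZ α hα0 := Subtype.ext (by rw [coe_extI, coe_spanNZ, h𝔞])
    rw [this, mk0_spanNZ]
  · -- pairs
    rintro u₁ u₂ c₁ c₂ - - - - ⟨α₁, 𝔞₁, hα₁0, hσ₁, hspan₁, rfl⟩ ⟨α₂, 𝔞₂, hα₂0, hσ₂, hspan₂, rfl⟩ hc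
    rw [Subgroup.mem_bot, inv_mul_eq_one] at hc
    obtain ⟨x, y, hx, hy, hxy⟩ := ClassGroup.mk0_eq_mk0_iff.mp hc
    have h1 := congrArg (Ideal.map (algebraMap (𝓞 K) (𝓞 L))) hxy
    rw [Ideal.map_mul, Ideal.map_mul, ← hspan₁, ← hspan₂, Ideal.map_span, Ideal.map_span,
      Set.image_singleton, Set.image_singleton, Ideal.span_singleton_mul_span_singleton,
      Ideal.span_singleton_mul_span_singleton, Ideal.span_singleton_eq_span_singleton] at h1
    obtain ⟨v, hv⟩ := h1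
    have hx' : algebraMap (𝓞 K) (𝓞 L) x ≠ 0 := fun h =>
      hx (RingOfIntegers.algebraMap.injective K L (by rw [h, map_zero]))
    have hfix : ∀ z : 𝓞 K, σ • algebraMap (𝓞 K) (𝓞 L) z = algebraMap (𝓞 K) (𝓞 L) z := by
      intro z
      have : SMulCommClass (L ≃ₐ[K] L) (𝓞 K) (𝓞 L) := IsGaloisGroup.commutes
      exact smul_algebraMap (A := 𝓞 L) σ z
    have h2 := congrArg (fun z => σ • z) hv
    simp only [smul_mul', hfix, hσ₁, hσ₂] at h2
    -- `x' * (u₁ * α₁) * σ v = y' * (u₂ * α₂)`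
    have h3 : (u₁ : 𝓞 L) * (σ • (v : 𝓞 L)) = (u₂ : 𝓞 L) * (v : 𝓞 L) := by
      have h4 : algebraMap (𝓞 K) (𝓞 L) x * α₁ ≠ 0 := mul_ne_zero hx' hα₁0
      apply mul_left_cancel₀ h4
      linear_combination h2 - (u₂ : 𝓞 L) * hv
    refine ⟨v, ?_⟩
    apply Units.ext
    rw [FIAbs.divHom_apply, div_eq_mul_inv, Units.val_mul, Units.val_mul, coe_sU]
    have h5 : (u₁ : 𝓞 L) * ((u₁⁻¹ : (𝓞 L)ˣ) : 𝓞 L) = 1 := by simp
    have h6 : (v : 𝓞 L) * ((v⁻¹ : (𝓞 L)ˣ) : 𝓞 L) = 1 := by simp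
    linear_combination ((((u₁⁻¹ : (𝓞 L)ˣ) : 𝓞 L) * (u₂ : 𝓞 L))) * h6
      + ((u₁⁻¹ : (𝓞 L)ˣ) : 𝓞 L) * ((v⁻¹ : (𝓞 L)ˣ) : 𝓞 L) * h3
      - (σ • (v : 𝓞 L)) * ((v⁻¹ : (𝓞 L)ˣ) : 𝓞 L) * h5
  · -- finiteness
    rw [Subgroup.relIndex_bot_left]
    exact Nat.card_pos.ne'

/-- Step (b): the capitulation kernel is bounded by `ker N_G / (σ - 1)` on classes, if the norm
on classes is onto. -/
theorem step_b (σ : L ≃ₐ[K] L) (hsurj : Function.Surjective (nCl K L)) :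
    Nat.card (jCl K L).ker ≤
      (FIAbs.divHom (sCl K L σ)).range.relIndex ((jCl K L).comp (nCl K L)).ker := by
  have key := relIndex_le_of_rel (⊥ : Subgroup (ClassGroup (𝓞 K))) (jCl K L).ker
    (FIAbs.divHom (sCl K L σ)).range ((jCl K L).comp (nCl K L)).ker
    (fun c d => nCl K L d = c) ?_ ?_ ?_
  · rw [Subgroup.relIndex_bot_left] at key
    exact key.1
  · intro c hc
    obtain ⟨d, rfl⟩ := hsurj c
    exact ⟨d, by rw [MonoidHom.mem_ker, MonoidHom.comp_apply]; exact hc, rfl⟩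
  · rintro c₁ c₂ d₁ d₂ - - - - rfl rfl ⟨e, he⟩
    rw [Subgroup.mem_bot, ← map_inv, ← map_mul, ← he, FIAbs.divHom_apply, map_div, nCl_sCl,
      div_self']
  · show ((FIAbs.divHom (sCl K L σ)).range.subgroupOf ((jCl K L).comp (nCl K L)).ker).index ≠ 0
    exact Subgroup.index_ne_zero_of_finite

/-- Step (c): the Herbrand quotient of the class group is `1`. -/
theorem step_c (σ : L ≃ₐ[K] L) :
    (FIAbs.divHom (sCl K L σ)).range.relIndex ((jCl K L).comp (nCl K L)).ker =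
      ((jCl K L).comp (nCl K L)).range.relIndex (FIAbs.divHom (sCl K L σ)).ker := by
  refine relIndex_eq_of_finite ((jCl K L).comp (nCl K L)) (FIAbs.divHom (sCl K L σ)) ?_ ?_
  · intro x
    rw [MonoidHom.comp_apply, FIAbs.divHom_apply, map_div, nCl_sCl, div_self', map_one]
  · intro x
    rw [MonoidHom.comp_apply, FIAbs.divHom_apply, sCl_jCl, div_self']

/-- Step (d): `Cl(L)^σ / j(Cl K)` injects into `E_K / N E_L`, if the norm on classes is onto. -/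
theorem step_d {p : ℕ} (hp : p.Prime) (hdeg : Module.finrank K L = p)
    (hur : ∀ Q : Ideal (𝓞 L), Q.IsPrime → Q ≠ ⊥ → Q.inertia (L ≃ₐ[K] L) = ⊥)
    {σ : L ≃ₐ[K] L} (hσ : σ ≠ 1) (hsurj : Function.Surjective (nCl K L))
    (hfin : (FIAbs.normHom (sU K L σ) p).range.relIndex (FIAbs.divHom (sU K L σ)).ker ≠ 0) :
    ((jCl K L).comp (nCl K L)).range.relIndex (FIAbs.divHom (sCl K L σ)).ker ≤
      (FIAbs.normHom (sU K L σ) p).range.relIndex (FIAbs.divHom (sU K L σ)).ker := by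
  have hgen := mem_zpowers_of_ne_one hp hdeg hσ
  have hp0 : 0 < p := hp.pos
  have hcomm : SMulCommClass (L ≃ₐ[K] L) (𝓞 K) (𝓞 L) := IsGaloisGroup.commutes
  refine (relIndex_le_of_mul_rel ((jCl K L).comp (nCl K L)).range (FIAbs.divHom (sCl K L σ)).ker
    (FIAbs.normHom (sU K L σ) p).range (FIAbs.divHom (sU K L σ)).ker
    (fun c ε => ∃ (𝔄 : (Ideal (𝓞 L))⁰) (x y : 𝓞 L), x ≠ 0 ∧ y ≠ 0 ∧ c = ClassGroup.mk0 𝔄 ∧
      Ideal.span {x} * σ • (𝔄 : Ideal (𝓞 L)) = Ideal.span {y} * (𝔄 : Ideal (𝓞 L)) ∧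
      normS K L σ p x * (ε : 𝓞 L) = normS K L σ p y)
    (p * Nat.card (ClassGroup (𝓞 L))) (Nat.mul_pos hp0 Nat.card_pos) ?_ ?_ ?_ ?_ ?_ ?_ hfin).1
  · -- exponent on the class side
    intro c _
    rw [pow_mul', pow_card_eq_one', one_pow]
    exact Subgroup.one_mem _
  · -- exponent on the unit side
    intro ε hε
    rw [FIAbs.mem_ker_divHom] at hε
    refine ⟨ε ^ Nat.card (ClassGroup (𝓞 L)), ?_⟩
    rw [FIAbs.normHom_apply]
    have hfix : ∀ i : ℕ, (sU K L σ)^[i] (ε ^ Nat.card (ClassGroup (𝓞 L))) =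
        ε ^ Nat.card (ClassGroup (𝓞 L)) := by
      intro i
      apply Function.iterate_fixed
      rw [map_pow, hε]
    rw [Finset.prod_congr rfl (fun i _ => hfix i), Finset.prod_const, Finset.card_range,
      ← pow_mul']
  · -- existence
    intro c hc
    rw [FIAbs.mem_ker_divHom] at hc
    obtain ⟨𝔄, rfl⟩ := ClassGroup.mk0_surjective c
    rw [sCl_mk0] at hc
    obtain ⟨x, y, hx, hy, hxy⟩ := ClassGroup.mk0_eq_mk0_iff.mp hc
    rw [coe_smulI] at hxy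
    have h1 := congrArg (Ideal.relNorm (𝓞 K)) hxy
    rw [map_mul, map_mul, Ideal.relNorm_smul, Ideal.relNorm_singleton,
      Ideal.relNorm_singleton] at h1
    have hN0 : Ideal.relNorm (𝓞 K) (𝔄 : Ideal (𝓞 L)) ≠ 0 := fun h =>
      nonZeroDivisors.coe_ne_zero 𝔄 (Ideal.relNorm_eq_bot_iff.mp h)
    have h2 := mul_right_cancel₀ hN0 h1
    rw [Ideal.span_singleton_eq_span_singleton] at h2
    obtain ⟨ε₀, hε₀⟩ := h2
    refine ⟨Units.map (algebraMap (𝓞 K) (𝓞 L) : 𝓞 K →* 𝓞 L) ε₀, ?_, 𝔄, x, y, hx, hy, rfl, hxy, ?_⟩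
    · rw [FIAbs.mem_ker_divHom]
      apply Units.ext
      rw [coe_sU, Units.coe_map]
      exact smul_algebraMap (A := 𝓞 L) σ _
    · rw [← algebraMap_intNorm hp hdeg hσ, ← algebraMap_intNorm hp hdeg hσ, Units.coe_map,
        ← hε₀, map_mul]
      rfl
  · -- the relation contains `(1, 1)`
    refine ⟨1, 1, 1, one_ne_zero, one_ne_zero, (map_one _).symm, ?_, ?_⟩
    · rw [OneMemClass.coe_one, Ideal.one_eq_top, Ideal.pointwise_smul_def, Ideal.map_top]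
    · rw [normS_one, Units.val_one, one_mul]
  · -- multiplicativity
    rintro c₁ c₂ ε₁ ε₂ ⟨𝔄₁, x₁, y₁, hx₁, hy₁, rfl, h₁, hn₁⟩ ⟨𝔄₂, x₂, y₂, hx₂, hy₂, rfl, h₂, hn₂⟩
    refine ⟨𝔄₁ * 𝔄₂, x₁ * x₂, y₁ * y₂, mul_ne_zero hx₁ hx₂, mul_ne_zero hy₁ hy₂,
      (map_mul _ _ _).symm, ?_, ?_⟩
    · rw [Submonoid.coe_mul, smul_mul', ← Ideal.span_singleton_mul_span_singleton,
        ← Ideal.span_singleton_mul_span_singleton, mul_mul_mul_comm, h₁, h₂, mul_mul_mul_comm]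
    · rw [normS_mul, normS_mul, Units.val_mul, ← hn₁, ← hn₂]
      ring
  · -- the kernel condition
    rintro c ε hc hε ⟨𝔄, x, y, hx, hy, rfl, hxy, hn⟩ ⟨u, rfl⟩
    rw [coe_normHom_sU] at hn
    have hx0 : (x : L) ≠ 0 := fun h => hx (RingOfIntegers.ext (by rw [h]; rfl))
    have hy0 : (y : L) ≠ 0 := fun h => hy (RingOfIntegers.ext (by rw [h]; rfl))
    have hu0 : ((u : 𝓞 L) : L) ≠ 0 := fun h =>
      u.ne_zero (RingOfIntegers.ext (by rw [h]; rfl))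
    have hNw : Algebra.norm K ((y : L) / ((x : L) * ((u : 𝓞 L) : L))) = 1 := by
      have h1 : algebraMap K L (Algebra.norm K (x : L) * Algebra.norm K ((u : 𝓞 L) : L)) =
          algebraMap K L (Algebra.norm K (y : L)) := by
        rw [map_mul, ← coe_normS hp hdeg hσ, ← coe_normS hp hdeg hσ, ← coe_normS hp hdeg hσ, ← hn]
        exact (map_mul (algebraMap (𝓞 L) L) _ _).symm
      have h2 := (algebraMap K L).injective h1
      rw [div_eq_mul_inv, map_mul, Algebra.norm_inv, map_mul, h2, mul_inv_cancel₀]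
      exact Algebra.norm_ne_zero_iff.mpr hy0
    obtain ⟨b, hb0, hb⟩ := exists_eq_mul_apply hp hdeg hσ _ hNw
    have hb' : b * x * (u : 𝓞 L) = y * (σ • b) := by
      apply RingOfIntegers.ext
      show (b : L) * (x : L) * ((u : 𝓞 L) : L) = (y : L) * σ (b : L)
      calc (b : L) * (x : L) * ((u : 𝓞 L) : L)
          = ((y : L) / ((x : L) * ((u : 𝓞 L) : L)) * σ (b : L)) * (x : L) * ((u : 𝓞 L) : L) := by
            rw [← hb]
        _ = (y : L) * σ (b : L) := by field_simp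
    have hstab : σ • (Ideal.span {b} * (𝔄 : Ideal (𝓞 L))) = Ideal.span {b} * (𝔄 : Ideal (𝓞 L)) := by
      have hx0' : (Ideal.span {x} : Ideal (𝓞 L)) ≠ 0 := by
        rwa [Ne, Ideal.zero_eq_bot, Ideal.span_singleton_eq_bot]
      apply mul_left_cancel₀ hx0'
      rw [smul_mul', smul_span_singleton]
      calc Ideal.span {x} * (Ideal.span {σ • b} * σ • (𝔄 : Ideal (𝓞 L)))
          = Ideal.span {σ • b} * (Ideal.span {x} * σ • (𝔄 : Ideal (𝓞 L))) := mul_left_comm _ _ _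
        _ = Ideal.span {σ • b} * (Ideal.span {y} * (𝔄 : Ideal (𝓞 L))) := by rw [hxy]
        _ = Ideal.span {y * σ • b} * (𝔄 : Ideal (𝓞 L)) := by
            rw [← mul_assoc, Ideal.span_singleton_mul_span_singleton, mul_comm (σ • b) y]
        _ = Ideal.span {b * x * (u : 𝓞 L)} * (𝔄 : Ideal (𝓞 L)) := by rw [hb']
        _ = Ideal.span {b * x} * (𝔄 : Ideal (𝓞 L)) := by
            rw [Ideal.span_singleton_mul_right_unit u.isUnit]
        _ = Ideal.span {x} * (Ideal.span {b} * (𝔄 : Ideal (𝓞 L))) := by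
            rw [← mul_assoc, Ideal.span_singleton_mul_span_singleton, mul_comm x b]
    have hB0 : Ideal.span {b} * (𝔄 : Ideal (𝓞 L)) ≠ ⊥ :=
      mul_ne_zero (by rwa [Ne, Ideal.zero_eq_bot, Ideal.span_singleton_eq_bot])
        (nonZeroDivisors.coe_ne_zero 𝔄)
    obtain ⟨𝔞, h𝔞0, h𝔞⟩ := Ambig.exists_map_eq_of_smul_eq K L (L ≃ₐ[K] L) hur _ hB0
      (smul_eq_of_forall_mem_zpowers hgen _ hstab)
    have h𝔞mem : 𝔞 ∈ (Ideal (𝓞 K))⁰ := mem_nonZeroDivisors_iff_ne_zero.mpr h𝔞0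
    obtain ⟨d, hd⟩ := hsurj (ClassGroup.mk0 ⟨𝔞, h𝔞mem⟩)
    refine ⟨d, ?_⟩
    rw [MonoidHom.comp_apply, hd, jCl_mk0]
    have h3 : extI K L ⟨𝔞, h𝔞mem⟩ = spanNZ b hb0 * 𝔄 :=
      Subtype.ext (by rw [coe_extI, Submonoid.coe_mul, coe_spanNZ, ← h𝔞])
    rw [h3, map_mul, mk0_spanNZ, one_mul]

/-- **First inequality** (class-group form): for a Galois extension `L/K` of number fields of
prime degree `p`, unramified at all finite primes, and given the Herbrand quotient `1/p` of the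
units (`hU`, `hU0`), the norm `Cl(L) → Cl(K)` is not surjective. -/
theorem not_surjective_nCl {p : ℕ} (hp : p.Prime) (hdeg : Module.finrank K L = p)
    (hur : ∀ Q : Ideal (𝓞 L), Q.IsPrime → Q ≠ ⊥ → Q.inertia (L ≃ₐ[K] L) = ⊥)
    {σ : L ≃ₐ[K] L} (hσ : σ ≠ 1)
    (hU : (FIAbs.divHom (sU K L σ)).range.relIndex (FIAbs.normHom (sU K L σ) p).ker =
      p * (FIAbs.normHom (sU K L σ) p).range.relIndex (FIAbs.divHom (sU K L σ)).ker)
    (hU0 : (FIAbs.normHom (sU K L σ) p).range.relIndex (FIAbs.divHom (sU K L σ)).ker ≠ 0) :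
    ¬ Function.Surjective (nCl K L) := by
  intro hsurj
  have ha := step_a hp hdeg hur hσ
  have hb := step_b σ hsurj
  have hc := step_c (K := K) (L := L) σ
  have hd := step_d hp hdeg hur hσ hsurj hU0
  rw [hU] at ha
  rw [hc] at hb
  have h2 := ha.trans (hb.trans hd)
  have h3 := hp.two_le
  nlinarith [Nat.pos_of_ne_zero hU0]

end chain

section final

variable (K L : Type) [Field K] [NumberField K] [Field L] [NumberField L] [Algebra K L]
  [IsGalois K L]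

/-- **First inequality** for an unramified Galois extension of odd prime degree: some ideal class
of `K` contains no relative norm of an ideal of `L` (universal shape: the norm is given as an
element `N` of the nonzero ideals together with the equation `N = relNorm J`). -/
theorem exists_class_ne_relNorm (p : ℕ) (hp : p.Prime) (hp2 : p ≠ 2)
    (hdeg : Module.finrank K L = p)
    (hur : ∀ Q : Ideal (𝓞 L), Q.IsPrime → Q ≠ ⊥ → Q.inertia (L ≃ₐ[K] L) = ⊥) :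
    ∃ c : ClassGroup (𝓞 K), ∀ (J : Ideal (𝓞 L)) (N : (Ideal (𝓞 K))⁰),
      (N : Ideal (𝓞 K)) = Ideal.relNorm (𝓞 K) J → ClassGroup.mk0 N ≠ c := by
  have hcard : Nat.card (L ≃ₐ[K] L) = p := (IsGalois.card_aut_eq_finrank K L).trans hdeg
  obtain ⟨σ, hσ⟩ : ∃ σ : L ≃ₐ[K] L, σ ≠ 1 := by
    have : Nontrivial (L ≃ₐ[K] L) := by
      rw [← Finite.one_lt_card_iff_nontrivial, hcard]; exact hp.one_lt
    exact exists_ne 1
  have hD : ∀ u : (𝓞 L)ˣ, (((FIAbs.divHom (sU K L σ) u : (𝓞 L)ˣ) : 𝓞 L) : L) =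
      σ ((u : 𝓞 L) : L) / ((u : 𝓞 L) : L) := by
    intro u
    have hu0 : ((u : 𝓞 L) : L) ≠ 0 := fun h =>
      u.ne_zero (RingOfIntegers.ext (by rw [h]; rfl))
    rw [eq_div_iff hu0]
    have h1 : FIAbs.divHom (sU K L σ) u * u = sU K L σ u := by
      rw [FIAbs.divHom_apply, div_mul_cancel]
    have h2 := congrArg (fun v : (𝓞 L)ˣ => ((v : 𝓞 L) : L)) h1
    simp only [Units.val_mul, map_mul] at h2
    exact h2
  have hNm : ∀ u : (𝓞 L)ˣ, (((FIAbs.normHom (sU K L σ) p u : (𝓞 L)ˣ) : 𝓞 L) : L) =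
      ∏ i ∈ Finset.range p, (σ ^ i) ((u : 𝓞 L) : L) := by
    intro u
    rw [coe_normHom_sU, normS, RingOfIntegers.coe_eq_algebraMap, map_prod]
    rfl
  obtain ⟨hU, hU0⟩ := UnitHerbrand.units_herbrand p hp hp2 hdeg σ hσ
    (FIAbs.divHom (sU K L σ)) (FIAbs.normHom (sU K L σ) p) hD hNm
  have hns := not_surjective_nCl hp hdeg hur hσ hU hU0
  by_contra hcon
  push Not at hcon
  apply hns
  intro c
  obtain ⟨J, N, hN, hc⟩ := hcon c
  have hJ0 : J ∈ (Ideal (𝓞 L))⁰ := by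
    refine mem_nonZeroDivisors_iff_ne_zero.mpr fun h => ?_
    apply nonZeroDivisors.coe_ne_zero N
    rw [hN, h]
    exact Ideal.relNorm_bot (𝓞 K)
  refine ⟨ClassGroup.mk0 ⟨J, hJ0⟩, ?_⟩
  rw [nCl_mk0, ← hc]
  congr 1
  exact Subtype.ext hN.symm

/-- `relNorm` of a nonzero ideal is a nonzero ideal. -/
theorem relNorm_mem_nonZeroDivisors (J : (Ideal (𝓞 L))⁰) :
    Ideal.relNorm (𝓞 K) (J : Ideal (𝓞 L)) ∈ (Ideal (𝓞 K))⁰ :=
  (normI K L J).2

/-- **First inequality**, class-group form of the module table: the norm map on ideal classes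
`Cl(L) → Cl(K)` is not onto. -/
theorem norm_not_surjective (p : ℕ) (hp : p.Prime) (hp2 : p ≠ 2)
    (hdeg : Module.finrank K L = p)
    (hur : ∀ Q : Ideal (𝓞 L), Q.IsPrime → Q ≠ ⊥ → Q.inertia (L ≃ₐ[K] L) = ⊥) :
    ∃ c : ClassGroup (𝓞 K), ∀ J : (Ideal (𝓞 L))⁰,
      ClassGroup.mk0 ⟨Ideal.relNorm (𝓞 K) (J : Ideal (𝓞 L)),
        relNorm_mem_nonZeroDivisors K L J⟩ ≠ c := by
  obtain ⟨c, hc⟩ := exists_class_ne_relNorm K L p hp hp2 hdeg hur
  exact ⟨c, fun J => hc (J : Ideal (𝓞 L)) _ rfl⟩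

/-- **First inequality**, ideal form: some nonzero ideal `I` of `𝓞 K` is not of the form
`(x)⁻¹ (y) N(J)`, i.e. `P_K · N(I_L) ≠ I_K`. -/
theorem exists_ideal_not_norm (p : ℕ) (hp : p.Prime) (hp2 : p ≠ 2)
    (hdeg : Module.finrank K L = p)
    (hur : ∀ Q : Ideal (𝓞 L), Q.IsPrime → Q ≠ ⊥ → Q.inertia (L ≃ₐ[K] L) = ⊥) :
    ∃ I : Ideal (𝓞 K), I ≠ ⊥ ∧ ∀ (x y : 𝓞 K) (J : Ideal (𝓞 L)), x ≠ 0 → y ≠ 0 → J ≠ ⊥ →
      Ideal.span {x} * I ≠ Ideal.span {y} * Ideal.relNorm (𝓞 K) J := by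
  obtain ⟨c, hc⟩ := exists_class_ne_relNorm K L p hp hp2 hdeg hur
  obtain ⟨I, rfl⟩ := ClassGroup.mk0_surjective c
  refine ⟨I, nonZeroDivisors.coe_ne_zero I, fun x y J hx hy hJ h => ?_⟩
  have hJ0 : J ∈ (Ideal (𝓞 L))⁰ := mem_nonZeroDivisors_iff_ne_zero.mpr hJ
  refine hc J (normI K L ⟨J, hJ0⟩) rfl ?_
  rw [ClassGroup.mk0_eq_mk0_iff]
  exact ⟨y, x, hy, hx, h.symm⟩

end final

end Fermat.Agent.S14.FirstIneq
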