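import Mathlib
import Fermat.Agent.S14.ArtinMap
import Fermat.Agent.S14.RecCl

/-!
# S14: the reciprocity law for an unramified cyclic extension of prime degree, from the
first inequality and the crossing data

`K ⊆ L` number fields, `G` a Galois group of `L/K` of prime order `p`, `L/K` unramified at all
finite primes.  `ψ = ArtinMap.artin` is the Artin map on the nonzero ideals of `𝓞 K`,
`H ≤ ClassGroup (𝓞 K)` a subgroup containing the classes of the norms of ideals of `𝓞 L`.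

* `rec_of_cross` : if `H ≠ ⊤` (first inequality) and every pair of inert primes has a crossing
  datum (`RecCl.CrossDatum`), then principal ideals have trivial Artin symbol.
* `mem_iff_of_cross` : more precisely, the class of `a` lies in `H` iff `ψ a = 1`.
-/

set_option autoImplicit false

open NumberField nonZeroDivisors

namespace Fermat.Agent.S14.Rec

open Fermat.Agent.S14.ArtinMap Fermat.Agent.S14.RecCl

section

variable (K : Type*) [Field K] [NumberField K]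

/-- The nonzero prime ideals, as elements of the monoid of nonzero ideals. -/
def primes : Set (Ideal (𝓞 K))⁰ := {q | (q : Ideal (𝓞 K)).IsPrime}

/-- The nonzero ideals are generated, as a monoid, by the nonzero primes. -/
theorem closure_primes : Submonoid.closure (primes K) = ⊤ := by
  rw [eq_top_iff]
  rintro ⟨I, hI⟩ -
  induction I using UniqueFactorizationMonoid.induction_on_prime with
  | h₁ => exact absurd hI (by simp)
  | h₂ x hx =>
    have : (⟨x, hI⟩ : (Ideal (𝓞 K))⁰) = 1 := by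
      apply Subtype.ext
      show x = 1
      rw [Ideal.one_eq_top]
      exact Ideal.isUnit_iff.mp hx
    rw [this]
    exact Submonoid.one_mem _
  | h₃ a q ha hq ih =>
    have hq0 : q ∈ (Ideal (𝓞 K))⁰ := mem_nonZeroDivisors_iff_ne_zero.mpr hq.ne_zero
    have ha0 : a ∈ (Ideal (𝓞 K))⁰ := mem_nonZeroDivisors_iff_ne_zero.mpr ha
    have : (⟨q * a, hI⟩ : (Ideal (𝓞 K))⁰) = ⟨q, hq0⟩ * ⟨a, ha0⟩ := rfl
    rw [this]
    exact Submonoid.mul_mem _ (Submonoid.subset_closure (Ideal.isPrime_of_prime hq)) (ih ha0)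

end

section Main

variable (K L : Type*) [Field K] [NumberField K] [Field L] [NumberField L] [Algebra K L]
variable (G : Type*) [Group G] [Finite G] [MulSemiringAction G L] [IsGaloisGroup G K L]

include G in
/-- `p`-th powers of ideals of `𝓞 K` are norms from `𝓞 L`. -/
theorem pow_eq_relNorm {p : ℕ} (hG : Nat.card G = p) (I : Ideal (𝓞 K)) :
    I ^ p = Ideal.relNorm (𝓞 K) (I.map (algebraMap (𝓞 K) (𝓞 L))) := by
  rw [Ideal.relNorm_algebraMap, ← hG, IsGaloisGroup.card_eq_finrank' G (𝓞 K) (𝓞 L)]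

variable {K L G} in
/-- **Reciprocity from the first inequality and the crossing**, precise form: the class of a
nonzero ideal `a` lies in `H` iff its Artin symbol is trivial. -/
theorem mem_iff_of_cross (hab : ∀ a b : G, a * b = b * a) (hur : IsUnram L G) {p : ℕ}
    (hp : p.Prime) (hG : Nat.card G = p) (H : Subgroup (ClassGroup (𝓞 K)))
    (hHnorm : ∀ (I : Ideal (𝓞 L)) (hI : Ideal.relNorm (𝓞 K) I ∈ (Ideal (𝓞 K))⁰),
      ClassGroup.mk0 ⟨Ideal.relNorm (𝓞 K) I, hI⟩ ∈ H)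
    (hH : H ≠ ⊤)
    (hcross : ∀ q₁ ∈ primes K, ∀ q₂ ∈ primes K, artin K L G hab q₁ ≠ 1 → artin K L G hab q₂ ≠ 1 →
      CrossDatum (artin K L G hab) ClassGroup.mk0 H q₁ q₂)
    (a : (Ideal (𝓞 K))⁰) : ClassGroup.mk0 a ∈ H ↔ artin K L G hab a = 1 := by
  refine RecCl.mem_iff_of_cross hp hG (artin K L G hab) ClassGroup.mk0 ClassGroup.mk0_surjective H
    ?_ hH (primes K) (closure_primes K) ?_ hcross a
  · -- `p`-th powers
    intro c
    obtain ⟨I, rfl⟩ := ClassGroup.mk0_surjective c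
    rw [← map_pow]
    have h1 : ((I ^ p : (Ideal (𝓞 K))⁰) : Ideal (𝓞 K)) =
        Ideal.relNorm (𝓞 K) ((I : Ideal (𝓞 K)).map (algebraMap (𝓞 K) (𝓞 L))) := by
      rw [← pow_eq_relNorm K L G hG]
      rfl
    have h2 := hHnorm ((I : Ideal (𝓞 K)).map (algebraMap (𝓞 K) (𝓞 L))) (h1 ▸ (I ^ p).2)
    have h3 : (⟨Ideal.relNorm (𝓞 K) ((I : Ideal (𝓞 K)).map (algebraMap (𝓞 K) (𝓞 L))),
        h1 ▸ (I ^ p).2⟩ : (Ideal (𝓞 K))⁰) = I ^ p := Subtype.ext h1.symm
    rwa [h3] at h2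
  · -- split primes are norms
    rintro ⟨q, hq0⟩ hq hq1
    have hqP : q.IsPrime := hq
    have hqne : q ≠ ⊥ := nonZeroDivisors.ne_zero hq0
    rw [artin_prime hab q hqne hq0] at hq1
    obtain ⟨Q, hQ1, hQ2⟩ := q.nonempty_primesOver (S := 𝓞 L)
    have h1 : Ideal.relNorm (𝓞 K) Q = q := relNorm_eq_of_frob_eq_one hab hur q hqne Q hq1
    have h2 := hHnorm Q (h1 ▸ hq0)
    have h3 : (⟨Ideal.relNorm (𝓞 K) Q, h1 ▸ hq0⟩ : (Ideal (𝓞 K))⁰) = ⟨q, hq0⟩ := Subtype.ext h1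
    rwa [h3] at h2

variable {K L G} in
/-- **Reciprocity from the first inequality and the crossing**: principal ideals have trivial
Artin symbol. -/
theorem rec_of_cross (hab : ∀ a b : G, a * b = b * a) (hur : IsUnram L G) {p : ℕ}
    (hp : p.Prime) (hG : Nat.card G = p) (H : Subgroup (ClassGroup (𝓞 K)))
    (hHnorm : ∀ (I : Ideal (𝓞 L)) (hI : Ideal.relNorm (𝓞 K) I ∈ (Ideal (𝓞 K))⁰),
      ClassGroup.mk0 ⟨Ideal.relNorm (𝓞 K) I, hI⟩ ∈ H)
    (hH : H ≠ ⊤)
    (hcross : ∀ q₁ ∈ primes K, ∀ q₂ ∈ primes K, artin K L G hab q₁ ≠ 1 → artin K L G hab q₂ ≠ 1 →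
      CrossDatum (artin K L G hab) ClassGroup.mk0 H q₁ q₂)
    (x : 𝓞 K) (hx : x ≠ 0) : artinFun K L G hab (Ideal.span {x}) = 1 := by
  have hx0 : Ideal.span {x} ∈ (Ideal (𝓞 K))⁰ :=
    mem_nonZeroDivisors_iff_ne_zero.mpr (by simpa using hx)
  have h1 : ClassGroup.mk0 (⟨Ideal.span {x}, hx0⟩ : (Ideal (𝓞 K))⁰) = 1 :=
    (ClassGroup.mk0_eq_one_iff hx0).mpr ⟨x, rfl⟩
  have h2 := (mem_iff_of_cross hab hur hp hG H hHnorm hH hcross ⟨Ideal.span {x}, hx0⟩).mp
    (h1 ▸ H.one_mem)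
  exact h2

variable {K L G} in
/-- Under the hypotheses of `rec_of_cross` there is an inert prime. -/
theorem exists_inert_prime (hab : ∀ a b : G, a * b = b * a) (hur : IsUnram L G)
    (H : Subgroup (ClassGroup (𝓞 K)))
    (hHnorm : ∀ (I : Ideal (𝓞 L)) (hI : Ideal.relNorm (𝓞 K) I ∈ (Ideal (𝓞 K))⁰),
      ClassGroup.mk0 ⟨Ideal.relNorm (𝓞 K) I, hI⟩ ∈ H)
    (hH : H ≠ ⊤) :
    ∃ q : Ideal (𝓞 K), q.IsPrime ∧ q ≠ ⊥ ∧ frob K L G q ≠ 1 := by
  obtain ⟨⟨q, hq0⟩, hq, hq1⟩ := RecCl.exists_inert (artin K L G hab) ClassGroup.mk0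
    ClassGroup.mk0_surjective H hH (primes K) (closure_primes K) (by
      rintro ⟨q, hq0⟩ hq hq1
      have hqP : q.IsPrime := hq
      have hqne : q ≠ ⊥ := nonZeroDivisors.ne_zero hq0
      rw [artin_prime hab q hqne hq0] at hq1
      obtain ⟨Q, hQ1, hQ2⟩ := q.nonempty_primesOver (S := 𝓞 L)
      have h1 : Ideal.relNorm (𝓞 K) Q = q := relNorm_eq_of_frob_eq_one hab hur q hqne Q hq1
      have h2 := hHnorm Q (h1 ▸ hq0)
      have h3 : (⟨Ideal.relNorm (𝓞 K) Q, h1 ▸ hq0⟩ : (Ideal (𝓞 K))⁰) = ⟨q, hq0⟩ :=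
        Subtype.ext h1
      rwa [h3] at h2)
  have hqP : q.IsPrime := hq
  have hqne : q ≠ ⊥ := nonZeroDivisors.ne_zero hq0
  exact ⟨q, hqP, hqne, by rwa [artin_prime hab q hqne hq0] at hq1⟩

end Main

end Fermat.Agent.S14.Rec
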