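import Mathlib
import Fermat.Agent.S14.Rec

/-!
# S14: the reciprocity law from the first inequality in "norm not surjective" form

* `normHom K L` : the relative norm as a monoid homomorphism on nonzero ideals.
* `normSubgroup K L` : the subgroup of the class group of `K` consisting of the classes of norms
  of nonzero ideals of `𝓞 L`.
* `normSubgroup_ne_top` : the first inequality (in the form "some class is not a norm class")
  says `normSubgroup K L ≠ ⊤`.
* `rec_of_cross_of_fi` : `Rec.rec_of_cross` with `H := normSubgroup K L`.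
-/

set_option autoImplicit false

open NumberField nonZeroDivisors

namespace Fermat.Agent.S14.Rec

open Fermat.Agent.S14.ArtinMap Fermat.Agent.S14.RecCl

section

variable (K L : Type*) [Field K] [NumberField K] [Field L] [NumberField L] [Algebra K L]

theorem relNorm_mem (J : (Ideal (𝓞 L))⁰) :
    Ideal.relNorm (𝓞 K) (J : Ideal (𝓞 L)) ∈ (Ideal (𝓞 K))⁰ :=
  mem_nonZeroDivisors_iff_ne_zero.mpr fun h =>
    nonZeroDivisors.coe_ne_zero J (Ideal.relNorm_eq_bot_iff.mp h)

/-- The relative norm as a monoid homomorphism on nonzero ideals. -/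
noncomputable def normHom : (Ideal (𝓞 L))⁰ →* (Ideal (𝓞 K))⁰ where
  toFun J := ⟨Ideal.relNorm (𝓞 K) (J : Ideal (𝓞 L)), relNorm_mem K L J⟩
  map_one' := Subtype.ext (by
    show Ideal.relNorm (𝓞 K) (1 : Ideal (𝓞 L)) = 1
    exact map_one _)
  map_mul' I J := Subtype.ext (by
    show Ideal.relNorm (𝓞 K) ((I : Ideal (𝓞 L)) * (J : Ideal (𝓞 L))) = _
    exact map_mul _ _ _)

@[simp]
theorem coe_normHom (J : (Ideal (𝓞 L))⁰) :
    ((normHom K L J : (Ideal (𝓞 K))⁰) : Ideal (𝓞 K)) = Ideal.relNorm (𝓞 K) (J : Ideal (𝓞 L)) :=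
  rfl

/-- The subgroup of the class group of `K` formed by the classes of norms of nonzero ideals of
`𝓞 L`. -/
noncomputable def normSubgroup : Subgroup (ClassGroup (𝓞 K)) where
  carrier := Set.range fun J : (Ideal (𝓞 L))⁰ => ClassGroup.mk0 (normHom K L J)
  one_mem' := ⟨1, by
    show ClassGroup.mk0 (normHom K L 1) = 1
    rw [map_one, map_one]⟩
  mul_mem' := by
    rintro _ _ ⟨I, rfl⟩ ⟨J, rfl⟩
    exact ⟨I * J, by
      show ClassGroup.mk0 (normHom K L (I * J)) =
        ClassGroup.mk0 (normHom K L I) * ClassGroup.mk0 (normHom K L J)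
      rw [map_mul, map_mul]⟩
  inv_mem' := by
    rintro _ ⟨J, rfl⟩
    set x := ClassGroup.mk0 (normHom K L J) with hx
    have hn : 0 < orderOf x := orderOf_pos x
    refine ⟨J ^ (orderOf x - 1), ?_⟩
    show ClassGroup.mk0 (normHom K L (J ^ (orderOf x - 1))) = x⁻¹
    rw [map_pow, map_pow, ← hx]
    apply eq_inv_of_mul_eq_one_left
    rw [← pow_succ, Nat.sub_add_cancel hn, pow_orderOf_eq_one]

theorem mem_normSubgroup {c : ClassGroup (𝓞 K)} :
    c ∈ normSubgroup K L ↔ ∃ J : (Ideal (𝓞 L))⁰, ClassGroup.mk0 (normHom K L J) = c :=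
  Iff.rfl

theorem mk0_relNorm_mem_normSubgroup (I : Ideal (𝓞 L))
    (hI : Ideal.relNorm (𝓞 K) I ∈ (Ideal (𝓞 K))⁰) :
    ClassGroup.mk0 ⟨Ideal.relNorm (𝓞 K) I, hI⟩ ∈ normSubgroup K L := by
  have hI0 : I ∈ (Ideal (𝓞 L))⁰ := mem_nonZeroDivisors_iff_ne_zero.mpr fun h => by
    rw [h] at hI
    exact nonZeroDivisors.ne_zero hI (Ideal.relNorm_bot (R := 𝓞 K) (S := 𝓞 L))
  exact ⟨⟨I, hI0⟩, rfl⟩

/-- The first inequality, in the form "some class is not the class of a norm", says that the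
norm subgroup is proper. -/
theorem normSubgroup_ne_top
    (hFI : ∃ c : ClassGroup (𝓞 K), ∀ J : (Ideal (𝓞 L))⁰, ClassGroup.mk0 (normHom K L J) ≠ c) :
    normSubgroup K L ≠ ⊤ := by
  obtain ⟨c, hc⟩ := hFI
  intro h
  have hc' : c ∈ normSubgroup K L := h ▸ Subgroup.mem_top c
  obtain ⟨J, hJ⟩ := hc'
  exact hc J hJ

end

section Main

variable {K L : Type*} [Field K] [NumberField K] [Field L] [NumberField L] [Algebra K L]
variable {G : Type*} [Group G] [Finite G] [MulSemiringAction G L] [IsGaloisGroup G K L]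

/-- **Reciprocity from the first inequality and the crossing**, with the norm subgroup. -/
theorem rec_of_cross_of_fi (hab : ∀ a b : G, a * b = b * a) (hur : IsUnram L G) {p : ℕ}
    (hp : p.Prime) (hG : Nat.card G = p)
    (hFI : ∃ c : ClassGroup (𝓞 K), ∀ J : (Ideal (𝓞 L))⁰, ClassGroup.mk0 (normHom K L J) ≠ c)
    (hcross : ∀ q₁ ∈ primes K, ∀ q₂ ∈ primes K, artin K L G hab q₁ ≠ 1 → artin K L G hab q₂ ≠ 1 →
      CrossDatum (artin K L G hab) ClassGroup.mk0 (normSubgroup K L) q₁ q₂)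
    (x : 𝓞 K) (hx : x ≠ 0) : artinFun K L G hab (Ideal.span {x}) = 1 :=
  rec_of_cross hab hur hp hG (normSubgroup K L) (mk0_relNorm_mem_normSubgroup K L)
    (normSubgroup_ne_top K L hFI) hcross x hx

/-- Under the first inequality there is an inert prime. -/
theorem exists_inert_prime_of_fi (hab : ∀ a b : G, a * b = b * a) (hur : IsUnram L G)
    (hFI : ∃ c : ClassGroup (𝓞 K), ∀ J : (Ideal (𝓞 L))⁰, ClassGroup.mk0 (normHom K L J) ≠ c) :
    ∃ q : Ideal (𝓞 K), q.IsPrime ∧ q ≠ ⊥ ∧ frob K L G q ≠ 1 :=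
  exists_inert_prime hab hur (normSubgroup K L) (mk0_relNorm_mem_normSubgroup K L)
    (normSubgroup_ne_top K L hFI)

end Main

end Fermat.Agent.S14.Rec
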