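import Mathlib
import Fermat.Agent.S14.Defs
import Fermat.Agent.S14.ArtinMap
import Fermat.Agent.S14.RecFI
import Fermat.Agent.S14.CrossH
import Fermat.Agent.S14.CrossDisj
import Fermat.Agent.S14.CycloFrob
import Fermat.Agent.S14.FirstIneq

/-!
# S14, stream E: wiring of the reciprocity law for `K = ℚ(ζ_p)`, `L/K` as in `NoField`

For `K = ℚ(ζ_p)`, `L/K` cyclic unramified of degree `p` with the conjugation law `ConjInv`: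

* `PairHyp p K L hab` : the statement "every pair of Frobenius elements in crossing subgroups of
  a Galois extension `Ω/K` containing `L` gives a crossing datum" (this is what the field side
  `CrossPair` proves, for all `Ω`).
* `crossDatum_of_cyclo` : for a pair of inert primes `q₁`, `q₂` of `K` and `Ω = L(ζ_M)`,
  `M = ℓ₁ ℓ₁' ℓ₂ ℓ₂'` a product of four auxiliary primes, the crossing subgroups `H₁`, `H₂` and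
  the Frobenius elements exist, so `PairHyp` gives a crossing datum for `(q₁, q₂)`.
* `artinFun_span_singleton_of_pair` : reciprocity (principal ideals have trivial Artin symbol)
  from `PairHyp`, via the first inequality and `Rec.rec_of_cross_of_fi`.
-/

set_option autoImplicit false

open NumberField nonZeroDivisors

namespace Fermat.Agent.S14.RecWire

open Fermat.Agent.S14.ArtinMap Fermat.Agent.S14.RecCl Fermat.Agent.S14.Rec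

section Aux

variable {K : Type*} [Field K] [NumberField K]

/-- A natural number coprime to the absolute norm of a proper ideal does not lie in it. -/
theorem natCast_notMem_of_coprime (q : Ideal (𝓞 K)) (hq : q ≠ ⊤) (M : ℕ)
    (h : M.Coprime (Ideal.absNorm q)) : (M : 𝓞 K) ∉ q := by
  intro hM
  have h1 : ((Ideal.absNorm q : ℕ) : 𝓞 K) ∈ q := Ideal.absNorm_mem q
  have h2 : IsCoprime (M : ℤ) (Ideal.absNorm q : ℤ) := Nat.isCoprime_iff_coprime.mpr h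
  obtain ⟨a, b, hab⟩ := h2
  apply hq
  rw [Ideal.eq_top_iff_one]
  have h3 : (1 : 𝓞 K) = (a : 𝓞 K) * (M : 𝓞 K) + (b : 𝓞 K) * ((Ideal.absNorm q : ℕ) : 𝓞 K) := by
    have := congrArg (Int.cast : ℤ → 𝓞 K) hab
    push_cast at this
    exact this.symm
  rw [h3]
  exact q.add_mem (q.mul_mem_left _ hM) (q.mul_mem_left _ h1)

/-- The absolute norm of a nonzero prime is at least `2`. -/
theorem two_le_absNorm_of_isPrime (q : Ideal (𝓞 K)) [hq : q.IsPrime] (hq0 : q ≠ ⊥) :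
    2 ≤ Ideal.absNorm q := by
  have h0 : Ideal.absNorm q ≠ 0 := fun h => hq0 (Ideal.absNorm_eq_zero_iff.mp h)
  have h1 : Ideal.absNorm q ≠ 1 := fun h => hq.ne_top (Ideal.absNorm_eq_one_iff.mp h)
  omega

end Aux

section Wire

variable (p : ℕ) (K L : Type) [Field K] [Field L] [NumberField K] [NumberField L] [Algebra K L]
  [IsGalois K L]

/-- The crossing statement for a fixed pair `(K, L)`: in every Galois extension `Ω/K` containing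
`L`, two subgroups `H₁`, `H₂` of `Gal(Ω/K)` acting faithfully on a root of unity `ζ` of
squarefree order dividing `m`, whose intersection surjects onto `Gal(L/K)`, and containing
Frobenius elements at primes `P₁`, `P₂` of `Ω` prime to `m`, yield a crossing datum for the
primes of `K` below `P₁`, `P₂`. -/
abbrev PairHyp (hab : ∀ a b : L ≃ₐ[K] L, a * b = b * a) : Prop :=
  ∀ (Ω : Type) [Field Ω] [NumberField Ω] [Algebra K Ω] [Algebra L Ω] [IsScalarTower K L Ω]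
    [IsGalois K Ω] (m : ℕ) (_ : Squarefree m) (ζ : Ω) (_ : ζ ^ m = 1)
    (H₁ H₂ : Subgroup (Ω ≃ₐ[K] Ω)) (_ : ∀ g ∈ H₁, g ζ = ζ → g = 1)
    (_ : ∀ g ∈ H₂, g ζ = ζ → g = 1)
    (_ : ∀ c : L ≃ₐ[K] L, ∃ h ∈ H₁ ⊓ H₂, AlgEquiv.restrictNormalHom L h = c)
    (P₁ P₂ : Ideal (𝓞 Ω)) (_ : P₁.IsPrime) (_ : P₂.IsPrime) (_ : P₁ ≠ ⊥) (_ : P₂ ≠ ⊥)
    (_ : (m : 𝓞 Ω) ∉ P₁) (_ : (m : 𝓞 Ω) ∉ P₂)
    (φ₁ φ₂ : Ω ≃ₐ[K] Ω) (_ : φ₁ ∈ H₁) (_ : φ₂ ∈ H₂)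
    (_ : IsArithFrobAt (𝓞 K) φ₁ P₁) (_ : IsArithFrobAt (𝓞 K) φ₂ P₂)
    (q₁ q₂ : (Ideal (𝓞 K))⁰) (_ : (q₁ : Ideal (𝓞 K)) = P₁.under (𝓞 K))
    (_ : (q₂ : Ideal (𝓞 K)) = P₂.under (𝓞 K))
    (_ : ArtinMap.artin K L (L ≃ₐ[K] L) hab q₁ ≠ 1) (_ : ArtinMap.artin K L (L ≃ₐ[K] L) hab q₂ ≠ 1),
    CrossDatum (ArtinMap.artin K L (L ≃ₐ[K] L) hab) ClassGroup.mk0 (normSubgroup K L) q₁ q₂

variable {p K L}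

/-- The crossing datum for a pair of inert primes `q₁`, `q₂`, from the field `Ω = L(ζ_M)`,
`M = ℓ₁ ℓ₁' ℓ₂ ℓ₂'`. -/
theorem crossDatum_of_cyclo [IsCyclotomicExtension {p} ℚ K] [IsGalois ℚ L]
    (hp : p.Prime) (hp2 : p ≠ 2) (hdeg : Module.finrank K L = p)
    (hur : IsUnram L (L ≃ₐ[K] L)) (hconj : ConjInv p K L)
    (hab : ∀ a b : L ≃ₐ[K] L, a * b = b * a) (hpair : PairHyp K L hab)
    (q₁ q₂ : (Ideal (𝓞 K))⁰) (hq₁P : (q₁ : Ideal (𝓞 K)).IsPrime)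
    (hq₂P : (q₂ : Ideal (𝓞 K)).IsPrime)
    (hne₁ : ArtinMap.artin K L (L ≃ₐ[K] L) hab q₁ ≠ 1) (hne₂ : ArtinMap.artin K L (L ≃ₐ[K] L) hab q₂ ≠ 1)
    {ℓ₁ ℓ₁' ℓ₂ ℓ₂' k₁ k₁' k₂ k₂' : ℕ}
    (hℓ₁ : ℓ₁.Prime) (hℓ₁' : ℓ₁'.Prime) (hℓ₂ : ℓ₂.Prime) (hℓ₂' : ℓ₂'.Prime)
    (h11 : ℓ₁ ≠ ℓ₁') (h12 : ℓ₁ ≠ ℓ₂) (h12' : ℓ₁ ≠ ℓ₂') (h1'2 : ℓ₁' ≠ ℓ₂) (h1'2' : ℓ₁' ≠ ℓ₂')
    (h22 : ℓ₂ ≠ ℓ₂')
    (hp₁ : ℓ₁ ≠ p) (hp₁' : ℓ₁' ≠ p) (hp₂ : ℓ₂ ≠ p) (hp₂' : ℓ₂' ≠ p)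
    (hk₁ : 1 ≤ k₁) (hkk₁ : k₁ < k₁') (hk₂ : 1 ≤ k₂) (hkk₂ : k₂ < k₂')
    (ho₁ : orderOf ((Ideal.absNorm (q₁ : Ideal (𝓞 K)) : ℕ) : ZMod ℓ₁) = p ^ k₁)
    (ho₁' : orderOf ((Ideal.absNorm (q₁ : Ideal (𝓞 K)) : ℕ) : ZMod ℓ₁') = p ^ k₁')
    (ho₂ : orderOf ((Ideal.absNorm (q₂ : Ideal (𝓞 K)) : ℕ) : ZMod ℓ₂) = p ^ k₂)
    (ho₂' : orderOf ((Ideal.absNorm (q₂ : Ideal (𝓞 K)) : ℕ) : ZMod ℓ₂') = p ^ k₂')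
    (hM₁ : ((ℓ₁ * ℓ₁' * (ℓ₂ * ℓ₂') : ℕ) : 𝓞 K) ∉ (q₁ : Ideal (𝓞 K)))
    (hM₂ : ((ℓ₁ * ℓ₁' * (ℓ₂ * ℓ₂') : ℕ) : 𝓞 K) ∉ (q₂ : Ideal (𝓞 K)))
    (Ω : Type) [Field Ω] [NumberField Ω] [Algebra K Ω] [Algebra L Ω] [IsScalarTower K L Ω]
    [IsGalois K Ω] [IsCyclotomicExtension {ℓ₁ * ℓ₁' * (ℓ₂ * ℓ₂')} L Ω] :
    CrossDatum (ArtinMap.artin K L (L ≃ₐ[K] L) hab) ClassGroup.mk0 (normSubgroup K L) q₁ q₂ := by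
  have hG : Nat.card (L ≃ₐ[K] L) = p := (IsGalois.card_aut_eq_finrank K L).trans hdeg
  have hq₁ne : (q₁ : Ideal (𝓞 K)) ≠ ⊥ := nonZeroDivisors.coe_ne_zero q₁
  have hq₂ne : (q₂ : Ideal (𝓞 K)) ≠ ⊥ := nonZeroDivisors.coe_ne_zero q₂
  have hM0 : ℓ₁ * ℓ₁' * (ℓ₂ * ℓ₂') ≠ 0 :=
    Nat.mul_ne_zero (Nat.mul_ne_zero hℓ₁.ne_zero hℓ₁'.ne_zero)
      (Nat.mul_ne_zero hℓ₂.ne_zero hℓ₂'.ne_zero)
  have hMsq : Squarefree (ℓ₁ * ℓ₁' * (ℓ₂ * ℓ₂')) :=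
    CrossH.squarefree_four hℓ₁ hℓ₁' hℓ₂ hℓ₂' h11 h12 h12' h1'2 h1'2' h22
  have hpM : Nat.Coprime p (ℓ₁ * ℓ₁' * (ℓ₂ * ℓ₂')) :=
    (Nat.Prime.coprime_iff_not_dvd hp).mpr
      (CrossH.not_dvd_four hℓ₁ hℓ₁' hℓ₂ hℓ₂' hp hp₁ hp₁' hp₂ hp₂')
  -- a primitive root of unity
  obtain ⟨ζ, hζ⟩ := IsCyclotomicExtension.exists_isPrimitiveRoot L Ω
    (Set.mem_singleton (ℓ₁ * ℓ₁' * (ℓ₂ * ℓ₂'))) hM0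
  -- (G1), (G2)
  have hG1 : ∀ (c : L ≃ₐ[K] L) (u : (ZMod (ℓ₁ * ℓ₁' * (ℓ₂ * ℓ₂')))ˣ), ∃ g : Ω ≃ₐ[K] Ω,
      AlgEquiv.restrictNormalHom L g = c ∧
        g ζ = ζ ^ (u : ZMod (ℓ₁ * ℓ₁' * (ℓ₂ * ℓ₂'))).val := fun c u =>
    CrossDisj.exists_gal_of_isCyclotomicExtension p hp hp2 K L Ω hdeg hconj
      (ℓ₁ * ℓ₁' * (ℓ₂ * ℓ₂')) (Nat.pos_of_ne_zero hM0) hpM ζ hζ c u
  have hG2 : ∀ g : Ω ≃ₐ[K] Ω, AlgEquiv.restrictNormalHom L g = 1 → g ζ = ζ → g = 1 :=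
    fun g h1 h2 =>
      CrossDisj.eq_one_of_restrict_eq_one K L Ω (ℓ₁ * ℓ₁' * (ℓ₂ * ℓ₂')) hM0 ζ hζ g h1 h2
  -- Frobenius elements
  obtain ⟨P₁, φ₁, hP₁p, hP₁ne, hP₁q, hfr₁, hφ₁ζ, -⟩ :=
    CycloFrob.exists_frob_zeta_restrict (L := L) (Ω := Ω) hab hur
      (M := ℓ₁ * ℓ₁' * (ℓ₂ * ℓ₂')) (q₁ : Ideal (𝓞 K)) hq₁ne hM₁
  obtain ⟨P₂, φ₂, hP₂p, hP₂ne, hP₂q, hfr₂, hφ₂ζ, -⟩ :=
    CycloFrob.exists_frob_zeta_restrict (L := L) (Ω := Ω) hab hur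
      (M := ℓ₁ * ℓ₁' * (ℓ₂ * ℓ₂')) (q₂ : Ideal (𝓞 K)) hq₂ne hM₂
  have hφ₁ := hφ₁ζ ζ hζ.pow_eq_one
  have hφ₂ := hφ₂ζ ζ hζ.pow_eq_one
  -- the crossing subgroups
  obtain ⟨H₁, H₂, hφ₁H, hφ₂H, hf₁, hf₂, -, -, -, hs⟩ :=
    CrossH.exists_subgroups' K L Ω hp hG hℓ₁ hℓ₁' hℓ₂ hℓ₂' h11 h12 h12' h1'2 h1'2' h22
      hk₁ hkk₁ hk₂ hkk₂ ho₁ ho₁' ho₂ ho₂' ζ hζ hG1 hG2 φ₁ φ₂ hφ₁ hφ₂
  -- `M ∉ Pᵢ`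
  have hmP : ∀ (P : Ideal (𝓞 Ω)) (q : Ideal (𝓞 K)), P.under (𝓞 K) = q →
      ((ℓ₁ * ℓ₁' * (ℓ₂ * ℓ₂') : ℕ) : 𝓞 K) ∉ q →
      ((ℓ₁ * ℓ₁' * (ℓ₂ * ℓ₂') : ℕ) : 𝓞 Ω) ∉ P := by
    intro P q hPq hq hP
    apply hq
    rw [← hPq, Ideal.under_def, Ideal.mem_comap, map_natCast]
    exact hP
  exact hpair Ω (ℓ₁ * ℓ₁' * (ℓ₂ * ℓ₂')) hMsq ζ hζ.pow_eq_one H₁ H₂ hf₁ hf₂ hs P₁ P₂ hP₁p hP₂p
    hP₁ne hP₂ne (hmP P₁ _ hP₁q hM₁) (hmP P₂ _ hP₂q hM₂) φ₁ φ₂ hφ₁H hφ₂H hfr₁ hfr₂ q₁ q₂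
    hP₁q.symm hP₂q.symm hne₁ hne₂

/-- **Reciprocity for `L / ℚ(ζ_p)`** from the crossing statement `PairHyp`: the Artin symbol of
a principal ideal is trivial. -/
theorem artinFun_span_singleton_of_pair [hpF : Fact p.Prime] (hp2 : p ≠ 2)
    [IsCyclotomicExtension {p} ℚ K] [IsGalois ℚ L]
    (hdeg : Module.finrank K L = p) (hunr : Unram K L) (hconj : ConjInv p K L)
    (hab : ∀ a b : L ≃ₐ[K] L, a * b = b * a) (hpair : PairHyp K L hab)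
    (x : 𝓞 K) (hx : x ≠ 0) :
    artinFun K L (L ≃ₐ[K] L) hab (Ideal.span {x}) = 1 := by
  have hp : p.Prime := hpF.out
  have hG : Nat.card (L ≃ₐ[K] L) = p := (IsGalois.card_aut_eq_finrank K L).trans hdeg
  have hur : IsUnram L (L ≃ₐ[K] L) := hunr
  obtain ⟨c, hc⟩ := FirstIneq.exists_class_ne_relNorm K L p hp hp2 hdeg hunr
  have hFI : ∃ c : ClassGroup (𝓞 K), ∀ J : (Ideal (𝓞 L))⁰,
      ClassGroup.mk0 (normHom K L J) ≠ c :=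
    ⟨c, fun J => hc (J : Ideal (𝓞 L)) (normHom K L J) rfl⟩
  refine rec_of_cross_of_fi hab hur hp hG hFI ?_ x hx
  intro q₁ hq₁ q₂ hq₂ hne₁ hne₂
  have hq₁P : (q₁ : Ideal (𝓞 K)).IsPrime := hq₁
  have hq₂P : (q₂ : Ideal (𝓞 K)).IsPrime := hq₂
  have hq₁ne : (q₁ : Ideal (𝓞 K)) ≠ ⊥ := nonZeroDivisors.coe_ne_zero q₁
  have hq₂ne : (q₂ : Ideal (𝓞 K)) ≠ ⊥ := nonZeroDivisors.coe_ne_zero q₂
  have hn₁ : 2 ≤ Ideal.absNorm (q₁ : Ideal (𝓞 K)) := two_le_absNorm_of_isPrime _ hq₁ne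
  have hn₂ : 2 ≤ Ideal.absNorm (q₂ : Ideal (𝓞 K)) := two_le_absNorm_of_isPrime _ hq₂ne
  -- the four auxiliary primes
  obtain ⟨ℓ₁, ℓ₁', ℓ₂, ℓ₂', k₁, k₁', k₂, k₂', ⟨hℓ₁, hℓ₁', hℓ₂, hℓ₂'⟩,
    ⟨h11, h12, h12', h1'2, h1'2', h22⟩, ⟨hS₁, hS₁', hS₂, hS₂'⟩, ⟨hp₁, hp₁', hp₂, hp₂'⟩,
    ⟨hk₁, hkk₁, hk₂, hkk₂⟩, ho₁, ho₁', ho₂, ho₂'⟩ :=
    CrossH.exists_four_primes p hp hp2 (Ideal.absNorm (q₁ : Ideal (𝓞 K)))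
      (Ideal.absNorm (q₂ : Ideal (𝓞 K))) hn₁ hn₂
      (Ideal.absNorm (q₁ : Ideal (𝓞 K)) * Ideal.absNorm (q₂ : Ideal (𝓞 K))).primeFactors
  have hprod0 : Ideal.absNorm (q₁ : Ideal (𝓞 K)) * Ideal.absNorm (q₂ : Ideal (𝓞 K)) ≠ 0 :=
    Nat.mul_ne_zero (by omega) (by omega)
  have hcop : ∀ ℓ : ℕ, ℓ.Prime →
      ℓ ∉ (Ideal.absNorm (q₁ : Ideal (𝓞 K)) * Ideal.absNorm (q₂ : Ideal (𝓞 K))).primeFactors →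
      ℓ.Coprime (Ideal.absNorm (q₁ : Ideal (𝓞 K)) * Ideal.absNorm (q₂ : Ideal (𝓞 K))) := by
    intro ℓ hℓ hS
    rw [Nat.Prime.coprime_iff_not_dvd hℓ]
    intro hdvd
    exact hS (Nat.mem_primeFactors.mpr ⟨hℓ, hdvd, hprod0⟩)
  have hMcop : (ℓ₁ * ℓ₁' * (ℓ₂ * ℓ₂')).Coprime
      (Ideal.absNorm (q₁ : Ideal (𝓞 K)) * Ideal.absNorm (q₂ : Ideal (𝓞 K))) :=
    Nat.Coprime.mul_left (Nat.Coprime.mul_left (hcop ℓ₁ hℓ₁ hS₁) (hcop ℓ₁' hℓ₁' hS₁'))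
      (Nat.Coprime.mul_left (hcop ℓ₂ hℓ₂ hS₂) (hcop ℓ₂' hℓ₂' hS₂'))
  have hM₁ : ((ℓ₁ * ℓ₁' * (ℓ₂ * ℓ₂') : ℕ) : 𝓞 K) ∉ (q₁ : Ideal (𝓞 K)) :=
    natCast_notMem_of_coprime _ hq₁P.ne_top _ (Nat.Coprime.coprime_mul_right_right hMcop)
  have hM₂ : ((ℓ₁ * ℓ₁' * (ℓ₂ * ℓ₂') : ℕ) : 𝓞 K) ∉ (q₂ : Ideal (𝓞 K)) :=
    natCast_notMem_of_coprime _ hq₂P.ne_top _ (Nat.Coprime.coprime_mul_left_right hMcop)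
  have hM0 : ℓ₁ * ℓ₁' * (ℓ₂ * ℓ₂') ≠ 0 :=
    Nat.mul_ne_zero (Nat.mul_ne_zero hℓ₁.ne_zero hℓ₁'.ne_zero)
      (Nat.mul_ne_zero hℓ₂.ne_zero hℓ₂'.ne_zero)
  -- the field `Ω = L(ζ_M)`
  have : IsGalois ℚ (CyclotomicField (ℓ₁ * ℓ₁' * (ℓ₂ * ℓ₂')) L) :=
    CrossDisj.isGalois_rat_of_isCyclotomicExtension (ℓ₁ * ℓ₁' * (ℓ₂ * ℓ₂')) hM0 L _
  have : IsGalois K (CyclotomicField (ℓ₁ * ℓ₁' * (ℓ₂ * ℓ₂')) L) :=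
    IsGalois.tower_top_of_isGalois ℚ K _
  exact crossDatum_of_cyclo hp hp2 hdeg hur hconj hab hpair q₁ q₂ hq₁P hq₂P hne₁ hne₂
    hℓ₁ hℓ₁' hℓ₂ hℓ₂' h11 h12 h12' h1'2 h1'2' h22 hp₁ hp₁' hp₂ hp₂' hk₁ hkk₁ hk₂ hkk₂
    ho₁ ho₁' ho₂ ho₂' hM₁ hM₂ (CyclotomicField (ℓ₁ * ℓ₁' * (ℓ₂ * ℓ₂')) L)

end Wire

end Fermat.Agent.S14.RecWire
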