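import Mathlib

/-!
# S14 (D1), part 1: a Lipschitz partition of unity under integer translations

`tent t = max 0 (1 - |t|)` and its products `tentProd c = ∏ i, tent (c i)`:

* `tsum_tentProd_add_int`: `∑' m : ι → ℤ, tentProd (fun i => c i + m i) = 1`;
* `abs_tentProd_sub_le`: `|tentProd c - tentProd c'| ≤ ∑ i, |c i - c' i|`;
* `tentProd_eq_zero`: `tentProd c = 0` as soon as one `|c i| ≥ 1`.
-/

set_option autoImplicit false

namespace Fermat.Agent.S14.ClassZeta

open Finset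

/-- the tent function -/
noncomputable def tent (t : ℝ) : ℝ := max (1 - |t|) 0

theorem tent_nonneg (t : ℝ) : 0 ≤ tent t := le_max_right _ _

theorem tent_le_one (t : ℝ) : tent t ≤ 1 := by
  unfold tent
  exact max_le (by linarith [abs_nonneg t]) zero_le_one

theorem tent_eq_zero {t : ℝ} (ht : 1 ≤ |t|) : tent t = 0 := by
  unfold tent
  exact max_eq_right (by linarith)

theorem tent_of_abs_le {t : ℝ} (ht : |t| ≤ 1) : tent t = 1 - |t| := by
  unfold tent
  exact max_eq_left (by linarith)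

theorem abs_tent_sub_le (t t' : ℝ) : |tent t - tent t'| ≤ |t - t'| := by
  unfold tent
  refine (abs_max_sub_max_le_abs (1 - |t|) (1 - |t'|) 0).trans ?_
  have h : (1 - |t|) - (1 - |t'|) = |t'| - |t| := by ring
  rw [h, abs_sub_comm t t']
  exact abs_abs_sub_abs_le_abs_sub t' t

theorem tent_add_tent (t : ℝ) : tent (t - ⌊t⌋) + tent (t - ⌊t⌋ - 1) = 1 := by
  have h0 : 0 ≤ t - ⌊t⌋ := sub_nonneg.mpr (Int.floor_le t)
  have h1 : t - ⌊t⌋ < 1 := by linarith [Int.lt_floor_add_one t]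
  rw [tent_of_abs_le (by rw [abs_of_nonneg h0]; exact h1.le),
    tent_of_abs_le (by rw [abs_of_nonpos (by linarith)]; linarith), abs_of_nonneg h0,
    abs_of_nonpos (by linarith)]
  ring

theorem tent_add_int_eq_zero {t : ℝ} {m : ℤ} (h1 : m ≠ -⌊t⌋) (h2 : m ≠ -⌊t⌋ - 1) :
    tent (t + m) = 0 := by
  apply tent_eq_zero
  have h0 : 0 ≤ t - ⌊t⌋ := sub_nonneg.mpr (Int.floor_le t)
  have h3 : t - ⌊t⌋ < 1 := by linarith [Int.lt_floor_add_one t]
  rcases lt_or_gt_of_ne h1 with h | h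
  · have h4 : m ≤ -⌊t⌋ - 2 := by
      have : m < -⌊t⌋ - 1 := lt_of_le_of_ne (by omega) h2
      omega
    have h5 : (m : ℝ) ≤ -(⌊t⌋ : ℝ) - 2 := by exact_mod_cast h4
    rw [abs_of_nonpos (by linarith)]
    linarith
  · have h4 : -⌊t⌋ + 1 ≤ m := by omega
    have h5 : -(⌊t⌋ : ℝ) + 1 ≤ (m : ℝ) := by exact_mod_cast h4
    rw [abs_of_nonneg (by linarith)]
    linarith

variable {ι : Type*} [Fintype ι]

/-- product of tent functions -/
noncomputable def tentProd (c : ι → ℝ) : ℝ := ∏ i, tent (c i)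

theorem tentProd_nonneg (c : ι → ℝ) : 0 ≤ tentProd c :=
  Finset.prod_nonneg fun i _ => tent_nonneg (c i)

theorem tentProd_le_one (c : ι → ℝ) : tentProd c ≤ 1 :=
  Finset.prod_le_one (fun i _ => tent_nonneg (c i)) fun i _ => tent_le_one (c i)

theorem tentProd_eq_zero {c : ι → ℝ} {i : ι} (hi : 1 ≤ |c i|) : tentProd c = 0 :=
  Finset.prod_eq_zero (Finset.mem_univ i) (tent_eq_zero hi)

theorem abs_lt_one_of_tentProd_ne_zero {c : ι → ℝ} (h : tentProd c ≠ 0) (i : ι) : |c i| < 1 := by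
  by_contra hi
  exact h (tentProd_eq_zero (not_lt.mp hi))

omit [Fintype ι] in
/-- products of numbers in `[0,1]` are `1`-Lipschitz in each factor -/
theorem abs_prod_sub_prod_le {s : Finset ι} (a b : ι → ℝ) (ha : ∀ i, 0 ≤ a i ∧ a i ≤ 1)
    (hb : ∀ i, 0 ≤ b i ∧ b i ≤ 1) :
    |∏ i ∈ s, a i - ∏ i ∈ s, b i| ≤ ∑ i ∈ s, |a i - b i| := by
  classical
  induction s using Finset.induction_on with
  | empty => simp
  | insert j s hj ih =>
    rw [Finset.prod_insert hj, Finset.prod_insert hj, Finset.sum_insert hj]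
    have h1 : a j * ∏ i ∈ s, a i - b j * ∏ i ∈ s, b i =
        (a j - b j) * ∏ i ∈ s, a i + b j * (∏ i ∈ s, a i - ∏ i ∈ s, b i) := by ring
    rw [h1]
    refine (abs_add_le _ _).trans ?_
    rw [abs_mul, abs_mul]
    have h2 : |∏ i ∈ s, a i| ≤ 1 := by
      rw [abs_of_nonneg (Finset.prod_nonneg fun i _ => (ha i).1)]
      exact Finset.prod_le_one (fun i _ => (ha i).1) fun i _ => (ha i).2
    have h3 : |b j| ≤ 1 := by rw [abs_of_nonneg (hb j).1]; exact (hb j).2
    have h4 := mul_le_mul_of_nonneg_left h2 (abs_nonneg (a j - b j))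
    have h5 := mul_le_mul h3 ih (abs_nonneg _) zero_le_one
    linarith

theorem abs_tentProd_sub_le (c c' : ι → ℝ) : |tentProd c - tentProd c'| ≤ ∑ i, |c i - c' i| := by
  unfold tentProd
  refine (abs_prod_sub_prod_le (fun i => tent (c i)) (fun i => tent (c' i))
    (fun i => ⟨tent_nonneg _, tent_le_one _⟩) (fun i => ⟨tent_nonneg _, tent_le_one _⟩)).trans ?_
  exact Finset.sum_le_sum fun i _ => abs_tent_sub_le _ _

/-- the finitely many integer translates on which `tentProd` can be nonzero -/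
noncomputable def tentSupp [DecidableEq ι] (c : ι → ℝ) : Finset (ι → ℤ) :=
  Fintype.piFinset fun i => ({-⌊c i⌋, -⌊c i⌋ - 1} : Finset ℤ)

theorem tentProd_add_int_eq_zero [DecidableEq ι] {c : ι → ℝ} {m : ι → ℤ} (hm : m ∉ tentSupp c) :
    tentProd (fun i => c i + m i) = 0 := by
  unfold tentSupp at hm
  rw [Fintype.mem_piFinset] at hm
  push Not at hm
  obtain ⟨i, hi⟩ := hm
  rw [Finset.mem_insert, Finset.mem_singleton, not_or] at hi
  exact Finset.prod_eq_zero (Finset.mem_univ i) (tent_add_int_eq_zero hi.1 hi.2)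

theorem sum_tentSupp [DecidableEq ι] (c : ι → ℝ) :
    ∑ m ∈ tentSupp c, tentProd (fun i => c i + m i) = 1 := by
  unfold tentSupp tentProd
  rw [← Finset.prod_univ_sum (fun i => ({-⌊c i⌋, -⌊c i⌋ - 1} : Finset ℤ))
    (fun i (j : ℤ) => tent (c i + j))]
  refine Finset.prod_eq_one fun i _ => ?_
  rw [Finset.sum_pair (by omega)]
  have h := tent_add_tent (c i)
  have e1 : c i + ((-⌊c i⌋ : ℤ) : ℝ) = c i - ⌊c i⌋ := by push_cast; ring
  have e2 : c i + ((-⌊c i⌋ - 1 : ℤ) : ℝ) = c i - ⌊c i⌋ - 1 := by push_cast; ring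
  rw [e1, e2]
  exact h

theorem tsum_tentProd_add_int (c : ι → ℝ) :
    ∑' m : ι → ℤ, tentProd (fun i => c i + m i) = 1 := by
  classical
  rw [tsum_eq_sum (s := tentSupp c) fun m hm => tentProd_add_int_eq_zero hm]
  exact sum_tentSupp c

theorem summable_tentProd_add_int (c : ι → ℝ) :
    Summable fun m : ι → ℤ => tentProd (fun i => c i + m i) := by
  classical
  exact summable_of_ne_finset_zero (s := tentSupp c) fun m hm => tentProd_add_int_eq_zero hm

end Fermat.Agent.S14.ClassZeta
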