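import Mathlib
import Fermat.Agent.S14.CZTent

/-!
# S14 (D1), part 2: a weight on the mixed space that is a partition of unity for the unit action

`phi` is the product of tent functions in the coordinates of the basis of `logSpace K` given by
the unit lattice; `wt x = phi (logMap x)`.

* `tsum_wt_unit_smul`: `∑' u : (𝓞 K)ˣ, wt (u • x) = torsionOrder K` when `norm x ≠ 0`;
* `exists_lipschitz_phi`, `exists_bound_of_phi_ne_zero`.
-/

set_option autoImplicit false

open scoped Classical
open NumberField NumberField.mixedEmbedding NumberField.Units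
  NumberField.Units.dirichletUnitTheorem NumberField.InfinitePlace Module

namespace Fermat.Agent.S14.ClassZeta

variable (K : Type*) [Field K] [NumberField K]

/-- the real basis of `logSpace K` given by a `ℤ`-basis of the unit lattice -/
noncomputable def logBasis : Basis (Fin (rank K)) ℝ (logSpace K) :=
  (basisUnitLattice K).ofZLatticeBasis ℝ (unitLattice K)

theorem logBasis_apply (i : Fin (rank K)) :
    logBasis K i = ((basisUnitLattice K i : unitLattice K) : logSpace K) :=
  (basisUnitLattice K).ofZLatticeBasis_apply ℝ (unitLattice K) i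

/-- the weight on `logSpace K` -/
noncomputable def phi (v : logSpace K) : ℝ := tentProd fun i => (logBasis K).repr v i

theorem phi_nonneg (v : logSpace K) : 0 ≤ phi K v := tentProd_nonneg _

theorem phi_le_one (v : logSpace K) : phi K v ≤ 1 := tentProd_le_one _

theorem exists_lipschitz_phi :
    ∃ L : ℝ, 0 ≤ L ∧ ∀ v v' : logSpace K, |phi K v - phi K v'| ≤ L * ‖v - v'‖ := by
  refine ⟨∑ i, ‖LinearMap.toContinuousLinearMap ((logBasis K).coord i)‖,
    Finset.sum_nonneg fun i _ => norm_nonneg _, fun v v' => ?_⟩
  refine (abs_tentProd_sub_le _ _).trans ?_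
  rw [Finset.sum_mul]
  refine Finset.sum_le_sum fun i _ => ?_
  have h := (LinearMap.toContinuousLinearMap ((logBasis K).coord i)).le_opNorm (v - v')
  have e : (LinearMap.toContinuousLinearMap ((logBasis K).coord i)) (v - v') =
      (logBasis K).repr v i - (logBasis K).repr v' i := by
    simp [Basis.coord_apply]
  rw [e, Real.norm_eq_abs] at h
  exact h

theorem exists_bound_of_phi_ne_zero :
    ∃ M : ℝ, 0 ≤ M ∧ ∀ v : logSpace K, phi K v ≠ 0 → ‖v‖ ≤ M := by
  refine ⟨∑ i, ‖logBasis K i‖, Finset.sum_nonneg fun i _ => norm_nonneg _, fun v hv => ?_⟩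
  have h1 : ∀ i, |(logBasis K).repr v i| < 1 := abs_lt_one_of_tentProd_ne_zero hv
  conv_lhs => rw [← (logBasis K).sum_repr v]
  refine (norm_sum_le _ _).trans (Finset.sum_le_sum fun i _ => ?_)
  rw [_root_.norm_smul, Real.norm_eq_abs]
  exact mul_le_of_le_one_left (norm_nonneg _) (h1 i).le

/-- the coordinates of `logEmbedding u + v` -/
theorem repr_logEmbedding_add (ζ : torsion K) (f : Fin (rank K) → ℤ) (v : logSpace K)
    (j : Fin (rank K)) :
    (logBasis K).repr (logEmbedding K (Additive.ofMul
      ((ζ : (𝓞 K)ˣ) * ∏ i, (fundSystem K i) ^ (f i))) + v) j =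
      (logBasis K).repr v j + f j := by
  have h1 : logEmbedding K (Additive.ofMul ((ζ : (𝓞 K)ˣ) * ∏ i, (fundSystem K i) ^ (f i))) =
      ∑ i, (f i : ℝ) • logBasis K i := by
    rw [ofMul_mul, map_add, logEmbedding_eq_zero_iff.mpr ζ.2, zero_add, ofMul_prod, map_sum]
    refine Finset.sum_congr rfl fun i _ => ?_
    rw [ofMul_zpow, map_zsmul, logEmbedding_fundSystem, logBasis_apply]
    exact (Int.cast_smul_eq_zsmul ℝ (f i) _).symm
  rw [h1, map_add, map_sum, Finsupp.add_apply, Finsupp.finsetSum_apply, add_comm]
  congr 1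
  simp [Finsupp.single_apply]

/-- the weight on the mixed space -/
noncomputable def wt (x : mixedSpace K) : ℝ := phi K (logMap x)

theorem wt_nonneg (x : mixedSpace K) : 0 ≤ wt K x := phi_nonneg K _

theorem wt_le_one (x : mixedSpace K) : wt K x ≤ 1 := phi_le_one K _

/-- the parametrisation of the units by roots of unity and exponents of a fundamental system -/
noncomputable def unitParam : torsion K × (Fin (rank K) → ℤ) ≃ (𝓞 K)ˣ :=
  Equiv.ofBijective (fun p => (p.1 : (𝓞 K)ˣ) * ∏ i, (fundSystem K i) ^ (p.2 i))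
    ⟨fun p q h => by
      obtain ⟨r, -, hr⟩ := exist_unique_eq_mul_prod K ((p.1 : (𝓞 K)ˣ) * ∏ i, (fundSystem K i) ^ (p.2 i))
      rw [hr p rfl, hr q h],
    fun x => by
      obtain ⟨r, hr, -⟩ := exist_unique_eq_mul_prod K x
      exact ⟨r, hr.symm⟩⟩

theorem unitParam_apply (p : torsion K × (Fin (rank K) → ℤ)) :
    unitParam K p = (p.1 : (𝓞 K)ˣ) * ∏ i, (fundSystem K i) ^ (p.2 i) := rfl

/-- **partition of unity**: the weights of the unit translates of a point of nonzero norm add up
to the number of roots of unity. -/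
theorem tsum_wt_unit_smul {x : mixedSpace K} (hx : mixedEmbedding.norm x ≠ 0) :
    ∑' u : (𝓞 K)ˣ, wt K (u • x) = torsionOrder K := by
  let _ : Fintype (torsion K) := Fintype.ofFinite _
  rw [← (unitParam K).tsum_eq]
  have h1 : ∀ p : torsion K × (Fin (rank K) → ℤ), wt K (unitParam K p • x) =
      tentProd fun i => (logBasis K).repr (logMap x) i + p.2 i := by
    intro p
    rw [wt, logMap_unit_smul _ hx, unitParam_apply, phi]
    congr 1
    funext j
    exact repr_logEmbedding_add K p.1 p.2 (logMap x) j
  simp_rw [h1]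
  rw [tsum_eq_sum (s := (Finset.univ : Finset (torsion K)) ×ˢ
    tentSupp fun i => (logBasis K).repr (logMap x) i)]
  · rw [Finset.sum_product]
    simp_rw [sum_tentSupp]
    rw [Finset.sum_const, Finset.card_univ, nsmul_eq_mul, mul_one, torsionOrder,
      Nat.card_eq_fintype_card]
  · intro p hp
    rw [Finset.mem_product, not_and] at hp
    exact tentProd_add_int_eq_zero (hp (Finset.mem_univ _))

end Fermat.Agent.S14.ClassZeta
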