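import Mathlib
import Fermat.Agent.S14.CZWeight

/-!
# S14 (D1), part 3: the weighted norm power `fs s x = wt x * norm x ^ (-s)` on the mixed space

* `exists_cone`: the support of `wt` lies in a cone where all `normAtPlace` are comparable to `‖x‖`;
* `exists_fs_le`: `fs s x ≤ C * ‖x‖ ^ (-(n * s))`;
* `exists_lipschitz_fs`: `|fs s x - fs s y| ≤ C * ‖x - y‖ * ‖x‖ ^ (-n - 1)` for `1 ≤ ‖x‖`,
  `‖x - y‖ ≤ ρ * ‖x‖`, uniformly in `s ∈ [1, 2]`.
-/

set_option autoImplicit false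

open scoped Classical
open NumberField NumberField.mixedEmbedding NumberField.Units
  NumberField.Units.dirichletUnitTheorem NumberField.InfinitePlace Module

namespace Fermat.Agent.S14.ClassZeta

variable (K : Type*) [Field K] [NumberField K]

/-- the weighted norm power -/
noncomputable def fs (s : ℝ) (x : mixedSpace K) : ℝ := wt K x * mixedEmbedding.norm x ^ (-s)

theorem fs_nonneg (s : ℝ) (x : mixedSpace K) : 0 ≤ fs K s x :=
  mul_nonneg (wt_nonneg K x) (Real.rpow_nonneg (mixedEmbedding.norm_nonneg x) _)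

theorem fs_eq_zero_of_norm_eq_zero {s : ℝ} (hs : s ≠ 0) {x : mixedSpace K}
    (hx : mixedEmbedding.norm x = 0) : fs K s x = 0 := by
  rw [fs, hx, Real.zero_rpow (neg_ne_zero.mpr hs), mul_zero]

theorem fs_eq_zero_of_wt_eq_zero (s : ℝ) {x : mixedSpace K} (hx : wt K x = 0) : fs K s x = 0 := by
  rw [fs, hx, zero_mul]

variable {K}

theorem normAtPlace_le_norm (w : InfinitePlace K) (x : mixedSpace K) : normAtPlace w x ≤ ‖x‖ := by
  rw [norm_eq_sup'_normAtPlace]
  exact Finset.le_sup' (fun w => normAtPlace w x) (Finset.mem_univ w)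

theorem abs_normAtPlace_sub_le (w : InfinitePlace K) (x y : mixedSpace K) :
    |normAtPlace w x - normAtPlace w y| ≤ ‖x - y‖ := by
  rw [abs_le]
  constructor
  · have h := normAtPlace_add_le w (y - x) x
    rw [sub_add_cancel] at h
    have h2 := normAtPlace_le_norm w (y - x)
    rw [norm_sub_rev] at h2
    linarith
  · have h := normAtPlace_add_le w (x - y) y
    rw [sub_add_cancel] at h
    have h2 := normAtPlace_le_norm w (x - y)
    linarith

theorem log_norm_eq {x : mixedSpace K} (hx : ∀ w, 0 < normAtPlace w x) :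
    Real.log (mixedEmbedding.norm x) = ∑ w, (mult w : ℝ) * Real.log (normAtPlace w x) := by
  rw [mixedEmbedding.norm_apply, Real.log_prod fun w _ => pow_ne_zero _ (hx w).ne']
  exact Finset.sum_congr rfl fun w _ => Real.log_pow _ _

theorem sum_mult_cast : ∑ w : InfinitePlace K, (mult w : ℝ) = (finrank ℚ K : ℝ) := by
  rw [← Nat.cast_sum, sum_mult_eq]

theorem finrank_pos' : (0 : ℝ) < (finrank ℚ K : ℝ) := Nat.cast_pos.mpr finrank_pos

theorem sum_mult_mul_log_sub {x : mixedSpace K} (hx : ∀ w, 0 < normAtPlace w x) :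
    ∑ w, (mult w : ℝ) * (Real.log (normAtPlace w x) -
      Real.log (mixedEmbedding.norm x) * (finrank ℚ K : ℝ)⁻¹) = 0 := by
  simp_rw [mul_sub]
  rw [Finset.sum_sub_distrib, ← log_norm_eq hx, ← Finset.sum_mul, sum_mult_cast]
  field_simp [(finrank_pos' (K := K)).ne']
  ring

theorem abs_log_normAtPlace_sub_le {x : mixedSpace K} (hx : ∀ w, 0 < normAtPlace w x)
    (w : InfinitePlace K) :
    |Real.log (normAtPlace w x) - Real.log (mixedEmbedding.norm x) * (finrank ℚ K : ℝ)⁻¹| ≤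
      Fintype.card (InfinitePlace K) * ‖logMap x‖ := by
  have hcard : (1 : ℝ) ≤ Fintype.card (InfinitePlace K) := by
    exact_mod_cast Fintype.card_pos
  have hn : 0 ≤ ‖logMap x‖ := norm_nonneg _
  have key : ∀ w' : {w : InfinitePlace K // w ≠ w₀},
      |(mult w'.1 : ℝ) * (Real.log (normAtPlace w'.1 x) -
        Real.log (mixedEmbedding.norm x) * (finrank ℚ K : ℝ)⁻¹)| ≤ ‖logMap x‖ := by
    intro w'
    have := norm_le_pi_norm (logMap x) w'
    rwa [logMap_apply, Real.norm_eq_abs] at this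
  have hm : ∀ w' : InfinitePlace K, ∀ t : ℝ, |t| ≤ |(mult w' : ℝ) * t| := by
    intro w' t
    rw [abs_mul, abs_of_nonneg (Nat.cast_nonneg _ : (0 : ℝ) ≤ (mult w' : ℝ))]
    exact le_mul_of_one_le_left (abs_nonneg t) (by exact_mod_cast one_le_mult)
  by_cases hw : w = w₀
  · subst hw
    have h0 := sum_mult_mul_log_sub hx
    rw [Fintype.sum_eq_add_sum_subtype_ne _ (w₀ : InfinitePlace K)] at h0
    have h1 : (mult (w₀ : InfinitePlace K) : ℝ) * (Real.log (normAtPlace w₀ x) -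
        Real.log (mixedEmbedding.norm x) * (finrank ℚ K : ℝ)⁻¹) =
        -∑ w' : {w : InfinitePlace K // w ≠ w₀}, (mult w'.1 : ℝ) *
          (Real.log (normAtPlace w'.1 x) -
            Real.log (mixedEmbedding.norm x) * (finrank ℚ K : ℝ)⁻¹) := by linarith
    refine (hm (w₀ : InfinitePlace K) _).trans ?_
    rw [h1, abs_neg]
    refine (Finset.abs_sum_le_sum_abs _ _).trans ?_
    refine (Finset.sum_le_sum fun w' _ => key w').trans ?_
    rw [Finset.sum_const, Finset.card_univ, nsmul_eq_mul]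
    refine mul_le_mul_of_nonneg_right ?_ hn
    exact_mod_cast Fintype.card_subtype_le _
  · refine (hm w _).trans ((key ⟨w, hw⟩).trans ?_)
    exact le_mul_of_one_le_left hn hcard

variable (K)

/-- the support of the weight lies in a cone where all `normAtPlace` are comparable -/
theorem exists_cone : ∃ κ : ℝ, 0 < κ ∧ κ ≤ 1 ∧ ∀ x : mixedSpace K,
    mixedEmbedding.norm x ≠ 0 → wt K x ≠ 0 → ∀ w, κ * ‖x‖ ≤ normAtPlace w x := by
  obtain ⟨M, hM0, hM⟩ := exists_bound_of_phi_ne_zero K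
  set M' : ℝ := Fintype.card (InfinitePlace K) * M with hM'
  have hM'0 : 0 ≤ M' := mul_nonneg (Nat.cast_nonneg _) hM0
  refine ⟨Real.exp (-(2 * M')), Real.exp_pos _, ?_, fun x hx hwt w => ?_⟩
  · rw [Real.exp_le_one_iff]; linarith
  have hpos : ∀ w, 0 < normAtPlace w x := fun w =>
    lt_of_le_of_ne (normAtPlace_nonneg w x) (Ne.symm (mixedEmbedding.norm_ne_zero_iff.mp hx w))
  have hlog : ‖logMap x‖ ≤ M := hM _ hwt
  have hd : ∀ w, |Real.log (normAtPlace w x) -
      Real.log (mixedEmbedding.norm x) * (finrank ℚ K : ℝ)⁻¹| ≤ M' := fun w =>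
    (abs_log_normAtPlace_sub_le hpos w).trans
      (mul_le_mul_of_nonneg_left hlog (Nat.cast_nonneg _))
  obtain ⟨w', -, hw'⟩ := Finset.exists_mem_eq_sup' (Finset.univ_nonempty (α := InfinitePlace K))
    (fun w => normAtPlace w x)
  rw [← norm_eq_sup'_normAtPlace] at hw'
  rw [hw']
  have h1 := abs_le.mp (hd w')
  have h2 := abs_le.mp (hd w)
  have h3 : Real.log (normAtPlace w' x) ≤ Real.log (normAtPlace w x) + 2 * M' := by linarith
  have h4 : normAtPlace w' x ≤ normAtPlace w x * Real.exp (2 * M') := by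
    calc normAtPlace w' x = Real.exp (Real.log (normAtPlace w' x)) := (Real.exp_log (hpos w')).symm
      _ ≤ Real.exp (Real.log (normAtPlace w x) + 2 * M') := Real.exp_le_exp.mpr h3
      _ = normAtPlace w x * Real.exp (2 * M') := by rw [Real.exp_add, Real.exp_log (hpos w)]
  rw [Real.exp_neg, inv_mul_le_iff₀ (Real.exp_pos _), mul_comm]
  exact h4

theorem abs_log_sub_log_le {m u v : ℝ} (hm : 0 < m) (hu : m ≤ u) (hv : m ≤ v) :
    |Real.log u - Real.log v| ≤ |u - v| / m := by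
  have hu0 : 0 < u := hm.trans_le hu
  have hv0 : 0 < v := hm.trans_le hv
  have key : ∀ a b : ℝ, m ≤ a → m ≤ b → Real.log a - Real.log b ≤ |a - b| / m := by
    intro a b ha hb
    have ha0 : 0 < a := hm.trans_le ha
    have hb0 : 0 < b := hm.trans_le hb
    have h1 : Real.log a - Real.log b = Real.log (a / b) := (Real.log_div ha0.ne' hb0.ne').symm
    have h2 := Real.log_le_sub_one_of_pos (div_pos ha0 hb0)
    have h3 : a / b - 1 = (a - b) / b := by field_simp
    rw [h1]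
    refine h2.trans ?_
    rw [h3]
    by_cases hab : 0 ≤ a - b
    · rw [abs_of_nonneg hab]
      exact div_le_div_of_nonneg_left hab hm hb
    · push Not at hab
      exact (div_neg_of_neg_of_pos hab hb0).le.trans (div_nonneg (abs_nonneg _) hm.le)
  rw [abs_le]
  constructor
  · have := key v u hv hu
    rw [abs_sub_comm] at this
    linarith
  · exact key u v hu hv

theorem abs_exp_sub_exp_le {p q B : ℝ} (hp : p ≤ B) (hq : q ≤ B) :
    |Real.exp p - Real.exp q| ≤ Real.exp B * |p - q| := by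
  have key : ∀ a b : ℝ, a ≤ B → b ≤ a → Real.exp a - Real.exp b ≤ Real.exp B * (a - b) := by
    intro a b ha hba
    have h1 := Real.add_one_le_exp (b - a)
    have h2 : Real.exp b = Real.exp a * Real.exp (b - a) := by rw [← Real.exp_add]; ring_nf
    have h3 : Real.exp a - Real.exp b ≤ Real.exp a * (a - b) := by
      rw [h2]
      have := mul_le_mul_of_nonneg_left h1 (Real.exp_pos a).le
      linarith
    exact h3.trans (mul_le_mul_of_nonneg_right (Real.exp_le_exp.mpr ha) (by linarith))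
  rcases le_total q p with h | h
  · rw [abs_of_nonneg (sub_nonneg.mpr (Real.exp_le_exp.mpr h)), abs_of_nonneg (sub_nonneg.mpr h)]
    exact key p q hp h
  · rw [abs_sub_comm, abs_sub_comm p q,
      abs_of_nonneg (sub_nonneg.mpr (Real.exp_le_exp.mpr h)), abs_of_nonneg (sub_nonneg.mpr h)]
    exact key q p hq h


variable {K}

omit [NumberField K] in
theorem mult_le_two' (w : InfinitePlace K) : (mult w : ℝ) ≤ 2 := by
  unfold mult
  split_ifs <;> norm_num

theorem pow_le_norm {x : mixedSpace K} {m : ℝ} (hm : 0 ≤ m) (h : ∀ w, m ≤ normAtPlace w x) :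
    m ^ (finrank ℚ K) ≤ mixedEmbedding.norm x := by
  rw [mixedEmbedding.norm_apply, ← sum_mult_eq, ← Finset.prod_pow_eq_pow_sum]
  exact Finset.prod_le_prod (fun w _ => pow_nonneg hm _) fun w _ => pow_le_pow_left₀ hm (h w) _

theorem norm_le_pow (x : mixedSpace K) : mixedEmbedding.norm x ≤ ‖x‖ ^ (finrank ℚ K) := by
  rw [mixedEmbedding.norm_apply, ← sum_mult_eq, ← Finset.prod_pow_eq_pow_sum]
  exact Finset.prod_le_prod (fun w _ => pow_nonneg (normAtPlace_nonneg w x) _)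
    fun w _ => pow_le_pow_left₀ (normAtPlace_nonneg w x) (normAtPlace_le_norm w x) _

theorem abs_log_normAtPlace_sub_log_le {x y : mixedSpace K} {m : ℝ} (hm : 0 < m)
    (hx : ∀ w, m ≤ normAtPlace w x) (hy : ∀ w, m ≤ normAtPlace w y) (w : InfinitePlace K) :
    |Real.log (normAtPlace w x) - Real.log (normAtPlace w y)| ≤ ‖x - y‖ / m :=
  (abs_log_sub_log_le hm (hx w) (hy w)).trans
    (div_le_div_of_nonneg_right (abs_normAtPlace_sub_le w x y) hm.le)

theorem abs_log_norm_sub_log_le {x y : mixedSpace K} {m : ℝ} (hm : 0 < m)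
    (hx : ∀ w, m ≤ normAtPlace w x) (hy : ∀ w, m ≤ normAtPlace w y) :
    |Real.log (mixedEmbedding.norm x) - Real.log (mixedEmbedding.norm y)| ≤
      (finrank ℚ K : ℝ) * (‖x - y‖ / m) := by
  rw [log_norm_eq fun w => hm.trans_le (hx w), log_norm_eq fun w => hm.trans_le (hy w),
    ← Finset.sum_sub_distrib, ← sum_mult_cast, Finset.sum_mul]
  refine (Finset.abs_sum_le_sum_abs _ _).trans (Finset.sum_le_sum fun w _ => ?_)
  rw [← mul_sub, abs_mul, abs_of_nonneg (Nat.cast_nonneg _ : (0 : ℝ) ≤ (mult w : ℝ))]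
  exact mul_le_mul_of_nonneg_left (abs_log_normAtPlace_sub_log_le hm hx hy w) (Nat.cast_nonneg _)

theorem norm_logMap_sub_le {x y : mixedSpace K} {m : ℝ} (hm : 0 < m)
    (hx : ∀ w, m ≤ normAtPlace w x) (hy : ∀ w, m ≤ normAtPlace w y) :
    ‖logMap x - logMap y‖ ≤ 4 * (‖x - y‖ / m) := by
  have hd : 0 ≤ ‖x - y‖ / m := div_nonneg (norm_nonneg _) hm.le
  rw [pi_norm_le_iff_of_nonneg (by positivity)]
  intro w
  rw [Pi.sub_apply, logMap_apply, logMap_apply, ← mul_sub, Real.norm_eq_abs, abs_mul,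
    abs_of_nonneg (Nat.cast_nonneg _ : (0 : ℝ) ≤ (mult w.1 : ℝ))]
  have h1 := abs_log_normAtPlace_sub_log_le hm hx hy w.1
  have h2 := abs_log_norm_sub_log_le hm hx hy
  have hn := finrank_pos' (K := K)
  have h3 : |(Real.log (mixedEmbedding.norm x) - Real.log (mixedEmbedding.norm y)) *
      (finrank ℚ K : ℝ)⁻¹| ≤ ‖x - y‖ / m := by
    rw [abs_mul, abs_of_pos (inv_pos.mpr hn), ← div_eq_mul_inv, div_le_iff₀ hn]
    linarith
  have h4 : |Real.log (normAtPlace w.1 x) - Real.log (mixedEmbedding.norm x) * (finrank ℚ K : ℝ)⁻¹ -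
      (Real.log (normAtPlace w.1 y) - Real.log (mixedEmbedding.norm y) * (finrank ℚ K : ℝ)⁻¹)| ≤
      2 * (‖x - y‖ / m) := by
    have e : Real.log (normAtPlace w.1 x) - Real.log (mixedEmbedding.norm x) * (finrank ℚ K : ℝ)⁻¹ -
      (Real.log (normAtPlace w.1 y) - Real.log (mixedEmbedding.norm y) * (finrank ℚ K : ℝ)⁻¹) =
      (Real.log (normAtPlace w.1 x) - Real.log (normAtPlace w.1 y)) -
      (Real.log (mixedEmbedding.norm x) - Real.log (mixedEmbedding.norm y)) *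
        (finrank ℚ K : ℝ)⁻¹ := by ring
    rw [e]
    refine (abs_sub _ _).trans ?_
    linarith
  calc (mult w.1 : ℝ) * _ ≤ 2 * (2 * (‖x - y‖ / m)) :=
        mul_le_mul (mult_le_two' w.1) h4 (abs_nonneg _) (by norm_num)
    _ = 4 * (‖x - y‖ / m) := by ring

variable (K)

/-- the core Lipschitz estimate: both points have all `normAtPlace` at least `m` -/
theorem abs_fs_sub_le_core {L : ℝ} (hL0 : 0 ≤ L)
    (hL : ∀ v v' : logSpace K, |phi K v - phi K v'| ≤ L * ‖v - v'‖)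
    {s : ℝ} (hs1 : 1 ≤ s) (hs2 : s ≤ 2) {x y : mixedSpace K} {m : ℝ} (hm : 0 < m)
    (hx : ∀ w, m ≤ normAtPlace w x) (hy : ∀ w, m ≤ normAtPlace w y) :
    |fs K s x - fs K s y| ≤
      (4 * L + 2 * (finrank ℚ K : ℝ)) * (‖x - y‖ / m) * (m ^ (finrank ℚ K)) ^ (-s) := by
  have hd : 0 ≤ ‖x - y‖ / m := div_nonneg (norm_nonneg _) hm.le
  have hmn : 0 < m ^ (finrank ℚ K) := pow_pos hm _
  have hNx : m ^ (finrank ℚ K) ≤ mixedEmbedding.norm x := pow_le_norm hm.le hx
  have hNy : m ^ (finrank ℚ K) ≤ mixedEmbedding.norm y := pow_le_norm hm.le hy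
  have hNx0 : 0 < mixedEmbedding.norm x := hmn.trans_le hNx
  have hNy0 : 0 < mixedEmbedding.norm y := hmn.trans_le hNy
  have hB0 : 0 ≤ (m ^ (finrank ℚ K)) ^ (-s) := Real.rpow_nonneg hmn.le _
  have e : fs K s x - fs K s y = (wt K x - wt K y) * mixedEmbedding.norm x ^ (-s) +
      wt K y * (mixedEmbedding.norm x ^ (-s) - mixedEmbedding.norm y ^ (-s)) := by
    unfold fs; ring
  have h1 : |wt K x - wt K y| ≤ L * (4 * (‖x - y‖ / m)) :=
    (hL _ _).trans (mul_le_mul_of_nonneg_left (norm_logMap_sub_le hm hx hy) hL0)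
  have h2 : mixedEmbedding.norm x ^ (-s) ≤ (m ^ (finrank ℚ K)) ^ (-s) :=
    Real.rpow_le_rpow_of_nonpos hmn hNx (by linarith)
  have h3 : |mixedEmbedding.norm x ^ (-s) - mixedEmbedding.norm y ^ (-s)| ≤
      (m ^ (finrank ℚ K)) ^ (-s) * (2 * ((finrank ℚ K : ℝ) * (‖x - y‖ / m))) := by
    rw [Real.rpow_def_of_pos hNx0, Real.rpow_def_of_pos hNy0, Real.rpow_def_of_pos hmn]
    have hlx : Real.log (m ^ (finrank ℚ K)) ≤ Real.log (mixedEmbedding.norm x) :=
      Real.log_le_log hmn hNx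
    have hly : Real.log (m ^ (finrank ℚ K)) ≤ Real.log (mixedEmbedding.norm y) :=
      Real.log_le_log hmn hNy
    have hs0 : -s ≤ 0 := by linarith
    refine (abs_exp_sub_exp_le (B := Real.log (m ^ (finrank ℚ K)) * -s)
      (mul_le_mul_of_nonpos_right hlx hs0) (mul_le_mul_of_nonpos_right hly hs0)).trans ?_
    refine mul_le_mul_of_nonneg_left ?_ (Real.exp_pos _).le
    rw [← sub_mul, abs_mul, abs_neg, abs_of_nonneg (by linarith : (0 : ℝ) ≤ s), mul_comm]
    exact mul_le_mul hs2 (abs_log_norm_sub_log_le hm hx hy) (abs_nonneg _) (by norm_num)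
  rw [e]
  refine (abs_add_le _ _).trans ?_
  rw [abs_mul, abs_mul, abs_of_nonneg (Real.rpow_nonneg hNx0.le _), abs_of_nonneg (wt_nonneg K y)]
  have h4 : |wt K x - wt K y| * mixedEmbedding.norm x ^ (-s) ≤
      L * (4 * (‖x - y‖ / m)) * (m ^ (finrank ℚ K)) ^ (-s) :=
    mul_le_mul h1 h2 (Real.rpow_nonneg hNx0.le _) (by positivity)
  have h5 : wt K y * |mixedEmbedding.norm x ^ (-s) - mixedEmbedding.norm y ^ (-s)| ≤
      1 * ((m ^ (finrank ℚ K)) ^ (-s) * (2 * ((finrank ℚ K : ℝ) * (‖x - y‖ / m)))) :=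
    mul_le_mul (wt_le_one K y) h3 (abs_nonneg _) (by norm_num)
  calc _ ≤ L * (4 * (‖x - y‖ / m)) * (m ^ (finrank ℚ K)) ^ (-s) +
        1 * ((m ^ (finrank ℚ K)) ^ (-s) * (2 * ((finrank ℚ K : ℝ) * (‖x - y‖ / m)))) :=
        add_le_add h4 h5
    _ = _ := by ring

/-- a bound for `(c * t) ^ n` to the power `-s` -/
theorem rpow_neg_le_aux {c t : ℝ} (hc0 : 0 < c) (hc1 : c ≤ 1) (ht : 1 ≤ t) (n : ℕ)
    {s : ℝ} (hs1 : 1 ≤ s) (hs2 : s ≤ 2) :
    ((c * t) ^ n) ^ (-s) ≤ ((c ^ n) ^ 2)⁻¹ * (t ^ n)⁻¹ := by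
  have hcn0 : 0 < c ^ n := pow_pos hc0 n
  have hcn1 : c ^ n ≤ 1 := pow_le_one₀ hc0.le hc1
  have htn : 1 ≤ t ^ n := one_le_pow₀ ht
  rw [mul_pow, Real.mul_rpow hcn0.le (by positivity)]
  have h1 : (c ^ n) ^ (-s) ≤ ((c ^ n) ^ 2)⁻¹ := by
    have := Real.rpow_le_rpow_of_exponent_ge hcn0 hcn1 (by linarith : (-2 : ℝ) ≤ -s)
    rwa [Real.rpow_neg hcn0.le (2 : ℝ), Real.rpow_two] at this
  have h2 : (t ^ n) ^ (-s) ≤ (t ^ n)⁻¹ := by
    have := Real.rpow_le_rpow_of_exponent_le htn (by linarith : -s ≤ (-1 : ℝ))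
    rwa [Real.rpow_neg_one] at this
  exact mul_le_mul h1 h2 (Real.rpow_nonneg (by positivity) _) (by positivity)

/-- **the Lipschitz estimate**, uniform in `s ∈ [1, 2]` -/
theorem exists_lipschitz_fs : ∃ C ρ : ℝ, 0 ≤ C ∧ 0 < ρ ∧ ∀ s : ℝ, 1 ≤ s → s ≤ 2 →
    ∀ x y : mixedSpace K, 1 ≤ ‖x‖ → ‖x - y‖ ≤ ρ * ‖x‖ →
      |fs K s x - fs K s y| ≤ C * ‖x - y‖ / ‖x‖ ^ (finrank ℚ K + 1) := by
  obtain ⟨κ, hκ0, hκ1, hκ⟩ := exists_cone K
  obtain ⟨L, hL0, hL⟩ := exists_lipschitz_phi K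
  have hc0 : 0 < κ / 2 := by linarith
  have hc1 : κ / 2 ≤ 1 := by linarith
  refine ⟨(4 * L + 2 * (finrank ℚ K : ℝ)) * ((κ / 2)⁻¹ * (((κ / 2) ^ (finrank ℚ K)) ^ 2)⁻¹),
    κ / 4, by positivity, by linarith, fun s hs1 hs2 x y hx hxy => ?_⟩
  have hx0 : 0 < ‖x‖ := by linarith
  have hm : 0 < κ / 2 * ‖x‖ := by positivity
  have core : (∀ w, κ / 2 * ‖x‖ ≤ normAtPlace w x) → (∀ w, κ / 2 * ‖x‖ ≤ normAtPlace w y) →
      |fs K s x - fs K s y| ≤ (4 * L + 2 * (finrank ℚ K : ℝ)) *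
        ((κ / 2)⁻¹ * (((κ / 2) ^ (finrank ℚ K)) ^ 2)⁻¹) * ‖x - y‖ / ‖x‖ ^ (finrank ℚ K + 1) := by
    intro h1 h2
    refine (abs_fs_sub_le_core K hL0 hL hs1 hs2 hm h1 h2).trans ?_
    have h3 := rpow_neg_le_aux hc0 hc1 hx (finrank ℚ K) hs1 hs2
    have h4 : 0 ≤ (4 * L + 2 * (finrank ℚ K : ℝ)) * (‖x - y‖ / (κ / 2 * ‖x‖)) := by positivity
    refine (mul_le_mul_of_nonneg_left h3 h4).trans (le_of_eq ?_)
    rw [pow_succ]
    field_simp
    ring
  by_cases hcx : mixedEmbedding.norm x ≠ 0 ∧ wt K x ≠ 0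
  · have h1 : ∀ w, κ * ‖x‖ ≤ normAtPlace w x := hκ x hcx.1 hcx.2
    refine core (fun w => ?_) (fun w => ?_)
    · have := h1 w
      nlinarith
    · have := h1 w
      have h2 := (abs_le.mp (abs_normAtPlace_sub_le w x y)).2
      nlinarith
  · by_cases hcy : mixedEmbedding.norm y ≠ 0 ∧ wt K y ≠ 0
    · have h1 : ∀ w, κ * ‖y‖ ≤ normAtPlace w y := hκ y hcy.1 hcy.2
      have h0 : ‖x‖ - ‖x - y‖ ≤ ‖y‖ := by
        have := norm_sub_norm_le x (x - y)
        rw [sub_sub_cancel] at this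
        linarith
      have h3 : ∀ w, 3 * κ / 4 * ‖x‖ ≤ normAtPlace w y := by
        intro w
        have := h1 w
        nlinarith
      refine core (fun w => ?_) (fun w => ?_)
      · have := h3 w
        have h2 := (abs_le.mp (abs_normAtPlace_sub_le w x y)).1
        nlinarith
      · have := h3 w
        nlinarith
    · have fx : fs K s x = 0 := by
        by_cases h : mixedEmbedding.norm x = 0
        · exact fs_eq_zero_of_norm_eq_zero K (by linarith) h
        · exact fs_eq_zero_of_wt_eq_zero K s (by_contra fun h' => hcx ⟨h, h'⟩)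
      have fy : fs K s y = 0 := by
        by_cases h : mixedEmbedding.norm y = 0
        · exact fs_eq_zero_of_norm_eq_zero K (by linarith) h
        · exact fs_eq_zero_of_wt_eq_zero K s (by_contra fun h' => hcy ⟨h, h'⟩)
      rw [fx, fy, sub_zero, abs_zero]
      positivity

/-- `fs` is bounded by a power of the sup norm -/
theorem exists_fs_le : ∃ κ : ℝ, 0 < κ ∧ ∀ s : ℝ, 0 < s → ∀ x : mixedSpace K,
    fs K s x ≤ (κ ^ (finrank ℚ K)) ^ (-s) * ‖x‖ ^ (-((finrank ℚ K : ℝ) * s)) := by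
  obtain ⟨κ, hκ0, hκ1, hκ⟩ := exists_cone K
  refine ⟨κ, hκ0, fun s hs x => ?_⟩
  have hR : 0 ≤ (κ ^ (finrank ℚ K)) ^ (-s) * ‖x‖ ^ (-((finrank ℚ K : ℝ) * s)) :=
    mul_nonneg (Real.rpow_nonneg (by positivity) _) (Real.rpow_nonneg (norm_nonneg _) _)
  by_cases hcx : mixedEmbedding.norm x ≠ 0 ∧ wt K x ≠ 0
  · have h1 : ∀ w, κ * ‖x‖ ≤ normAtPlace w x := hκ x hcx.1 hcx.2
    have hx0 : 0 < ‖x‖ := by
      rcases (norm_nonneg x).lt_or_eq with h | h
      · exact h
      · exfalso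
        apply hcx.1
        rw [norm_eq_zero.mp h.symm, map_zero]
    have h2 : (κ * ‖x‖) ^ (finrank ℚ K) ≤ mixedEmbedding.norm x := pow_le_norm (by positivity) h1
    have h3 : mixedEmbedding.norm x ^ (-s) ≤ ((κ * ‖x‖) ^ (finrank ℚ K)) ^ (-s) :=
      Real.rpow_le_rpow_of_nonpos (by positivity) h2 (by linarith)
    have h4 : ((κ * ‖x‖) ^ (finrank ℚ K)) ^ (-s) =
        (κ ^ (finrank ℚ K)) ^ (-s) * ‖x‖ ^ (-((finrank ℚ K : ℝ) * s)) := by
      rw [mul_pow, Real.mul_rpow (by positivity) (by positivity), ← Real.rpow_natCast ‖x‖,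
        ← Real.rpow_mul (norm_nonneg _), mul_neg]
    rw [← h4]
    calc fs K s x ≤ 1 * mixedEmbedding.norm x ^ (-s) :=
          mul_le_mul_of_nonneg_right (wt_le_one K x) (Real.rpow_nonneg (mixedEmbedding.norm_nonneg x) _)
      _ ≤ _ := by rw [one_mul]; exact h3
  · have fx : fs K s x = 0 := by
      by_cases h : mixedEmbedding.norm x = 0
      · exact fs_eq_zero_of_norm_eq_zero K hs.ne' h
      · exact fs_eq_zero_of_wt_eq_zero K s (by_contra fun h' => hcx ⟨h, h'⟩)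
    rw [fx]
    exact hR

end Fermat.Agent.S14.ClassZeta
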