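import Mathlib
import Fermat.Agent.S14.CZLip

/-!
# S14 (D1), part 4: weighted sums over the integers of a number field and over an ideal

`iota x` is the image of `x : 𝓞 K` in the mixed space.

* `summable_fs`: `x ↦ fs s (iota x)` is summable on `𝓞 K` for `1 < s`;
* `exists_bound_coset`: for a nonzero ideal `J`,
  `∑' x : 𝓞 K, fs s (iota x) - absNorm J * ∑' a : J, fs s (iota a)` is bounded on `(1, 2]`.
-/

set_option autoImplicit false

open scoped Classical
open NumberField NumberField.mixedEmbedding NumberField.Units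
  NumberField.Units.dirichletUnitTheorem NumberField.InfinitePlace Module

namespace Fermat.Agent.S14.ClassZeta

variable (K : Type*) [Field K] [NumberField K]

/-- the image of an integer of `K` in the mixed space -/
noncomputable def iota (x : 𝓞 K) : mixedSpace K := mixedEmbedding K (x : K)

omit [NumberField K] in
theorem iota_zero : iota K 0 = 0 := by simp [iota]

omit [NumberField K] in
theorem iota_add (x y : 𝓞 K) : iota K (x + y) = iota K x + iota K y := by simp [iota]

omit [NumberField K] in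
theorem iota_mul (x y : 𝓞 K) : iota K (x * y) = iota K x * iota K y := by simp [iota]

theorem iota_injective : Function.Injective (iota K) := fun _ _ h =>
  RingOfIntegers.ext ((mixedEmbedding K).injective h)

omit [NumberField K] in
theorem iota_mem (x : 𝓞 K) : iota K x ∈ mixedEmbedding.integerLattice K := ⟨x, rfl⟩

theorem norm_iota (x : 𝓞 K) :
    mixedEmbedding.norm (iota K x) = (Ideal.absNorm (Ideal.span ({x} : Set (𝓞 K))) : ℝ) := by
  rw [iota, mixedEmbedding.norm_eq_norm, Ideal.absNorm_span_singleton, ← Algebra.coe_norm_int,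
    Nat.cast_natAbs, Int.cast_abs, Rat.cast_abs, Rat.cast_intCast]

theorem one_le_norm_iota {x : 𝓞 K} (hx : x ≠ 0) : 1 ≤ mixedEmbedding.norm (iota K x) := by
  rw [norm_iota]
  have h : Ideal.absNorm (Ideal.span ({x} : Set (𝓞 K))) ≠ 0 := by
    rw [Ne, Ideal.absNorm_eq_zero_iff, Ideal.span_singleton_eq_bot]
    exact hx
  exact_mod_cast Nat.one_le_iff_ne_zero.mpr h

theorem one_le_norm_iota' {x : 𝓞 K} (hx : x ≠ 0) : 1 ≤ ‖iota K x‖ := by
  by_contra h
  push Not at h
  have h1 := one_le_norm_iota K hx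
  have h2 := norm_le_pow (iota K x)
  have h3 : ‖iota K x‖ ^ (finrank ℚ K) < 1 :=
    pow_lt_one₀ (norm_nonneg _) h finrank_pos.ne'
  linarith

theorem fs_iota_zero {s : ℝ} (hs : s ≠ 0) : fs K s (iota K 0) = 0 :=
  fs_eq_zero_of_norm_eq_zero K hs (by rw [iota_zero, map_zero])

theorem fs_iota_le_one {s : ℝ} (hs : 0 < s) (x : 𝓞 K) : fs K s (iota K x) ≤ 1 := by
  by_cases hx : x = 0
  · rw [hx, fs_iota_zero K hs.ne']
    exact zero_le_one
  · have h1 : mixedEmbedding.norm (iota K x) ^ (-s) ≤ 1 :=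
      Real.rpow_le_one_of_one_le_of_nonpos (one_le_norm_iota K hx) (by linarith)
    calc fs K s (iota K x) ≤ 1 * 1 :=
          mul_le_mul (wt_le_one K _) h1 (Real.rpow_nonneg (mixedEmbedding.norm_nonneg _) _)
            zero_le_one
      _ = 1 := one_mul 1

theorem finrank_integerLattice :
    finrank ℤ (mixedEmbedding.integerLattice K) = finrank ℚ K := by
  rw [ZLattice.rank ℝ, mixedEmbedding.finrank]

theorem summable_norm_integerLattice_rpow {r : ℝ} (hr : r < -(finrank ℚ K : ℝ)) :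
    Summable fun z : mixedEmbedding.integerLattice K => ‖(z : mixedSpace K)‖ ^ r := by
  have h := ZLattice.summable_norm_rpow (L := mixedEmbedding.integerLattice K) r
    (by rw [finrank_integerLattice]; exact hr)
  exact h

/-- `iota` as a map to the lattice -/
noncomputable def iotaL (x : 𝓞 K) : mixedEmbedding.integerLattice K := ⟨iota K x, iota_mem K x⟩

theorem iotaL_injective : Function.Injective (iotaL K) := by
  intro x y hxy
  apply iota_injective K
  have := congrArg Subtype.val hxy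
  exact this

theorem summable_norm_iota_rpow {r : ℝ} (hr : r < -(finrank ℚ K : ℝ)) :
    Summable fun x : 𝓞 K => ‖iota K x‖ ^ r := by
  have h := (summable_norm_integerLattice_rpow K hr).comp_injective (iotaL_injective K)
  exact h

theorem summable_norm_iota_inv_pow :
    Summable fun x : 𝓞 K => (‖iota K x‖⁻¹) ^ (finrank ℚ K + 1) := by
  have h := summable_norm_iota_rpow K (r := -((finrank ℚ K + 1 : ℕ) : ℝ))
    (by push_cast; linarith)
  refine h.congr fun x => ?_
  rw [Real.rpow_neg (norm_nonneg _), Real.rpow_natCast, inv_pow]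

/-- `fs s ∘ iota` is summable for `1 < s` -/
theorem summable_fs {s : ℝ} (hs : 1 < s) : Summable fun x : 𝓞 K => fs K s (iota K x) := by
  obtain ⟨κ, hκ0, hκ⟩ := exists_fs_le K
  have hn := finrank_pos' (K := K)
  have h := (summable_norm_iota_rpow K (r := -((finrank ℚ K : ℝ) * s))
    (by nlinarith)).mul_left ((κ ^ (finrank ℚ K)) ^ (-s))
  exact Summable.of_nonneg_of_le (fun x => fs_nonneg K s _) (fun x => hκ s (by linarith) _) h

/-- the effect of a translation by an integer on `fs s ∘ iota`, uniformly in `s ∈ [1, 2]` -/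
theorem exists_translate_bound : ∃ D : 𝓞 K → ℝ, ∀ (b : 𝓞 K) (s : ℝ), 1 ≤ s → s ≤ 2 →
    ∀ a : 𝓞 K, |fs K s (iota K (a + b)) - fs K s (iota K a)| ≤
      D b * (‖iota K a‖⁻¹) ^ (finrank ℚ K + 1) + if a = 0 then 1 else 0 := by
  obtain ⟨C, ρ, hC, hρ, hLip⟩ := exists_lipschitz_fs K
  refine ⟨fun b => C * ‖iota K b‖ + (‖iota K b‖ / ρ) ^ (finrank ℚ K + 1),
    fun b s hs1 hs2 a => ?_⟩
  have hs0 : 0 < s := by linarith
  have h01 : ∀ u v : 𝓞 K, |fs K s (iota K u) - fs K s (iota K v)| ≤ 1 := by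
    intro u v
    rw [abs_le]
    constructor
    · have := fs_iota_le_one K hs0 v
      have := fs_nonneg K s (iota K u)
      linarith
    · have := fs_iota_le_one K hs0 u
      have := fs_nonneg K s (iota K v)
      linarith
  by_cases ha : a = 0
  · have h1 := h01 b 0
    rw [if_pos ha, ha, iota_zero, norm_zero, inv_zero, zero_pow (Nat.succ_ne_zero _), mul_zero,
      zero_add b, zero_add (1 : ℝ)]
    rwa [iota_zero] at h1
  · rw [if_neg ha, add_zero]
    have ha1 : 1 ≤ ‖iota K a‖ := one_le_norm_iota' K ha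
    have ha0 : 0 < ‖iota K a‖ := by linarith
    have hpow : 0 < ‖iota K a‖ ^ (finrank ℚ K + 1) := pow_pos ha0 _
    have hb0 : 0 ≤ ‖iota K b‖ := norm_nonneg _
    by_cases hb : ‖iota K b‖ ≤ ρ * ‖iota K a‖
    · have h1 := hLip s hs1 hs2 (iota K a) (iota K (a + b)) ha1
        (by rw [iota_add, sub_add_cancel_left, norm_neg]; exact hb)
      rw [iota_add, sub_add_cancel_left, norm_neg, ← iota_add] at h1
      rw [abs_sub_comm]
      refine h1.trans ?_
      rw [add_mul, inv_pow, div_eq_mul_inv]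
      have : 0 ≤ (‖iota K b‖ / ρ) ^ (finrank ℚ K + 1) * (‖iota K a‖ ^ (finrank ℚ K + 1))⁻¹ := by
        positivity
      linarith
    · push Not at hb
      refine (h01 _ _).trans ?_
      have h2 : 1 ≤ ‖iota K b‖ / ρ * ‖iota K a‖⁻¹ := by
        rw [div_mul_eq_mul_div, ← div_eq_mul_inv, div_div, le_div_iff₀ (by positivity)]
        linarith
      have h3 : 1 ≤ (‖iota K b‖ / ρ * ‖iota K a‖⁻¹) ^ (finrank ℚ K + 1) := one_le_pow₀ h2
      rw [mul_pow] at h3
      rw [add_mul]
      have : 0 ≤ C * ‖iota K b‖ * ‖iota K a‖⁻¹ ^ (finrank ℚ K + 1) := by positivity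
      linarith

/-- the decomposition of `𝓞 K` into cosets of an ideal -/
noncomputable def cosetEquiv (J : Ideal (𝓞 K)) : 𝓞 K ≃ (𝓞 K ⧸ J) × J where
  toFun x := (Ideal.Quotient.mk J x, ⟨x - (Ideal.Quotient.mk J x).out, by
    rw [← Ideal.Quotient.eq, Ideal.Quotient.mk_out]⟩)
  invFun p := (p.2 : 𝓞 K) + p.1.out
  left_inv x := by simp
  right_inv p := by
    have h : Ideal.Quotient.mk J ((p.2 : 𝓞 K) + p.1.out) = p.1 := by
      rw [map_add, Ideal.Quotient.eq_zero_iff_mem.mpr p.2.2, zero_add, Ideal.Quotient.mk_out]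
    refine Prod.ext h (Subtype.ext ?_)
    simp only [h, add_sub_cancel_right]

omit [NumberField K] in
theorem cosetEquiv_symm_apply (J : Ideal (𝓞 K)) (p : (𝓞 K ⧸ J) × J) :
    (cosetEquiv K J).symm p = (p.2 : 𝓞 K) + p.1.out := rfl

/-- **coset comparison**: the weighted sum over `𝓞 K` against `absNorm J` times the weighted sum
over the ideal `J`, uniformly in `s ∈ (1, 2]`. -/
theorem exists_bound_coset (J : Ideal (𝓞 K)) (hJ : J ≠ ⊥) : ∃ B : ℝ, ∀ s : ℝ, 1 < s → s ≤ 2 →
    |∑' x : 𝓞 K, fs K s (iota K x) -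
      (Ideal.absNorm J : ℝ) * ∑' a : J, fs K s (iota K (a : 𝓞 K))| ≤ B := by
  obtain ⟨D, hD⟩ := exists_translate_bound K
  have : Finite (𝓞 K ⧸ J) := Ideal.finiteQuotientOfFreeOfNeBot J hJ
  let _ : Fintype (𝓞 K ⧸ J) := Fintype.ofFinite _
  set h : (𝓞 K ⧸ J) → J → ℝ := fun q a =>
    D q.out * (‖iota K (a : 𝓞 K)‖⁻¹) ^ (finrank ℚ K + 1) + if (a : 𝓞 K) = 0 then 1 else 0 with hh
  have hsum : ∀ q, Summable (h q) := by
    intro q
    refine Summable.add (((summable_norm_iota_inv_pow K).subtype _).mul_left _) ?_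
    refine summable_of_hasFiniteSupport ((Set.finite_singleton (0 : J)).subset fun a ha => ?_)
    rw [Function.mem_support] at ha
    by_contra h0
    apply ha
    rw [if_neg]
    intro h1
    exact h0 (Subtype.ext h1)
  refine ⟨∑ q, ∑' a : J, h q a, fun s hs1 hs2 => ?_⟩
  set g : 𝓞 K → ℝ := fun x => fs K s (iota K x) with hg_def
  have hg : Summable g := summable_fs K hs1
  have hgJ : Summable fun a : J => g (a : 𝓞 K) := hg.subtype _
  have hge : Summable fun p : (𝓞 K ⧸ J) × J => g ((p.2 : 𝓞 K) + p.1.out) :=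
    hg.comp_injective (cosetEquiv K J).symm.injective
  have hgq : ∀ q : 𝓞 K ⧸ J, Summable fun a : J => g ((a : 𝓞 K) + q.out) := fun q =>
    hge.prod_factor q
  have e1 : ∑' x, g x = ∑ q : 𝓞 K ⧸ J, ∑' a : J, g ((a : 𝓞 K) + q.out) := by
    rw [← (cosetEquiv K J).symm.tsum_eq g]
    simp only [cosetEquiv_symm_apply]
    rw [Summable.tsum_prod' hge hgq, tsum_fintype]
  have e2 : (Ideal.absNorm J : ℝ) * ∑' a : J, g (a : 𝓞 K) =
      ∑ q : 𝓞 K ⧸ J, ∑' a : J, g (a : 𝓞 K) := by
    rw [Finset.sum_const, Finset.card_univ, nsmul_eq_mul, Ideal.absNorm_apply,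
      Submodule.cardQuot_apply, Nat.card_eq_fintype_card]
  rw [e1, e2, ← Finset.sum_sub_distrib]
  refine (Finset.abs_sum_le_sum_abs _ _).trans (Finset.sum_le_sum fun q _ => ?_)
  rw [← (hgq q).tsum_sub hgJ, ← Real.norm_eq_abs]
  refine tsum_of_norm_bounded (hsum q).hasSum fun a => ?_
  rw [Real.norm_eq_abs]
  exact hD q.out s hs1.le hs2 (a : 𝓞 K)

end Fermat.Agent.S14.ClassZeta
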