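import Mathlib
import Fermat.Agent.S14.CZLattice

/-!
# S14 (D1), part 5: the orbit identity

For a nonzero ideal `J` of `𝓞 K`, the nonzero elements of `J` are, up to units, the generators of
the principal ideals `J * I` with `I` in the class inverse to that of `J`; by the partition of
unity `tsum_wt_unit_smul`:

`∑' a : J, fs s (iota a) = torsionOrder K * (absNorm J ^ (-s) * classZeta K (mk0 J)⁻¹ s)`.
-/

set_option autoImplicit false

open scoped Classical nonZeroDivisors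
open NumberField NumberField.mixedEmbedding NumberField.Units
  NumberField.Units.dirichletUnitTheorem NumberField.InfinitePlace Module

namespace Fermat.Agent.S14.ClassZeta

variable (K : Type*) [Field K] [NumberField K]

/-- the partial zeta function of an ideal class (real variable) -/
noncomputable def classZeta (C : ClassGroup (𝓞 K)) (s : ℝ) : ℝ :=
  ∑' I : {I : (Ideal (𝓞 K))⁰ // ClassGroup.mk0 I = C},
    (Ideal.absNorm (I : Ideal (𝓞 K)) : ℝ) ^ (-s)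

theorem exists_gen (J : (Ideal (𝓞 K))⁰)
    (I : {I : (Ideal (𝓞 K))⁰ // ClassGroup.mk0 I = (ClassGroup.mk0 J)⁻¹}) :
    ∃ g : 𝓞 K, g ≠ 0 ∧
      Ideal.span ({g} : Set (𝓞 K)) = (J : Ideal (𝓞 K)) * ((I : (Ideal (𝓞 K))⁰) : Ideal (𝓞 K)) := by
  have h1 : ClassGroup.mk0 (J * I.1) = 1 := by rw [map_mul, I.2, mul_inv_cancel]
  have h2 : ((J * I.1 : (Ideal (𝓞 K))⁰) : Ideal (𝓞 K)).IsPrincipal :=
    (ClassGroup.mk0_eq_one_iff (J * I.1).2).mp h1
  obtain ⟨g, hg⟩ := h2.principal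
  have hne : ((J * I.1 : (Ideal (𝓞 K))⁰) : Ideal (𝓞 K)) ≠ 0 := nonZeroDivisors.coe_ne_zero _
  refine ⟨g, ?_, hg.symm⟩
  rintro rfl
  apply hne
  rw [hg]
  simp

/-- a generator of `J * I` -/
noncomputable def gen (J : (Ideal (𝓞 K))⁰)
    (I : {I : (Ideal (𝓞 K))⁰ // ClassGroup.mk0 I = (ClassGroup.mk0 J)⁻¹}) : 𝓞 K :=
  (exists_gen K J I).choose

theorem gen_ne_zero (J : (Ideal (𝓞 K))⁰)
    (I : {I : (Ideal (𝓞 K))⁰ // ClassGroup.mk0 I = (ClassGroup.mk0 J)⁻¹}) : gen K J I ≠ 0 :=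
  (exists_gen K J I).choose_spec.1

theorem span_gen (J : (Ideal (𝓞 K))⁰)
    (I : {I : (Ideal (𝓞 K))⁰ // ClassGroup.mk0 I = (ClassGroup.mk0 J)⁻¹}) :
    Ideal.span ({gen K J I} : Set (𝓞 K)) =
      (J : Ideal (𝓞 K)) * ((I : (Ideal (𝓞 K))⁰) : Ideal (𝓞 K)) :=
  (exists_gen K J I).choose_spec.2

theorem gen_mem (J : (Ideal (𝓞 K))⁰)
    (I : {I : (Ideal (𝓞 K))⁰ // ClassGroup.mk0 I = (ClassGroup.mk0 J)⁻¹}) :
    gen K J I ∈ (J : Ideal (𝓞 K)) := by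
  have h := Ideal.mem_span_singleton_self (gen K J I)
  rw [span_gen] at h
  exact Ideal.mul_le_left h

/-- the parametrisation of the nonzero elements of `J` by ideals in the inverse class and units -/
noncomputable def orbitMap (J : (Ideal (𝓞 K))⁰)
    (p : {I : (Ideal (𝓞 K))⁰ // ClassGroup.mk0 I = (ClassGroup.mk0 J)⁻¹} × (𝓞 K)ˣ) :
    (J : Ideal (𝓞 K)) :=
  ⟨(p.2 : 𝓞 K) * gen K J p.1, Ideal.mul_mem_left _ _ (gen_mem K J p.1)⟩

theorem orbitMap_coe (J : (Ideal (𝓞 K))⁰)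
    (p : {I : (Ideal (𝓞 K))⁰ // ClassGroup.mk0 I = (ClassGroup.mk0 J)⁻¹} × (𝓞 K)ˣ) :
    (orbitMap K J p : 𝓞 K) = (p.2 : 𝓞 K) * gen K J p.1 := rfl

theorem orbitMap_injective (J : (Ideal (𝓞 K))⁰) : Function.Injective (orbitMap K J) := by
  rintro ⟨I, u⟩ ⟨I', u'⟩ h
  have h0 : (u : 𝓞 K) * gen K J I = (u' : 𝓞 K) * gen K J I' := congrArg Subtype.val h
  have h1 : Ideal.span ({gen K J I} : Set (𝓞 K)) = Ideal.span {gen K J I'} := by
    rw [Ideal.span_singleton_eq_span_singleton]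
    refine ⟨u'⁻¹ * u, ?_⟩
    rw [Units.val_mul, mul_comm, mul_assoc, h0, ← mul_assoc, Units.inv_mul, one_mul]
  rw [span_gen, span_gen] at h1
  have h2 : ((I : (Ideal (𝓞 K))⁰) : Ideal (𝓞 K)) = ((I' : (Ideal (𝓞 K))⁰) : Ideal (𝓞 K)) :=
    mul_left_cancel₀ (nonZeroDivisors.coe_ne_zero J) h1
  have h3 : I = I' := Subtype.ext (Subtype.ext h2)
  subst h3
  have h4 : (u : 𝓞 K) = u' := mul_right_cancel₀ (gen_ne_zero K J I) h0
  rw [Units.ext h4]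

theorem mem_range_orbitMap (J : (Ideal (𝓞 K))⁰) (a : (J : Ideal (𝓞 K))) (ha : (a : 𝓞 K) ≠ 0) :
    a ∈ Set.range (orbitMap K J) := by
  have h1 : (J : Ideal (𝓞 K)) ∣ Ideal.span ({(a : 𝓞 K)} : Set (𝓞 K)) := by
    rw [Ideal.dvd_iff_le, Ideal.span_singleton_le_iff_mem]
    exact a.2
  obtain ⟨I₀, hI₀⟩ := h1
  have hI₀0 : I₀ ≠ 0 := by
    rintro rfl
    rw [mul_zero, Ideal.zero_eq_bot, Ideal.span_singleton_eq_bot] at hI₀
    exact ha hI₀
  have hI₀m : I₀ ∈ (Ideal (𝓞 K))⁰ := mem_nonZeroDivisors_iff_ne_zero.mpr hI₀0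
  have hspan : Ideal.span ({(a : 𝓞 K)} : Set (𝓞 K)) ∈ (Ideal (𝓞 K))⁰ := by
    rw [mem_nonZeroDivisors_iff_ne_zero, Ne, Ideal.zero_eq_bot, Ideal.span_singleton_eq_bot]
    exact ha
  have hcl : ClassGroup.mk0 ⟨I₀, hI₀m⟩ = (ClassGroup.mk0 J)⁻¹ := by
    have h2 : ClassGroup.mk0 (J * ⟨I₀, hI₀m⟩) = 1 := by
      have e : (J * ⟨I₀, hI₀m⟩ : (Ideal (𝓞 K))⁰) = ⟨Ideal.span {(a : 𝓞 K)}, hspan⟩ :=
        Subtype.ext hI₀.symm
      rw [e, ClassGroup.mk0_eq_one_iff]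
      exact ⟨⟨a, rfl⟩⟩
    rw [map_mul] at h2
    exact eq_inv_of_mul_eq_one_right h2
  have h3 : Ideal.span ({gen K J ⟨⟨I₀, hI₀m⟩, hcl⟩} : Set (𝓞 K)) = Ideal.span {(a : 𝓞 K)} := by
    rw [span_gen, hI₀]
  rw [Ideal.span_singleton_eq_span_singleton] at h3
  obtain ⟨u, hu⟩ := h3
  refine ⟨(⟨⟨I₀, hI₀m⟩, hcl⟩, u), Subtype.ext ?_⟩
  rw [orbitMap_coe, mul_comm]
  exact hu

theorem fs_orbitMap (J : (Ideal (𝓞 K))⁰) (s : ℝ)
    (p : {I : (Ideal (𝓞 K))⁰ // ClassGroup.mk0 I = (ClassGroup.mk0 J)⁻¹} × (𝓞 K)ˣ) :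
    fs K s (iota K (orbitMap K J p : 𝓞 K)) =
      wt K (p.2 • iota K (gen K J p.1)) *
        ((Ideal.absNorm (J : Ideal (𝓞 K)) : ℝ) *
          (Ideal.absNorm ((p.1 : (Ideal (𝓞 K))⁰) : Ideal (𝓞 K)) : ℝ)) ^ (-s) := by
  have h1 : iota K (orbitMap K J p : 𝓞 K) = p.2 • iota K (gen K J p.1) := by
    rw [unitSMul_smul, orbitMap_coe, iota_mul]
    rfl
  rw [h1, fs, norm_unit_smul, norm_iota, span_gen, map_mul, Nat.cast_mul]

/-- **the orbit identity** -/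
theorem tsum_fs_ideal (J : (Ideal (𝓞 K))⁰) {s : ℝ} (hs : 1 < s) :
    ∑' a : (J : Ideal (𝓞 K)), fs K s (iota K (a : 𝓞 K)) =
      (torsionOrder K : ℝ) * ((Ideal.absNorm (J : Ideal (𝓞 K)) : ℝ) ^ (-s) *
        classZeta K (ClassGroup.mk0 J)⁻¹ s) := by
  have hsum : Summable fun a : (J : Ideal (𝓞 K)) => fs K s (iota K (a : 𝓞 K)) :=
    (summable_fs K hs).subtype _
  have hsupp : Function.support (fun a : (J : Ideal (𝓞 K)) => fs K s (iota K (a : 𝓞 K))) ⊆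
      Set.range (orbitMap K J) := by
    intro a ha
    apply mem_range_orbitMap
    intro h0
    apply ha
    show fs K s (iota K (a : 𝓞 K)) = 0
    rw [h0]
    exact fs_iota_zero K (by linarith)
  rw [← (orbitMap_injective K J).tsum_eq hsupp]
  have hsum2 : Summable fun p => fs K s (iota K (orbitMap K J p : 𝓞 K)) :=
    hsum.comp_injective (orbitMap_injective K J)
  rw [Summable.tsum_prod' hsum2 (fun I => hsum2.prod_factor I)]
  rw [classZeta, ← tsum_mul_left, ← tsum_mul_left]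
  refine tsum_congr fun I => ?_
  simp only [fs_orbitMap]
  have hne : mixedEmbedding.norm (iota K (gen K J I)) ≠ 0 := by
    have := one_le_norm_iota K (gen_ne_zero K J I)
    linarith
  rw [tsum_mul_right, tsum_wt_unit_smul K hne, Real.mul_rpow (Nat.cast_nonneg _) (Nat.cast_nonneg _)]

end Fermat.Agent.S14.ClassZeta
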