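import Mathlib
import Fermat.Agent.S14.CZOrbit
import Fermat.Agent.S14.ZetaIdeal

/-!
# S14 (D1): partial zeta functions of ideal classes differ by a bounded function on `(1, 2]`

For a number field `K` and an ideal class `C`, `classZeta K C s` is the sum of `N(I) ^ (-s)` over
the nonzero integral ideals `I` in `C`.

* `summable_classZeta`;
* `exists_bound_classZeta_sub`: `classZeta K C s - classZeta K 1 s` is bounded on `(1, 2]`;
* `exists_bound_LSeries`: for a nontrivial character `χ` of the class group, the sum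
  `∑' I, χ [I] * N(I) ^ (-s)` is bounded on `(1, 2]`.

Method: weighted lattice sums `∑ fs s (iota a)` over an ideal (`CZOrbit`: they compute
`classZeta`), compared over the cosets of the ideal (`CZLattice`), the Lipschitz estimate for the
weight (`CZLip`), and the residue of the Dedekind zeta function (`ZetaIdeal`).
-/

set_option autoImplicit false

open scoped Classical nonZeroDivisors
open NumberField NumberField.mixedEmbedding NumberField.Units Module

namespace Fermat.Agent.S14.ClassZeta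

variable (K : Type*) [Field K] [NumberField K]

theorem coe_injective (C : ClassGroup (𝓞 K)) :
    Function.Injective fun I : {I : (Ideal (𝓞 K))⁰ // ClassGroup.mk0 I = C} =>
      ((I : (Ideal (𝓞 K))⁰) : Ideal (𝓞 K)) :=
  fun _ _ hab => Subtype.ext (Subtype.ext hab)

theorem summable_classZeta (C : ClassGroup (𝓞 K)) {s : ℝ} (hs : 1 < s) :
    Summable fun I : {I : (Ideal (𝓞 K))⁰ // ClassGroup.mk0 I = C} =>
      (Ideal.absNorm (I : Ideal (𝓞 K)) : ℝ) ^ (-s) :=
  (ZetaIdeal.summable_nrm K hs).comp_injective (coe_injective K C)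

theorem classZeta_nonneg (C : ClassGroup (𝓞 K)) (s : ℝ) : 0 ≤ classZeta K C s :=
  tsum_nonneg fun _ => Real.rpow_nonneg (Nat.cast_nonneg _) _

theorem classZeta_le_zetaR (C : ClassGroup (𝓞 K)) {s : ℝ} (hs : 1 < s) :
    classZeta K C s ≤ ZetaIdeal.zetaR K s :=
  tsum_comp_le_tsum_of_inj (ZetaIdeal.summable_nrm K hs) (fun _ => ZetaIdeal.nrm_nonneg _ _)
    (coe_injective K C)

theorem nrm_anti {s t : ℝ} (hs : 0 < s) (hst : s ≤ t) (I : Ideal (𝓞 K)) :
    ZetaIdeal.nrm K t I ≤ ZetaIdeal.nrm K s I := by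
  unfold ZetaIdeal.nrm
  rcases Nat.eq_zero_or_pos (Ideal.absNorm I) with h | h
  · rw [h, Nat.cast_zero, Real.zero_rpow (by linarith), Real.zero_rpow (by linarith)]
  · exact Real.rpow_le_rpow_of_exponent_le (by exact_mod_cast h) (by linarith)

/-- `(s - 1) * ζ_K(s)` is bounded on `(1, 2]` -/
theorem exists_bound_zetaR :
    ∃ B : ℝ, 0 ≤ B ∧ ∀ s : ℝ, 1 < s → s ≤ 2 → (s - 1) * ZetaIdeal.zetaR K s ≤ B := by
  obtain ⟨δ, hδ, c, -, C, hC, h⟩ := ZetaIdeal.exists_bounds K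
  refine ⟨max C (ZetaIdeal.zetaR K (1 + δ / 2)), le_max_of_le_left hC.le, fun s hs1 hs2 => ?_⟩
  by_cases hs : s < 1 + δ
  · exact (h s hs1 hs).2.trans (le_max_left _ _)
  · push Not at hs
    have hmono : ZetaIdeal.zetaR K s ≤ ZetaIdeal.zetaR K (1 + δ / 2) :=
      Summable.tsum_le_tsum (fun I => nrm_anti K (by linarith) (by linarith) I)
        (ZetaIdeal.summable_nrm K hs1) (ZetaIdeal.summable_nrm K (by linarith))
    have h0 : 0 ≤ ZetaIdeal.zetaR K s := tsum_nonneg fun I => ZetaIdeal.nrm_nonneg _ _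
    calc (s - 1) * ZetaIdeal.zetaR K s ≤ 1 * ZetaIdeal.zetaR K s :=
          mul_le_mul_of_nonneg_right (by linarith) h0
      _ = ZetaIdeal.zetaR K s := one_mul _
      _ ≤ ZetaIdeal.zetaR K (1 + δ / 2) := hmono
      _ ≤ _ := le_max_right _ _

/-- the weighted sum over all integers computes the zeta function of the principal class -/
theorem tsum_fs_integers {s : ℝ} (hs : 1 < s) :
    ∑' x : 𝓞 K, fs K s (iota K x) = (torsionOrder K : ℝ) * classZeta K 1 s := by
  have h := tsum_fs_ideal K (1 : (Ideal (𝓞 K))⁰) hs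
  rw [map_one, inv_one, Submonoid.coe_one, map_one, Nat.cast_one, Real.one_rpow, one_mul] at h
  rw [← h]
  refine (Function.Injective.tsum_eq (f := fun x : 𝓞 K => fs K s (iota K x))
    Subtype.val_injective ?_).symm
  intro x _
  exact ⟨⟨x, by rw [Ideal.one_eq_top]; exact Submodule.mem_top⟩, rfl⟩

/-- comparison of the zeta function of a class with that of the principal class -/
theorem exists_bound_class_one (C : ClassGroup (𝓞 K)) : ∃ B N : ℝ, 0 ≤ B ∧ 1 ≤ N ∧
    ∀ s : ℝ, 1 < s → s ≤ 2 → |classZeta K 1 s - N ^ (1 - s) * classZeta K C s| ≤ B := by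
  obtain ⟨J, hJ⟩ := ClassGroup.mk0_surjective (C⁻¹ : ClassGroup (𝓞 K))
  have hJC : (ClassGroup.mk0 J)⁻¹ = C := by rw [hJ, inv_inv]
  obtain ⟨B, hB⟩ := exists_bound_coset K (J : Ideal (𝓞 K)) (nonZeroDivisors.coe_ne_zero J)
  have hN : (1 : ℝ) ≤ (Ideal.absNorm (J : Ideal (𝓞 K)) : ℝ) := by
    exact_mod_cast Ideal.absNorm_pos_of_nonZeroDivisors J
  have hN0 : (0 : ℝ) < (Ideal.absNorm (J : Ideal (𝓞 K)) : ℝ) := by linarith
  have hw : (1 : ℝ) ≤ (torsionOrder K : ℝ) := by exact_mod_cast torsionOrder_pos K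
  have key : ∀ s : ℝ, 1 < s → s ≤ 2 → |classZeta K 1 s -
      (Ideal.absNorm (J : Ideal (𝓞 K)) : ℝ) ^ (1 - s) * classZeta K C s| ≤ B := by
    intro s hs1 hs2
    have h1 := hB s hs1 hs2
    rw [tsum_fs_integers K hs1, tsum_fs_ideal K J hs1, hJC] at h1
    have e : (torsionOrder K : ℝ) * classZeta K 1 s - (Ideal.absNorm (J : Ideal (𝓞 K)) : ℝ) *
        ((torsionOrder K : ℝ) * ((Ideal.absNorm (J : Ideal (𝓞 K)) : ℝ) ^ (-s) * classZeta K C s)) =
        (torsionOrder K : ℝ) * (classZeta K 1 s -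
          (Ideal.absNorm (J : Ideal (𝓞 K)) : ℝ) ^ (1 - s) * classZeta K C s) := by
      rw [sub_eq_add_neg 1 s, Real.rpow_add hN0, Real.rpow_one]
      ring
    rw [e, abs_mul, abs_of_nonneg (by linarith : (0 : ℝ) ≤ (torsionOrder K : ℝ))] at h1
    exact (le_mul_of_one_le_left (abs_nonneg _) hw).trans h1
  exact ⟨B, _, (abs_nonneg _).trans (key 2 (by norm_num) le_rfl), hN, key⟩

/-- **D1**: the partial zeta functions of two ideal classes differ by a bounded function on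
`(1, 2]`. -/
theorem exists_bound_classZeta_sub (C : ClassGroup (𝓞 K)) :
    ∃ B : ℝ, ∀ s : ℝ, 1 < s → s ≤ 2 → |classZeta K C s - classZeta K 1 s| ≤ B := by
  obtain ⟨B₁, N, -, hN, h1⟩ := exists_bound_class_one K C
  obtain ⟨B₂, -, h2⟩ := exists_bound_zetaR K
  refine ⟨Real.log N * B₂ + B₁, fun s hs1 hs2 => ?_⟩
  have hz0 := classZeta_nonneg K C s
  have hz := classZeta_le_zetaR K C hs1
  have hN0 : 0 < N := by linarith
  have h3 : 1 - N ^ (1 - s) ≤ (s - 1) * Real.log N := by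
    have := Real.add_one_le_exp (Real.log N * (1 - s))
    rw [Real.rpow_def_of_pos hN0]
    linarith
  have h4 : 0 ≤ 1 - N ^ (1 - s) := by
    have := Real.rpow_le_one_of_one_le_of_nonpos hN (by linarith : 1 - s ≤ 0)
    linarith
  have hlog : 0 ≤ Real.log N := Real.log_nonneg hN
  have e : classZeta K C s - classZeta K 1 s = (1 - N ^ (1 - s)) * classZeta K C s -
      (classZeta K 1 s - N ^ (1 - s) * classZeta K C s) := by ring
  rw [e]
  refine (abs_sub _ _).trans ?_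
  have h5 : |(1 - N ^ (1 - s)) * classZeta K C s| ≤ Real.log N * B₂ := by
    rw [abs_of_nonneg (mul_nonneg h4 hz0)]
    calc (1 - N ^ (1 - s)) * classZeta K C s ≤ ((s - 1) * Real.log N) * ZetaIdeal.zetaR K s :=
          mul_le_mul h3 hz hz0 (mul_nonneg (by linarith) hlog)
      _ = Real.log N * ((s - 1) * ZetaIdeal.zetaR K s) := by ring
      _ ≤ Real.log N * B₂ := mul_le_mul_of_nonneg_left (h2 s hs1 hs2) hlog
  linarith [h1 s hs1 hs2]

theorem norm_char (χ : ClassGroup (𝓞 K) →* ℂˣ) (c : ClassGroup (𝓞 K)) : ‖(χ c : ℂ)‖ = 1 := by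
  refine Complex.norm_eq_one_of_pow_eq_one (n := Fintype.card (ClassGroup (𝓞 K))) ?_
    Fintype.card_ne_zero
  rw [← Units.val_pow_eq_pow_val, ← map_pow, pow_card_eq_one, map_one, Units.val_one]

theorem sum_char {χ : ClassGroup (𝓞 K) →* ℂˣ} (hχ : χ ≠ 1) :
    ∑ c : ClassGroup (𝓞 K), (χ c : ℂ) = 0 := by
  refine sum_hom_units_eq_zero ((Units.coeHom ℂ).comp χ) fun h => hχ ?_
  ext c
  have := DFunLike.congr_fun h c
  simpa using this

/-- the character sum over the nonzero ideals, decomposed into classes -/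
theorem tsum_char_eq (χ : ClassGroup (𝓞 K) →* ℂˣ) {s : ℝ} (hs : 1 < s) :
    ∑' I : (Ideal (𝓞 K))⁰, (χ (ClassGroup.mk0 I) : ℂ) *
      (((Ideal.absNorm (I : Ideal (𝓞 K)) : ℝ) ^ (-s) : ℝ) : ℂ) =
      ∑ c : ClassGroup (𝓞 K), (χ c : ℂ) * ((classZeta K c s : ℝ) : ℂ) := by
  set F : (Ideal (𝓞 K))⁰ → ℂ := fun I => (χ (ClassGroup.mk0 I) : ℂ) *
    (((Ideal.absNorm (I : Ideal (𝓞 K)) : ℝ) ^ (-s) : ℝ) : ℂ) with hF
  have hinj : Function.Injective fun I : (Ideal (𝓞 K))⁰ => (I : Ideal (𝓞 K)) :=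
    Subtype.val_injective
  have hsum : Summable F := by
    refine Summable.of_norm_bounded ((ZetaIdeal.summable_nrm K hs).comp_injective hinj) fun I => ?_
    rw [hF]
    simp only [norm_mul, norm_char, one_mul, Complex.norm_real, Function.comp_apply,
      ZetaIdeal.nrm]
    rw [Real.norm_of_nonneg (Real.rpow_nonneg (Nat.cast_nonneg _) _)]
  set e := Equiv.sigmaFiberEquiv (fun I : (Ideal (𝓞 K))⁰ => ClassGroup.mk0 I) with he
  have hsum' : Summable fun x : (Σ c : ClassGroup (𝓞 K),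
      {I : (Ideal (𝓞 K))⁰ // ClassGroup.mk0 I = c}) => F (e x) := (e.summable_iff).mpr hsum
  have e1 : ∑' I, F I = ∑' x : (Σ c : ClassGroup (𝓞 K),
      {I : (Ideal (𝓞 K))⁰ // ClassGroup.mk0 I = c}), F (e x) := (e.tsum_eq F).symm
  have e2 : ∑' x : (Σ c : ClassGroup (𝓞 K),
      {I : (Ideal (𝓞 K))⁰ // ClassGroup.mk0 I = c}), F (e x) = 
      ∑' c : ClassGroup (𝓞 K), ∑' I : {I : (Ideal (𝓞 K))⁰ // ClassGroup.mk0 I = c}, F (e ⟨c, I⟩) :=
    Summable.tsum_sigma' (fun c => hsum'.sigma_factor c) hsum'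
  rw [e1, e2, tsum_fintype]
  refine Finset.sum_congr rfl fun c _ => ?_
  have h1 : ∀ I : {I : (Ideal (𝓞 K))⁰ // ClassGroup.mk0 I = c}, F (e ⟨c, I⟩) =
      (χ c : ℂ) * (((Ideal.absNorm (I : Ideal (𝓞 K)) : ℝ) ^ (-s) : ℝ) : ℂ) := by
    intro I
    have h2 : e ⟨c, I⟩ = I.1 := rfl
    have h3 : ClassGroup.mk0 I.1 = c := I.2
    rw [h2, hF]
    show (χ (ClassGroup.mk0 I.1) : ℂ) * _ = _
    rw [h3]
  rw [tsum_congr h1, tsum_mul_left]
  congr 1
  rw [classZeta, Complex.ofReal_tsum]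

/-- **D1, character form**: for a nontrivial character of the class group the sum
`∑' I, χ [I] * N(I) ^ (-s)` over the nonzero ideals is bounded on `(1, 2]`. -/
theorem exists_bound_LSeries (χ : ClassGroup (𝓞 K) →* ℂˣ) (hχ : χ ≠ 1) :
    ∃ B : ℝ, ∀ s : ℝ, 1 < s → s ≤ 2 →
      ‖∑' I : (Ideal (𝓞 K))⁰, (χ (ClassGroup.mk0 I) : ℂ) *
        (((Ideal.absNorm (I : Ideal (𝓞 K)) : ℝ) ^ (-s) : ℝ) : ℂ)‖ ≤ B := by
  choose B hB using exists_bound_classZeta_sub K
  refine ⟨∑ c : ClassGroup (𝓞 K), B c, fun s hs1 hs2 => ?_⟩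
  rw [tsum_char_eq K χ hs1]
  have e : ∑ c : ClassGroup (𝓞 K), (χ c : ℂ) * ((classZeta K c s : ℝ) : ℂ) =
      ∑ c : ClassGroup (𝓞 K), (χ c : ℂ) * (((classZeta K c s - classZeta K 1 s : ℝ)) : ℂ) := by
    simp only [Complex.ofReal_sub, mul_sub]
    rw [Finset.sum_sub_distrib, ← Finset.sum_mul, sum_char K hχ, zero_mul, sub_zero]
  rw [e]
  refine (norm_sum_le _ _).trans (Finset.sum_le_sum fun c _ => ?_)
  rw [norm_mul, norm_char, one_mul, Complex.norm_real, Real.norm_eq_abs]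
  exact hB c s hs1 hs2

end Fermat.Agent.S14.ClassZeta
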