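import Fermat.Agent.S14.UniCmp
import Fermat.Agent.S14.UniSplit
import Fermat.Agent.S14.ClassZeta

set_option autoImplicit false

/-!
# The second inequality (class-group form), unconditional
-/

namespace Fermat.Agent.S14.UniFinal

open NumberField Ideal IsDedekindDomain nonZeroDivisors
open Fermat.Agent.S14

/-- The `D1` input: boundedness of the class-group `L`-series. -/
theorem d1Hyp (F : Type*) [Field F] [NumberField F] : Uni.D1Hyp F :=
  fun χ hχ => ClassZeta.exists_bound_LSeries F χ hχ

/-- **The second inequality** for an arbitrary extension `L/F` of number fields: a subgroup `H`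
of the class group of `F` containing the classes of all primes `q` outside a finite set `S`
that have a prime of `L` of the same absolute norm above them has index at most `[L : F]`. -/
theorem index_le_finrank (F L : Type*) [Field F] [NumberField F] [Field L] [NumberField L]
    [Algebra F L] (H : Subgroup (ClassGroup (𝓞 F))) (S : Finset (Ideal (𝓞 F)))
    (hH : ∀ (q : (Ideal (𝓞 F))⁰) (Q : Ideal (𝓞 L)), Q.IsPrime →
      Q.under (𝓞 F) = (q : Ideal (𝓞 F)) → (q : Ideal (𝓞 F)) ∉ S →
      Ideal.absNorm Q = Ideal.absNorm (q : Ideal (𝓞 F)) → ClassGroup.mk0 q ∈ H) :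
    H.index ≤ Module.finrank F L :=
  UniCmp.index_le_finrank_of_D1 F L H S hH (d1Hyp F)

/-- The same with the hypothesis in the `LiesOver` shape. -/
theorem index_le_finrank' (F L : Type*) [Field F] [NumberField F] [Field L] [NumberField L]
    [Algebra F L] (H : Subgroup (ClassGroup (𝓞 F))) (T : Finset (Ideal (𝓞 F)))
    (hH : ∀ (q : (Ideal (𝓞 F))⁰), (q : Ideal (𝓞 F)).IsPrime → (q : Ideal (𝓞 F)) ∉ T →
      (∃ Q : Ideal (𝓞 L), Q.IsPrime ∧ Q.LiesOver (q : Ideal (𝓞 F)) ∧
        Ideal.absNorm Q = Ideal.absNorm (q : Ideal (𝓞 F))) → ClassGroup.mk0 q ∈ H) :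
    H.index ≤ Module.finrank F L :=
  UniCmp.index_le_finrank_of_D1' F L H T hH (d1Hyp F)

/-- **Not all primes split completely** (re-export of `UniSplit.exists_prime_ncard_lt`). -/
theorem exists_prime_ncard_lt (F L : Type*) [Field F] [NumberField F] [Field L] [NumberField L]
    [Algebra F L] (hd : 2 ≤ Module.finrank F L) (S : Finset (Ideal (𝓞 F))) :
    ∃ q : Ideal (𝓞 F), q.IsPrime ∧ q ≠ ⊥ ∧ q ∉ S ∧
      {Q : Ideal (𝓞 L) | Q.IsPrime ∧ Q.under (𝓞 F) = q ∧
        Ideal.absNorm Q = Ideal.absNorm q}.ncard < Module.finrank F L :=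
  UniSplit.exists_prime_ncard_lt F L hd S

end Fermat.Agent.S14.UniFinal
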