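import Mathlib
import Fermat.Agent.S14.RecWire
import Fermat.Agent.S14.CrossPair
import Fermat.Agent.S14.UniFinal

/-!
# S14, stream E, FINAL: the reciprocity law for `L / ℚ(ζ_p)`

`K = ℚ(ζ_p)`, `L/K` cyclic of degree `p` (odd), unramified at all finite primes, with the
conjugation law `ConjInv`.  Then the Artin symbol of every nonzero principal ideal of `𝓞 K` is
trivial (`Rec.artinFun_span_singleton`).

The proof assembles: the first inequality (`FirstIneq`), the abstract crossing argument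
(`RecCl`, `Rec`, `RecFI`), the auxiliary primes and crossing subgroups (`CrossCore`, `CrossH`),
the field `Ω = L(ζ_M)` (`CrossDisj`, `CycloFrob`), the crossing datum of a pair of primes
(`CrossField`, `CycloArtin`, `KerCyclo`, `CrossInert`, `CrossPair`) and the second inequality
(`UniFinal`).
-/

set_option autoImplicit false

open NumberField nonZeroDivisors

namespace Fermat.Agent.S14.Rec

open Fermat.Agent.S14.ArtinMap

/-- The crossing statement `RecWire.PairHyp` holds (from `CrossPair.crossDatum` and the second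
inequality `UniFinal.index_le_finrank`). -/
theorem pairHyp {p : ℕ} (hp : p.Prime) (hp2 : p ≠ 2) (K L : Type) [Field K] [Field L]
    [NumberField K] [NumberField L] [Algebra K L] [IsGalois K L]
    (hdeg : Module.finrank K L = p) (hur : IsUnram L (L ≃ₐ[K] L))
    (hab : ∀ a b : L ≃ₐ[K] L, a * b = b * a) : RecWire.PairHyp K L hab := by
  intro Ω _ _ _ _ _ _ m hm ζ hζ H₁ H₂ hf₁ hf₂ hs P₁ P₂ hP₁p hP₂p hP₁ hP₂ hm₁ hm₂ φ₁ φ₂ hφ₁ hφ₂
    hfr₁ hfr₂ q₁ q₂ hq₁ hq₂ hne₁ hne₂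
  have hs₁ : ∀ c : L ≃ₐ[K] L, ∃ h ∈ H₁, AlgEquiv.restrictNormalHom L h = c := fun c => by
    obtain ⟨h, hh, hc⟩ := hs c
    exact ⟨h, hh.1, hc⟩
  have hs₂ : ∀ c : L ≃ₐ[K] L, ∃ h ∈ H₂, AlgEquiv.restrictNormalHom L h = c := fun c => by
    obtain ⟨h, hh, hc⟩ := hs c
    exact ⟨h, hh.2, hc⟩
  have huni : ∀ H : Subgroup (Ω ≃ₐ[K] Ω),
      (∀ c : L ≃ₐ[K] L, ∃ h ∈ H, AlgEquiv.restrictNormalHom L h = c) →
      CrossPair.UniHyp K L Ω H p := fun H hsH Hc S hH =>
    (UniFinal.index_le_finrank (CrossField.FH K Ω H) (CrossField.MH K L Ω H) Hc S hH).trans_eq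
      ((CrossField.finrank_MH K L Ω H hsH).trans hdeg)
  exact CrossPair.crossDatum K L Ω hp hp2 hdeg hab hur m hm ζ hζ H₁ H₂ hf₁ hf₂ hs
    (huni H₁ hs₁) (huni H₂ hs₂) P₁ P₂ hP₁ hP₂ hm₁ hm₂ φ₁ φ₂ hφ₁ hφ₂ hfr₁ hfr₂
    (normSubgroup K L) (mk0_relNorm_mem_normSubgroup K L) q₁ q₂ hq₁ hq₂ hne₁ hne₂

/-- **The reciprocity law** for `K = ℚ(ζ_p)` and a cyclic unramified extension `L/K` of odd
prime degree `p` satisfying the conjugation law: the Artin symbol of a nonzero principal ideal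
of `𝓞 K` is trivial. -/
theorem artinFun_span_singleton (p : ℕ) [Fact p.Prime] (hp2 : p ≠ 2) (K L : Type) [Field K]
    [Field L] [NumberField K] [NumberField L] [Algebra K L] [IsCyclotomicExtension {p} ℚ K]
    [IsGalois ℚ L] [IsGalois K L] (hdeg : Module.finrank K L = p) (hunr : Unram K L)
    (hconj : ConjInv p K L) (hab : ∀ a b : L ≃ₐ[K] L, a * b = b * a) (x : 𝓞 K) (hx : x ≠ 0) :
    ArtinMap.artinFun K L (L ≃ₐ[K] L) hab (Ideal.span {x}) = 1 :=
  RecWire.artinFun_span_singleton_of_pair hp2 hdeg hunr hconj hab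
    (pairHyp (Fact.out : p.Prime) hp2 K L hdeg hunr hab) x hx

end Fermat.Agent.S14.Rec
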