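import Fermat.Agent.S14.Defs
import Fermat.Agent.S14.EndWire
import Fermat.Agent.S14.FIMain
import Fermat.Agent.S14.RecFinal

/-!
# S14: the number-field statement `NoField p`

There is no Galois extension `L/ℚ` containing `K = ℚ(ζ_p)` (`p` an odd prime) with `[L : K] = p`,
`L/K` unramified at all finite primes and `Gal(K/ℚ)` acting on `Gal(L/K)` through the inverse of
the cyclotomic character.

Proof: by the reciprocity law (`Rec.artinFun_span_singleton`, stream E) principal ideals of `𝓞 K`
have trivial Artin symbol; by the first inequality (`FIMain.exists_frob_ne_one`, stream C) some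
prime of `K` has non-trivial Frobenius; the Jacobi-sum (Stickelberger) argument
(`EndWire.false_of_rec`, streams F and G) shows that these two facts are incompatible with the
conjugation law.
-/

set_option autoImplicit false

open NumberField

namespace Fermat.Agent.S14.NoFieldMain

open Fermat.Agent.S14

/-- **The number-field statement** for an odd prime `p`. -/
theorem noField (p : ℕ) [Fact p.Prime] (hp2 : p ≠ 2) : NoField p := by
  intro K L _ _ _ _ _ _ _ _ hdeg hunr hconj
  have hab : ∀ a b : L ≃ₐ[K] L, a * b = b * a := EndWire.mul_comm_of_finrank_eq p K L hdeg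
  exact EndWire.false_of_rec p K L hp2 hdeg hunr hconj hab
    (fun x hx => Rec.artinFun_span_singleton p hp2 K L hdeg hunr hconj hab x hx)
    (FIMain.exists_frob_ne_one p Fact.out hp2 hdeg hab hunr)

end Fermat.Agent.S14.NoFieldMain
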