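import Mathlib
import Fermat.Agent.S14.AdmField
import Fermat.Agent.S14.CycloField
import Fermat.Agent.S14.InertiaIdeal
import Fermat.Agent.S14.Defs

/-!
# S14, stream A4: the tower `ℚ ⊆ Kp p ⊆ Lf V` of an admissible extension

For an admissible extension `V` (continuous version), `K := Kp p = ℚ(ζ_p)` and `L := Lf V` (the
field cut out by `V`), with `Algebra K L` the inclusion (`algKL`, not a global instance):

* `isGalois_KL` : `L/K` is Galois;
* `finrank_KL` : in the non-split case `[L : K] = p`;
* `unram_KL` : `L/K` is unramified at every finite prime (`Defs.Unram`);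
* `conjInv_KL` : the conjugation law (`Defs.ConjInv`);
* `kerChi_le_kerV_of_noField` : under `NoField p` the kernel of the cyclotomic character acts
  trivially on `V`;
* `splitsGlobally_of_noField` : hence the extension splits globally.
-/

set_option autoImplicit false
set_option linter.style.haveILetI false

noncomputable section

namespace Fermat.Agent.S14.AdmTower

open ExtCitation Fermat.Agent.S14.AdmGroup Fermat.Agent.S14.AdmField
  Fermat.Agent.S14.CycloField IntermediateField

local notation "Qb" => AlgebraicClosure ℚ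
local notation "Γ" => (AlgebraicClosure ℚ ≃ₐ[ℚ] AlgebraicClosure ℚ)

variable {p : ℕ} [Fact p.Prime]
variable {V : Type} [AddCommGroup V] [Module (ZMod p) V]
  [DistribMulAction Γ V] [SMulCommClass Γ (ZMod p) V]
variable {C : Submodule (ZMod p) V}

/-- The inclusion `Kp p → Lf V` as an algebra structure. -/
@[reducible] def algKL (hadm : IsAdmissibleExtension p V C) : Algebra ↥(Kp p) ↥(Lf V) :=
  (IntermediateField.inclusion (Kf_le_Lf hadm : Kp p ≤ Lf V)).toRingHom.toAlgebra

theorem algebraMap_KL (hadm : IsAdmissibleExtension p V C) (x : Kp p) :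
    ((@algebraMap ↥(Kp p) ↥(Lf V) _ _ (algKL hadm) x : Lf V) : Qb) = (x : Qb) := rfl

/-- `Lf V / Kp p` is Galois. -/
theorem isGalois_KL (hadm : IsAdmissibleExtensionCts p V C) :
    @IsGalois ↥(Kp p) _ ↥(Lf V) _ (algKL hadm.toIsAdmissibleExtension) := by
  letI := algKL hadm.toIsAdmissibleExtension
  haveI := isGalois_Lf hadm
  exact IsGalois.tower_top_of_isGalois ℚ ↥(Kp p) ↥(Lf V)

/-- In the non-split case `[Lf V : Kp p] = p`. -/
theorem finrank_KL (hadm : IsAdmissibleExtensionCts p V C) (hns : ¬ kerChi p ≤ kerV V) :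
    @Module.finrank ↥(Kp p) ↥(Lf V) _ _ (algKL hadm.toIsAdmissibleExtension).toModule = p := by
  letI := algKL hadm.toIsAdmissibleExtension
  haveI := finiteDimensional_Lf hadm
  have h1 := Module.finrank_mul_finrank ℚ ↥(Kp p) ↥(Lf V)
  have h2 : Module.finrank ℚ ↥(Lf V) = p * Module.finrank ℚ ↥(Kp p) := finrank_Lf_eq hadm hns
  have h3 : 0 < Module.finrank ℚ ↥(Kp p) := Module.finrank_pos
  rw [h2, mul_comm] at h1
  exact Nat.eq_of_mul_eq_mul_right h3 h1

/-- an element of `Γ` fixing `Kp p` pointwise lies in `kerChi p`. -/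
theorem mem_kerChi_of_fix {σ : Γ} (h : ∀ x : Kp p, σ (x : Qb) = (x : Qb)) : σ ∈ kerChi p := by
  rw [← fixingSubgroup_Kp p, IntermediateField.mem_fixingSubgroup_iff]
  intro x hx
  exact h ⟨x, hx⟩

/-- an element of `kerV V` fixes `Lf V` pointwise. -/
theorem apply_eq_of_mem_kerV {σ : Γ} (h : σ ∈ kerV V) (y : Lf V) : σ (y : Qb) = (y : Qb) := by
  have hy := y.2
  unfold Lf at hy
  rw [IntermediateField.mem_fixedField_iff] at hy
  exact hy σ h

/-- `Lf V / Kp p` is unramified at every finite prime. -/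
theorem unram_KL (hadm : IsAdmissibleExtensionCts p V C) :
    @Unram ↥(Kp p) ↥(Lf V) _ _ (algKL hadm.toIsAdmissibleExtension) := by
  letI := algKL hadm.toIsAdmissibleExtension
  haveI := numberField_Lf hadm
  haveI := isGalois_Lf hadm
  haveI := isGalois_KL hadm
  haveI : IsGalois ℚ Qb := InertiaLift.isGalois_rat_algebraicClosure
  refine InertiaIdeal.unram_of_forall (Ω := Qb) ?_
  intro q hq A hA σ hσ hfix y
  have hχ : σ ∈ kerChi p := mem_kerChi_of_fix (fun x => hfix x)
  have hV : σ ∈ kerV V := by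
    by_cases hqp : q = p
    · subst hqp
      exact decomposition_inf_kerChi_le_kerV hadm.toIsAdmissibleExtension A hA
        (Fermat.Agent.S05.InertiaAPI.mem_decompositionSubgroup hσ) hχ
    · exact inertia_le_kerV hadm.toIsAdmissibleExtension hq hqp A hA hσ
  exact apply_eq_of_mem_kerV hV y

/-- the `p`-th power of an element of `kerChi p` lies in `kerV V`. -/
theorem pow_mem_kerV (hadm : IsAdmissibleExtension p V C) {σ : Γ} (hσ : σ ∈ kerChi p) :
    σ ^ p ∈ kerV V := by
  obtain ⟨b, hb, -⟩ := exists_b hadm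
  have h1 : b (⟨σ, hσ⟩ ^ p) = 1 := by
    rw [map_pow]
    apply Multiplicative.toAdd.injective
    rw [toAdd_pow, toAdd_one, nsmul_eq_mul, ZMod.natCast_self, zero_mul]
  exact (hb _).mp h1

/-- **The conjugation law** in the form of `Defs.ConjInv`. -/
theorem conjInv_KL (hadm : IsAdmissibleExtensionCts p V C) :
    @ConjInv p ↥(Kp p) ↥(Lf V) _ _ _ (numberField_Lf hadm)
      (algKL hadm.toIsAdmissibleExtension) := by
  letI := algKL hadm.toIsAdmissibleExtension
  haveI := numberField_Lf hadm
  have hp : p.Prime := Fact.out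
  intro g τ ζ a hζ hg
  obtain ⟨g', rfl⟩ := resL_surjective hadm g
  -- the action of `g'` on `ζ`
  have hζΩ : IsPrimitiveRoot (ζ : Qb) p := hζ.map_of_injective (f := (Kp p).val)
    (Kp p).val.injective
  have hg' : g' (ζ : Qb) = (ζ : Qb) ^ a := by
    have h1 := congrArg (Subtype.val : ↥(Lf V) → Qb) hg
    rw [resL_apply] at h1
    exact h1
  have hχ : ((cycloChar p g' : (ZMod p)ˣ) : ZMod p) = (a : ZMod p) :=
    cycloChar_eq_of_apply p hζΩ a hg'
  have ha0 : (a : ZMod p) ≠ 0 := by rw [← hχ]; exact Units.ne_zero _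
  -- the exponent `k`
  haveI : NeZero p := ⟨hp.ne_zero⟩
  set k : ℕ := ((a : ZMod p)⁻¹).val with hkdef
  have hk : (k : ZMod p) * ((cycloChar p g' : (ZMod p)ˣ) : ZMod p) = 1 := by
    rw [hkdef, ZMod.natCast_zmod_val, hχ, inv_mul_cancel₀ ha0]
  -- `τ` fixes `Kp p`
  have hτ : ∀ x : Lf V, (x : Qb) ∈ Kf p → (τ.restrictScalars ℚ) x = x := by
    intro x hx
    have h1 := τ.commutes ⟨(x : Qb), hx⟩
    have h2 : algebraMap ↥(Kp p) ↥(Lf V) ⟨(x : Qb), hx⟩ = x := Subtype.ext rfl
    rw [h2] at h1
    exact h1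
  rw [conj_eq_pow hadm g' (τ.restrictScalars ℚ) hτ k hk, ← pow_mul]
  -- `τ ^ p = 1`
  obtain ⟨σ, hσ, hστ⟩ := exists_kerChi_lift hadm (τ.restrictScalars ℚ) hτ
  have hpow : (τ.restrictScalars ℚ) ^ p = 1 := by
    rw [← hστ, ← map_pow, resL_eq_one_iff]
    exact pow_mem_kerV hadm.toIsAdmissibleExtension hσ
  have hka : ((k * a : ℕ) : ZMod p) = ((1 : ℕ) : ZMod p) := by
    rw [Nat.cast_mul, Nat.cast_one, ← hχ]; exact hk
  have hmod : k * a % p = 1 := by
    have h1 := (ZMod.natCast_eq_natCast_iff' _ _ _).mp hka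
    rw [h1, Nat.mod_eq_of_lt hp.one_lt]
  have hdecomp : k * a = p * (k * a / p) + 1 := by
    have := Nat.div_add_mod (k * a) p
    omega
  rw [hdecomp, pow_succ, pow_mul, hpow, one_pow, one_mul]

/-- **Reduction to the number-field statement**: under `NoField p`, the kernel of the cyclotomic
character acts trivially on every admissible extension. -/
theorem kerChi_le_kerV_of_noField (H : NoField p) (hadm : IsAdmissibleExtensionCts p V C) :
    kerChi p ≤ kerV V := by
  by_contra hns
  letI := algKL hadm.toIsAdmissibleExtension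
  haveI := numberField_Lf hadm
  haveI := isGalois_Lf hadm
  haveI := isGalois_KL hadm
  exact H ↥(Kp p) ↥(Lf V) (finrank_KL hadm hns) (unram_KL hadm) (conjInv_KL hadm)

/-- Under `NoField p`, every admissible extension (continuous version) splits globally. -/
theorem splitsGlobally_of_noField (H : NoField p) (hadm : IsAdmissibleExtensionCts p V C) :
    SplitsGlobally C :=
  splitsGlobally_of_kerChi_le hadm.toIsAdmissibleExtension (kerChi_le_kerV_of_noField H hadm)

end Fermat.Agent.S14.AdmTower
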