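import Mathlib
import Fermat.Agent.S14.Uni

set_option autoImplicit false
set_option linter.unusedSectionVars false

/-!
# From bounded differences of partial zeta functions to bounded class-group `L`-series
-/

namespace Fermat.Agent.S14.ClassZetaL

open Filter Topology NumberField Ideal nonZeroDivisors
open Fermat.Agent.S14

variable (K : Type*) [Field K] [NumberField K]

/-- The partial zeta function of an ideal class, at a real argument. -/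
noncomputable def pz (C : ClassGroup (𝓞 K)) (s : ℝ) : ℝ :=
  ∑' I : {I : (Ideal (𝓞 K))⁰ // ClassGroup.mk0 I = C},
    (Ideal.absNorm ((I : (Ideal (𝓞 K))⁰) : Ideal (𝓞 K)) : ℝ) ^ (-s)

theorem summable_nzd {s : ℝ} (hs : 1 < s) :
    Summable fun I : (Ideal (𝓞 K))⁰ => (Ideal.absNorm (I : Ideal (𝓞 K)) : ℝ) ^ (-s) :=
  (ZetaIdeal.summable_nrm K hs).subtype _

theorem summable_class (C : ClassGroup (𝓞 K)) {s : ℝ} (hs : 1 < s) :
    Summable fun I : {I : (Ideal (𝓞 K))⁰ // ClassGroup.mk0 I = C} =>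
      (Ideal.absNorm ((I : (Ideal (𝓞 K))⁰) : Ideal (𝓞 K)) : ℝ) ^ (-s) :=
  (summable_nzd K hs).subtype _

theorem summable_char (ψ : ClassGroup (𝓞 K) →* ℂˣ) {s : ℝ} (hs : 1 < s) :
    Summable fun I : (Ideal (𝓞 K))⁰ => (ψ (ClassGroup.mk0 I) : ℂ)
      * (((Ideal.absNorm (I : Ideal (𝓞 K)) : ℝ) ^ (-s) : ℝ) : ℂ) := by
  refine Summable.of_norm_bounded (summable_nzd K hs) (fun I => ?_)
  rw [norm_mul, UniChar.char_norm, one_mul, Complex.norm_real, Real.norm_eq_abs,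
    abs_of_nonneg (Real.rpow_nonneg (Nat.cast_nonneg _) _)]

/-- Decomposition of the `L`-series along the classes. -/
theorem tsum_char_eq (ψ : ClassGroup (𝓞 K) →* ℂˣ) {s : ℝ} (hs : 1 < s) :
    ∑' I : (Ideal (𝓞 K))⁰, (ψ (ClassGroup.mk0 I) : ℂ)
        * (((Ideal.absNorm (I : Ideal (𝓞 K)) : ℝ) ^ (-s) : ℝ) : ℂ)
      = ∑ C : ClassGroup (𝓞 K), (ψ C : ℂ) * ((pz K C s : ℝ) : ℂ) := by
  have hsum := summable_char K ψ hs
  rw [← (Equiv.sigmaFiberEquiv (fun I : (Ideal (𝓞 K))⁰ => ClassGroup.mk0 I)).tsum_eq]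
  have hsum' : Summable fun c : (Σ C : ClassGroup (𝓞 K),
      {I : (Ideal (𝓞 K))⁰ // ClassGroup.mk0 I = C}) =>
      (ψ (ClassGroup.mk0 ((Equiv.sigmaFiberEquiv
        (fun I : (Ideal (𝓞 K))⁰ => ClassGroup.mk0 I)) c)) : ℂ)
        * (((Ideal.absNorm (((Equiv.sigmaFiberEquiv
          (fun I : (Ideal (𝓞 K))⁰ => ClassGroup.mk0 I)) c : (Ideal (𝓞 K))⁰) : Ideal (𝓞 K)) : ℝ)
            ^ (-s) : ℝ) : ℂ) :=
    (Equiv.sigmaFiberEquiv (fun I : (Ideal (𝓞 K))⁰ => ClassGroup.mk0 I)).summable_iff.mpr hsum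
  rw [hsum'.tsum_sigma, tsum_fintype]
  refine Finset.sum_congr rfl (fun C _ => ?_)
  unfold pz
  rw [Complex.ofReal_tsum, ← tsum_mul_left]
  refine tsum_congr (fun I => ?_)
  have : ClassGroup.mk0 ((Equiv.sigmaFiberEquiv
      (fun I : (Ideal (𝓞 K))⁰ => ClassGroup.mk0 I)) ⟨C, I⟩) = C := I.2
  rw [this]
  rfl

theorem sum_char_eq_zero (ψ : ClassGroup (𝓞 K) →* ℂˣ) (hψ : ψ ≠ 1) :
    ∑ C : ClassGroup (𝓞 K), (ψ C : ℂ) = 0 := by
  have hex : ∃ C₀, ψ C₀ ≠ 1 := by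
    by_contra h
    simp only [not_exists, not_not] at h
    exact hψ (MonoidHom.ext h)
  obtain ⟨C₀, hC₀⟩ := hex
  have hreidx : ∑ C : ClassGroup (𝓞 K), (ψ (C₀ * C) : ℂ) = ∑ C : ClassGroup (𝓞 K), (ψ C : ℂ) :=
    Fintype.sum_equiv (Equiv.mulLeft C₀) _ _ (fun C => rfl)
  have hmul : ∑ C : ClassGroup (𝓞 K), (ψ (C₀ * C) : ℂ)
      = (ψ C₀ : ℂ) * ∑ C : ClassGroup (𝓞 K), (ψ C : ℂ) := by
    rw [Finset.mul_sum]
    refine Finset.sum_congr rfl (fun C _ => ?_)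
    simp
  have hne : (ψ C₀ : ℂ) - 1 ≠ 0 := by
    intro h0
    apply hC₀
    apply Units.ext
    simpa using sub_eq_zero.mp h0
  have : ((ψ C₀ : ℂ) - 1) * ∑ C : ClassGroup (𝓞 K), (ψ C : ℂ) = 0 := by
    rw [sub_mul, one_mul, ← hmul, hreidx, sub_self]
  rcases mul_eq_zero.mp this with h0 | h0
  · exact absurd h0 hne
  · exact h0

/-- **`D1` from bounded differences of partial zeta functions.** -/
theorem d1Hyp_of_sub
    (h : ∀ C : ClassGroup (𝓞 K), ∃ B : ℝ, ∀ s : ℝ, 1 < s → s ≤ 2 →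
      |pz K C s - pz K 1 s| ≤ B) : Uni.D1Hyp K := by
  intro ψ hψ
  choose B hB using h
  refine ⟨∑ C : ClassGroup (𝓞 K), B C, fun s hs hs2 => ?_⟩
  rw [tsum_char_eq K ψ hs]
  have h0 := sum_char_eq_zero K ψ hψ
  have hrew : ∑ C : ClassGroup (𝓞 K), (ψ C : ℂ) * ((pz K C s : ℝ) : ℂ)
      = ∑ C : ClassGroup (𝓞 K), (ψ C : ℂ) * (((pz K C s - pz K 1 s : ℝ)) : ℂ) := by
    have : ∑ C : ClassGroup (𝓞 K), (ψ C : ℂ) * (((pz K C s - pz K 1 s : ℝ)) : ℂ)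
        = ∑ C : ClassGroup (𝓞 K), (ψ C : ℂ) * ((pz K C s : ℝ) : ℂ)
          - (∑ C : ClassGroup (𝓞 K), (ψ C : ℂ)) * ((pz K 1 s : ℝ) : ℂ) := by
      rw [Finset.sum_mul, ← Finset.sum_sub_distrib]
      refine Finset.sum_congr rfl (fun C _ => ?_)
      push_cast
      ring
    rw [this, h0, zero_mul, sub_zero]
  rw [hrew]
  calc ‖∑ C : ClassGroup (𝓞 K), (ψ C : ℂ) * (((pz K C s - pz K 1 s : ℝ)) : ℂ)‖
      ≤ ∑ C : ClassGroup (𝓞 K), ‖(ψ C : ℂ) * (((pz K C s - pz K 1 s : ℝ)) : ℂ)‖ :=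
        norm_sum_le _ _
    _ ≤ ∑ C : ClassGroup (𝓞 K), B C := by
        refine Finset.sum_le_sum (fun C _ => ?_)
        rw [norm_mul, UniChar.char_norm, one_mul, Complex.norm_real, Real.norm_eq_abs]
        exact hB C s hs hs2

end Fermat.Agent.S14.ClassZetaL
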