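import Fermat.Agent.S14.CrossField
import Fermat.Agent.S14.CycloArtin

/-!
# S14, stream E: link E6 on a crossing field

`CycloArtin.artinFun_span_singleton_eq_one` instantiated on the crossing fields of
`CrossField`: for a subgroup `H` of `Gal(Ω/K)` acting faithfully on a root of unity `ζ`
(`ζ ^ m = 1`, `m` squarefree) and surjecting onto `Gal(L/K)` (cyclic of odd prime order `p`,
unramified), principal ideals of `F_H = Ω^H` prime to `m` have trivial Artin symbol in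
`M_H / F_H`.
-/

set_option autoImplicit false

namespace Fermat.Agent.S14.CrossCyclo

open NumberField
open scoped nonZeroDivisors
open Fermat.Agent.S14.ArtinMap Fermat.Agent.S14.CrossField

variable (K L Ω : Type*) [Field K] [NumberField K] [Field L] [NumberField L] [Field Ω]
  [NumberField Ω] [Algebra K L] [Algebra K Ω] [Algebra L Ω] [IsScalarTower K L Ω]
  [IsGalois K Ω] [IsGalois K L]
variable (H : Subgroup (Ω ≃ₐ[K] Ω))

/-- E6 on a crossing field: principal ideals of `F_H` prime to `m` have trivial Artin symbol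
in `M_H / F_H`. -/
theorem artinFun_span_singleton_eq_one {p : ℕ} (hp : p.Prime) (hp2 : p ≠ 2)
    (hdeg : Module.finrank K L = p) (hab : ∀ a b : L ≃ₐ[K] L, a * b = b * a)
    (hur : IsUnram L (L ≃ₐ[K] L))
    (hs : ∀ c : L ≃ₐ[K] L, ∃ h ∈ H, AlgEquiv.restrictNormalHom L h = c)
    (m : ℕ) (hm : Squarefree m) (ζ : Ω) (hζ : ζ ^ m = 1)
    (hf : ∀ g ∈ H, g ζ = ζ → g = 1)
    (x : 𝓞 (FH K Ω H)) (hx0 : x ≠ 0)
    (hx : Ideal.span {x} ⊔ Ideal.span {(m : 𝓞 (FH K Ω H))} = ⊤) :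
    artinFun (FH K Ω H) (MH K L Ω H) (GH K L Ω H) (GH_comm K L Ω H hab) (Ideal.span {x}) = 1 := by
  have hodd : Odd (Nat.card (GH K L Ω H)) := by
    rw [card_GH K L Ω H hs, hdeg]
    exact hp.odd_of_ne_two hp2
  exact CycloArtin.artinFun_span_singleton_eq_one (FH K Ω H) (MH K L Ω H) Ω (GH K L Ω H) ↥H
    (GH_comm K L Ω H hab) (isUnram_MH K L Ω H hur) m hm ζ hζ
    (fun g hg => Subtype.ext (hf g.1 g.2 hg)) hodd x hx0 hx

/-- The same in the shape of the hypothesis `hprin` of `KerCyclo.exists_rel_down_of_artin_eq`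
(`art := ArtinMap.artin F_H M_H G_H`, `𝔪 := span {m}`). -/
theorem artin_eq_one_of_eq_span {p : ℕ} (hp : p.Prime) (hp2 : p ≠ 2)
    (hdeg : Module.finrank K L = p) (hab : ∀ a b : L ≃ₐ[K] L, a * b = b * a)
    (hur : IsUnram L (L ≃ₐ[K] L))
    (hs : ∀ c : L ≃ₐ[K] L, ∃ h ∈ H, AlgEquiv.restrictNormalHom L h = c)
    (m : ℕ) (hm : Squarefree m) (ζ : Ω) (hζ : ζ ^ m = 1)
    (hf : ∀ g ∈ H, g ζ = ζ → g = 1)
    (x : 𝓞 (FH K Ω H)) (X : (Ideal (𝓞 (FH K Ω H)))⁰)
    (hX : (X : Ideal (𝓞 (FH K Ω H))) = Ideal.span {x})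
    (hcop : IsCoprime (X : Ideal (𝓞 (FH K Ω H))) (Ideal.span {(m : 𝓞 (FH K Ω H))})) :
    artin (FH K Ω H) (MH K L Ω H) (GH K L Ω H) (GH_comm K L Ω H hab) X = 1 := by
  have hx0 : x ≠ 0 := by
    rintro rfl
    apply nonZeroDivisors.coe_ne_zero X
    rw [hX]
    simp
  rw [artin_apply, hX]
  rw [hX] at hcop
  exact artinFun_span_singleton_eq_one K L Ω H hp hp2 hdeg hab hur hs m hm ζ hζ hf x hx0
    (Ideal.isCoprime_iff_sup_eq.mp hcop)

end Fermat.Agent.S14.CrossCyclo
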