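import Fermat.Agent.S14.Defs
import Fermat.Agent.S14.ArtinMap
import Fermat.Agent.S14.ArtinBase

/-!
# S14, stream E1a: the Galois group of `Ω = L(ζ_M)` over `K = ℚ(ζ_p)`

Setting of `Defs.NoField`: `K = ℚ(ζ_p)`, `L/ℚ` Galois, `L/K` Galois of degree `p`, with the
conjugation law `ConjInv p K L`; `M` coprime to `p`, `Ω` an `M`-th cyclotomic extension of `L`.

* `normal_top`, `isGalois_top`: `Ω/K` is Galois.
* `eq_one_of`: an element of `Gal(Ω/K)` trivial on `L` and fixing `ζ_M` is trivial.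
* `exists_gal`: every pair (element of `Gal(L/K)`, unit mod `M`) is realised in `Gal(Ω/K)`.
* `frob_apply_zeta`, `frob_restrict`: a Frobenius element of `Ω/K` at a prime not dividing `M`
  raises `ζ_M` to the norm of the prime below and restricts to the Frobenius of `L/K`.
-/

set_option autoImplicit false

open NumberField Polynomial

namespace Fermat.Agent.S14.CycloGal

section Galois

variable (K L : Type*) [Field K] [Field L] [Algebra K L] [IsGalois K L] [FiniteDimensional K L]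
variable (M : ℕ) [NeZero M]
variable (Ω : Type*) [Field Ω] [Algebra L Ω] [IsCyclotomicExtension {M} L Ω]
  [Algebra K Ω] [IsScalarTower K L Ω]

include L M in
/-- `Ω = L(ζ_M)` is normal over `K` when `L/K` is finite Galois. -/
theorem normal_top : Normal K Ω := by
  obtain ⟨f, hf, hfs⟩ := IsGalois.is_separable_splitting_field K L
  have h2 : IsSplittingField L Ω ((X ^ M - 1 : K[X]).map (algebraMap K L)) := by
    have h := IsCyclotomicExtension.isSplittingField_X_pow_sub_one (n := M) L Ω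
    simpa using h
  have h3 : IsSplittingField K Ω (f * (X ^ M - 1)) :=
    IsSplittingField.mul (K := L) Ω f (X ^ M - 1) hf.ne_zero
      (X_pow_sub_C_ne_zero (NeZero.pos M) 1)
  exact Normal.of_isSplittingField (f * (X ^ M - 1))

include L M in
/-- `Ω = L(ζ_M)` is Galois over `K` when `L/K` is finite Galois (characteristic zero). -/
theorem isGalois_top [CharZero K] : IsGalois K Ω := by
  have := normal_top K L M Ω
  exact IsGalois.mk

omit [IsGalois K L] [FiniteDimensional K L] in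
/-- An element of `Gal(Ω/K)` which is trivial on `L` and fixes a primitive `M`-th root of unity
is trivial (`Ω = L(ζ_M)`). -/
theorem eq_one_of [Normal K L] {ζ : Ω} (hζ : IsPrimitiveRoot ζ M) (g : Ω ≃ₐ[K] Ω)
    (h1 : AlgEquiv.restrictNormalHom L g = 1) (h2 : g ζ = ζ) : g = 1 := by
  have hL : ∀ x : L, g (algebraMap L Ω x) = algebraMap L Ω x := by
    intro x
    have h := AlgEquiv.restrictNormal_commutes g L x
    have h' : g.restrictNormal L = 1 := h1
    rw [h'] at h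
    exact h.symm
  let gL : Ω →ₐ[L] Ω := { (g : Ω →+* Ω) with commutes' := hL }
  have htop : Algebra.adjoin L {ζ} = ⊤ :=
    IsCyclotomicExtension.adjoin_primitive_root_eq_top hζ
  have hgL : gL = AlgHom.id L Ω := by
    apply AlgHom.ext_of_adjoin_eq_top htop
    intro x hx
    rw [Set.mem_singleton_iff] at hx
    subst hx
    exact h2
  ext x
  have := congrArg (fun f : Ω →ₐ[L] Ω => f x) hgL
  exact this

end Galois

section Lift

variable {p : ℕ} {K Ω : Type*} [Field K] [Field Ω] [CharZero K] [Algebra K Ω]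
  [CharZero Ω] [IsCyclotomicExtension {p} ℚ K]

/-- A `ℚ`-automorphism of `Ω` fixing a primitive `p`-th root of unity of `K = ℚ(ζ_p)` is
`K`-linear. -/
theorem exists_algEquiv_of_fix [NeZero p] {ζp : K} (hζp : IsPrimitiveRoot ζp p)
    (σ : Ω ≃ₐ[ℚ] Ω) (h : σ (algebraMap K Ω ζp) = algebraMap K Ω ζp) :
    ∃ g : Ω ≃ₐ[K] Ω, ∀ x : Ω, g x = σ x := by
  have htop : Algebra.adjoin ℚ {ζp} = ⊤ :=
    IsCyclotomicExtension.adjoin_primitive_root_eq_top hζp
  have h1 : (σ : Ω →ₐ[ℚ] Ω).comp (IsScalarTower.toAlgHom ℚ K Ω) = IsScalarTower.toAlgHom ℚ K Ω := by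
    apply AlgHom.ext_of_adjoin_eq_top htop
    intro x hx
    rw [Set.mem_singleton_iff] at hx
    subst hx
    exact h
  have h2 : ∀ x : K, σ.toRingEquiv (algebraMap K Ω x) = algebraMap K Ω x := by
    intro x
    have := congrArg (fun f : K →ₐ[ℚ] Ω => f x) h1
    exact this
  exact ⟨AlgEquiv.ofRingEquiv (f := σ.toRingEquiv) h2, fun x => rfl⟩

end Lift

section Main

variable (p : ℕ) (K L : Type*) [Field K] [Field L] [NumberField K] [NumberField L] [Algebra K L]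
  [IsCyclotomicExtension {p} ℚ K] [IsGalois ℚ L] [IsGalois K L]
variable (M : ℕ) [NeZero M]
variable (Ω : Type*) [Field Ω] [NumberField Ω] [Algebra L Ω] [IsCyclotomicExtension {M} L Ω]
  [Algebra K Ω] [IsScalarTower K L Ω]

include L M in
theorem normal_rat_top : Normal ℚ Ω := normal_top ℚ L M Ω

/-- A root of unity of order `n` conjugate to a primitive `n`-th root `ξ` over `ℚ`: every
`ξ ^ b` with `b` coprime to `n` is the image of `ξ` under a `ℚ`-automorphism (`Ω/ℚ` normal). -/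
theorem exists_algEquiv_pow [Normal ℚ Ω] {n : ℕ} (hn : 0 < n) {ξ : Ω} (hξ : IsPrimitiveRoot ξ n)
    (b : ℕ) (hb : b.Coprime n) : ∃ σ : Ω ≃ₐ[ℚ] Ω, σ ξ = ξ ^ b := by
  have : NeZero n := ⟨hn.ne'⟩
  have hξb : IsPrimitiveRoot (ξ ^ b) n := hξ.pow_of_coprime b hb
  have hirr : Irreducible (cyclotomic n ℚ) := cyclotomic.irreducible_rat hn
  have hmin : cyclotomic n ℚ = minpoly ℚ (ξ ^ b) :=
    hξb.minpoly_eq_cyclotomic_of_irreducible hirr
  have hroot : aeval ξ (minpoly ℚ (ξ ^ b)) = 0 := by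
    rw [← hmin, aeval_def, eval₂_eq_eval_map, map_cyclotomic]
    exact hξ.isRoot_cyclotomic hn
  exact minpoly.exists_algEquiv_of_root (Algebra.IsAlgebraic.isAlgebraic _) hroot

omit [IsGalois K L] [Algebra K L] [IsScalarTower K L Ω] in
include L in
/-- Surjectivity of the mod `M` cyclotomic character on `Gal(Ω/K)`, `K = ℚ(ζ_p)`, `p` prime
not dividing `M`. -/
theorem exists_gal_zeta (hp : p.Prime) (hpM : M.Coprime p) {ζ : Ω} (hζ : IsPrimitiveRoot ζ M)
    (u : (ZMod M)ˣ) : ∃ g : Ω ≃ₐ[K] Ω, g ζ = ζ ^ (u : ZMod M).val := by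
  have : NeZero p := ⟨hp.ne_zero⟩
  have : Normal ℚ Ω := normal_rat_top L M Ω
  obtain ⟨ζp, hζp⟩ := IsCyclotomicExtension.exists_isPrimitiveRoot ℚ K
    (Set.mem_singleton p) (NeZero.ne p)
  set η : Ω := algebraMap K Ω ζp with hη
  have hηp : IsPrimitiveRoot η p := hζp.map_of_injective (algebraMap K Ω).injective
  -- the primitive `pM`-th root `ξ = η ζ`
  have hξ : IsPrimitiveRoot (η * ζ) (p * M) := by
    have h1 : orderOf (η * ζ) = orderOf η * orderOf ζ :=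
      (Commute.all η ζ).orderOf_mul_eq_mul_orderOf_of_coprime
        (by rw [← hηp.eq_orderOf, ← hζ.eq_orderOf]; exact hpM.symm)
    rw [← hηp.eq_orderOf, ← hζ.eq_orderOf] at h1
    rw [← h1]
    exact IsPrimitiveRoot.orderOf _
  -- the exponent `b ≡ 1 mod p`, `b ≡ u mod M`
  obtain ⟨b, hb1, hb2⟩ := Nat.chineseRemainder hpM.symm 1 (u : ZMod M).val
  have hbp : b.Coprime p := by
    rw [Nat.coprime_iff_gcd_eq_one, hb1.gcd_eq]
    exact Nat.gcd_one_left p
  have hbM : b.Coprime M := by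
    rw [Nat.coprime_iff_gcd_eq_one, hb2.gcd_eq]
    exact ZMod.val_coe_unit_coprime u
  obtain ⟨σ, hσ⟩ := exists_algEquiv_pow Ω (Nat.mul_pos hp.pos (NeZero.pos M)) hξ b
    (Nat.Coprime.mul_right hbp hbM)
  -- `σ` raises every root of unity of order dividing `pM` ... to the power `b`
  have hpow : ∀ k : ℕ, σ ((η * ζ) ^ k) = ((η * ζ) ^ k) ^ b := by
    intro k
    rw [map_pow, hσ, ← pow_mul, ← pow_mul, Nat.mul_comm]
  have hηM : IsPrimitiveRoot (η ^ M) p := hηp.pow_of_coprime M hpM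
  have hζp' : IsPrimitiveRoot (ζ ^ p) M := hζ.pow_of_coprime p hpM.symm
  have hση : σ η = η := by
    obtain ⟨i, -, hi⟩ := hηM.eq_pow_of_pow_eq_one hηp.pow_eq_one
    have h1 : (η * ζ) ^ M = η ^ M := by rw [mul_pow, hζ.pow_eq_one, mul_one]
    have h2 : σ (η ^ M) = (η ^ M) ^ b := by rw [← h1]; exact hpow M
    rw [← hi, map_pow, h2, ← pow_mul, ← pow_mul, mul_comm b i, pow_mul, pow_mul, hi]
    have h3 : η ^ b = η ^ 1 := pow_eq_pow_of_modEq hb1 hηp.pow_eq_one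
    rw [h3, pow_one]
  have hσζ : σ ζ = ζ ^ (u : ZMod M).val := by
    obtain ⟨i, -, hi⟩ := hζp'.eq_pow_of_pow_eq_one hζ.pow_eq_one
    have h1 : (η * ζ) ^ p = ζ ^ p := by rw [mul_pow, hηp.pow_eq_one, one_mul]
    have h2 : σ (ζ ^ p) = (ζ ^ p) ^ b := by rw [← h1]; exact hpow p
    have h3 : σ ζ = ζ ^ b := by
      conv_lhs => rw [← hi]
      rw [map_pow, h2, ← pow_mul, ← pow_mul, mul_comm b i, pow_mul, pow_mul, hi]
    rw [h3]
    exact pow_eq_pow_of_modEq hb2 hζ.pow_eq_one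
  obtain ⟨g, hg⟩ := exists_algEquiv_of_fix hζp σ hση
  exact ⟨g, by rw [hg, hσζ]⟩

/-- `Gal(L/ℚ)` is not commutative: consequence of the conjugation law `ConjInv` for `p ≥ 3`
and `[L : K] = p`. -/
theorem not_commutative (hp : p.Prime) (h3 : 3 ≤ p) (hdeg : Module.finrank K L = p)
    (hconj : ConjInv p K L) : ¬ ∀ a b : L ≃ₐ[ℚ] L, a * b = b * a := by
  intro hcomm
  have : NeZero p := ⟨hp.ne_zero⟩
  obtain ⟨ζp, hζp⟩ := IsCyclotomicExtension.exists_isPrimitiveRoot ℚ K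
    (Set.mem_singleton p) (NeZero.ne p)
  -- an element `τ ≠ 1` of `Gal(L/K)`
  have hcard : Nat.card (L ≃ₐ[K] L) = p := by
    rw [IsGalois.card_aut_eq_finrank, hdeg]
  have hnt : Nontrivial (L ≃ₐ[K] L) := by
    rw [← Finite.one_lt_card_iff_nontrivial, hcard]
    omega
  obtain ⟨τ, hτ⟩ := exists_ne (1 : L ≃ₐ[K] L)
  -- an element `g` of `Gal(L/ℚ)` with `g ζ_p = ζ_p ^ 2`
  have : IsGalois ℚ K := IsCyclotomicExtension.isGalois {p} ℚ K
  have h2p : Nat.Coprime 2 p := by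
    rw [Nat.coprime_primes Nat.prime_two hp]
    omega
  obtain ⟨s, hs⟩ := exists_algEquiv_pow K hp.pos hζp 2 h2p
  obtain ⟨g, hg⟩ := AlgEquiv.restrictNormalHom_surjective (F := ℚ) (K₁ := K) L s
  have hgζ : g (algebraMap K L ζp) = algebraMap K L (ζp ^ 2) := by
    have h := AlgEquiv.restrictNormal_commutes g K ζp
    have h' : g.restrictNormal K = s := hg
    rw [h', hs] at h
    exact h.symm
  have h := hconj g τ ζp 2 hζp hgζ
  rw [hcomm g, mul_assoc, mul_inv_cancel, mul_one, pow_two] at h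
  have h1 : τ.restrictScalars ℚ = 1 := by
    have := congrArg (fun x => (τ.restrictScalars ℚ)⁻¹ * x) h
    simpa using this
  apply hτ
  ext x
  have := congrArg (fun f : L ≃ₐ[ℚ] L => f x) h1
  exact this

/-- The two field extensions `L` and `K(ζ_M)` of `K` are linearly disjoint: there is an element
of `Gal(Ω/K)` fixing `ζ_M` and acting non-trivially on `L`. -/
theorem exists_fix_zeta (hp : p.Prime) (h3 : 3 ≤ p) (hdeg : Module.finrank K L = p)
    (hconj : ConjInv p K L) {ζ : Ω} (hζ : IsPrimitiveRoot ζ M) :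
    ∃ g : Ω ≃ₐ[K] Ω, g ζ = ζ ∧ AlgEquiv.restrictNormalHom L g ≠ 1 := by
  by_contra hne
  have hne : ∀ g : Ω ≃ₐ[K] Ω, g ζ = ζ → AlgEquiv.restrictNormalHom L g = 1 := by
    intro g hg
    by_contra h
    exact hne ⟨g, hg, h⟩
  have : NeZero p := ⟨hp.ne_zero⟩
  have : Normal ℚ Ω := normal_rat_top L M Ω
  obtain ⟨ζp, hζp⟩ := IsCyclotomicExtension.exists_isPrimitiveRoot ℚ K
    (Set.mem_singleton p) (NeZero.ne p)
  have hηp : IsPrimitiveRoot (algebraMap K Ω ζp) p :=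
    hζp.map_of_injective (algebraMap K Ω).injective
  -- two automorphisms commute on a root of unity
  have hcommroot : ∀ (n : ℕ) [NeZero n] (ω : Ω), IsPrimitiveRoot ω n →
      ∀ a b : Ω ≃ₐ[ℚ] Ω, (a * b) ω = (b * a) ω := by
    intro n _ ω hω a b
    obtain ⟨i, -, hi⟩ := hω.eq_pow_of_pow_eq_one (ξ := a ω)
      (by rw [← map_pow, hω.pow_eq_one, map_one])
    obtain ⟨j, -, hj⟩ := hω.eq_pow_of_pow_eq_one (ξ := b ω)
      (by rw [← map_pow, hω.pow_eq_one, map_one])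
    rw [AlgEquiv.mul_apply, AlgEquiv.mul_apply, ← hj, ← hi, map_pow, map_pow, ← hi, ← hj,
      ← pow_mul, ← pow_mul, Nat.mul_comm]
  -- hence `Gal(Ω/ℚ)` is commutative
  have hcommΩ : ∀ a b : Ω ≃ₐ[ℚ] Ω, a * b = b * a := by
    intro a b
    set d : Ω ≃ₐ[ℚ] Ω := (b * a)⁻¹ * (a * b) with hd
    have hdη : d (algebraMap K Ω ζp) = algebraMap K Ω ζp := by
      rw [hd, AlgEquiv.mul_apply, hcommroot p _ hηp a b, ← AlgEquiv.mul_apply, inv_mul_cancel,
        AlgEquiv.one_apply]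
    have hdζ : d ζ = ζ := by
      rw [hd, AlgEquiv.mul_apply, hcommroot M _ hζ a b, ← AlgEquiv.mul_apply, inv_mul_cancel,
        AlgEquiv.one_apply]
    obtain ⟨g, hg⟩ := exists_algEquiv_of_fix hζp d hdη
    have hg1 : g = 1 := eq_one_of K L M Ω hζ g (hne g (by rw [hg, hdζ])) (by rw [hg, hdζ])
    have hd1 : d = 1 := by
      ext x
      rw [← hg, hg1]
      rfl
    rw [hd] at hd1
    exact (inv_mul_eq_one.mp hd1).symm
  -- hence `Gal(L/ℚ)` is commutative: contradiction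
  apply not_commutative p K L hp h3 hdeg hconj
  intro a b
  obtain ⟨a', rfl⟩ := AlgEquiv.restrictNormalHom_surjective (F := ℚ) (K₁ := L) Ω a
  obtain ⟨b', rfl⟩ := AlgEquiv.restrictNormalHom_surjective (F := ℚ) (K₁ := L) Ω b
  rw [← map_mul, ← map_mul, hcommΩ]

/-- **(G1)** Every pair (element of `Gal(L/K)`, unit modulo `M`) is realised by an element of
`Gal(Ω/K)`, `Ω = L(ζ_M)`. -/
theorem exists_gal (hp : p.Prime) (h3 : 3 ≤ p) (hpM : M.Coprime p)
    (hdeg : Module.finrank K L = p) (hconj : ConjInv p K L) {ζ : Ω} (hζ : IsPrimitiveRoot ζ M)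
    (c : L ≃ₐ[K] L) (u : (ZMod M)ˣ) :
    ∃ g : Ω ≃ₐ[K] Ω, AlgEquiv.restrictNormalHom L g = c ∧ g ζ = ζ ^ (u : ZMod M).val := by
  obtain ⟨g₀, hg₀ζ, hg₀⟩ := exists_fix_zeta p K L M Ω hp h3 hdeg hconj hζ
  obtain ⟨g₁, hg₁⟩ := exists_gal_zeta p K L M Ω hp hpM hζ u
  have hcard : Nat.card (L ≃ₐ[K] L) = p := by
    rw [IsGalois.card_aut_eq_finrank, hdeg]
  have : Fact p.Prime := ⟨hp⟩
  have htop := zpowers_eq_top_of_prime_card hcard hg₀
  have hmem : c * (AlgEquiv.restrictNormalHom L g₁)⁻¹ ∈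
      Subgroup.zpowers (AlgEquiv.restrictNormalHom L g₀) := by
    rw [htop]; exact Subgroup.mem_top _
  obtain ⟨k, hk⟩ := Subgroup.mem_zpowers_iff.mp hmem
  have hfix : ∀ k : ℤ, (g₀ ^ k) ζ = ζ := by
    have h0 : g₀ ∈ MulAction.stabilizer (Ω ≃ₐ[K] Ω) ζ := hg₀ζ
    intro k
    exact (Subgroup.zpow_mem _ h0 k : g₀ ^ k ∈ MulAction.stabilizer (Ω ≃ₐ[K] Ω) ζ)
  refine ⟨g₀ ^ k * g₁, ?_, ?_⟩
  · rw [map_mul, map_zpow, hk, inv_mul_cancel_right]
  · rw [AlgEquiv.mul_apply, hg₁, map_pow, hfix]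

end Main

section Frobenius

variable (K L : Type*) [Field K] [Field L] [NumberField K] [NumberField L] [Algebra K L]
  [IsGalois K L]
variable (M : ℕ) [NeZero M]
variable (Ω : Type*) [Field Ω] [NumberField Ω] [Algebra L Ω] [Algebra K Ω] [IsScalarTower K L Ω]
  [IsGalois K Ω]

omit [NumberField K] [NumberField L] [IsGalois K L] [NumberField Ω] [IsGalois K Ω] in
/-- Compatibility of restriction with the algebra map `L → Ω`. -/
theorem algebraMap_restrict_smul [Normal K L] (g : Ω ≃ₐ[K] Ω) (x : L) :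
    algebraMap L Ω (AlgEquiv.restrictNormalHom L g • x) = g • algebraMap L Ω x :=
  AlgEquiv.restrictNormal_commutes g L x

omit [IsGalois K L] [IsScalarTower K L Ω] in
/-- **(G3), cyclotomic part.** A Frobenius element of `Ω/K` at a prime `P` not containing `M`
raises an `M`-th root of unity to the power `N(P ∩ K)`. -/
theorem frob_apply_zeta {ζ : Ω} (hζ : ζ ^ M = 1) (P : Ideal (𝓞 Ω))
    (hPM : (M : 𝓞 Ω) ∉ P) (φ : Ω ≃ₐ[K] Ω) (hφ : IsArithFrobAt (𝓞 K) φ P) :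
    φ ζ = ζ ^ Ideal.absNorm (P.under (𝓞 K)) := by
  have hint : IsIntegral ℤ ζ :=
    ⟨X ^ M - 1, monic_X_pow_sub_C 1 (NeZero.ne M), by simp [hζ]⟩
  set ζ' : 𝓞 Ω := ⟨ζ, hint⟩ with hζ'
  have h1 : ζ' ^ M = 1 := by
    apply RingOfIntegers.ext
    change algebraMap (𝓞 Ω) Ω (ζ' ^ M) = algebraMap (𝓞 Ω) Ω 1
    rw [map_pow, map_one]
    exact hζ
  have h2 := hφ.apply_of_pow_eq_one h1 hPM
  have h3 := congrArg (algebraMap (𝓞 Ω) Ω) h2
  rw [map_pow] at h3
  exact h3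

/-- **(G3), restriction part.** A Frobenius element of `Ω/K` at a nonzero prime `P` restricts
on `L` to the Frobenius of `P ∩ K` (for `L/K` abelian and unramified). -/
theorem frob_restrict (hab : ∀ a b : L ≃ₐ[K] L, a * b = b * a)
    (hur : ArtinMap.IsUnram L (L ≃ₐ[K] L)) (P : Ideal (𝓞 Ω)) [hP1 : P.IsPrime] (hP : P ≠ ⊥)
    (φ : Ω ≃ₐ[K] Ω) (hφ : IsArithFrobAt (𝓞 K) φ P) :
    AlgEquiv.restrictNormalHom L φ = ArtinMap.frob K L (L ≃ₐ[K] L) (P.under (𝓞 K)) := by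
  set q : Ideal (𝓞 K) := P.under (𝓞 K) with hq
  set Q : Ideal (𝓞 L) := P.under (𝓞 L) with hQ
  have hq1 : q.IsPrime := Ideal.IsPrime.under (𝓞 K) P
  have hQ1 : Q.IsPrime := Ideal.IsPrime.under (𝓞 L) P
  have hqne : q ≠ ⊥ := fun h => hP (Ideal.eq_bot_of_comap_eq_bot (R := 𝓞 K) h)
  have hQq : Q.LiesOver q := by
    constructor
    rw [hQ, Ideal.under_under]
  refine ArtinMap.frob_unique' hab hur q hqne Q (fun x => ?_)
  change algebraMap (𝓞 L) (𝓞 Ω) _ ∈ P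
  rw [map_sub, map_pow, ArtinBase.algebraMap_res_smul (AlgEquiv.restrictNormalHom L)
    (algebraMap_restrict_smul K L Ω) φ x]
  exact hφ (algebraMap (𝓞 L) (𝓞 Ω) x)

end Frobenius

section Theta

variable (K L : Type*) [Field K] [Field L] [Algebra K L] [Normal K L]
variable (M : ℕ) [NeZero M]
variable (Ω : Type*) [Field Ω] [Algebra L Ω] [Algebra K Ω] [IsScalarTower K L Ω]

omit [NeZero M] in
/-- Exponents of a primitive root are determined modulo its order. -/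
theorem natCast_eq_of_pow_eq {ζ : Ω} (hζ : IsPrimitiveRoot ζ M) [NeZero M] {x y : ℕ}
    (h : ζ ^ x = ζ ^ y) : (x : ZMod M) = (y : ZMod M) := by
  rw [ZMod.natCast_eq_natCast_iff]
  have h1 : ζ ^ (x % M) = ζ ^ (y % M) := by
    have hx := pow_mod_orderOf ζ x
    have hy := pow_mod_orderOf ζ y
    rw [← hζ.eq_orderOf] at hx hy
    rw [hx, hy, h]
  exact hζ.pow_inj (Nat.mod_lt _ (NeZero.pos M)) (Nat.mod_lt _ (NeZero.pos M)) h1

/-- The mod `M` cyclotomic character of `Gal(Ω/K)` (for `Ω` containing a primitive `M`-th root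
of unity). -/
noncomputable def chi {ζ : Ω} (hζ : IsPrimitiveRoot ζ M) : (Ω ≃ₐ[K] Ω) →* (ZMod M)ˣ :=
  (modularCyclotomicCharacter Ω hζ.card_rootsOfUnity).comp
    (MulSemiringAction.toRingAut (Ω ≃ₐ[K] Ω) Ω)

theorem chi_spec {ζ : Ω} (hζ : IsPrimitiveRoot ζ M) (g : Ω ≃ₐ[K] Ω) {ω : Ω} (hω : ω ^ M = 1) :
    g ω = ω ^ ((chi K M Ω hζ g : (ZMod M)ˣ) : ZMod M).val := by
  have h := modularCyclotomicCharacter.spec Ω hζ.card_rootsOfUnity
    (MulSemiringAction.toRingAut (Ω ≃ₐ[K] Ω) Ω g) (t := (rootsOfUnity.mkOfPowEq ω hω : Ωˣ))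
    (rootsOfUnity.mkOfPowEq ω hω).2
  rw [rootsOfUnity.coe_mkOfPowEq] at h
  exact h

/-- The character is determined by the exponent on a primitive root. -/
theorem chi_eq_of {ζ : Ω} (hζ : IsPrimitiveRoot ζ M) (g : Ω ≃ₐ[K] Ω) (a : ℕ)
    (h : g ζ = ζ ^ a) : ((chi K M Ω hζ g : (ZMod M)ˣ) : ZMod M) = (a : ZMod M) := by
  have h1 := chi_spec K M Ω hζ g hζ.pow_eq_one
  rw [h] at h1
  have h2 := natCast_eq_of_pow_eq M Ω hζ h1
  rw [h2, ZMod.natCast_zmod_val]

/-- The map `Gal(Ω/K) → Gal(L/K) × (ℤ/M)ˣ`, `g ↦ (g|_L, cyclotomic exponent of g)`. -/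
noncomputable def theta {ζ : Ω} (hζ : IsPrimitiveRoot ζ M) :
    (Ω ≃ₐ[K] Ω) →* (L ≃ₐ[K] L) × (ZMod M)ˣ :=
  (AlgEquiv.restrictNormalHom L).prod (chi K M Ω hζ)

theorem theta_apply {ζ : Ω} (hζ : IsPrimitiveRoot ζ M) (g : Ω ≃ₐ[K] Ω) :
    theta K L M Ω hζ g = (AlgEquiv.restrictNormalHom L g, chi K M Ω hζ g) := rfl

/-- `theta` is injective: `Ω = L(ζ_M)`. -/
theorem theta_injective [IsCyclotomicExtension {M} L Ω] {ζ : Ω} (hζ : IsPrimitiveRoot ζ M) :
    Function.Injective (theta K L M Ω hζ) := by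
  rw [injective_iff_map_eq_one]
  intro g hg
  rw [theta_apply, Prod.mk_eq_one] at hg
  refine eq_one_of K L M Ω hζ g hg.1 ?_
  have h := chi_spec K M Ω hζ g hζ.pow_eq_one
  rw [hg.2, Units.val_one, ZMod.val_one_eq_one_mod] at h
  have h2 := pow_mod_orderOf ζ 1
  rw [← hζ.eq_orderOf, pow_one] at h2
  rw [h2] at h
  exact h

end Theta

section ThetaNF

variable (p : ℕ) (K L : Type*) [Field K] [Field L] [NumberField K] [NumberField L] [Algebra K L]
  [IsCyclotomicExtension {p} ℚ K] [IsGalois ℚ L] [IsGalois K L]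
variable (M : ℕ) [NeZero M]
variable (Ω : Type*) [Field Ω] [NumberField Ω] [Algebra L Ω] [IsCyclotomicExtension {M} L Ω]
  [Algebra K Ω] [IsScalarTower K L Ω]

/-- `theta : Gal(Ω/K) → Gal(L/K) × (ℤ/M)ˣ` is surjective (`= (G1)`). -/
theorem theta_surjective (hp : p.Prime) (h3 : 3 ≤ p) (hpM : M.Coprime p)
    (hdeg : Module.finrank K L = p) (hconj : ConjInv p K L) {ζ : Ω} (hζ : IsPrimitiveRoot ζ M) :
    Function.Surjective (theta K L M Ω hζ) := by
  rintro ⟨c, u⟩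
  obtain ⟨g, hg1, hg2⟩ := exists_gal p K L M Ω hp h3 hpM hdeg hconj hζ c u
  refine ⟨g, ?_⟩
  rw [theta_apply, hg1]
  congr 1
  apply Units.ext
  rw [chi_eq_of K M Ω hζ g _ hg2, ZMod.natCast_zmod_val]

/-- `theta` is bijective. -/
theorem theta_bijective (hp : p.Prime) (h3 : 3 ≤ p) (hpM : M.Coprime p)
    (hdeg : Module.finrank K L = p) (hconj : ConjInv p K L) {ζ : Ω} (hζ : IsPrimitiveRoot ζ M) :
    Function.Bijective (theta K L M Ω hζ) :=
  ⟨theta_injective K L M Ω hζ, theta_surjective p K L M Ω hp h3 hpM hdeg hconj hζ⟩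

omit [IsCyclotomicExtension {p} ℚ K] [IsGalois ℚ L] [IsCyclotomicExtension {M} L Ω] in
/-- The cyclotomic exponent of a Frobenius element at a prime `P` not containing `M` is the
norm of `P ∩ K`. -/
theorem chi_frob [IsGalois K Ω] {ζ : Ω} (hζ : IsPrimitiveRoot ζ M) (P : Ideal (𝓞 Ω))
    (hPM : (M : 𝓞 Ω) ∉ P) (φ : Ω ≃ₐ[K] Ω) (hφ : IsArithFrobAt (𝓞 K) φ P) :
    ((chi K M Ω hζ φ : (ZMod M)ˣ) : ZMod M) = (Ideal.absNorm (P.under (𝓞 K)) : ZMod M) :=
  chi_eq_of K M Ω hζ φ _ (frob_apply_zeta K M Ω hζ.pow_eq_one P hPM φ hφ)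

omit [IsCyclotomicExtension {p} ℚ K] [IsGalois ℚ L] [IsCyclotomicExtension {M} L Ω] in
/-- **(G3)** in terms of `theta`: the image of a Frobenius element at `P` is
`(Frobenius of P ∩ K in L/K, N(P ∩ K) mod M)`. -/
theorem theta_frob [IsGalois K Ω] (hab : ∀ a b : L ≃ₐ[K] L, a * b = b * a)
    (hur : ArtinMap.IsUnram L (L ≃ₐ[K] L)) {ζ : Ω} (hζ : IsPrimitiveRoot ζ M)
    (P : Ideal (𝓞 Ω)) [P.IsPrime] (hP : P ≠ ⊥) (hPM : (M : 𝓞 Ω) ∉ P) (φ : Ω ≃ₐ[K] Ω)
    (hφ : IsArithFrobAt (𝓞 K) φ P) :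
    (theta K L M Ω hζ φ).1 = ArtinMap.frob K L (L ≃ₐ[K] L) (P.under (𝓞 K)) ∧
      (((theta K L M Ω hζ φ).2 : (ZMod M)ˣ) : ZMod M) =
        (Ideal.absNorm (P.under (𝓞 K)) : ZMod M) :=
  ⟨frob_restrict K L Ω hab hur P hP φ hφ, chi_frob K M Ω hζ P hPM φ hφ⟩

end ThetaNF

end Fermat.Agent.S14.CycloGal
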