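import Mathlib
import Fermat.Agent.S14.Defs
import Fermat.Agent.S14.CycloGal
import Fermat.Agent.S14.CycloFrob
import Fermat.Agent.S14.CrossH

/-!
# S14, stream E (leaf E9 feed): the crossing data attached to a pair of primes

Setting of `Defs.NoField`: `K = ℚ(ζ_p)`, `L/ℚ` Galois, `L/K` Galois of degree `p`, with the
conjugation law `ConjInv p K L`, `p` an odd prime.  For two nonzero primes `q₁ q₂` of `𝓞 K` the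
theorem `pack` produces, in continuation-passing form,

* a squarefree modulus `m` (a product of four auxiliary primes) coprime to `p`, with
  `Ω := CyclotomicField m L` (a number field, Galois over `K`) and a primitive `m`-th root `ζ`;
* primes `P₁ P₂` of `𝓞 Ω` above `q₁ q₂` not containing `m`, with Frobenius elements `φ₁ φ₂`;
* subgroups `H₁ ∋ φ₁`, `H₂ ∋ φ₂` of `Gal(Ω/K)` acting faithfully on `ζ` such that `H₁`, `H₂` and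
  `H₁ ⊓ H₂` restrict onto `Gal(L/K)`.
-/

set_option autoImplicit false

open NumberField

namespace Fermat.Agent.S14.CrossPack

universe u

section Norm

variable {K : Type*} [Field K] [NumberField K]

/-- The absolute norm of a nonzero prime ideal is at least `2`. -/
theorem two_le_absNorm (q : Ideal (𝓞 K)) [hq1 : q.IsPrime] (hq : q ≠ ⊥) :
    2 ≤ Ideal.absNorm q := by
  have h0 : Ideal.absNorm q ≠ 0 := by
    rw [Ne, Ideal.absNorm_eq_zero_iff]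
    exact hq
  have h1 : Ideal.absNorm q ≠ 1 := by
    rw [Ne, Ideal.absNorm_eq_one_iff]
    exact hq1.ne_top
  omega

/-- A natural number coprime to the norm of a prime ideal does not lie in it. -/
theorem natCast_notMem_of_coprime (q : Ideal (𝓞 K)) [hq1 : q.IsPrime] {m : ℕ}
    (hm : m.Coprime (Ideal.absNorm q)) : (m : 𝓞 K) ∉ q := by
  intro h
  have h2 : (Ideal.absNorm q : 𝓞 K) ∈ q := Ideal.absNorm_mem q
  have hg := Nat.gcd_eq_gcd_ab m (Ideal.absNorm q)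
  rw [hm.gcd_eq_one] at hg
  have h3 : (1 : 𝓞 K) = (m : 𝓞 K) * ((Nat.gcdA m (Ideal.absNorm q) : ℤ) : 𝓞 K) +
      (Ideal.absNorm q : 𝓞 K) * ((Nat.gcdB m (Ideal.absNorm q) : ℤ) : 𝓞 K) := by
    have := congrArg (Int.cast : ℤ → 𝓞 K) hg
    push_cast at this
    exact this
  have h4 : (1 : 𝓞 K) ∈ q := by
    rw [h3]
    exact q.add_mem (q.mul_mem_right _ h) (q.mul_mem_right _ h2)
  exact hq1.ne_top ((Ideal.eq_top_iff_one q).mpr h4)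

end Norm

/-- **The crossing data of a pair of primes** (continuation-passing form).  In the setting of
`Defs.NoField` (`K = ℚ(ζ_p)`, `L/ℚ` Galois, `[L : K] = p` odd, `ConjInv`), for two nonzero primes
`q₁ q₂` of `𝓞 K`: a squarefree `m` coprime to `p`, the number field `Ω = L(ζ_m)` Galois over `K`,
primes `Pᵢ` of `𝓞 Ω` over `qᵢ` not containing `m` with Frobenius elements `φᵢ`, and subgroups
`Hᵢ ∋ φᵢ` of `Gal(Ω/K)` acting faithfully on `ζ_m`, with `H₁`, `H₂`, `H₁ ⊓ H₂` restricting onto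
`Gal(L/K)`. -/
theorem pack (p : ℕ) (hp : p.Prime) (hp2 : p ≠ 2)
    (K L : Type u) [Field K] [Field L] [NumberField K] [NumberField L] [Algebra K L]
    [IsCyclotomicExtension {p} ℚ K] [IsGalois ℚ L] [IsGalois K L]
    (hdeg : Module.finrank K L = p) (hconj : ConjInv p K L)
    (q₁ q₂ : Ideal (𝓞 K)) [q₁.IsPrime] [q₂.IsPrime] (hq₁ : q₁ ≠ ⊥) (hq₂ : q₂ ≠ ⊥)
    {R : Prop}
    (k : ∀ (m : ℕ) (_ : Squarefree m) (_ : m.Coprime p)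
        (Ω : Type u) [Field Ω] [NumberField Ω] [Algebra K Ω] [Algebra L Ω]
        [IsScalarTower K L Ω] [IsGalois K Ω] [IsCyclotomicExtension {m} L Ω]
        (ζ : Ω) (_ : IsPrimitiveRoot ζ m)
        (H₁ H₂ : Subgroup (Ω ≃ₐ[K] Ω))
        (_ : ∀ g ∈ H₁, g ζ = ζ → g = 1) (_ : ∀ g ∈ H₂, g ζ = ζ → g = 1)
        (_ : ∀ c : L ≃ₐ[K] L, ∃ h ∈ H₁, AlgEquiv.restrictNormalHom L h = c)
        (_ : ∀ c : L ≃ₐ[K] L, ∃ h ∈ H₂, AlgEquiv.restrictNormalHom L h = c)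
        (_ : ∀ c : L ≃ₐ[K] L, ∃ h ∈ H₁ ⊓ H₂, AlgEquiv.restrictNormalHom L h = c)
        (P₁ P₂ : Ideal (𝓞 Ω)) [P₁.IsPrime] [P₂.IsPrime] (_ : P₁ ≠ ⊥) (_ : P₂ ≠ ⊥)
        (_ : (m : 𝓞 Ω) ∉ P₁) (_ : (m : 𝓞 Ω) ∉ P₂)
        (_ : P₁.under (𝓞 K) = q₁) (_ : P₂.under (𝓞 K) = q₂)
        (φ₁ φ₂ : Ω ≃ₐ[K] Ω) (_ : φ₁ ∈ H₁) (_ : φ₂ ∈ H₂)
        (_ : IsArithFrobAt (𝓞 K) φ₁ P₁) (_ : IsArithFrobAt (𝓞 K) φ₂ P₂), R) : R := by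
  have h3 : 3 ≤ p := by
    have := hp.two_le
    omega
  have hn₁ : 2 ≤ Ideal.absNorm q₁ := two_le_absNorm q₁ hq₁
  have hn₂ : 2 ≤ Ideal.absNorm q₂ := two_le_absNorm q₂ hq₂
  obtain ⟨ℓ₁, ℓ₁', ℓ₂, ℓ₂', k₁, k₁', k₂, k₂', ⟨hℓ₁, hℓ₁', hℓ₂, hℓ₂'⟩,
    ⟨h11, h12, h12', h1'2, h1'2', h22⟩, ⟨hS₁, hS₁', hS₂, hS₂'⟩, ⟨hp₁, hp₁', hp₂, hp₂'⟩,
    ⟨hk₁, hkk₁, hk₂, hkk₂⟩, ho₁, ho₁', ho₂, ho₂'⟩ :=
    CrossH.exists_four_primes p hp hp2 (Ideal.absNorm q₁) (Ideal.absNorm q₂) hn₁ hn₂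
      (Ideal.absNorm q₁ * Ideal.absNorm q₂).primeFactors
  have hnn : Ideal.absNorm q₁ * Ideal.absNorm q₂ ≠ 0 := by positivity
  -- coprimality of the four primes with the two norms
  have hcop : ∀ ℓ : ℕ, ℓ.Prime → ℓ ∉ (Ideal.absNorm q₁ * Ideal.absNorm q₂).primeFactors →
      ℓ.Coprime (Ideal.absNorm q₁) ∧ ℓ.Coprime (Ideal.absNorm q₂) := by
    intro ℓ hℓ hmem
    have hnd : ¬ ℓ ∣ Ideal.absNorm q₁ * Ideal.absNorm q₂ := fun hd =>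
      hmem (Nat.mem_primeFactors.mpr ⟨hℓ, hd, hnn⟩)
    exact ⟨(Nat.Prime.coprime_iff_not_dvd hℓ).mpr fun hd => hnd (Dvd.dvd.mul_right hd _),
      (Nat.Prime.coprime_iff_not_dvd hℓ).mpr fun hd => hnd (Dvd.dvd.mul_left hd _)⟩
  have hm₁ : (ℓ₁ * ℓ₁' * (ℓ₂ * ℓ₂')).Coprime (Ideal.absNorm q₁) :=
    Nat.Coprime.mul_left (Nat.Coprime.mul_left (hcop ℓ₁ hℓ₁ hS₁).1 (hcop ℓ₁' hℓ₁' hS₁').1)
      (Nat.Coprime.mul_left (hcop ℓ₂ hℓ₂ hS₂).1 (hcop ℓ₂' hℓ₂' hS₂').1)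
  have hm₂ : (ℓ₁ * ℓ₁' * (ℓ₂ * ℓ₂')).Coprime (Ideal.absNorm q₂) :=
    Nat.Coprime.mul_left (Nat.Coprime.mul_left (hcop ℓ₁ hℓ₁ hS₁).2 (hcop ℓ₁' hℓ₁' hS₁').2)
      (Nat.Coprime.mul_left (hcop ℓ₂ hℓ₂ hS₂).2 (hcop ℓ₂' hℓ₂' hS₂').2)
  have hsq : Squarefree (ℓ₁ * ℓ₁' * (ℓ₂ * ℓ₂')) :=
    CrossH.squarefree_four hℓ₁ hℓ₁' hℓ₂ hℓ₂' h11 h12 h12' h1'2 h1'2' h22
  have hmp : (ℓ₁ * ℓ₁' * (ℓ₂ * ℓ₂')).Coprime p :=
    ((Nat.Prime.coprime_iff_not_dvd hp).mpr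
      (CrossH.not_dvd_four hℓ₁ hℓ₁' hℓ₂ hℓ₂' hp hp₁ hp₁' hp₂ hp₂')).symm
  generalize hmdef : ℓ₁ * ℓ₁' * (ℓ₂ * ℓ₂') = m at hm₁ hm₂ hsq hmp
  have hmpos : NeZero m := by
    constructor
    rw [← hmdef]
    exact Nat.mul_ne_zero (Nat.mul_ne_zero hℓ₁.ne_zero hℓ₁'.ne_zero)
      (Nat.mul_ne_zero hℓ₂.ne_zero hℓ₂'.ne_zero)
  -- the field `Ω = L(ζ_m)`
  have : IsGalois K (CyclotomicField m L) := CycloGal.isGalois_top K L m (CyclotomicField m L)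
  obtain ⟨ζ, hζ⟩ := IsCyclotomicExtension.exists_isPrimitiveRoot L (CyclotomicField m L)
    (Set.mem_singleton m) (NeZero.ne m)
  -- Frobenius elements
  obtain ⟨P₁, φ₁, hP₁, hP₁ne, hP₁q, hφ₁, hφ₁ζ⟩ :=
    CycloFrob.exists_frob_zeta (Ω := CyclotomicField m L) (M := m) q₁ hq₁
      (natCast_notMem_of_coprime q₁ hm₁)
  obtain ⟨P₂, φ₂, hP₂, hP₂ne, hP₂q, hφ₂, hφ₂ζ⟩ :=
    CycloFrob.exists_frob_zeta (Ω := CyclotomicField m L) (M := m) q₂ hq₂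
      (natCast_notMem_of_coprime q₂ hm₂)
  have hmP₁ : (m : 𝓞 (CyclotomicField m L)) ∉ P₁ := by
    intro h
    apply natCast_notMem_of_coprime q₁ hm₁
    rw [← hP₁q, Ideal.under_def, Ideal.mem_comap, map_natCast]
    exact h
  have hmP₂ : (m : 𝓞 (CyclotomicField m L)) ∉ P₂ := by
    intro h
    apply natCast_notMem_of_coprime q₂ hm₂
    rw [← hP₂q, Ideal.under_def, Ideal.mem_comap, map_natCast]
    exact h
  have hC : Nat.card (L ≃ₐ[K] L) = p := by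
    rw [IsGalois.card_aut_eq_finrank, hdeg]
  subst hmdef
  obtain ⟨H₁, H₂, hφ₁H, hφ₂H, hf₁, hf₂, -, hs₁, hs₂, hs₁₂⟩ :=
    CrossH.exists_subgroups' K L (CyclotomicField (ℓ₁ * ℓ₁' * (ℓ₂ * ℓ₂')) L) hp hC
      hℓ₁ hℓ₁' hℓ₂ hℓ₂' h11 h12 h12' h1'2 h1'2' h22
      hk₁ hkk₁ hk₂ hkk₂ ho₁ ho₁' ho₂ ho₂' ζ hζ
      (fun c u => CycloGal.exists_gal p K L _ _ hp h3 hmp hdeg hconj hζ c u)
      (fun g h1 h2 => CycloGal.eq_one_of K L _ _ hζ g h1 h2)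
      φ₁ φ₂ (hφ₁ζ ζ hζ.pow_eq_one) (hφ₂ζ ζ hζ.pow_eq_one)
  exact k _ hsq hmp (CyclotomicField (ℓ₁ * ℓ₁' * (ℓ₂ * ℓ₂')) L) ζ hζ H₁ H₂ hf₁ hf₂ hs₁ hs₂ hs₁₂
    P₁ P₂ hP₁ne hP₂ne hmP₁ hmP₂ hP₁q hP₂q φ₁ φ₂ hφ₁H hφ₂H hφ₁ hφ₂

end Fermat.Agent.S14.CrossPack
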