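import Mathlib
import Fermat.Agent.S14.CrossPair
import Fermat.Agent.S14.UniFinal

/-!
# S14, stream E: the crossing datum, with the second inequality discharged

`CrossPair.crossDatum` with its two `UniHyp` hypotheses proved by `UniFinal.index_le_finrank`.
-/

set_option autoImplicit false
set_option linter.unusedSectionVars false

open NumberField
open scoped nonZeroDivisors

namespace Fermat.Agent.S14.CrossPairU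

open Fermat.Agent.S14.ArtinMap Fermat.Agent.S14.CrossField Fermat.Agent.S14.CrossPair

variable (K L Ω : Type*) [Field K] [NumberField K] [Field L] [NumberField L] [Field Ω]
  [NumberField Ω] [Algebra K L] [Algebra K Ω] [Algebra L Ω] [IsScalarTower K L Ω]
  [IsGalois K Ω] [IsGalois K L]

/-- The second inequality for `M_H / F_H`. -/
theorem uniHyp (H : Subgroup (Ω ≃ₐ[K] Ω))
    (hs : ∀ c : L ≃ₐ[K] L, ∃ h ∈ H, AlgEquiv.restrictNormalHom L h = c) {p : ℕ}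
    (hdeg : Module.finrank K L = p) : UniHyp K L Ω H p :=
  fun Hc S hH => (UniFinal.index_le_finrank (FH K Ω H) (MH K L Ω H) Hc S hH).trans_eq
    ((finrank_MH K L Ω H hs).trans hdeg)

/-- **The crossing datum for a pair of primes** (unconditional form). -/
theorem crossDatum {p : ℕ} (hp : p.Prime) (hp2 : p ≠ 2) (hdeg : Module.finrank K L = p)
    (hab : ∀ a b : L ≃ₐ[K] L, a * b = b * a) (hur : IsUnram L (L ≃ₐ[K] L))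
    (m : ℕ) (hm : Squarefree m) (ζ : Ω) (hζ : ζ ^ m = 1)
    (H₁ H₂ : Subgroup (Ω ≃ₐ[K] Ω))
    (hf₁ : ∀ g ∈ H₁, g ζ = ζ → g = 1) (hf₂ : ∀ g ∈ H₂, g ζ = ζ → g = 1)
    (hs : ∀ c : L ≃ₐ[K] L, ∃ h ∈ H₁ ⊓ H₂, AlgEquiv.restrictNormalHom L h = c)
    (P₁ P₂ : Ideal (𝓞 Ω)) [hP₁' : P₁.IsPrime] [hP₂' : P₂.IsPrime] (hP₁ : P₁ ≠ ⊥) (hP₂ : P₂ ≠ ⊥)
    (hm₁ : (m : 𝓞 Ω) ∉ P₁) (hm₂ : (m : 𝓞 Ω) ∉ P₂)
    (φ₁ φ₂ : Ω ≃ₐ[K] Ω) (hφ₁ : φ₁ ∈ H₁) (hφ₂ : φ₂ ∈ H₂)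
    (hfr₁ : IsArithFrobAt (𝓞 K) φ₁ P₁) (hfr₂ : IsArithFrobAt (𝓞 K) φ₂ P₂)
    (Hn : Subgroup (ClassGroup (𝓞 K)))
    (hHn : ∀ (I : Ideal (𝓞 L)) (hI : Ideal.relNorm (𝓞 K) I ∈ (Ideal (𝓞 K))⁰),
      ClassGroup.mk0 ⟨Ideal.relNorm (𝓞 K) I, hI⟩ ∈ Hn)
    (q₁ q₂ : (Ideal (𝓞 K))⁰) (hq₁ : (q₁ : Ideal (𝓞 K)) = P₁.under (𝓞 K))
    (hq₂ : (q₂ : Ideal (𝓞 K)) = P₂.under (𝓞 K))
    (hne₁ : artin K L (L ≃ₐ[K] L) hab q₁ ≠ 1) (hne₂ : artin K L (L ≃ₐ[K] L) hab q₂ ≠ 1) :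
    RecCl.CrossDatum (artin K L (L ≃ₐ[K] L) hab) ClassGroup.mk0 Hn q₁ q₂ :=
  CrossPair.crossDatum K L Ω hp hp2 hdeg hab hur m hm ζ hζ H₁ H₂ hf₁ hf₂ hs
    (uniHyp K L Ω H₁ (fun c => by obtain ⟨h, hh, hc⟩ := hs c; exact ⟨h, hh.1, hc⟩) hdeg)
    (uniHyp K L Ω H₂ (fun c => by obtain ⟨h, hh, hc⟩ := hs c; exact ⟨h, hh.2, hc⟩) hdeg)
    P₁ P₂ hP₁ hP₂ hm₁ hm₂ φ₁ φ₂ hφ₁ hφ₂ hfr₁ hfr₂ Hn hHn q₁ q₂ hq₁ hq₂ hne₁ hne₂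

end Fermat.Agent.S14.CrossPairU
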