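/-
S14, streams D1/D3 (shared): the Dedekind zeta function of a number field as a sum over the
nonzero integral ideals, and two-sided bounds for `(s - 1) * ζ_K(s)` on `(1, 2]`.
Mathlib only.

Main exports (`K` a number field, the sums are over `I : (Ideal (𝓞 K))⁰`):
* `summable_absNorm_rpow`, `tsum_absNorm_rpow_eq` (`= dedekindZeta K s`),
* `tendsto_sub_one_mul_tsum` (the residue as a real limit),
* `exists_upper`, `exists_lower`, `exists_upper_div`, `exists_lower_div`,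
* `tsum_absNorm_rpow_anti`, `one_le_tsum_absNorm_rpow`.
-/
import Mathlib

namespace Fermat.Agent.S14.DedekindBound

open NumberField Ideal nonZeroDivisors Filter Topology

noncomputable section

variable (K : Type*) [Field K] [NumberField K]

/-- The real `n`-th term of the Dedekind zeta series. -/
def zterm (s : ℝ) (n : ℕ) : ℝ :=
  if n = 0 then 0 else (Nat.card {I : Ideal (𝓞 K) // absNorm I = n} : ℝ) * (n : ℝ) ^ (-s)

theorem zterm_nonneg (s : ℝ) (n : ℕ) : 0 ≤ zterm K s n := by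
  unfold zterm
  split_ifs
  · exact le_rfl
  · positivity

theorem term_eq_zterm (s : ℝ) (n : ℕ) :
    LSeries.term (fun n ↦ (Nat.card {I : Ideal (𝓞 K) // absNorm I = n} : ℂ)) (s : ℂ) n =
      ((zterm K s n : ℝ) : ℂ) := by
  unfold zterm
  rcases eq_or_ne n 0 with rfl | hn
  · simp
  · rw [LSeries.term_of_ne_zero hn, if_neg hn]
    push_cast
    rw [Complex.ofReal_cpow (Nat.cast_nonneg n), Complex.ofReal_neg, Complex.cpow_neg,
      div_eq_mul_inv]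
    simp

theorem tendsto_sum_card_div :
    Tendsto (fun n : ℕ ↦ (∑ k ∈ Finset.Icc 1 n,
      (Nat.card {I : Ideal (𝓞 K) // absNorm I = k} : ℝ)) / (n : ℝ)) atTop
      (𝓝 (dedekindZeta_residue K)) := by
  refine ((Ideal.tendsto_norm_le_div_atTop₀ K).comp tendsto_natCast_atTop_atTop).congr fun n ↦ ?_
  simp only [Function.comp_apply, Nat.cast_le, ← Nat.cast_sum]
  congr
  rw [← add_left_inj 1, ← card_norm_le_eq_card_norm_le_add_one,
    show Finset.Icc 1 n = Finset.Ioc 0 n from Finset.Icc_succ_left_eq_Ioc _ _,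
    show 1 = Nat.card {I : Ideal (𝓞 K) // absNorm I = 0} by simp [Ideal.absNorm_eq_zero_iff],
    Finset.sum_Ioc_add_eq_sum_Icc (n.zero_le),
    ← Finset.card_preimage_eq_sum_card_image_eq (fun k _ ↦ finite_setOfPred_absNorm_eq k)]
  simp [Set.coe_eq_subtype]

theorem lseriesSummable_card {s : ℝ} (hs : 1 < s) :
    LSeriesSummable (fun n ↦ (Nat.card {I : Ideal (𝓞 K) // absNorm I = n} : ℂ)) (s : ℂ) := by
  have h := LSeriesSummable_of_sum_norm_bigO_and_nonneg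
    (f := fun n ↦ (Nat.card {I : Ideal (𝓞 K) // absNorm I = n} : ℝ)) (r := 1) (s := (s : ℂ))
    (Asymptotics.isBigO_atTop_natCast_rpow_of_tendsto_div_rpow (a := dedekindZeta_residue K)
      (by simpa using tendsto_sum_card_div K))
    (fun _ ↦ Nat.cast_nonneg _) zero_le_one (by simpa using hs)
  simpa using h

theorem summable_zterm {s : ℝ} (hs : 1 < s) : Summable (zterm K s) := by
  have h := lseriesSummable_card K hs
  unfold LSeriesSummable at h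
  rw [funext (term_eq_zterm K s)] at h
  exact Complex.summable_ofReal.mp h

theorem tsum_zterm_eq (s : ℝ) :
    ((∑' n, zterm K s n : ℝ) : ℂ) = dedekindZeta K s := by
  rw [Complex.ofReal_tsum]
  unfold dedekindZeta LSeries
  exact tsum_congr (fun n ↦ (term_eq_zterm K s n).symm)

theorem finite_fiber (n : ℕ) :
    Finite {I : (Ideal (𝓞 K))⁰ // absNorm (I : Ideal (𝓞 K)) = n} := by
  have : Finite {I : Ideal (𝓞 K) // absNorm I = n} := (finite_setOfPred_absNorm_eq n).to_subtype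
  refine Finite.of_injective
    (fun I => (⟨I.1.1, I.2⟩ : {I : Ideal (𝓞 K) // absNorm I = n})) ?_
  intro a b h
  have h1 : (a.1 : Ideal (𝓞 K)) = b.1 := by
    simpa using congrArg Subtype.val h
  exact Subtype.ext (Subtype.ext h1)

theorem isEmpty_fiber_zero :
    IsEmpty {I : (Ideal (𝓞 K))⁰ // absNorm (I : Ideal (𝓞 K)) = 0} := by
  constructor
  rintro ⟨I, hI⟩
  rw [absNorm_eq_zero_iff] at hI
  exact nonZeroDivisors.coe_ne_zero I hI

theorem card_fiber (n : ℕ) (hn : n ≠ 0) :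
    Nat.card {I : (Ideal (𝓞 K))⁰ // absNorm (I : Ideal (𝓞 K)) = n} =
      Nat.card {I : Ideal (𝓞 K) // absNorm I = n} := by
  refine Nat.card_congr ?_
  exact
    { toFun := fun I => ⟨I.1.1, I.2⟩
      invFun := fun I => ⟨⟨I.1, mem_nonZeroDivisors_iff_ne_zero.mpr (by
        intro h
        apply hn
        rw [← I.2, h]
        simp)⟩, I.2⟩
      left_inv := fun I => rfl
      right_inv := fun I => rfl }

theorem tsum_fiber (s : ℝ) (n : ℕ) :
    ∑' _I : {I : (Ideal (𝓞 K))⁰ // absNorm (I : Ideal (𝓞 K)) = n}, ((n : ℝ) ^ (-s)) =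
      zterm K s n := by
  have := finite_fiber K n
  rw [tsum_const, nsmul_eq_mul]
  unfold zterm
  rcases eq_or_ne n 0 with rfl | hn
  · have := isEmpty_fiber_zero K
    simp
  · rw [if_neg hn, card_fiber K n hn]

/-- (i) The norm series over the nonzero ideals converges for `s > 1`. -/
theorem summable_absNorm_rpow {s : ℝ} (hs : 1 < s) :
    Summable fun I : (Ideal (𝓞 K))⁰ => (absNorm (I : Ideal (𝓞 K)) : ℝ) ^ (-s) := by
  rw [← (Equiv.sigmaFiberEquiv (fun I : (Ideal (𝓞 K))⁰ => absNorm (I : Ideal (𝓞 K)))).summable_iff]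
  rw [summable_sigma_of_nonneg (fun x => by
    simp only [Function.comp_apply]
    positivity)]
  constructor
  · intro n
    have := finite_fiber K n
    exact Summable.of_finite
  · have h : (fun n => ∑' I : {I : (Ideal (𝓞 K))⁰ // absNorm (I : Ideal (𝓞 K)) = n},
        ((fun I : (Ideal (𝓞 K))⁰ => (absNorm (I : Ideal (𝓞 K)) : ℝ) ^ (-s)) ∘
          (Equiv.sigmaFiberEquiv (fun I : (Ideal (𝓞 K))⁰ => absNorm (I : Ideal (𝓞 K)))))
            ⟨n, I⟩) = zterm K s := by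
      funext n
      rw [← tsum_fiber K s n]
      refine tsum_congr (fun I => ?_)
      simp [I.2]
    rw [h]
    exact summable_zterm K hs

theorem tsum_absNorm_rpow {s : ℝ} (hs : 1 < s) :
    ∑' I : (Ideal (𝓞 K))⁰, (absNorm (I : Ideal (𝓞 K)) : ℝ) ^ (-s) = ∑' n, zterm K s n := by
  have hsum := (Equiv.sigmaFiberEquiv
    (fun I : (Ideal (𝓞 K))⁰ => absNorm (I : Ideal (𝓞 K)))).summable_iff.mpr
      (summable_absNorm_rpow K hs)
  rw [← (Equiv.sigmaFiberEquiv (fun I : (Ideal (𝓞 K))⁰ => absNorm (I : Ideal (𝓞 K)))).tsum_eq]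
  have h2 := Summable.tsum_sigma' (fun n => by
    have := finite_fiber K n
    exact Summable.of_finite) hsum
  simp only [Function.comp_apply] at h2
  rw [h2]
  refine tsum_congr (fun n => ?_)
  rw [← tsum_fiber K s n]
  refine tsum_congr (fun I => ?_)
  simp [I.2]

/-- (ii) The norm series over the nonzero ideals is the Dedekind zeta function. -/
theorem tsum_absNorm_rpow_eq {s : ℝ} (hs : 1 < s) :
    ((∑' I : (Ideal (𝓞 K))⁰, (absNorm (I : Ideal (𝓞 K)) : ℝ) ^ (-s) : ℝ) : ℂ) =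
      dedekindZeta K s := by
  rw [tsum_absNorm_rpow K hs, tsum_zterm_eq]

theorem one_le_absNorm (I : (Ideal (𝓞 K))⁰) : (1 : ℝ) ≤ (absNorm (I : Ideal (𝓞 K)) : ℝ) := by
  have h : absNorm (I : Ideal (𝓞 K)) ≠ 0 := fun h =>
    nonZeroDivisors.coe_ne_zero I (absNorm_eq_zero_iff.mp h)
  exact_mod_cast Nat.one_le_iff_ne_zero.mpr h

/-- The residue of the norm series at `s = 1`, as a limit of real numbers. -/
theorem tendsto_sub_one_mul_tsum :
    Tendsto (fun s : ℝ ↦ (s - 1) * ∑' I : (Ideal (𝓞 K))⁰,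
      (absNorm (I : Ideal (𝓞 K)) : ℝ) ^ (-s)) (𝓝[>] 1) (𝓝 (dedekindZeta_residue K)) := by
  have h := tendsto_sub_one_mul_dedekindZeta_nhdsGT K
  rw [← Filter.tendsto_ofReal_iff]
  refine h.congr' ?_
  filter_upwards [self_mem_nhdsWithin] with s hs
  rw [Complex.ofReal_mul, tsum_absNorm_rpow_eq K hs]
  push_cast
  rfl

/-- The norm series is antitone in `s`. -/
theorem tsum_absNorm_rpow_anti {s t : ℝ} (hs : 1 < s) (hst : s ≤ t) :
    ∑' I : (Ideal (𝓞 K))⁰, (absNorm (I : Ideal (𝓞 K)) : ℝ) ^ (-t) ≤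
      ∑' I : (Ideal (𝓞 K))⁰, (absNorm (I : Ideal (𝓞 K)) : ℝ) ^ (-s) := by
  refine Summable.tsum_le_tsum (fun I => ?_) (summable_absNorm_rpow K (lt_of_lt_of_le hs hst))
    (summable_absNorm_rpow K hs)
  exact Real.rpow_le_rpow_of_exponent_le (one_le_absNorm K I) (by linarith)

theorem tsum_absNorm_rpow_nonneg (s : ℝ) :
    0 ≤ ∑' I : (Ideal (𝓞 K))⁰, (absNorm (I : Ideal (𝓞 K)) : ℝ) ^ (-s) :=
  tsum_nonneg (fun _ => by positivity)

theorem one_le_tsum_absNorm_rpow {s : ℝ} (hs : 1 < s) :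
    1 ≤ ∑' I : (Ideal (𝓞 K))⁰, (absNorm (I : Ideal (𝓞 K)) : ℝ) ^ (-s) := by
  have h := (summable_absNorm_rpow K hs).le_tsum (1 : (Ideal (𝓞 K))⁰)
    (fun _ _ => by positivity)
  simpa using h

/-- (iii) Upper bound for `(s - 1) ζ_K(s)` on `(1, 2]`. -/
theorem exists_upper :
    ∃ B : ℝ, ∀ s : ℝ, 1 < s → s ≤ 2 →
      (s - 1) * ∑' I : (Ideal (𝓞 K))⁰, (absNorm (I : Ideal (𝓞 K)) : ℝ) ^ (-s) ≤ B := by
  have h := tendsto_sub_one_mul_tsum K
  have h1 : ∀ᶠ s in 𝓝[>] (1 : ℝ), (s - 1) * ∑' I : (Ideal (𝓞 K))⁰,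
      (absNorm (I : Ideal (𝓞 K)) : ℝ) ^ (-s) < dedekindZeta_residue K + 1 :=
    h.eventually (gt_mem_nhds (by linarith))
  rw [Filter.Eventually, mem_nhdsGT_iff_exists_Ioo_subset] at h1
  obtain ⟨u, hu, hsub⟩ := h1
  have hu1 : (1 : ℝ) < u := hu
  refine ⟨max (dedekindZeta_residue K + 1)
    (∑' I : (Ideal (𝓞 K))⁰, (absNorm (I : Ideal (𝓞 K)) : ℝ) ^ (-((1 + u) / 2))), ?_⟩
  intro s hs1 hs2
  by_cases hsu : s < u
  · exact le_trans (le_of_lt (hsub ⟨hs1, hsu⟩)) (le_max_left _ _)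
  · refine le_trans ?_ (le_max_right _ _)
    have h2 : ∑' I : (Ideal (𝓞 K))⁰, (absNorm (I : Ideal (𝓞 K)) : ℝ) ^ (-s) ≤
        ∑' I : (Ideal (𝓞 K))⁰, (absNorm (I : Ideal (𝓞 K)) : ℝ) ^ (-((1 + u) / 2)) :=
      tsum_absNorm_rpow_anti K (by linarith) (by linarith [not_lt.mp hsu])
    have h3 := tsum_absNorm_rpow_nonneg K s
    calc (s - 1) * ∑' I : (Ideal (𝓞 K))⁰, (absNorm (I : Ideal (𝓞 K)) : ℝ) ^ (-s)
        ≤ 1 * ∑' I : (Ideal (𝓞 K))⁰, (absNorm (I : Ideal (𝓞 K)) : ℝ) ^ (-s) :=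
          mul_le_mul_of_nonneg_right (by linarith) h3
      _ ≤ _ := by rw [one_mul]; exact h2

/-- (iv) Lower bound for `(s - 1) ζ_K(s)` near `s = 1`. -/
theorem exists_lower :
    ∃ c δ : ℝ, 0 < c ∧ 0 < δ ∧ ∀ s : ℝ, 1 < s → s ≤ 1 + δ →
      c ≤ (s - 1) * ∑' I : (Ideal (𝓞 K))⁰, (absNorm (I : Ideal (𝓞 K)) : ℝ) ^ (-s) := by
  have h := tendsto_sub_one_mul_tsum K
  have hpos := dedekindZeta_residue_pos K
  have h1 : ∀ᶠ s in 𝓝[>] (1 : ℝ), dedekindZeta_residue K / 2 < (s - 1) *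
      ∑' I : (Ideal (𝓞 K))⁰, (absNorm (I : Ideal (𝓞 K)) : ℝ) ^ (-s) :=
    h.eventually (lt_mem_nhds (by linarith))
  rw [Filter.Eventually, mem_nhdsGT_iff_exists_Ioo_subset] at h1
  obtain ⟨u, hu, hsub⟩ := h1
  have hu1 : (1 : ℝ) < u := hu
  refine ⟨dedekindZeta_residue K / 2, (u - 1) / 2, by linarith, by linarith, ?_⟩
  intro s hs1 hs2
  exact le_of_lt (hsub ⟨hs1, by linarith⟩)

/-- Upper bound in the form `ζ_K(s) ≤ C / (s - 1)`. -/
theorem exists_upper_div :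
    ∃ C δ : ℝ, 0 < δ ∧ ∀ s : ℝ, 1 < s → s < 1 + δ →
      ∑' I : (Ideal (𝓞 K))⁰, (absNorm (I : Ideal (𝓞 K)) : ℝ) ^ (-s) ≤ C / (s - 1) := by
  obtain ⟨B, hB⟩ := exists_upper K
  refine ⟨B, 1, one_pos, fun s hs1 hs2 => ?_⟩
  rw [le_div_iff₀ (by linarith)]
  have := hB s hs1 (by linarith)
  linarith

/-- Lower bound in the form `c / (s - 1) ≤ ζ_K(s)`. -/
theorem exists_lower_div :
    ∃ c δ : ℝ, 0 < c ∧ 0 < δ ∧ ∀ s : ℝ, 1 < s → s < 1 + δ →
      c / (s - 1) ≤ ∑' I : (Ideal (𝓞 K))⁰, (absNorm (I : Ideal (𝓞 K)) : ℝ) ^ (-s) := by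
  obtain ⟨c, δ, hc, hδ, h⟩ := exists_lower K
  refine ⟨c, δ, hc, hδ, fun s hs1 hs2 => ?_⟩
  rw [div_le_iff₀ (by linarith)]
  have := h s hs1 hs2.le
  linarith

/-- Twisted norm series with bounded coefficients converge absolutely for `s > 1`. -/
theorem summable_mul_absNorm_rpow {s : ℝ} (hs : 1 < s) (c : (Ideal (𝓞 K))⁰ → ℂ)
    (hc : ∀ I, ‖c I‖ ≤ 1) :
    Summable fun I : (Ideal (𝓞 K))⁰ =>
      c I * (((absNorm (I : Ideal (𝓞 K)) : ℝ) ^ (-s) : ℝ) : ℂ) := by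
  refine Summable.of_norm_bounded (summable_absNorm_rpow K hs) (fun I => ?_)
  have h0 : (0 : ℝ) ≤ (absNorm (I : Ideal (𝓞 K)) : ℝ) ^ (-s) := by positivity
  rw [norm_mul, Complex.norm_real, Real.norm_of_nonneg h0]
  calc ‖c I‖ * (absNorm (I : Ideal (𝓞 K)) : ℝ) ^ (-s)
      ≤ 1 * (absNorm (I : Ideal (𝓞 K)) : ℝ) ^ (-s) := mul_le_mul_of_nonneg_right (hc I) h0
    _ = _ := one_mul _

theorem norm_tsum_mul_absNorm_rpow_le {s : ℝ} (hs : 1 < s) (c : (Ideal (𝓞 K))⁰ → ℂ)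
    (hc : ∀ I, ‖c I‖ ≤ 1) :
    ‖∑' I : (Ideal (𝓞 K))⁰, c I * (((absNorm (I : Ideal (𝓞 K)) : ℝ) ^ (-s) : ℝ) : ℂ)‖ ≤
      ∑' I : (Ideal (𝓞 K))⁰, (absNorm (I : Ideal (𝓞 K)) : ℝ) ^ (-s) := by
  refine tsum_of_norm_bounded (summable_absNorm_rpow K hs).hasSum (fun I => ?_)
  have h0 : (0 : ℝ) ≤ (absNorm (I : Ideal (𝓞 K)) : ℝ) ^ (-s) := by positivity
  rw [norm_mul, Complex.norm_real, Real.norm_of_nonneg h0]
  calc ‖c I‖ * (absNorm (I : Ideal (𝓞 K)) : ℝ) ^ (-s)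
      ≤ 1 * (absNorm (I : Ideal (𝓞 K)) : ℝ) ^ (-s) := mul_le_mul_of_nonneg_right (hc I) h0
    _ = _ := one_mul _

end

end Fermat.Agent.S14.DedekindBound
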