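import Mathlib
import Fermat.Prelude.Def_ExtCitation_AdmissibleExtension_v2

set_option autoImplicit false
set_option linter.unusedSectionVars false
set_option linter.style.haveILetI false

namespace Fermat.Agent.S14.GroupRed

open ExtCitation ValuationSubring

/-- The algebraic closure of `ℚ` used by the statement. -/
abbrev Ω : Type := AlgebraicClosure ℚ

/-- The absolute Galois group of `ℚ`. -/
abbrev Γ : Type := Ω ≃ₐ[ℚ] Ω

section chi

variable (p : ℕ) [Fact p.Prime]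

/-- The mod `p` cyclotomic character of the absolute Galois group. -/
noncomputable def chi : Γ →* (ZMod p)ˣ :=
  haveI : NeZero p := ⟨(Fact.out : p.Prime).ne_zero⟩
  { toFun := fun σ => modularCyclotomicCharacter Ω (card_rootsOfUnity_eq_self p) (σ : Ω ≃+* Ω)
    map_one' := map_one (modularCyclotomicCharacter Ω (card_rootsOfUnity_eq_self p))
    map_mul' := fun σ τ =>
      map_mul (modularCyclotomicCharacter Ω (card_rootsOfUnity_eq_self p)) (σ : Ω ≃+* Ω) (τ : Ω ≃+* Ω) }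

theorem cycloExp_eq (σ : Γ) : cycloExp p σ = ((chi p σ : (ZMod p)ˣ) : ZMod p).val := rfl

theorem cycloExp_cast (σ : Γ) : ((cycloExp p σ : ℕ) : ZMod p) = ((chi p σ : (ZMod p)ˣ) : ZMod p) := by
  have : NeZero p := ⟨(Fact.out : p.Prime).ne_zero⟩
  rw [cycloExp_eq, ZMod.natCast_val, ZMod.cast_id', id]

theorem cycloExp_mul (σ τ : Γ) :
    ((cycloExp p (σ * τ) : ℕ) : ZMod p) = cycloExp p σ * cycloExp p τ := by
  simp only [cycloExp_cast, map_mul, Units.val_mul]

theorem cycloExp_one : cycloExp p (1 : Γ) = 1 := by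
  have h1 : (1 : ZMod p).val = 1 := by
    have : Fact (1 < p) := ⟨(Fact.out : p.Prime).one_lt⟩
    exact ZMod.val_one p
  rw [cycloExp_eq, map_one, Units.val_one, h1]

theorem cycloExp_cast_ne_zero (σ : Γ) : ((cycloExp p σ : ℕ) : ZMod p) ≠ 0 := by
  rw [cycloExp_cast]; exact Units.ne_zero _

theorem cycloExp_inv (σ : Γ) :
    ((cycloExp p σ⁻¹ : ℕ) : ZMod p) = ((cycloExp p σ : ℕ) : ZMod p)⁻¹ := by
  simp only [cycloExp_cast, map_inv]
  exact (Units.val_inv_eq_inv_val _)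

/-- The defining property of `cycloExp`. -/
theorem cycloExp_spec (σ : Γ) (ζ : Ω) (hζ : ζ ^ p = 1) : σ ζ = ζ ^ cycloExp p σ := by
  have : NeZero p := ⟨(Fact.out : p.Prime).ne_zero⟩
  have hu : IsUnit ζ := IsUnit.of_pow_eq_one hζ (NeZero.ne p)
  obtain ⟨u, rfl⟩ := hu
  have hmem : u ∈ rootsOfUnity p Ω := by
    rw [mem_rootsOfUnity]; exact Units.ext (by simpa using hζ)
  exact modularCyclotomicCharacter.spec Ω (card_rootsOfUnity_eq_self p) (σ : Ω ≃+* Ω) hmem

theorem cycloExp_eq_one_iff (σ : Γ) : cycloExp p σ = 1 ↔ chi p σ = 1 := by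
  have : NeZero p := ⟨(Fact.out : p.Prime).ne_zero⟩
  have h1 : (1 : ZMod p).val = 1 := by
    have : Fact (1 < p) := ⟨(Fact.out : p.Prime).one_lt⟩
    exact ZMod.val_one p
  rw [cycloExp_eq]
  constructor
  · intro h
    apply Units.ext
    apply ZMod.val_injective
    rw [h, Units.val_one, h1]
  · intro h
    rw [h, Units.val_one, h1]

/-- The kernel of the mod `p` cyclotomic character. -/
noncomputable def kerChi : Subgroup Γ := (chi p).ker

instance : (kerChi p).Normal := by unfold kerChi; infer_instance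

theorem mem_kerChi {σ : Γ} : σ ∈ kerChi p ↔ cycloExp p σ = 1 := by
  rw [cycloExp_eq_one_iff]; exact MonoidHom.mem_ker

theorem mem_kerChi_iff {σ : Γ} : σ ∈ kerChi p ↔ ∀ ζ : Ω, ζ ^ p = 1 → σ ζ = ζ := by
  have : NeZero p := ⟨(Fact.out : p.Prime).ne_zero⟩
  constructor
  · intro h ζ hζ
    rw [cycloExp_spec p σ ζ hζ, (mem_kerChi p).1 h, pow_one]
  · intro h
    change chi p σ = 1
    symm
    have := modularCyclotomicCharacter.unique Ω (card_rootsOfUnity_eq_self p) (σ : Ω ≃+* Ω)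
      (c := 1) (fun t ht => by
        have h1 : (1 : ZMod p).val = 1 := by
          have : Fact (1 < p) := ⟨(Fact.out : p.Prime).one_lt⟩
          exact ZMod.val_one p
        rw [h1, pow_one]
        have ht' : (t : Ω) ^ p = 1 := by
          have := (mem_rootsOfUnity _ _).1 ht
          rw [← Units.val_pow_eq_pow_val, this, Units.val_one]
        exact h t ht')
    exact Units.ext this

end chi

section lin

variable {p : ℕ} [Fact p.Prime]
variable {V : Type} [AddCommGroup V] [Module (ZMod p) V] [DistribMulAction Γ V]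
  [SMulCommClass Γ (ZMod p) V]

variable (V) in
/-- The kernel of the action of the absolute Galois group on `V`. -/
def kerV : Subgroup Γ where
  carrier := {σ | ∀ v : V, σ • v = v}
  one_mem' := fun v => one_smul _ v
  mul_mem' := fun {σ τ} hσ hτ v => by rw [mul_smul, hτ v, hσ v]
  inv_mem' := fun {σ} hσ v => by
    conv_lhs => rw [← hσ v]
    rw [inv_smul_smul]

theorem mem_kerV {σ : Γ} : σ ∈ kerV V ↔ ∀ v : V, σ • v = v := Iff.rfl

instance : (kerV V).Normal where
  conj_mem := fun σ hσ g v => by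
    rw [mul_smul, mul_smul, hσ (g⁻¹ • v), smul_inv_smul]

variable {C : Submodule (ZMod p) V}

theorem isOpen_kerV (hadm : IsAdmissibleExtensionCts p V C) : IsOpen (kerV V : Set Γ) :=
  hadm.open_kernel

theorem finite_V (hadm : IsAdmissibleExtension p V C) : Finite V :=
  Nat.finite_of_card_ne_zero (by
    rw [hadm.card_total]; exact pow_ne_zero _ (Fact.out : p.Prime).ne_zero)

theorem finrank_V (hadm : IsAdmissibleExtension p V C) : Module.finrank (ZMod p) V = 2 := by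
  haveI := finite_V hadm
  have h := Module.natCard_eq_pow_finrank (K := ZMod p) (V := V)
  rw [hadm.card_total, Nat.card_zmod] at h
  exact (Nat.pow_right_injective (Fact.out : p.Prime).two_le h).symm

theorem finrank_C (hadm : IsAdmissibleExtension p V C) : Module.finrank (ZMod p) C = 1 := by
  haveI := finite_V hadm
  have h := Module.natCard_eq_pow_finrank (K := ZMod p) (V := C)
  rw [hadm.card_sub, Nat.card_zmod] at h
  have h' : p ^ 1 = p ^ Module.finrank (ZMod p) C := by rw [pow_one]; exact h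
  exact (Nat.pow_right_injective (Fact.out : p.Prime).two_le h').symm

/-- A generator of the line `C`. -/
theorem exists_gen_C (hadm : IsAdmissibleExtension p V C) :
    ∃ c₀ : V, c₀ ∈ C ∧ c₀ ≠ 0 ∧ ∀ w ∈ C, ∃ a : ZMod p, a • c₀ = w := by
  obtain ⟨⟨c₀, hc₀⟩, hne, hspan⟩ := finrank_eq_one_iff'.1 (finrank_C hadm)
  refine ⟨c₀, hc₀, fun h => hne (Subtype.ext h), fun w hw => ?_⟩
  obtain ⟨a, ha⟩ := hspan ⟨w, hw⟩
  exact ⟨a, congrArg Subtype.val ha⟩

/-- A vector outside the line `C` spans `V` together with `C`. -/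
theorem exists_decomp (hadm : IsAdmissibleExtension p V C) {v₀ : V} (hv₀ : v₀ ∉ C) (v : V) :
    ∃ a : ZMod p, ∃ c ∈ C, v = a • v₀ + c := by
  haveI := finite_V hadm
  have htop : C ⊔ Submodule.span (ZMod p) {v₀} = ⊤ := by
    apply Submodule.eq_top_of_finrank_eq
    rw [finrank_V hadm]
    have hlt : C < C ⊔ Submodule.span (ZMod p) {v₀} := by
      refine lt_of_le_of_ne le_sup_left fun h => hv₀ ?_
      rw [h]
      exact Submodule.mem_sup_right (Submodule.mem_span_singleton_self v₀)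
    have h1 := Submodule.finrank_lt_finrank_of_lt hlt
    rw [finrank_C hadm] at h1
    have h2 := Submodule.finrank_le (C ⊔ Submodule.span (ZMod p) {v₀})
    rw [finrank_V hadm] at h2
    omega
  have hv : v ∈ C ⊔ Submodule.span (ZMod p) {v₀} := by rw [htop]; trivial
  obtain ⟨c, hc, w, hw, rfl⟩ := Submodule.mem_sup.1 hv
  obtain ⟨a, rfl⟩ := Submodule.mem_span_singleton.1 hw
  exact ⟨a, c, hc, add_comm _ _⟩

theorem exists_not_mem_C (hadm : IsAdmissibleExtension p V C) : ∃ v₀ : V, v₀ ∉ C := by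
  by_contra h
  have htop : C = ⊤ := eq_top_iff.2 fun v _ => by
    by_contra hv
    exact h ⟨v, hv⟩
  have h1 := finrank_C hadm
  rw [htop, finrank_top, finrank_V hadm] at h1
  omega

/-- Elements of `C` are fixed by the whole Galois group. -/
theorem smul_of_mem (hadm : IsAdmissibleExtension p V C) (σ : Γ) {x : V} (hx : x ∈ C) :
    σ • x = x := hadm.fixed_sub σ x hx

/-- Modulo `C`, the Galois group acts through the cyclotomic character. -/
theorem exists_smul_eq (hadm : IsAdmissibleExtension p V C) (σ : Γ) (v : V) :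
    ∃ c ∈ C, σ • v = ((cycloExp p σ : ℕ) : ZMod p) • v + c :=
  ⟨σ • v - ((cycloExp p σ : ℕ) : ZMod p) • v, hadm.cyclo_quot σ v, by abel⟩

/-- On the kernel of the cyclotomic character the action is unipotent. -/
theorem smul_sub_mem (hadm : IsAdmissibleExtension p V C) {τ : Γ} (hτ : τ ∈ kerChi p) (v : V) :
    τ • v - v ∈ C := by
  have h := hadm.cyclo_quot τ v
  rw [(mem_kerChi p).1 hτ, Nat.cast_one, one_smul] at h
  exact h

theorem kerV_le_kerChi (hadm : IsAdmissibleExtension p V C) : kerV V ≤ kerChi p := by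
  intro σ hσ
  obtain ⟨v₀, hv₀⟩ := exists_not_mem_C hadm
  have h := hadm.cyclo_quot σ v₀
  rw [hσ v₀] at h
  have h1 : ((cycloExp p σ : ℕ) : ZMod p) = 1 := by
    by_contra hne
    have hne' : (1 : ZMod p) - ((cycloExp p σ : ℕ) : ZMod p) ≠ 0 := sub_ne_zero.2 (Ne.symm hne)
    have h2 : ((1 : ZMod p) - ((cycloExp p σ : ℕ) : ZMod p)) • v₀ ∈ C := by
      rw [sub_smul, one_smul]; exact h
    have h3 := C.smul_mem ((1 : ZMod p) - ((cycloExp p σ : ℕ) : ZMod p))⁻¹ h2
    rw [smul_smul, inv_mul_cancel₀ hne', one_smul] at h3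
    exact hv₀ h3
  change chi p σ = 1
  apply Units.ext
  rw [← cycloExp_cast, h1, Units.val_one]

/-- An element of the kernel of the cyclotomic character fixing one vector outside `C`
acts trivially. -/
theorem mem_kerV_of_smul_eq (hadm : IsAdmissibleExtension p V C) {v₀ : V} (hv₀ : v₀ ∉ C)
    {τ : Γ} (h : τ • v₀ = v₀) : τ ∈ kerV V := by
  intro v
  obtain ⟨a, c, hc, rfl⟩ := exists_decomp hadm hv₀ v
  rw [smul_add, smul_comm, h, smul_of_mem hadm τ hc]

theorem mem_kerV_iff_smul_eq (hadm : IsAdmissibleExtension p V C) {v₀ : V} (hv₀ : v₀ ∉ C)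
    {τ : Γ} : τ ∈ kerV V ↔ τ • v₀ = v₀ :=
  ⟨fun h => h v₀, mem_kerV_of_smul_eq hadm hv₀⟩

theorem smul_left_cancel_gen {c₀ : V} (hc₀ : c₀ ≠ 0) {a a' : ZMod p} (h : a • c₀ = a' • c₀) :
    a = a' := by
  have h1 : (a - a') • c₀ = 0 := by rw [sub_smul, h, sub_self]
  rcases smul_eq_zero.1 h1 with h2 | h2
  · exact sub_eq_zero.1 h2
  · exact absurd h2 hc₀

/-- The "derivation" attached to a generator `c₀` of `C` and a vector `v₀` outside `C`:
`τ • v₀ - v₀ = delta τ • c₀` for `τ` in the kernel of the cyclotomic character. -/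
noncomputable def delta (c₀ v₀ : V) (τ : Γ) : ZMod p :=
  open Classical in if h : ∃ a : ZMod p, a • c₀ = τ • v₀ - v₀ then h.choose else 0

theorem delta_spec (hadm : IsAdmissibleExtension p V C) {c₀ : V}
    (hgen : ∀ w ∈ C, ∃ a : ZMod p, a • c₀ = w) (v₀ : V) {τ : Γ} (hτ : τ ∈ kerChi p) :
    (delta c₀ v₀ τ : ZMod p) • c₀ = τ • v₀ - v₀ := by
  have h : ∃ a : ZMod p, a • c₀ = τ • v₀ - v₀ := hgen _ (smul_sub_mem hadm hτ v₀)
  unfold delta
  rw [dif_pos h]
  exact h.choose_spec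

theorem delta_eq_of_smul_eq (hadm : IsAdmissibleExtension p V C) {c₀ : V} (hc₀ : c₀ ≠ 0)
    (hgen : ∀ w ∈ C, ∃ a : ZMod p, a • c₀ = w) (v₀ : V) {τ : Γ} (hτ : τ ∈ kerChi p)
    {a : ZMod p} (h : τ • v₀ = v₀ + a • c₀) : delta c₀ v₀ τ = a := by
  apply smul_left_cancel_gen hc₀
  rw [delta_spec hadm hgen v₀ hτ, h, add_sub_cancel_left]

theorem smul_eq_add_delta (hadm : IsAdmissibleExtension p V C) {c₀ : V}
    (hgen : ∀ w ∈ C, ∃ a : ZMod p, a • c₀ = w) (v₀ : V) {τ : Γ} (hτ : τ ∈ kerChi p) :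
    τ • v₀ = v₀ + (delta c₀ v₀ τ : ZMod p) • c₀ := by
  rw [delta_spec hadm hgen v₀ hτ]; abel

theorem delta_mul (hadm : IsAdmissibleExtension p V C) {c₀ : V} (hc₀ : c₀ ≠ 0)
    (hc₀C : c₀ ∈ C) (hgen : ∀ w ∈ C, ∃ a : ZMod p, a • c₀ = w) (v₀ : V) {τ τ' : Γ}
    (hτ : τ ∈ kerChi p) (hτ' : τ' ∈ kerChi p) :
    (delta c₀ v₀ (τ * τ') : ZMod p) = delta c₀ v₀ τ + delta c₀ v₀ τ' := by
  apply delta_eq_of_smul_eq hadm hc₀ hgen v₀ ((kerChi p).mul_mem hτ hτ')
  rw [mul_smul, smul_eq_add_delta hadm hgen v₀ hτ', smul_add,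
    smul_of_mem hadm τ (C.smul_mem _ hc₀C), smul_eq_add_delta hadm hgen v₀ hτ, add_smul,
    add_assoc]

theorem delta_eq_zero_iff (hadm : IsAdmissibleExtension p V C) {c₀ : V} (hc₀ : c₀ ≠ 0)
    (hgen : ∀ w ∈ C, ∃ a : ZMod p, a • c₀ = w) {v₀ : V} (hv₀ : v₀ ∉ C) {τ : Γ}
    (hτ : τ ∈ kerChi p) : (delta c₀ v₀ τ : ZMod p) = 0 ↔ τ ∈ kerV V := by
  rw [mem_kerV_iff_smul_eq hadm hv₀]
  constructor
  · intro h
    rw [smul_eq_add_delta hadm hgen v₀ hτ, h, zero_smul, add_zero]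
  · intro h
    exact delta_eq_of_smul_eq hadm hc₀ hgen v₀ hτ (by rw [h, zero_smul, add_zero])

/-- `delta` as a group homomorphism on the kernel of the cyclotomic character. -/
noncomputable def deltaHom (hadm : IsAdmissibleExtension p V C) {c₀ : V} (hc₀ : c₀ ≠ 0)
    (hc₀C : c₀ ∈ C) (hgen : ∀ w ∈ C, ∃ a : ZMod p, a • c₀ = w) (v₀ : V) :
    kerChi p →* Multiplicative (ZMod p) where
  toFun τ := Multiplicative.ofAdd (delta c₀ v₀ (τ : Γ) : ZMod p)
  map_one' := by
    have h : (delta c₀ v₀ (1 : Γ) : ZMod p) = 0 :=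
      delta_eq_of_smul_eq hadm hc₀ hgen v₀ (kerChi p).one_mem (by rw [one_smul, zero_smul, add_zero])
    simp only [Subgroup.coe_one, h, ofAdd_zero]
  map_mul' τ τ' := by
    simp only [Subgroup.coe_mul, delta_mul hadm hc₀ hc₀C hgen v₀ τ.2 τ'.2, ofAdd_add]

theorem deltaHom_ker (hadm : IsAdmissibleExtension p V C) {c₀ : V} (hc₀ : c₀ ≠ 0)
    (hc₀C : c₀ ∈ C) (hgen : ∀ w ∈ C, ∃ a : ZMod p, a • c₀ = w) {v₀ : V} (hv₀ : v₀ ∉ C) :
    (deltaHom hadm hc₀ hc₀C hgen v₀).ker = (kerV V).subgroupOf (kerChi p) := by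
  ext τ
  rw [MonoidHom.mem_ker, Subgroup.mem_subgroupOf, ← delta_eq_zero_iff hadm hc₀ hgen hv₀ τ.2]
  change Multiplicative.ofAdd (delta c₀ v₀ (τ : Γ) : ZMod p) = 1 ↔ _
  rw [ofAdd_eq_one]

/-- In the non-split case the kernel of the action has index `p` in the kernel of the cyclotomic
character. -/
theorem relIndex_eq (hadm : IsAdmissibleExtension p V C) (hns : ¬ kerChi p ≤ kerV V) :
    (kerV V).relIndex (kerChi p) = p := by
  obtain ⟨c₀, hc₀C, hc₀, hgen⟩ := exists_gen_C hadm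
  obtain ⟨v₀, hv₀⟩ := exists_not_mem_C hadm
  have hp : p.Prime := Fact.out
  rw [Subgroup.relIndex, ← deltaHom_ker hadm hc₀ hc₀C hgen hv₀, Subgroup.index_ker]
  have hdvd : Nat.card (deltaHom hadm hc₀ hc₀C hgen v₀).range ∣ p := by
    have h := Subgroup.card_subgroup_dvd_card (deltaHom hadm hc₀ hc₀C hgen v₀).range
    rwa [Nat.card_eq_of_bijective _ Multiplicative.ofAdd.symm.bijective, Nat.card_zmod] at h
  rcases (Nat.dvd_prime hp).1 hdvd with h1 | h1
  · exfalso
    apply hns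
    intro τ hτ
    have hbot : (deltaHom hadm hc₀ hc₀C hgen v₀).range = ⊥ := Subgroup.card_eq_one.1 h1
    have hmem : deltaHom hadm hc₀ hc₀C hgen v₀ ⟨τ, hτ⟩ ∈ (⊥ : Subgroup (Multiplicative (ZMod p))) := by
      rw [← hbot]; exact ⟨_, rfl⟩
    have hker : (⟨τ, hτ⟩ : kerChi p) ∈ (deltaHom hadm hc₀ hc₀C hgen v₀).ker :=
      Subgroup.mem_bot.1 hmem
    rw [deltaHom_ker hadm hc₀ hc₀C hgen hv₀, Subgroup.mem_subgroupOf] at hker
    exact hker
  · exact h1

theorem delta_pow (hadm : IsAdmissibleExtension p V C) {c₀ : V} (hc₀ : c₀ ≠ 0)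
    (hc₀C : c₀ ∈ C) (hgen : ∀ w ∈ C, ∃ a : ZMod p, a • c₀ = w) (v₀ : V) {τ : Γ}
    (hτ : τ ∈ kerChi p) (k : ℕ) :
    (delta c₀ v₀ (τ ^ k) : ZMod p) = (k : ZMod p) * delta c₀ v₀ τ := by
  induction k with
  | zero =>
    rw [pow_zero, Nat.cast_zero, zero_mul]
    exact delta_eq_of_smul_eq hadm hc₀ hgen v₀ (kerChi p).one_mem
      (by rw [one_smul, zero_smul, add_zero])
  | succ k ih =>
    rw [pow_succ, delta_mul hadm hc₀ hc₀C hgen v₀ ((kerChi p).pow_mem hτ k) hτ, ih]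
    push_cast; ring

theorem delta_inv (hadm : IsAdmissibleExtension p V C) {c₀ : V} (hc₀ : c₀ ≠ 0)
    (hc₀C : c₀ ∈ C) (hgen : ∀ w ∈ C, ∃ a : ZMod p, a • c₀ = w) (v₀ : V) {τ : Γ}
    (hτ : τ ∈ kerChi p) :
    (delta c₀ v₀ τ⁻¹ : ZMod p) = - delta c₀ v₀ τ := by
  have h := delta_mul hadm hc₀ hc₀C hgen v₀ hτ ((kerChi p).inv_mem hτ)
  rw [mul_inv_cancel] at h
  have h1 : (delta c₀ v₀ (1 : Γ) : ZMod p) = 0 :=
    delta_eq_of_smul_eq hadm hc₀ hgen v₀ (kerChi p).one_mem
      (by rw [one_smul, zero_smul, add_zero])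
  rw [h1] at h
  exact eq_neg_of_add_eq_zero_right h.symm

/-- Conjugation by `g` multiplies `delta` by the inverse of the cyclotomic character. -/
theorem delta_conj (hadm : IsAdmissibleExtension p V C) {c₀ : V} (hc₀ : c₀ ≠ 0)
    (hc₀C : c₀ ∈ C) (hgen : ∀ w ∈ C, ∃ a : ZMod p, a • c₀ = w) (v₀ : V) (g : Γ) {τ : Γ}
    (hτ : τ ∈ kerChi p) :
    (delta c₀ v₀ (g * τ * g⁻¹) : ZMod p) = ((cycloExp p g⁻¹ : ℕ) : ZMod p) * delta c₀ v₀ τ := by
  have hconj : g * τ * g⁻¹ ∈ kerChi p := Subgroup.Normal.conj_mem inferInstance τ hτ g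
  apply delta_eq_of_smul_eq hadm hc₀ hgen v₀ hconj
  obtain ⟨c, hc, hgv⟩ := exists_smul_eq hadm g⁻¹ v₀
  have h1 : τ • (g⁻¹ • v₀) = g⁻¹ • v₀ +
      (((cycloExp p g⁻¹ : ℕ) : ZMod p) * delta c₀ v₀ τ) • c₀ := by
    rw [hgv, smul_add, smul_comm, smul_eq_add_delta hadm hgen v₀ hτ, smul_of_mem hadm τ hc,
      smul_add, smul_smul]
    abel
  rw [mul_smul, mul_smul, h1, smul_add, smul_inv_smul, smul_of_mem hadm g (C.smul_mem _ hc₀C)]

/-- The conjugation law: `g τ g⁻¹ ≡ τ ^ k` modulo the kernel of the action, where `k` is an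
inverse of the cyclotomic character of `g` modulo `p`. -/
theorem conj_mem (hadm : IsAdmissibleExtension p V C) (g : Γ) {τ : Γ} (hτ : τ ∈ kerChi p)
    (k : ℕ) (hk : (k : ZMod p) * ((cycloExp p g : ℕ) : ZMod p) = 1) :
    g * τ * g⁻¹ * (τ ^ k)⁻¹ ∈ kerV V := by
  obtain ⟨c₀, hc₀C, hc₀, hgen⟩ := exists_gen_C hadm
  obtain ⟨v₀, hv₀⟩ := exists_not_mem_C hadm
  have hconj : g * τ * g⁻¹ ∈ kerChi p := Subgroup.Normal.conj_mem inferInstance τ hτ g
  have hpow : (τ ^ k)⁻¹ ∈ kerChi p := (kerChi p).inv_mem ((kerChi p).pow_mem hτ k)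
  rw [← delta_eq_zero_iff hadm hc₀ hgen hv₀ ((kerChi p).mul_mem hconj hpow),
    delta_mul hadm hc₀ hc₀C hgen v₀ hconj hpow, delta_conj hadm hc₀ hc₀C hgen v₀ g hτ,
    delta_inv hadm hc₀ hc₀C hgen v₀ ((kerChi p).pow_mem hτ k),
    delta_pow hadm hc₀ hc₀C hgen v₀ hτ k, cycloExp_inv]
  have hk' : ((cycloExp p g : ℕ) : ZMod p)⁻¹ = (k : ZMod p) :=
    (eq_inv_of_mul_eq_one_left hk).symm
  rw [hk']; ring

end lin

/-- `ℚ̄ / ℚ` is algebraic for the default `ℚ`-algebra structure (the one of the frozen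
statement). -/
theorem isAlgebraic_rat : Algebra.IsAlgebraic ℚ Ω := AlgebraicClosure.isAlgebraic ℚ

/-- `ℚ̄ / ℚ` is normal for the default `ℚ`-algebra structure. -/
theorem normal_rat : Normal ℚ Ω :=
  haveI : Algebra.IsAlgebraic ℚ Ω := isAlgebraic_rat
  haveI : IsAlgClosure ℚ Ω := ⟨inferInstance, inferInstance⟩
  IsAlgClosure.normal ℚ Ω

/-- For `p ≥ 3` the mod `p` cyclotomic character is non-trivial. -/
theorem exists_cycloExp_ne_one (p : ℕ) [Fact p.Prime] (h3 : 3 ≤ p) :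
    ∃ g : Γ, ((cycloExp p g : ℕ) : ZMod p) ≠ 1 := by
  have hp : p.Prime := Fact.out
  have : NeZero p := ⟨hp.ne_zero⟩
  have : NeZero (p : Ω) := ⟨Nat.cast_ne_zero.mpr hp.ne_zero⟩
  obtain ⟨ζ, hζ⟩ := HasEnoughRootsOfUnity.exists_primitiveRoot Ω p
  have hζinv : IsPrimitiveRoot ζ⁻¹ p := hζ.inv
  have hmin : minpoly ℚ ζ = Polynomial.cyclotomic p ℚ :=
    (Polynomial.cyclotomic_eq_minpoly_rat hζ hp.pos).symm
  have hroot : Polynomial.aeval ζ⁻¹ (minpoly ℚ ζ) = 0 := by
    rw [hmin, Polynomial.aeval_def, Polynomial.eval₂_eq_eval_map, Polynomial.map_cyclotomic]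
    exact hζinv.isRoot_cyclotomic hp.pos
  haveI : Algebra.IsAlgebraic ℚ Ω := isAlgebraic_rat
  haveI : Normal ℚ Ω := normal_rat
  have halg : IsAlgebraic ℚ ζ := Algebra.IsAlgebraic.isAlgebraic ζ
  obtain ⟨σ, hσ⟩ := minpoly.exists_algEquiv_of_root' halg hroot
  refine ⟨σ, fun h1 => ?_⟩
  have hker : σ ∈ kerChi p := by
    change chi p σ = 1
    apply Units.ext
    rw [← cycloExp_cast, h1, Units.val_one]
  have hfix : σ ζ = ζ := (mem_kerChi_iff p).1 hker ζ hζ.pow_eq_one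
  rw [hσ] at hfix
  have hne : ζ ≠ 0 := hζ.ne_zero hp.ne_zero
  have h2 : ζ ^ 2 = 1 := by
    have := congrArg (fun x => x * ζ) hfix
    simp only [inv_mul_cancel₀ hne] at this
    rw [pow_two]; exact this.symm
  have hdvd : p ∣ 2 := hζ.dvd_of_pow_eq_one 2 h2
  have := Nat.le_of_dvd (by norm_num) hdvd
  omega

section lin2

variable {p : ℕ} [Fact p.Prime]
variable {V : Type} [AddCommGroup V] [Module (ZMod p) V] [DistribMulAction Γ V]
  [SMulCommClass Γ (ZMod p) V] {C : Submodule (ZMod p) V}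

/-- The eigenspace of `g` for the eigenvalue `a`, as a submodule. -/
def eigenLine (g : Γ) (a : ZMod p) : Submodule (ZMod p) V where
  carrier := {v | g • v = a • v}
  add_mem' := fun {x y} hx hy => by
    change g • (x + y) = a • (x + y)
    rw [smul_add, smul_add, hx, hy]
  zero_mem' := by
    change g • (0 : V) = a • (0 : V)
    rw [smul_zero, smul_zero]
  smul_mem' := fun c x hx => by
    change g • (c • x) = a • (c • x)
    rw [smul_comm g c x, hx, smul_comm]

theorem mem_eigenLine {g : Γ} {a : ZMod p} {v : V} : v ∈ eigenLine g a ↔ g • v = a • v := Iff.rfl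

/-- If the kernel of the cyclotomic character acts trivially, the extension splits. -/
theorem splitsGlobally_of_le (hadm : IsAdmissibleExtension p V C) (h3 : 3 ≤ p)
    (hle : kerChi p ≤ kerV V) : SplitsGlobally C := by
  obtain ⟨g, hg⟩ := exists_cycloExp_ne_one p h3
  set a : ZMod p := ((cycloExp p g : ℕ) : ZMod p) with ha
  have hne : (1 : ZMod p) - a ≠ 0 := sub_ne_zero.2 (Ne.symm hg)
  refine ⟨eigenLine g a, ?_, ?_⟩
  · intro σ x hx
    rw [mem_eigenLine] at hx ⊢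
    -- `g` and `σ` commute on `V`
    have hcomm : (σ * g)⁻¹ * (g * σ) ∈ kerV V := by
      apply hle
      change chi p ((σ * g)⁻¹ * (g * σ)) = 1
      rw [map_mul, map_inv, map_mul, map_mul, mul_comm (chi p σ), inv_mul_cancel]
    have h1 : (g * σ) • x = (σ * g) • x := by
      have := hcomm x
      rw [mul_smul, inv_smul_eq_iff] at this
      exact this
    rw [← mul_smul, h1, mul_smul, hx, smul_comm]
  · constructor
    · rw [Submodule.disjoint_def]
      intro x hxC hx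
      rw [mem_eigenLine, smul_of_mem hadm g hxC] at hx
      have h1 : ((1 : ZMod p) - a) • x = 0 := by
        rw [sub_smul, one_smul, ← hx, sub_self]
      rcases smul_eq_zero.1 h1 with h2 | h2
      · exact absurd h2 hne
      · exact h2
    · rw [codisjoint_iff, _root_.eq_top_iff]
      intro v _
      obtain ⟨c, hc, hgv⟩ := exists_smul_eq hadm g v
      rw [← ha] at hgv
      set w : V := ((1 : ZMod p) - a)⁻¹ • c with hw
      have hwC : w ∈ C := C.smul_mem _ hc
      have hcw : c = w - a • w := by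
        have h1 : ((1 : ZMod p) - a)⁻¹ - a * ((1 : ZMod p) - a)⁻¹ = 1 := by
          rw [← one_sub_mul, mul_inv_cancel₀ hne]
        rw [hw, smul_smul, ← sub_smul, h1, one_smul]
      have hdec : v = w + (v - w) := by abel
      rw [hdec]
      refine Submodule.add_mem_sup hwC ?_
      rw [mem_eigenLine, smul_sub, hgv, smul_of_mem hadm g hwC, smul_sub, hcw]
      abel

theorem inertia_le (hadm : IsAdmissibleExtension p V C) {ℓ : ℕ} (hℓ : ℓ.Prime) (hne : ℓ ≠ p)
    (A : ValuationSubring Ω) (hA : A.LiesOverPrime ℓ) : A.inertiaSubgroupIn ℚ ≤ kerV V :=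
  fun σ hσ v => hadm.unramified_outside ℓ hℓ hne A hA σ hσ v

/-- Above `p`, the decomposition group meets the kernel of the cyclotomic character inside the
kernel of the action. -/
theorem decomposition_inf_le (hadm : IsAdmissibleExtension p V C)
    (A : ValuationSubring Ω) (hA : A.LiesOverPrime p) {σ : Γ}
    (hσ : σ ∈ A.decompositionSubgroup ℚ) (hχ : σ ∈ kerChi p) : σ ∈ kerV V := by
  obtain ⟨C', hstab, hcompl⟩ := hadm.locally_split A hA
  intro v
  have hv : v ∈ C ⊔ C' := by rw [hcompl.sup_eq_top]; trivial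
  obtain ⟨c, hc, c', hc', rfl⟩ := Submodule.mem_sup.1 hv
  have h1 : σ • c' - c' ∈ C := smul_sub_mem hadm hχ c'
  have h2 : σ • c' - c' ∈ C' := C'.sub_mem (hstab σ hσ c' hc') hc'
  have h3 : σ • c' - c' = 0 := (Submodule.disjoint_def.1 hcompl.disjoint) _ h1 h2
  rw [smul_add, smul_of_mem hadm σ hc, sub_eq_zero.1 h3]

end lin2

/-- Summary for the final assembly: it suffices to show that, for every admissible extension,
the kernel of the cyclotomic character acts trivially. -/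
theorem extVanishingCts_of_forall_le {p : ℕ} [Fact p.Prime] (h3 : 3 ≤ p)
    (H : ∀ (V : Type) [AddCommGroup V] [Module (ZMod p) V] [DistribMulAction Γ V]
      [SMulCommClass Γ (ZMod p) V] (C : Submodule (ZMod p) V),
      IsAdmissibleExtensionCts p V C → kerChi p ≤ kerV V) :
    ExtVanishingCts p := by
  intro V _ _ _ _ C hadm
  exact splitsGlobally_of_le hadm.toIsAdmissibleExtension h3 (H V C hadm)

end Fermat.Agent.S14.GroupRed
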