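import Fermat.Agent.S14.JacobiFact

/-!
# S14: the abstract endgame over `K = ℚ(ζ_p)`

A multiplicative map `psi` from the nonzero ideals of `𝓞 K` to a group of exponent `p` which is
trivial on principal ideals and satisfies `psi (σ_c⁻¹ Q) = psi Q ^ c` is trivial.
-/

set_option autoImplicit false

namespace Fermat.Agent.S14.JacobiEnd

open NumberField Fermat.Agent.S14.JacobiFact
open scoped Pointwise nonZeroDivisors

variable (p : ℕ) [hp : Fact p.Prime] (K : Type*) [Field K] [NumberField K]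
  [IsCyclotomicExtension {p} ℚ K]

/-- A nonzero prime of the `p`-th cyclotomic field with trivial stabiliser has degree one and
does not lie over `p`. -/
theorem exists_prime_absNorm_eq (hp2 : p ≠ 2) (ζ : 𝓞 K) (hζ : IsPrimitiveRoot ζ p)
    (Q : Ideal (𝓞 K)) [Q.IsPrime] (hQ : Q ≠ ⊥)
    (h : ∀ (τ : 𝓞 K ≃+* 𝓞 K) (c : ℕ), 0 < c → c < p → τ ζ = ζ ^ c →
      Ideal.comap τ Q = Q → c = 1) :
    ∃ q : ℕ, q.Prime ∧ q ≠ p ∧ Ideal.absNorm Q = q := by
  have hp3 : 2 < p := lt_of_le_of_ne hp.out.two_le (Ne.symm hp2)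
  haveI : NeZero Q := ⟨hQ⟩
  have hQmax : Q.IsMaximal := Ideal.IsPrime.isMaximal inferInstance hQ
  have hq : (Ideal.absNorm (Ideal.under ℤ Q)).Prime := Nat.absNorm_under_prime Q
  generalize hqdef : Ideal.absNorm (Ideal.under ℤ Q) = q at hq
  haveI : Fact q.Prime := ⟨hq⟩
  haveI hlies : Q.LiesOver (Ideal.span {(q : ℤ)}) := hqdef ▸ Int.liesOver_span_absNorm Q
  have hqp : q ≠ p := by
    intro hqp
    haveI : Q.LiesOver (Ideal.span {(p : ℤ)}) := hqp ▸ hlies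
    have hζK : IsPrimitiveRoot (algebraMap (𝓞 K) K ζ) p :=
      hζ.map_of_injective (FaithfulSMul.algebraMap_injective (𝓞 K) K)
    have hQeq := IsCyclotomicExtension.Rat.eq_span_zeta_sub_one_of_liesOver' p K hζK Q
    have hint : hζK.toInteger = ζ := by
      ext
      rfl
    rw [hint] at hQeq
    obtain ⟨τ, hτ⟩ := exists_ringEquiv_pow p K ζ hζ.pow_eq_one 2 (by omega) hp3
    have hle : Q ≤ Ideal.comap τ Q := by
      conv_lhs => rw [hQeq]
      rw [Ideal.span_le, Set.singleton_subset_iff, SetLike.mem_coe, Ideal.mem_comap, map_sub,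
        map_one, hτ, hQeq, Ideal.mem_span_singleton]
      exact ⟨ζ + 1, by ring⟩
    have hne : Ideal.comap τ Q ≠ ⊤ := (Ideal.comap_isPrime τ Q).ne_top
    have := h τ 2 (by omega) hp3 hτ (hQmax.eq_of_le hne hle).symm
    omega
  refine ⟨q, hq, hqp, ?_⟩
  have hn : q.Coprime p := (Nat.coprime_primes hq hp.out).mpr hqp
  have hstab : MulAction.stabilizer Gal(K/ℚ) Q = ⊥ := by
    rw [eq_bot_iff]
    intro g hg
    rw [MulAction.mem_stabilizer_iff] at hg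
    rw [Subgroup.mem_bot]
    have hmap : Ideal.map (MulSemiringAction.toRingEquiv Gal(K/ℚ) (𝓞 K) g) Q = Q := hg
    have hcomap : Ideal.comap (MulSemiringAction.toRingEquiv Gal(K/ℚ) (𝓞 K) g) Q = Q := by
      conv_lhs => rw [← hmap]
      exact Ideal.comap_map_of_bijective _ (RingEquiv.bijective _)
    have hτ : (MulSemiringAction.toRingEquiv Gal(K/ℚ) (𝓞 K) g) ζ =
        ζ ^ (IsCyclotomicExtension.Rat.galEquivZMod p K g).val.val := by
      rw [MulSemiringAction.toRingEquiv_apply_apply,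
        IsCyclotomicExtension.Rat.galEquivZMod_smul_of_pow_eq p K g hζ.pow_eq_one]
    have hc0 : 0 < (IsCyclotomicExtension.Rat.galEquivZMod p K g).val.val := by
      rw [ZMod.val_pos]
      exact Units.ne_zero _
    have hc1 := h _ _ hc0 (ZMod.val_lt _) hτ hcomap
    have hu : (IsCyclotomicExtension.Rat.galEquivZMod p K g) = 1 := by
      apply Units.ext
      apply ZMod.val_injective
      rw [hc1, Units.val_one, ZMod.val_one]
    exact (MulEquiv.map_eq_one_iff _).mp hu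
  have h1 := IsCyclotomicExtension.Rat.galEquivZMod_stabilizer p K q Q hn
  rw [hstab, map_bot, eq_comm, Subgroup.zpowers_eq_bot] at h1
  have h2 : (q : ZMod p) = 1 := by
    have := congrArg Units.val h1
    rwa [ZMod.coe_unitOfCoprime, Units.val_one] at this
  have h3 : Q.inertiaDeg ℤ = 1 := by
    rw [IsCyclotomicExtension.Rat.inertiaDeg_eq_of_not_dvd q K Q (m := p)
      ((Nat.Prime.coprime_iff_not_dvd hq).mp hn), h2, orderOf_one]
  rw [Ideal.absNorm_eq_pow_inertiaDeg' Q hq, Ideal.inertiaDeg'_eq_inertiaDeg, h3, pow_one]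

/-- The abstract endgame on primes: a multiplicative map on nonzero ideals with values in a
group of exponent `p`, trivial on principal ideals and with `psi (σ_c⁻¹ Q) = psi Q ^ c`,
is trivial on every prime. -/
theorem psi_prime_eq_one (hp2 : p ≠ 2) (ζ : 𝓞 K) (hζ : IsPrimitiveRoot ζ p) {C : Type*}
    [Group C] (hC : ∀ g : C, g ^ p = 1) (psi : (Ideal (𝓞 K))⁰ →* C)
    (hequiv : ∀ (τ : 𝓞 K ≃+* 𝓞 K) (c : ℕ), 0 < c → c < p → τ ζ = ζ ^ c →
      ∀ Q Q' : (Ideal (𝓞 K))⁰, (Q : Ideal (𝓞 K)).IsPrime →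
        (Q' : Ideal (𝓞 K)) = Ideal.comap τ (Q : Ideal (𝓞 K)) → psi Q' = psi Q ^ c)
    (hrec : ∀ (x : 𝓞 K) (I : (Ideal (𝓞 K))⁰), (I : Ideal (𝓞 K)) = Ideal.span {x} → psi I = 1)
    (Q : (Ideal (𝓞 K))⁰) (hQ : (Q : Ideal (𝓞 K)).IsPrime) : psi Q = 1 := by
  by_contra hne
  have hQbot : (Q : Ideal (𝓞 K)) ≠ ⊥ := nonZeroDivisors.coe_ne_zero Q
  have hord : orderOf (psi Q) = p := orderOf_eq_prime (hC _) hne
  have hstab : ∀ (τ : 𝓞 K ≃+* 𝓞 K) (c : ℕ), 0 < c → c < p → τ ζ = ζ ^ c →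
      Ideal.comap τ (Q : Ideal (𝓞 K)) = Q → c = 1 := by
    intro τ c hc0 hcp hτ hcomap
    have h0 := hequiv τ c hc0 hcp hτ Q Q hQ hcomap.symm
    have h1 : psi Q ^ (c - 1) = 1 := by
      have h' : psi Q ^ (c - 1) * psi Q = 1 * psi Q := by
        rw [← pow_succ, Nat.sub_add_cancel hc0, one_mul]
        exact h0.symm
      exact mul_right_cancel h'
    have h2 : p ∣ c - 1 := hord ▸ orderOf_dvd_of_pow_eq_one h1
    by_contra hc1
    have := Nat.le_of_dvd (by omega) h2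
    omega
  obtain ⟨q, hq, hqp, hN⟩ := exists_prime_absNorm_eq p K hp2 ζ hζ Q hQbot hstab
  obtain ⟨J, hJ0, hJ, -⟩ := exists_jacobi_factorization p K hp2 ζ hζ Q q hq hqp hN
  have hex : ∃ σ : ℕ → (𝓞 K ≃+* 𝓞 K), ∀ c, 0 < c → c < p → σ c ζ = ζ ^ c := by
    have h : ∀ c : ℕ, ∃ τ : 𝓞 K ≃+* 𝓞 K, 0 < c → c < p → τ ζ = ζ ^ c := by
      intro c
      by_cases hc : 0 < c ∧ c < p
      · obtain ⟨τ, hτ⟩ := exists_ringEquiv_pow p K ζ hζ.pow_eq_one c hc.1 hc.2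
        exact ⟨τ, fun _ _ => hτ⟩
      · exact ⟨RingEquiv.refl _, fun h0 h1 => absurd ⟨h0, h1⟩ hc⟩
    choose σ hσ using h
    exact ⟨σ, hσ⟩
  obtain ⟨σ, hσ⟩ := hex
  have hfac := hJ σ hσ
  have hmem : ∀ c, Ideal.comap (σ c) (Q : Ideal (𝓞 K)) ∈ (Ideal (𝓞 K))⁰ := by
    intro c
    rw [mem_nonZeroDivisors_iff_ne_zero, Ideal.zero_eq_bot]
    intro hbot
    have hnorm : Ideal.absNorm (Ideal.comap (σ c) (Q : Ideal (𝓞 K))) = q := by
      rw [absNorm_comap_ringEquiv, hN]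
    rw [hbot, Ideal.absNorm_bot] at hnorm
    exact hq.ne_zero hnorm.symm
  have hprod : ∀ S : Finset ℕ, (∀ c ∈ S, 0 < c ∧ c < p) →
      psi (∏ c ∈ S, (⟨Ideal.comap (σ c) (Q : Ideal (𝓞 K)), hmem c⟩ : (Ideal (𝓞 K))⁰)) =
        psi Q ^ (∑ c ∈ S, c) := by
    intro S
    induction S using Finset.induction_on with
    | empty => intro _; simp
    | insert a S ha ih =>
      intro hS
      rw [Finset.prod_insert ha, Finset.sum_insert ha, map_mul, pow_add,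
        ih (fun c hc => hS c (Finset.mem_insert_of_mem hc))]
      congr 1
      obtain ⟨ha0, hap⟩ := hS a (Finset.mem_insert_self a S)
      exact hequiv (σ a) a ha0 hap (hσ a ha0 hap) Q _ hQ rfl
  have hJmem : Ideal.span {J} ∈ (Ideal (𝓞 K))⁰ := by
    rw [mem_nonZeroDivisors_iff_ne_zero, Ideal.zero_eq_bot, Ne, Ideal.span_singleton_eq_bot]
    exact hJ0
  have hS : ∀ c ∈ Finset.Ioo 0 ((p + 1) / 2), 0 < c ∧ c < p := by
    intro c hc
    rw [Finset.mem_Ioo] at hc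
    have := hp.out.two_le
    omega
  have h1 := hprod (Finset.Ioo 0 ((p + 1) / 2)) hS
  have h2 : psi (∏ c ∈ Finset.Ioo 0 ((p + 1) / 2),
      (⟨Ideal.comap (σ c) (Q : Ideal (𝓞 K)), hmem c⟩ : (Ideal (𝓞 K))⁰)) = 1 := by
    apply hrec J
    rw [Submonoid.coe_finsetProd, hfac]
  rw [h2] at h1
  have h3 := orderOf_dvd_of_pow_eq_one h1.symm
  rw [hord] at h3
  exact not_dvd_sum_Ioo p hp.out hp2 h3

/-- The abstract endgame: `psi` is trivial. -/
theorem psi_eq_one (hp2 : p ≠ 2) (ζ : 𝓞 K) (hζ : IsPrimitiveRoot ζ p) {C : Type*}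
    [Group C] (hC : ∀ g : C, g ^ p = 1) (psi : (Ideal (𝓞 K))⁰ →* C)
    (hequiv : ∀ (τ : 𝓞 K ≃+* 𝓞 K) (c : ℕ), 0 < c → c < p → τ ζ = ζ ^ c →
      ∀ Q Q' : (Ideal (𝓞 K))⁰, (Q : Ideal (𝓞 K)).IsPrime →
        (Q' : Ideal (𝓞 K)) = Ideal.comap τ (Q : Ideal (𝓞 K)) → psi Q' = psi Q ^ c)
    (hrec : ∀ (x : 𝓞 K) (I : (Ideal (𝓞 K))⁰), (I : Ideal (𝓞 K)) = Ideal.span {x} → psi I = 1)
    (I : (Ideal (𝓞 K))⁰) : psi I = 1 := by
  have key : ∀ I : Ideal (𝓞 K), ∀ hI : I ∈ (Ideal (𝓞 K))⁰, psi ⟨I, hI⟩ = 1 := by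
    intro I
    induction I using UniqueFactorizationMonoid.induction_on_prime with
    | h₁ =>
      intro hI
      exact absurd hI zero_notMem_nonZeroDivisors
    | h₂ x hx =>
      intro hI
      have hx1 : x = 1 := by rwa [Ideal.isUnit_iff, ← Ideal.one_eq_top] at hx
      have : (⟨x, hI⟩ : (Ideal (𝓞 K))⁰) = 1 := Subtype.ext hx1
      rw [this, map_one]
    | h₃ a P ha hP ih =>
      intro hI
      have hP0 : P ∈ (Ideal (𝓞 K))⁰ := mem_nonZeroDivisors_iff_ne_zero.mpr hP.ne_zero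
      have ha0 : a ∈ (Ideal (𝓞 K))⁰ := mem_nonZeroDivisors_iff_ne_zero.mpr ha
      have hmul : (⟨P * a, hI⟩ : (Ideal (𝓞 K))⁰) = ⟨P, hP0⟩ * ⟨a, ha0⟩ := Subtype.ext rfl
      rw [hmul, map_mul, ih ha0, mul_one]
      exact psi_prime_eq_one p K hp2 ζ hζ hC psi hequiv hrec ⟨P, hP0⟩ (Ideal.isPrime_of_prime hP)
  exact key I I.2

/-- The abstract endgame, with the equivariance stated for images instead of preimages:
`psi (ρ Q) = psi Q ^ c` whenever `ρ (ζ ^ c) = ζ`. -/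
theorem psi_eq_one_of_map (hp2 : p ≠ 2) (ζ : 𝓞 K) (hζ : IsPrimitiveRoot ζ p) {C : Type*}
    [Group C] (hC : ∀ g : C, g ^ p = 1) (psi : (Ideal (𝓞 K))⁰ →* C)
    (hequiv : ∀ (ρ : 𝓞 K ≃+* 𝓞 K) (c : ℕ), 0 < c → c < p → ρ (ζ ^ c) = ζ →
      ∀ Q Q' : (Ideal (𝓞 K))⁰, (Q : Ideal (𝓞 K)).IsPrime →
        (Q' : Ideal (𝓞 K)) = Ideal.map ρ (Q : Ideal (𝓞 K)) → psi Q' = psi Q ^ c)
    (hrec : ∀ (x : 𝓞 K) (I : (Ideal (𝓞 K))⁰), (I : Ideal (𝓞 K)) = Ideal.span {x} → psi I = 1)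
    (I : (Ideal (𝓞 K))⁰) : psi I = 1 := by
  refine psi_eq_one p K hp2 ζ hζ hC psi ?_ hrec I
  intro τ c hc0 hcp hτ Q Q' hQ hQ'
  refine hequiv τ.symm c hc0 hcp ?_ Q Q' hQ ?_
  · rw [RingEquiv.symm_apply_eq]
    exact hτ.symm
  · rw [hQ', Ideal.map_symm]

end Fermat.Agent.S14.JacobiEnd
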