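import Mathlib

/-!
# S14, stream F: factorisation of a Jacobi sum in the `p`-th cyclotomic field

For a prime `Q` of degree one of `ℤ[ζ_p]` over a rational prime `q ≠ p`, the Jacobi sum
`J = J(χ, χ)` of the `p`-th power residue character `χ` of `Q` satisfies
`σ_c(J) ∈ Q ↔ 2 c < p` and `N(J) = q ^ ((p - 1) / 2)`.
-/

set_option autoImplicit false

namespace Fermat.Agent.S14.JacobiFact

open Finset NumberField

section FiniteFieldSum

variable {F : Type*} [Field F] [Fintype F] [DecidableEq F]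

/-- A sum over a finite field of a function vanishing at `0` is the sum over the units. -/
theorem sum_eq_sum_units (f : F → F) (h0 : f 0 = 0) : ∑ x : F, f x = ∑ x : Fˣ, f x := by
  let φ : Fˣ ↪ F := ⟨fun x ↦ x, Units.val_injective⟩
  have hmap : univ.map φ = univ \ {0} := by
    ext x
    simp only [mem_map, mem_univ, Function.Embedding.coeFn_mk, true_and, mem_sdiff,
      mem_singleton, φ]
    exact isUnit_iff_ne_zero
  calc ∑ x : F, f x = ∑ x ∈ univ \ {0}, f x := by
        rw [← sum_sdiff (subset_univ ({0} : Finset F)), sum_singleton, h0, add_zero]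
    _ = ∑ x : Fˣ, f x := by
        rw [← hmap, sum_map]
        rfl

/-- Power sums over a finite field with `q` elements, for exponents `0 < i < 2 (q - 1)`. -/
theorem sum_pow_eq (i : ℕ) (hi0 : 0 < i) (hi : i < 2 * (Fintype.card F - 1)) :
    ∑ x : F, x ^ i = if i = Fintype.card F - 1 then -1 else 0 := by
  rw [sum_eq_sum_units (fun x => x ^ i) (zero_pow hi0.ne'), FiniteField.sum_pow_units]
  have hq : 0 < Fintype.card F - 1 := by
    have : 1 < Fintype.card F := Fintype.one_lt_card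
    omega
  by_cases h : i = Fintype.card F - 1
  · rw [if_pos h, if_pos (by rw [h])]
  · rw [if_neg h, if_neg]
    rintro ⟨k, hk⟩
    have hk1 : k = 1 := by
      rcases Nat.lt_or_ge k 2 with h2 | h2
      · interval_cases k
        · omega
        · rfl
      · exfalso
        have : (Fintype.card F - 1) * 2 ≤ (Fintype.card F - 1) * k :=
          Nat.mul_le_mul_left _ h2
        omega
    rw [hk1, mul_one] at hk
    exact h hk

/-- The basic character sum `∑ x, x ^ e * (1 - x) ^ e` over a finite field with `q` elements,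
for `0 < e < q - 1`. -/
theorem sum_pow_mul_one_sub_pow (e : ℕ) (he0 : 0 < e) (he : e < Fintype.card F - 1) :
    ∑ x : F, x ^ e * (1 - x) ^ e =
      if Fintype.card F - 1 - e ≤ e then
        -((-1) ^ (Fintype.card F - 1 - e) * ((e.choose (Fintype.card F - 1 - e) : ℕ) : F))
      else 0 := by
  have hexp : ∀ x : F, x ^ e * (1 - x) ^ e =
      ∑ k ∈ range (e + 1), ((-1) ^ k * ((e.choose k : ℕ) : F)) * x ^ (e + k) := by
    intro x
    have h1 : (1 - x) ^ e = ∑ k ∈ range (e + 1), (-x) ^ k * 1 ^ (e - k) * ((e.choose k : ℕ) : F) := by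
      rw [← add_pow, neg_add_eq_sub]
    rw [h1, mul_sum]
    refine sum_congr rfl fun k _ => ?_
    rw [one_pow, mul_one, neg_pow, pow_add]
    ring
  simp_rw [hexp]
  rw [sum_comm]
  simp_rw [← mul_sum]
  have hinner : ∀ k ∈ range (e + 1), ∑ x : F, x ^ (e + k) =
      if k = Fintype.card F - 1 - e then -1 else 0 := by
    intro k hk
    rw [mem_range] at hk
    rw [sum_pow_eq (e + k) (by omega) (by omega)]
    by_cases h : k = Fintype.card F - 1 - e
    · rw [if_pos h, if_pos (by omega)]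
    · rw [if_neg h, if_neg (by omega)]
  rw [sum_congr rfl fun k hk => by rw [hinner k hk]]
  simp_rw [mul_ite, mul_neg, mul_one, mul_zero]
  rw [sum_ite_eq' (range (e + 1)) (Fintype.card F - 1 - e)]
  by_cases h : Fintype.card F - 1 - e ≤ e
  · rw [if_pos h, if_pos (by rw [mem_range]; omega)]
  · rw [if_neg h, if_neg (by rw [mem_range]; omega)]

end FiniteFieldSum

section Abstract

variable {R F : Type*} [CommRing R] [Field F] [Fintype F] [DecidableEq F]

/-- Reduction of a conjugate of the Jacobi sum `J(χ, χ)`: abstract form.  Here `π` plays the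
role of the reduction map modulo a prime of degree one, `χ` of the `p`-th power residue
character (`π (χ x) = x ^ m` with `p * m = q - 1`), and `τ` of the automorphism `ζ ↦ ζ ^ c`. -/
theorem map_jacobiSum_eq_zero_iff (π : R →+* F) (χ : MulChar F R) (p m : ℕ)
    (hq : (Fintype.card F).Prime) (hpm : p * m = Fintype.card F - 1)
    (hχ : ∀ x : F, π (χ x) = x ^ m) (τ : R →+* R) (c : ℕ) (hc0 : 0 < c) (hcp : c < p)
    (hτ : ∀ x : F, τ (χ x) = χ x ^ c) :
    π (τ (jacobiSum χ χ)) = 0 ↔ 2 * c < p := by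
  have hm0 : 0 < m := by
    rcases Nat.eq_zero_or_pos m with h | h
    · rw [h, mul_zero] at hpm
      have := hq.two_le
      omega
    · exact h
  have hsum : π (τ (jacobiSum χ χ)) = ∑ x : F, x ^ (c * m) * (1 - x) ^ (c * m) := by
    rw [jacobiSum, map_sum, map_sum]
    refine sum_congr rfl fun x _ => ?_
    rw [map_mul, map_mul, hτ, hτ, map_pow, map_pow, hχ, hχ, ← pow_mul, ← pow_mul, mul_comm m c]
  have he0 : 0 < c * m := Nat.mul_pos hc0 hm0
  have he : c * m < Fintype.card F - 1 := by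
    rw [← hpm]; exact Nat.mul_lt_mul_of_pos_right hcp hm0
  rw [hsum, sum_pow_mul_one_sub_pow (c * m) he0 he]
  have hk : Fintype.card F - 1 - c * m = (p - c) * m := by
    rw [← hpm, Nat.sub_mul]
  have hiff : (Fintype.card F - 1 - c * m ≤ c * m) ↔ ¬ 2 * c < p := by
    rw [hk]
    constructor
    · intro h
      have : p - c ≤ c := Nat.le_of_mul_le_mul_right h hm0
      omega
    · intro h
      exact Nat.mul_le_mul_right m (by omega)
  haveI : Fact (Fintype.card F).Prime := ⟨hq⟩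
  haveI : CharP F (Fintype.card F) := charP_of_card_eq_prime rfl
  constructor
  · intro h
    by_contra hcon
    rw [if_pos (hiff.mpr hcon)] at h
    rw [neg_eq_zero, mul_eq_zero] at h
    rcases h with h | h
    · exact pow_ne_zero _ (neg_ne_zero.mpr one_ne_zero) h
    · rw [CharP.cast_eq_zero_iff F (Fintype.card F)] at h
      have hle : Fintype.card F - 1 - c * m ≤ c * m := hiff.mpr hcon
      have hdvd : Fintype.card F ∣ (c * m).factorial := by
        rw [← Nat.choose_mul_factorial_mul_factorial hle]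
        exact Dvd.dvd.mul_right (Dvd.dvd.mul_right h _) _
      have := (hq.dvd_factorial).mp hdvd
      omega
  · intro h
    rw [if_neg (fun h' => hiff.mp h' h)]

end Abstract

section Character

variable {R F : Type*} [CommRing R] [Field F] [Fintype F] [DecidableEq F]

/-- Existence of the `p`-th power residue character: abstract form. -/
theorem exists_residueChar (π : R →+* F) (p : ℕ) (hp : p.Prime) (ζ : R)
    (hζ : IsPrimitiveRoot ζ p) (hπζ : IsPrimitiveRoot (π ζ) p) :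
    ∃ (χ : MulChar F R) (m : ℕ), p * m = Fintype.card F - 1 ∧ (∀ x : F, π (χ x) = x ^ m) ∧
      (∀ x : F, χ x = 0 ∨ ∃ k : ℕ, χ x = ζ ^ k) := by
  haveI : NeZero p := ⟨hp.ne_zero⟩
  have hπζ0 : π ζ ≠ 0 := hπζ.ne_zero hp.ne_zero
  have hdvd : p ∣ Fintype.card F - 1 :=
    hπζ.dvd_of_pow_eq_one _ (FiniteField.pow_card_sub_one_eq_one _ hπζ0)
  obtain ⟨m, hm⟩ := hdvd
  have hcard1 : 1 < Fintype.card F := Fintype.one_lt_card
  have hm0 : 0 < m := by
    rcases Nat.eq_zero_or_pos m with h | h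
    · rw [h, mul_zero] at hm; omega
    · exact h
  obtain ⟨g, hg⟩ := IsCyclic.exists_generator (α := Fˣ)
  have hordg : orderOf g = Fintype.card F - 1 := by
    rw [orderOf_eq_card_of_forall_mem_zpowers hg, Nat.card_eq_fintype_card, Fintype.card_units]
  have hgm : ((g : F) ^ m) ^ p = 1 := by
    rw [← pow_mul, mul_comm, ← hm, ← hordg, ← Units.val_pow_eq_pow_val, pow_orderOf_eq_one,
      Units.val_one]
  obtain ⟨s, -, hs⟩ := hπζ.eq_pow_of_pow_eq_one hgm
  let ζu : Rˣ := (hζ.isUnit hp.ne_zero).unit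
  have hζu : (ζu : R) = ζ := IsUnit.unit_spec _
  have hroot : ζu ^ s ∈ rootsOfUnity (Fintype.card Fˣ) R := by
    rw [mem_rootsOfUnity, Fintype.card_units, hm, ← pow_mul, mul_left_comm, pow_mul]
    have : ζu ^ p = 1 := by
      apply Units.ext
      rw [Units.val_pow_eq_pow_val, hζu, hζ.pow_eq_one, Units.val_one]
    rw [this, one_pow]
  let χ : MulChar F R := MulChar.ofRootOfUnity hroot hg
  have hχg : χ g = ζ ^ s := by
    have := MulChar.ofRootOfUnity_spec hroot hg
    rw [Units.val_pow_eq_pow_val, hζu] at this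
    exact this
  have hunit : ∀ x : Fˣ, ∃ k : ℕ, x = g ^ k := by
    intro x
    have hx := hg x
    rw [← mem_powers_iff_mem_zpowers] at hx
    obtain ⟨k, hk⟩ := hx
    exact ⟨k, hk.symm⟩
  refine ⟨χ, m, hm.symm, ?_, ?_⟩
  · intro x
    by_cases hx : x = 0
    · rw [hx, MulChar.map_zero, map_zero, zero_pow hm0.ne']
    · obtain ⟨k, hk⟩ := hunit (Units.mk0 x hx)
      have hxk : x = (g : F) ^ k := by
        have := congrArg Units.val hk
        rwa [Units.val_mk0, Units.val_pow_eq_pow_val] at this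
      rw [hxk, map_pow, hχg, map_pow, map_pow, hs, ← pow_mul, ← pow_mul, mul_comm]
  · intro x
    by_cases hx : x = 0
    · left; rw [hx, MulChar.map_zero]
    · right
      obtain ⟨k, hk⟩ := hunit (Units.mk0 x hx)
      have hxk : x = (g : F) ^ k := by
        have := congrArg Units.val hk
        rwa [Units.val_mk0, Units.val_pow_eq_pow_val] at this
      exact ⟨s * k, by rw [hxk, map_pow, hχg, pow_mul]⟩

/-- Nontriviality of a character reducing to `x ↦ x ^ m`. -/
theorem residueChar_ne_one (π : R →+* F) (χ : MulChar F R) (p m : ℕ) (hp2 : 2 < p)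
    (hpm : p * m = Fintype.card F - 1) (hχ : ∀ x : F, π (χ x) = x ^ m) :
    χ ≠ 1 ∧ χ * χ ≠ 1 := by
  have hcard1 : 1 < Fintype.card F := Fintype.one_lt_card
  have hm0 : 0 < m := by
    rcases Nat.eq_zero_or_pos m with h | h
    · rw [h, mul_zero] at hpm; omega
    · exact h
  obtain ⟨g, hg⟩ := IsCyclic.exists_generator (α := Fˣ)
  have hordg : orderOf g = Fintype.card F - 1 := by
    rw [orderOf_eq_card_of_forall_mem_zpowers hg, Nat.card_eq_fintype_card, Fintype.card_units]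
  have key : ∀ e : ℕ, (g : F) ^ e = 1 → p * m ∣ e := by
    intro e he
    rw [hpm, ← hordg]
    apply orderOf_dvd_of_pow_eq_one
    apply Units.ext
    rw [Units.val_pow_eq_pow_val, he, Units.val_one]
  constructor
  · intro h1
    have h := hχ g
    rw [h1, MulChar.one_apply_coe, map_one] at h
    have := Nat.le_of_dvd hm0 (key m h.symm)
    nlinarith
  · intro h1
    have h := hχ g
    have h2 : (χ * χ) g = 1 := by rw [h1, MulChar.one_apply_coe]
    rw [MulChar.mul_apply] at h2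
    have h3 : (g : F) ^ (2 * m) = 1 := by
      rw [mul_comm, pow_mul, ← h, ← map_pow, sq, h2, map_one]
    have := Nat.le_of_dvd (by omega) (key (2 * m) h3)
    nlinarith

end Character

section NumberField

theorem absNorm_map_ringEquiv {S : Type*} [CommRing S] [IsDedekindDomain S] [Module.Free ℤ S]
    (e : S ≃+* S) (I : Ideal S) :
    Ideal.absNorm (I.map e) = Ideal.absNorm I := by
  rw [Ideal.absNorm_apply, Ideal.absNorm_apply, Submodule.cardQuot_apply,
    Submodule.cardQuot_apply]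
  exact (Nat.card_congr (Ideal.quotientEquiv I (I.map (e : S →+* S)) e rfl).toEquiv).symm

theorem absNorm_comap_ringEquiv {S : Type*} [CommRing S] [IsDedekindDomain S] [Module.Free ℤ S]
    (e : S ≃+* S) (I : Ideal S) :
    Ideal.absNorm (I.comap e) = Ideal.absNorm I := by
  have h := absNorm_map_ringEquiv e (I.comap e)
  rw [Ideal.map_comap_of_surjective e e.surjective] at h
  exact h.symm

/-- Modulo an ideal of prime norm, every element is congruent to an integer. -/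
theorem exists_intCast_sub_mem {S : Type*} [CommRing S] [IsDedekindDomain S] [Module.Free ℤ S]
    (Q : Ideal S) (q : ℕ) (hq : q.Prime) (hN : Ideal.absNorm Q = q) (x : S) :
    ∃ n : ℤ, x - n ∈ Q := by
  have hcardN : Nat.card (S ⧸ Q) = q := by
    rw [← hN, Ideal.absNorm_apply, Submodule.cardQuot_apply]
  haveI : Fact q.Prime := ⟨hq⟩
  have h1 : (1 : S ⧸ Q) ≠ 0 := by
    intro h
    have hsub : Subsingleton (S ⧸ Q) := subsingleton_of_zero_eq_one h.symm
    have : Nat.card (S ⧸ Q) = 1 := Nat.card_unique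
    rw [hcardN] at this
    exact hq.one_lt.ne' this
  have hx := mem_zmultiples_of_prime_card hcardN h1 (g' := Ideal.Quotient.mk Q x)
  obtain ⟨n, hn⟩ := hx
  refine ⟨n, ?_⟩
  rw [← Ideal.Quotient.eq_zero_iff_mem, map_sub, map_intCast, ← hn]
  simp

variable (p : ℕ) [hp : Fact p.Prime] (K : Type*) [Field K] [NumberField K]
  [IsCyclotomicExtension {p} ℚ K]

/-- The automorphism `ζ ↦ ζ ^ c` of the ring of integers of the `p`-th cyclotomic field. -/
theorem exists_ringEquiv_pow (ζ : 𝓞 K) (hζ : ζ ^ p = 1) (c : ℕ) (hc0 : 0 < c) (hcp : c < p) :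
    ∃ τ : 𝓞 K ≃+* 𝓞 K, τ ζ = ζ ^ c := by
  have hc : c.Coprime p :=
    ((Nat.Prime.coprime_iff_not_dvd hp.out).mpr (Nat.not_dvd_of_pos_of_lt hc0 hcp)).symm
  let σ : Gal(K/ℚ) := (IsCyclotomicExtension.Rat.galEquivZMod p K).symm (ZMod.unitOfCoprime c hc)
  refine ⟨MulSemiringAction.toRingEquiv Gal(K/ℚ) (𝓞 K) σ, ?_⟩
  rw [MulSemiringAction.toRingEquiv_apply_apply,
    IsCyclotomicExtension.Rat.galEquivZMod_smul_of_pow_eq p K σ hζ]
  have : (IsCyclotomicExtension.Rat.galEquivZMod p K) σ = ZMod.unitOfCoprime c hc :=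
    MulEquiv.apply_symm_apply _ _
  rw [this, ZMod.coe_unitOfCoprime, ZMod.val_natCast, Nat.mod_eq_of_lt hcp]

/-- The Jacobi sum attached to a prime `Q` of degree one of the `p`-th cyclotomic field. -/
theorem exists_jacobi (hp2 : p ≠ 2) (ζ : 𝓞 K) (hζ : IsPrimitiveRoot ζ p) (Q : Ideal (𝓞 K))
    [Q.IsPrime] (q : ℕ) (hq : q.Prime) (hqp : q ≠ p) (hN : Ideal.absNorm Q = q) :
    ∃ J : 𝓞 K, Ideal.absNorm (Ideal.span {J}) = q ^ ((p - 1) / 2) ∧
      ∀ (τ : 𝓞 K ≃+* 𝓞 K) (c : ℕ), 0 < c → c < p → τ ζ = ζ ^ c → (τ J ∈ Q ↔ 2 * c < p) := by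
  classical
  have hp3 : 2 < p := lt_of_le_of_ne hp.out.two_le (Ne.symm hp2)
  have hpodd : Odd p := hp.out.odd_of_ne_two hp2
  have hQbot : Q ≠ ⊥ := by
    rintro rfl
    rw [Ideal.absNorm_bot] at hN
    exact hq.ne_zero hN.symm
  haveI hQmax : Q.IsMaximal := Ideal.IsPrime.isMaximal inferInstance hQbot
  letI : Field (𝓞 K ⧸ Q) := Ideal.Quotient.field Q
  have hcardN : Nat.card (𝓞 K ⧸ Q) = q := by
    rw [← hN, Ideal.absNorm_apply, Submodule.cardQuot_apply]
  haveI : Finite (𝓞 K ⧸ Q) := Nat.finite_of_card_ne_zero (by rw [hcardN]; exact hq.ne_zero)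
  letI : Fintype (𝓞 K ⧸ Q) := Fintype.ofFinite _
  have hcard : Fintype.card (𝓞 K ⧸ Q) = q := by rw [← Nat.card_eq_fintype_card, hcardN]
  have hπζ : IsPrimitiveRoot (Ideal.Quotient.mk Q ζ) p :=
    hζ.idealQuotient_mk (by rw [hN]; exact hq.one_lt.ne')
      (by rw [hN]; exact (Nat.coprime_primes hq hp.out).mpr hqp)
  obtain ⟨χ, m, hpm, hχ, hval⟩ := exists_residueChar (Ideal.Quotient.mk Q) p hp.out ζ hζ hπζ
  obtain ⟨hχ1, hχχ1⟩ := residueChar_ne_one (Ideal.Quotient.mk Q) χ p m hp3 hpm hχ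
  have hτval : ∀ (τ : 𝓞 K ≃+* 𝓞 K) (c : ℕ), 0 < c → τ ζ = ζ ^ c →
      ∀ x : 𝓞 K ⧸ Q, τ (χ x) = χ x ^ c := by
    intro τ c hc0 hτ x
    rcases hval x with h | ⟨k, hk⟩
    · rw [h, map_zero, zero_pow hc0.ne']
    · rw [hk, map_pow, hτ, ← pow_mul, ← pow_mul, mul_comm]
  refine ⟨jacobiSum χ χ, ?_, ?_⟩
  · -- the norm
    obtain ⟨τ, hτ⟩ := exists_ringEquiv_pow p K ζ hζ.pow_eq_one (p - 1) (by omega) (by omega)
    have hτχ : ∀ a : (𝓞 K ⧸ Q)ˣ, τ (χ a) * χ a = 1 := by
      intro a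
      rw [hτval τ (p - 1) (by omega) hτ, ← pow_succ]
      rcases hval a with h | ⟨k, hk⟩
      · exfalso
        have := IsUnit.map χ a.isUnit
        rw [h] at this
        exact not_isUnit_zero this
      · rw [hk, ← pow_mul, mul_comm, show p - 1 + 1 = p by omega, pow_mul, hζ.pow_eq_one,
          one_pow]
    have hinv : χ⁻¹ = χ.ringHomComp (τ : 𝓞 K →+* 𝓞 K) := by
      apply MulChar.ext
      intro a
      rw [MulChar.inv_apply', MulChar.ringHomComp_apply]
      have h1 : χ (↑a)⁻¹ * χ a = 1 := by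
        rw [← map_mul, inv_mul_cancel₀ (Units.ne_zero a), map_one]
      have h2 := hτχ a
      calc χ (↑a)⁻¹ = χ (↑a)⁻¹ * (τ (χ a) * χ a) := by rw [h2, mul_one]
        _ = τ (χ a) * (χ (↑a)⁻¹ * χ a) := by ring
        _ = τ (χ a) := by rw [h1, mul_one]
    have hinj : Function.Injective (algebraMap (𝓞 K) K) :=
      FaithfulSMul.algebraMap_injective (𝓞 K) K
    haveI : Fact q.Prime := ⟨hq⟩
    haveI : CharP (𝓞 K ⧸ Q) q := charP_of_card_eq_prime hcard
    have hchar : ringChar K ≠ ringChar (𝓞 K ⧸ Q) := by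
      rw [ringChar.eq_zero, ringChar.eq (𝓞 K ⧸ Q) q]
      exact hq.ne_zero.symm
    have hJ := jacobiSum_mul_jacobiSum_inv hchar
      ((MulChar.ringHomComp_ne_one_iff hinj).mpr hχ1)
      ((MulChar.ringHomComp_ne_one_iff hinj).mpr hχ1)
      (by rw [← MulChar.ringHomComp_mul]; exact (MulChar.ringHomComp_ne_one_iff hinj).mpr hχχ1)
    rw [MulChar.ringHomComp_inv, hinv, jacobiSum_ringHomComp, jacobiSum_ringHomComp,
      jacobiSum_ringHomComp, hcard] at hJ
    have hJ' : jacobiSum χ χ * τ (jacobiSum χ χ) = (q : 𝓞 K) := by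
      apply hinj
      rw [map_mul, map_natCast]
      exact hJ
    have hspan : Ideal.span {jacobiSum χ χ} * Ideal.span {τ (jacobiSum χ χ)} =
        Ideal.span {(q : 𝓞 K)} := by
      rw [Ideal.span_singleton_mul_span_singleton, hJ']
    have hτspan : Ideal.span {τ (jacobiSum χ χ)} = (Ideal.span {jacobiSum χ χ}).map τ := by
      rw [Ideal.map_span, Set.image_singleton]
    have hnorm := congrArg Ideal.absNorm hspan
    rw [map_mul, hτspan, absNorm_map_ringEquiv, Ideal.absNorm_span_natCast,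
      RingOfIntegers.rank,
      IsCyclotomicExtension.finrank K (Polynomial.cyclotomic.irreducible_rat hp.out.pos),
      Nat.totient_prime hp.out] at hnorm
    obtain ⟨h, hh⟩ := hpodd
    have hp1 : p - 1 = 2 * h := by omega
    have hh2 : (p - 1) / 2 = h := by omega
    rw [hh2]
    rw [hp1, pow_mul', ← sq] at hnorm
    exact Nat.pow_left_injective two_ne_zero hnorm
  · intro τ c hc0 hcp hτ
    rw [← Ideal.Quotient.eq_zero_iff_mem]
    exact map_jacobiSum_eq_zero_iff (Ideal.Quotient.mk Q) χ p m (hcard ▸ hq) hpm hχ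
      (τ : 𝓞 K →+* 𝓞 K) c hc0 hcp (hτval τ c hc0 hτ)

omit [IsCyclotomicExtension {p} ℚ K] in
/-- Conjugates of a prime of degree one under distinct automorphisms are distinct. -/
theorem eq_of_comap_eq (ζ : 𝓞 K) (hζ : IsPrimitiveRoot ζ p) (Q : Ideal (𝓞 K))
    (q : ℕ) (hq : q.Prime) (hqp : q ≠ p) (hN : Ideal.absNorm Q = q)
    (τ₁ τ₂ : 𝓞 K ≃+* 𝓞 K) (c d : ℕ) (hcp : c < p) (hd0 : 0 < d) (hdp : d < p)
    (h₁ : τ₁ ζ = ζ ^ c) (h₂ : τ₂ ζ = ζ ^ d) (h : Ideal.comap τ₁ Q = Ideal.comap τ₂ Q) :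
    c = d := by
  have hπζ : IsPrimitiveRoot (Ideal.Quotient.mk Q ζ) p :=
    hζ.idealQuotient_mk (by rw [hN]; exact hq.one_lt.ne')
      (by rw [hN]; exact (Nat.coprime_primes hq hp.out).mpr hqp)
  obtain ⟨n, hn⟩ := exists_intCast_sub_mem Q q hq hN ζ
  have hdcop : d.Coprime p :=
    ((Nat.Prime.coprime_iff_not_dvd hp.out).mpr (Nat.not_dvd_of_pos_of_lt hd0 hdp)).symm
  obtain ⟨d', -, hd'⟩ := Nat.exists_mul_mod_eq_one_of_coprime hdcop hp.out.one_lt
  have hζpow : ∀ a b : ℕ, a % p = b % p → ζ ^ a = ζ ^ b := by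
    intro a b hab
    rw [← Nat.mod_add_div a p, ← Nat.mod_add_div b p, pow_add, pow_add, pow_mul, pow_mul,
      hζ.pow_eq_one, one_pow, one_pow, hab]
  have hy : ζ ^ d' - (n : 𝓞 K) ∈ Ideal.comap τ₂ Q := by
    rw [Ideal.mem_comap, map_sub, map_intCast, map_pow, h₂, ← pow_mul,
      hζpow (d * d') 1 (by rw [hd', Nat.mod_eq_of_lt hp.out.one_lt]), pow_one]
    exact hn
  rw [← h, Ideal.mem_comap, map_sub, map_intCast, map_pow, h₁, ← pow_mul] at hy
  have hdiff : ζ ^ (c * d') - ζ ∈ Q := by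
    have := Q.sub_mem hy hn
    rwa [sub_sub_sub_cancel_right] at this
  have hmk : (Ideal.Quotient.mk Q ζ) ^ (c * d') = (Ideal.Quotient.mk Q ζ) ^ 1 := by
    rw [pow_one, ← map_pow, ← sub_eq_zero, ← map_sub, Ideal.Quotient.eq_zero_iff_mem]
    exact hdiff
  have hmod : c * d' ≡ 1 [MOD p] := by
    have := (hπζ.isOfFinOrder hp.out.ne_zero).pow_inj_mod.mp hmk
    rwa [← hπζ.eq_orderOf] at this
  have hcd : c ≡ d [MOD p] := by
    have h1 : c * d' * d ≡ 1 * d [MOD p] := hmod.mul_right d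
    have h2 : d * d' ≡ 1 [MOD p] := by
      unfold Nat.ModEq; rw [hd', Nat.mod_eq_of_lt hp.out.one_lt]
    have h3 : c * (d * d') ≡ c * 1 [MOD p] := h2.mul_left c
    have h4 : c * d' * d = c * (d * d') := by ring
    rw [h4] at h1
    rw [one_mul] at h1
    rw [mul_one] at h3
    exact h3.symm.trans h1
  exact Nat.ModEq.eq_of_lt_of_lt hcd hcp hdp

/-- Factorisation of the Jacobi sum attached to a prime `Q` of degree one of the `p`-th
cyclotomic field: `(J) = ∏_{0 < c < p / 2} σ_c⁻¹ Q`, where `σ_c ζ = ζ ^ c`. -/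
theorem exists_jacobi_span_eq_prod (hp2 : p ≠ 2) (ζ : 𝓞 K) (hζ : IsPrimitiveRoot ζ p)
    (Q : Ideal (𝓞 K)) [Q.IsPrime] (q : ℕ) (hq : q.Prime) (hqp : q ≠ p)
    (hN : Ideal.absNorm Q = q) :
    ∃ J : 𝓞 K, ∀ σ : ℕ → (𝓞 K ≃+* 𝓞 K), (∀ c, 0 < c → c < p → σ c ζ = ζ ^ c) →
      Ideal.span {J} = ∏ c ∈ Finset.Ioo 0 ((p + 1) / 2), Ideal.comap (σ c) Q := by
  obtain ⟨J, hJnorm, hJmem⟩ := exists_jacobi p K hp2 ζ hζ Q q hq hqp hN
  refine ⟨J, fun σ hσ => ?_⟩
  obtain ⟨h, hh⟩ := hp.out.odd_of_ne_two hp2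
  have hS : ∀ c ∈ Finset.Ioo 0 ((p + 1) / 2), 0 < c ∧ c < p ∧ 2 * c < p := by
    intro c hc
    rw [Finset.mem_Ioo] at hc
    omega
  have hnormP : ∀ c, Ideal.absNorm (Ideal.comap (σ c) Q) = q := fun c => by
    rw [absNorm_comap_ringEquiv, hN]
  have hmaxP : ∀ c, (Ideal.comap (σ c) Q).IsMaximal := by
    intro c
    have hprime : (Ideal.comap (σ c) Q).IsPrime := Ideal.comap_isPrime _ _
    refine Ideal.IsPrime.isMaximal hprime ?_
    intro hbot
    have := hnormP c
    rw [hbot, Ideal.absNorm_bot] at this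
    exact hq.ne_zero this.symm
  have hdvd : ∏ c ∈ Finset.Ioo 0 ((p + 1) / 2), Ideal.comap (σ c) Q ∣ Ideal.span {J} := by
    apply Finset.prod_dvd_of_coprime
    · intro c hc d hd hcd
      rw [Finset.mem_coe] at hc hd
      obtain ⟨hc0, hcp, -⟩ := hS c hc
      obtain ⟨hd0, hdp, -⟩ := hS d hd
      rw [Function.onFun, Ideal.isCoprime_iff_sup_eq]
      refine Ideal.IsMaximal.coprime_of_ne (hmaxP c) (hmaxP d) fun heq => hcd ?_
      exact eq_of_comap_eq p K ζ hζ Q q hq hqp hN (σ c) (σ d) c d hcp hd0 hdp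
        (hσ c hc0 hcp) (hσ d hd0 hdp) heq
    · intro c hc
      obtain ⟨hc0, hcp, h2c⟩ := hS c hc
      rw [Ideal.dvd_span_singleton, Ideal.mem_comap]
      exact (hJmem (σ c) c hc0 hcp (hσ c hc0 hcp)).mpr h2c
  obtain ⟨I', hI'⟩ := hdvd
  have hnorm := congrArg Ideal.absNorm hI'
  rw [map_mul, map_prod, Finset.prod_congr rfl (fun c _ => hnormP c), Finset.prod_const,
    Nat.card_Ioo, hJnorm] at hnorm
  have he1 : (p - 1) / 2 = h := by omega
  have he2 : (p + 1) / 2 - 0 - 1 = h := by omega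
  rw [he1, he2] at hnorm
  have hI'1 : Ideal.absNorm I' = 1 := by
    have hpos : 0 < q ^ h := pow_pos hq.pos h
    exact (Nat.eq_of_mul_eq_mul_left hpos (by rw [mul_one]; exact hnorm)).symm
  rw [Ideal.absNorm_eq_one_iff] at hI'1
  rw [hI', hI'1, ← Ideal.one_eq_top, mul_one]

/-- Variant of `exists_jacobi_span_eq_prod` with `J ≠ 0` and with the conjugates written both as
preimages under `σ_c` and as images under automorphisms `ρ_c` with `ρ_c (ζ ^ c) = ζ`. -/
theorem exists_jacobi_factorization (hp2 : p ≠ 2) (ζ : 𝓞 K) (hζ : IsPrimitiveRoot ζ p)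
    (Q : Ideal (𝓞 K)) [Q.IsPrime] (q : ℕ) (hq : q.Prime) (hqp : q ≠ p)
    (hN : Ideal.absNorm Q = q) :
    ∃ J : 𝓞 K, J ≠ 0 ∧
      (∀ σ : ℕ → (𝓞 K ≃+* 𝓞 K), (∀ c, 0 < c → c < p → σ c ζ = ζ ^ c) →
        Ideal.span {J} = ∏ c ∈ Finset.Ioo 0 ((p + 1) / 2), Ideal.comap (σ c) Q) ∧
      (∀ ρ : ℕ → (𝓞 K ≃+* 𝓞 K), (∀ c, 0 < c → c < p → ρ c (ζ ^ c) = ζ) →
        Ideal.span {J} = ∏ c ∈ Finset.Ioo 0 ((p + 1) / 2), Ideal.map (ρ c) Q) := by
  obtain ⟨J, hJ⟩ := exists_jacobi_span_eq_prod p K hp2 ζ hζ Q q hq hqp hN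
  have hQbot : Q ≠ ⊥ := by
    rintro rfl
    rw [Ideal.absNorm_bot] at hN
    exact hq.ne_zero hN.symm
  have hex : ∃ σ : ℕ → (𝓞 K ≃+* 𝓞 K), ∀ c, 0 < c → c < p → σ c ζ = ζ ^ c := by
    have h : ∀ c : ℕ, ∃ τ : 𝓞 K ≃+* 𝓞 K, 0 < c → c < p → τ ζ = ζ ^ c := by
      intro c
      by_cases hc : 0 < c ∧ c < p
      · obtain ⟨τ, hτ⟩ := exists_ringEquiv_pow p K ζ hζ.pow_eq_one c hc.1 hc.2
        exact ⟨τ, fun _ _ => hτ⟩
      · exact ⟨RingEquiv.refl _, fun h0 h1 => absurd ⟨h0, h1⟩ hc⟩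
    choose σ hσ using h
    exact ⟨σ, hσ⟩
  refine ⟨J, ?_, hJ, ?_⟩
  · rintro rfl
    obtain ⟨σ, hσ⟩ := hex
    have h := hJ σ hσ
    rw [Set.singleton_zero, Ideal.span_zero, eq_comm, ← Ideal.zero_eq_bot,
      Finset.prod_eq_zero_iff] at h
    obtain ⟨c, -, hc⟩ := h
    have hnorm : Ideal.absNorm (Ideal.comap (σ c) Q) = q := by
      rw [absNorm_comap_ringEquiv, hN]
    rw [hc, Ideal.zero_eq_bot, Ideal.absNorm_bot] at hnorm
    exact hq.ne_zero hnorm.symm
  · intro ρ hρ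
    have h := hJ (fun c => (ρ c).symm) (fun c hc0 hcp => by
      rw [RingEquiv.symm_apply_eq]
      exact (hρ c hc0 hcp).symm)
    rw [h]
    exact Finset.prod_congr rfl fun c _ => Ideal.comap_symm (ρ c)

end NumberField

section Arithmetic

/-- The exponent `∑_{0 < c < p / 2} c = (p ^ 2 - 1) / 8` of the endgame is prime to `p`. -/
theorem not_dvd_sum_Ioo (p : ℕ) (hp : p.Prime) (hp2 : p ≠ 2) :
    ¬ p ∣ ∑ c ∈ Finset.Ioo 0 ((p + 1) / 2), c := by
  obtain ⟨h, hh⟩ := hp.odd_of_ne_two hp2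
  have h3 : 2 < p := lt_of_le_of_ne hp.two_le (Ne.symm hp2)
  have he : (p + 1) / 2 = h + 1 := by omega
  rw [he]
  have hsum : ∑ c ∈ Finset.Ioo 0 (h + 1), c = ∑ c ∈ Finset.range (h + 1), c := by
    apply Finset.sum_subset
    · intro c hc
      rw [Finset.mem_Ioo] at hc
      rw [Finset.mem_range]
      exact hc.2
    · intro c hc hc'
      rw [Finset.mem_range] at hc
      rw [Finset.mem_Ioo] at hc'
      omega
  rw [hsum]
  intro hdvd
  have h2 : p ∣ (∑ c ∈ Finset.range (h + 1), c) * 2 := Dvd.dvd.mul_right hdvd 2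
  rw [Finset.sum_range_id_mul_two, Nat.add_sub_cancel] at h2
  rcases (Nat.Prime.dvd_mul hp).mp h2 with h' | h'
  · have := Nat.le_of_dvd (by omega) h'
    omega
  · have := Nat.le_of_dvd (by omega) h'
    omega

end Arithmetic

end Fermat.Agent.S14.JacobiFact
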