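/-
S14, stream D1 (analytic core): a uniform Lipschitz-type decay estimate for the smoothed
summand `gfun ρ s x = ρ (logMap x) * cut (norm x) * (norm x) ^ (-s)` on the mixed space of a
number field.  Mathlib only; nothing about ideals, lattices or units is used here.

Main exports:
* `cut`, `gfun`, `gfun_eq_of_one_le`, `abs_gfun_le`
* `exists_bound_gfun_sub`: for a Lipschitz, bounded, boundedly supported `ρ` and every `δ`
  there is `C` with `|gfun ρ s (x + y) - gfun ρ s x| ≤ C * (1 + ‖x‖) ^ (-(n + 1))`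
  for all `1 ≤ s ≤ 2`, all `x` and all `‖y‖ ≤ δ` (`n = [K : ℚ]`).
-/
import Mathlib

namespace Fermat.Agent.S14.LipG

open NumberField NumberField.mixedEmbedding NumberField.InfinitePlace NumberField.Units
  NumberField.Units.dirichletUnitTheorem

noncomputable section

/-- The cutoff: `0` on `(-∞, 1/2]`, `1` on `[1, ∞)`, affine in between. -/
def cut (u : ℝ) : ℝ := max 0 (min 1 (2 * u - 1))

theorem cut_nonneg (u : ℝ) : 0 ≤ cut u := le_max_left _ _

theorem cut_le_one (u : ℝ) : cut u ≤ 1 :=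
  max_le zero_le_one (min_le_left _ _)

theorem cut_of_one_le {u : ℝ} (h : 1 ≤ u) : cut u = 1 := by
  unfold cut
  rw [min_eq_left (by linarith), max_eq_right zero_le_one]

theorem cut_of_le_half {u : ℝ} (h : u ≤ 1 / 2) : cut u = 0 := by
  unfold cut
  rw [min_eq_right (by linarith), max_eq_left (by linarith)]

/-- `|log a - log b| ≤ d / m` when `a, b ≥ m > 0` and `|a - b| ≤ d`. -/
theorem abs_log_sub_log_le {a b m d : ℝ} (hm : 0 < m) (ha : m ≤ a) (hb : m ≤ b)
    (hab : |a - b| ≤ d) : |Real.log a - Real.log b| ≤ d / m := by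
  have ha0 : 0 < a := lt_of_lt_of_le hm ha
  have hb0 : 0 < b := lt_of_lt_of_le hm hb
  have hd : 0 ≤ d := le_trans (abs_nonneg _) hab
  have key : ∀ {a b : ℝ}, 0 < a → m ≤ b → |a - b| ≤ d →
      Real.log a - Real.log b ≤ d / m := by
    intro a b ha0 hb hab
    have hb0 : 0 < b := lt_of_lt_of_le hm hb
    have h1 : Real.log (a / b) ≤ a / b - 1 := Real.log_le_sub_one_of_pos (div_pos ha0 hb0)
    rw [Real.log_div ha0.ne' hb0.ne'] at h1
    have h2 : a / b - 1 = (a - b) / b := by field_simp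
    have h3 : (a - b) / b ≤ d / m := by
      have h4 : (a - b) / b ≤ d / b :=
        div_le_div_of_nonneg_right (le_trans (le_abs_self _) hab) hb0.le
      exact le_trans h4 (div_le_div_of_nonneg_left hd hm hb)
    linarith
  rw [abs_le]
  constructor
  · have := key hb0 ha (by rwa [abs_sub_comm])
    linarith
  · exact key ha0 hb hab

/-- `|exp u - exp v| ≤ E * |u - v|` when `exp u, exp v ≤ E`. -/
theorem abs_exp_sub_exp_le {u v E : ℝ} (hu : Real.exp u ≤ E) (hv : Real.exp v ≤ E) :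
    |Real.exp u - Real.exp v| ≤ E * |u - v| := by
  have key : ∀ {u v : ℝ}, Real.exp u ≤ E → Real.exp u - Real.exp v ≤ E * |u - v| := by
    intro u v hu
    have h1 : v - u + 1 ≤ Real.exp (v - u) := Real.add_one_le_exp _
    have h2 : Real.exp v = Real.exp u * Real.exp (v - u) := by
      rw [← Real.exp_add]; congr 1; ring
    have h3 : Real.exp u - Real.exp v ≤ Real.exp u * (u - v) := by
      rw [h2]
      have : Real.exp u * (v - u + 1) ≤ Real.exp u * Real.exp (v - u) :=
        mul_le_mul_of_nonneg_left h1 (Real.exp_pos u).le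
      linarith
    have h4 : Real.exp u * (u - v) ≤ Real.exp u * |u - v| :=
      mul_le_mul_of_nonneg_left (le_abs_self _) (Real.exp_pos u).le
    have h5 : Real.exp u * |u - v| ≤ E * |u - v| :=
      mul_le_mul_of_nonneg_right hu (abs_nonneg _)
    linarith
  rw [abs_le]
  constructor
  · have := key (u := v) (v := u) hv
    rw [abs_sub_comm] at this
    linarith
  · exact key hu

variable (K : Type*) [Field K] [NumberField K]

/-- The smoothed summand. -/
def gfun (ρ : logSpace K → ℝ) (s : ℝ) (x : mixedSpace K) : ℝ :=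
  ρ (logMap x) * cut (mixedEmbedding.norm x) * (mixedEmbedding.norm x) ^ (-s)

variable {K}

theorem gfun_eq_of_one_le (ρ : logSpace K → ℝ) (s : ℝ) {x : mixedSpace K}
    (hx : 1 ≤ mixedEmbedding.norm x) :
    gfun K ρ s x = ρ (logMap x) * (mixedEmbedding.norm x) ^ (-s) := by
  unfold gfun
  rw [cut_of_one_le hx, mul_one]

theorem gfun_eq_zero_of_norm_le (ρ : logSpace K → ℝ) (s : ℝ) {x : mixedSpace K}
    (hx : mixedEmbedding.norm x ≤ 1 / 2) : gfun K ρ s x = 0 := by
  unfold gfun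
  rw [cut_of_le_half hx, mul_zero, zero_mul]

theorem abs_gfun_le (ρ : logSpace K → ℝ) (hρ1 : ∀ t, |ρ t| ≤ 1) {s : ℝ} (hs1 : 1 ≤ s)
    (hs2 : s ≤ 2) (x : mixedSpace K) : |gfun K ρ s x| ≤ 4 := by
  rcases le_or_gt (mixedEmbedding.norm x) (1 / 2) with h | h
  · rw [gfun_eq_zero_of_norm_le ρ s h]; simp
  · unfold gfun
    have hN0 : 0 < mixedEmbedding.norm x := by linarith
    have h1 : (mixedEmbedding.norm x) ^ (-s) ≤ 4 := by
      rw [Real.rpow_neg hN0.le, ← Real.inv_rpow hN0.le]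
      have h2 : (mixedEmbedding.norm x)⁻¹ ≤ 2 := by
        rw [inv_le_comm₀ hN0 (by norm_num)]; linarith
      have h3 : ((mixedEmbedding.norm x)⁻¹) ^ s ≤ (2 : ℝ) ^ s :=
        Real.rpow_le_rpow (inv_nonneg.mpr hN0.le) h2 (by linarith)
      have h4 : (2 : ℝ) ^ s ≤ (2 : ℝ) ^ (2 : ℝ) :=
        Real.rpow_le_rpow_of_exponent_le (by norm_num) hs2
      have h5 : (2 : ℝ) ^ (2 : ℝ) = 4 := by
        rw [show (2 : ℝ) = ((2 : ℕ) : ℝ) by norm_num, Real.rpow_natCast]; norm_num
      linarith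
    have h0 : 0 ≤ (mixedEmbedding.norm x) ^ (-s) := Real.rpow_nonneg hN0.le _
    rw [abs_mul, abs_mul, abs_of_nonneg (cut_nonneg _), abs_of_nonneg h0]
    calc |ρ (logMap x)| * cut (mixedEmbedding.norm x) * (mixedEmbedding.norm x) ^ (-s)
        ≤ 1 * 1 * 4 := by
          apply mul_le_mul _ h1 h0 (by norm_num)
          exact mul_le_mul (hρ1 _) (cut_le_one _) (cut_nonneg _) zero_le_one
      _ = 4 := by norm_num

open scoped Classical

theorem normAtPlace_le_norm (x : mixedSpace K) (w : InfinitePlace K) :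
    normAtPlace w x ≤ ‖x‖ := by
  rw [norm_eq_sup'_normAtPlace]
  exact Finset.le_sup' (fun w => normAtPlace w x) (Finset.mem_univ w)

theorem exists_normAtPlace_eq_norm (x : mixedSpace K) :
    ∃ w : InfinitePlace K, normAtPlace w x = ‖x‖ := by
  rw [norm_eq_sup'_normAtPlace]
  obtain ⟨w, -, hw⟩ := Finset.exists_mem_eq_sup' Finset.univ_nonempty
    (fun w : InfinitePlace K => normAtPlace w x)
  exact ⟨w, hw.symm⟩

theorem abs_normAtPlace_sub_le (x y : mixedSpace K) (w : InfinitePlace K) :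
    |normAtPlace w (x + y) - normAtPlace w x| ≤ ‖y‖ := by
  have h1 : normAtPlace w (x + y) ≤ normAtPlace w x + normAtPlace w y :=
    normAtPlace_add_le w x y
  have h2 : normAtPlace w x ≤ normAtPlace w (x + y) + normAtPlace w y := by
    have := normAtPlace_add_le w (x + y) (-y)
    rwa [add_neg_cancel_right, normAtPlace_neg] at this
  have h3 := normAtPlace_le_norm y w
  rw [abs_le]
  constructor <;> linarith

theorem sum_mult_cast_eq :
    ∑ w : InfinitePlace K, (mult w : ℝ) = (Module.finrank ℚ K : ℝ) := by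
  rw [← Nat.cast_sum, sum_mult_eq]

theorem pow_le_norm {x : mixedSpace K} {m : ℝ} (hm : 0 ≤ m)
    (h : ∀ w, m ≤ normAtPlace w x) : m ^ Module.finrank ℚ K ≤ mixedEmbedding.norm x := by
  rw [mixedEmbedding.norm_apply, ← sum_mult_eq (K := K), ← Finset.prod_pow_eq_pow_sum]
  exact Finset.prod_le_prod (fun w _ => pow_nonneg hm _)
    (fun w _ => pow_le_pow_left₀ hm (h w) _)

theorem sum_mult_mul_log_normAtPlace {x : mixedSpace K} (hx : mixedEmbedding.norm x ≠ 0) :
    ∑ w : InfinitePlace K, (mult w : ℝ) * Real.log (normAtPlace w x) =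
      Real.log (mixedEmbedding.norm x) := by
  rw [mixedEmbedding.norm_apply, Real.log_prod]
  · exact Finset.sum_congr rfl (fun w _ => (Real.log_pow _ _).symm)
  · exact fun w _ => pow_ne_zero _ (mixedEmbedding.norm_ne_zero_iff.mp hx w)

/-- In the cone `‖logMap x‖ ≤ R` all the `normAtPlace w x` are comparable to `‖x‖`. -/
theorem cone_lower {x : mixedSpace K} (hx : mixedEmbedding.norm x ≠ 0) {R : ℝ} (hR : 0 ≤ R)
    (hl : ‖logMap x‖ ≤ R) (w : InfinitePlace K) :
    Real.exp (-(2 * (Fintype.card (InfinitePlace K) * R))) * ‖x‖ ≤ normAtPlace w x := by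
  have hn0 : (0 : ℝ) < (Module.finrank ℚ K : ℝ) := by exact_mod_cast Module.finrank_pos
  set u : InfinitePlace K → ℝ := fun w =>
    Real.log (normAtPlace w x) -
      Real.log (mixedEmbedding.norm x) * (Module.finrank ℚ K : ℝ)⁻¹ with hu
  have hcard : (1 : ℝ) ≤ Fintype.card (InfinitePlace K) := by
    exact_mod_cast Fintype.card_pos
  have hsub : ∀ w : {w : InfinitePlace K // w ≠ w₀}, |(mult w.val : ℝ) * u w.val| ≤ R := by
    intro w
    have h1 := norm_le_pi_norm (logMap x) w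
    rw [Real.norm_eq_abs, logMap_apply] at h1
    exact le_trans h1 hl
  have hsum : ∑ w : InfinitePlace K, (mult w : ℝ) * u w = 0 := by
    simp only [hu, mul_sub, Finset.sum_sub_distrib]
    rw [sum_mult_mul_log_normAtPlace hx, ← Finset.sum_mul, sum_mult_cast_eq]
    field_simp
    ring
  have hall : ∀ w : InfinitePlace K, |u w| ≤ Fintype.card (InfinitePlace K) * R := by
    intro w
    have hmul : |u w| ≤ |(mult w : ℝ) * u w| := by
      have hm0 : (0 : ℝ) ≤ (mult w : ℝ) := Nat.cast_nonneg _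
      rw [abs_mul, abs_of_nonneg hm0]
      exact le_mul_of_one_le_left (abs_nonneg _) one_le_mult
    by_cases hw : w = w₀
    · refine le_trans hmul ?_
      have h2 := Fintype.sum_eq_add_sum_subtype_ne (fun w : InfinitePlace K => (mult w : ℝ) * u w) w
      rw [hsum] at h2
      have h3 : (mult w : ℝ) * u w = -∑ i : {i : InfinitePlace K // i ≠ w}, (mult i.val : ℝ) * u i.val := by
        linarith
      rw [h3, abs_neg]
      refine le_trans (Finset.abs_sum_le_sum_abs _ _) ?_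
      have h4 : ∑ i : {i : InfinitePlace K // i ≠ w}, |(mult i.val : ℝ) * u i.val| ≤
          ∑ _i : {i : InfinitePlace K // i ≠ w}, R := by
        refine Finset.sum_le_sum (fun i _ => ?_)
        have := hsub ⟨i.val, by rw [← hw]; exact i.prop⟩
        exact this
      refine le_trans h4 ?_
      rw [Finset.sum_const, Finset.card_univ, nsmul_eq_mul]
      refine mul_le_mul_of_nonneg_right ?_ hR
      exact_mod_cast Fintype.card_subtype_le _
    · exact le_trans hmul (le_trans (hsub ⟨w, hw⟩) (le_mul_of_one_le_left hR hcard))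
  obtain ⟨w', hw'⟩ := exists_normAtPlace_eq_norm x
  have hpos : ∀ w, 0 < normAtPlace w x := fun w =>
    lt_of_le_of_ne (normAtPlace_nonneg w x) (Ne.symm (mixedEmbedding.norm_ne_zero_iff.mp hx w))
  have h1 := abs_le.mp (hall w)
  have h2 := abs_le.mp (hall w')
  have h3 : u w - u w' = Real.log (normAtPlace w x) - Real.log (normAtPlace w' x) := by
    simp only [hu]; ring
  have h4 : -(2 * (Fintype.card (InfinitePlace K) * R)) + Real.log (normAtPlace w' x) ≤
      Real.log (normAtPlace w x) := by linarith [h1.1, h2.2]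
  calc Real.exp (-(2 * (Fintype.card (InfinitePlace K) * R))) * ‖x‖
      = Real.exp (-(2 * (Fintype.card (InfinitePlace K) * R)) +
          Real.log (normAtPlace w' x)) := by
        rw [Real.exp_add, Real.exp_log (hpos w'), hw']
    _ ≤ Real.exp (Real.log (normAtPlace w x)) := Real.exp_le_exp.mpr h4
    _ = normAtPlace w x := Real.exp_log (hpos w)

/-- The estimate far from the origin: if all `normAtPlace` of `x` and `x'` are `≥ m ≥ 1` and
differ by at most `d`, then `gfun` moves by at most `(4 Lρ + 2 n) d / m ^ (n + 1)`. -/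
theorem abs_gfun_sub_le_of_le_normAtPlace (ρ : logSpace K → ℝ) (Lρ : NNReal)
    (hρL : LipschitzWith Lρ ρ) (hρ1 : ∀ t, |ρ t| ≤ 1) {s : ℝ} (hs1 : 1 ≤ s) (hs2 : s ≤ 2)
    {x x' : mixedSpace K} {m d : ℝ} (hm : 1 ≤ m) (hx : ∀ w, m ≤ normAtPlace w x)
    (hx' : ∀ w, m ≤ normAtPlace w x')
    (hd : ∀ w, |normAtPlace w x' - normAtPlace w x| ≤ d) :
    |gfun K ρ s x' - gfun K ρ s x| ≤
      (4 * Lρ + 2 * Module.finrank ℚ K) * d / m ^ (Module.finrank ℚ K + 1) := by
  have hn0 : (0 : ℝ) < (Module.finrank ℚ K : ℝ) := by exact_mod_cast Module.finrank_pos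
  have hm0 : 0 < m := by linarith
  have hd0 : 0 ≤ d := le_trans (abs_nonneg _) (hd w₀)
  have hP1 : (1 : ℝ) ≤ m ^ Module.finrank ℚ K := one_le_pow₀ hm
  have hP0 : (0 : ℝ) < m ^ Module.finrank ℚ K := by linarith
  have hN : m ^ Module.finrank ℚ K ≤ mixedEmbedding.norm x := pow_le_norm hm0.le hx
  have hN' : m ^ Module.finrank ℚ K ≤ mixedEmbedding.norm x' := pow_le_norm hm0.le hx'
  have hN0 : 0 < mixedEmbedding.norm x := by linarith
  have hN'0 : 0 < mixedEmbedding.norm x' := by linarith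
  rw [gfun_eq_of_one_le ρ s (by linarith), gfun_eq_of_one_le ρ s (by linarith)]
  have hlog : ∀ w, |Real.log (normAtPlace w x') - Real.log (normAtPlace w x)| ≤ d / m :=
    fun w => abs_log_sub_log_le hm0 (hx' w) (hx w) (hd w)
  have hdm : 0 ≤ d / m := div_nonneg hd0 hm0.le
  have hlogN : |Real.log (mixedEmbedding.norm x') - Real.log (mixedEmbedding.norm x)| ≤
      Module.finrank ℚ K * (d / m) := by
    rw [← sum_mult_mul_log_normAtPlace hN'0.ne', ← sum_mult_mul_log_normAtPlace hN0.ne',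
      ← Finset.sum_sub_distrib]
    refine le_trans (Finset.abs_sum_le_sum_abs _ _) ?_
    rw [← sum_mult_cast_eq, Finset.sum_mul]
    refine Finset.sum_le_sum (fun w _ => ?_)
    have hmw : (0 : ℝ) ≤ (mult w : ℝ) := Nat.cast_nonneg _
    rw [← mul_sub, abs_mul, abs_of_nonneg hmw]
    exact mul_le_mul_of_nonneg_left (hlog w) hmw
  have hl : ‖logMap x' - logMap x‖ ≤ 4 * (d / m) := by
    rw [pi_norm_le_iff_of_nonneg (by positivity)]
    intro w
    rw [Pi.sub_apply, logMap_apply, logMap_apply, Real.norm_eq_abs]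
    have e : (mult w.val : ℝ) * (Real.log (normAtPlace w.val x') -
          Real.log (mixedEmbedding.norm x') * (Module.finrank ℚ K : ℝ)⁻¹) -
        (mult w.val : ℝ) * (Real.log (normAtPlace w.val x) -
          Real.log (mixedEmbedding.norm x) * (Module.finrank ℚ K : ℝ)⁻¹) =
        (mult w.val : ℝ) * ((Real.log (normAtPlace w.val x') - Real.log (normAtPlace w.val x)) -
          (Real.log (mixedEmbedding.norm x') - Real.log (mixedEmbedding.norm x)) *
            (Module.finrank ℚ K : ℝ)⁻¹) := by ring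
    have hmw : (0 : ℝ) ≤ (mult w.val : ℝ) := Nat.cast_nonneg _
    rw [e, abs_mul, abs_of_nonneg hmw]
    have h1 : |(Real.log (normAtPlace w.val x') - Real.log (normAtPlace w.val x)) -
          (Real.log (mixedEmbedding.norm x') - Real.log (mixedEmbedding.norm x)) *
            (Module.finrank ℚ K : ℝ)⁻¹| ≤ d / m + d / m := by
      refine le_trans (abs_sub _ _) ?_
      refine add_le_add (hlog w.val) ?_
      rw [abs_mul, abs_of_nonneg (inv_nonneg.mpr hn0.le)]
      calc |Real.log (mixedEmbedding.norm x') - Real.log (mixedEmbedding.norm x)| *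
            (Module.finrank ℚ K : ℝ)⁻¹
          ≤ (Module.finrank ℚ K * (d / m)) * (Module.finrank ℚ K : ℝ)⁻¹ :=
            mul_le_mul_of_nonneg_right hlogN (inv_nonneg.mpr hn0.le)
        _ = d / m := by field_simp
    have h2 : (mult w.val : ℝ) ≤ 2 := by
      unfold mult; split_ifs <;> norm_num
    calc (mult w.val : ℝ) * |(Real.log (normAtPlace w.val x') - Real.log (normAtPlace w.val x)) -
          (Real.log (mixedEmbedding.norm x') - Real.log (mixedEmbedding.norm x)) *
            (Module.finrank ℚ K : ℝ)⁻¹|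
        ≤ 2 * (d / m + d / m) := mul_le_mul h2 h1 (abs_nonneg _) (by norm_num)
      _ = 4 * (d / m) := by ring
  have hρ : |ρ (logMap x') - ρ (logMap x)| ≤ Lρ * (4 * (d / m)) := by
    have h1 := hρL.dist_le_mul (logMap x') (logMap x)
    rw [Real.dist_eq, dist_eq_norm] at h1
    exact le_trans h1 (mul_le_mul_of_nonneg_left hl Lρ.coe_nonneg)
  have hE : ∀ N : ℝ, m ^ Module.finrank ℚ K ≤ N →
      Real.exp (Real.log N * (-s)) ≤ (m ^ Module.finrank ℚ K)⁻¹ := by
    intro N hN
    have h1 : Real.log (m ^ Module.finrank ℚ K) ≤ Real.log N := Real.log_le_log hP0 hN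
    have h2 : 0 ≤ Real.log (m ^ Module.finrank ℚ K) := Real.log_nonneg hP1
    have h3 : Real.log N * (-s) ≤ -Real.log (m ^ Module.finrank ℚ K) := by nlinarith
    calc Real.exp (Real.log N * (-s)) ≤ Real.exp (-Real.log (m ^ Module.finrank ℚ K)) :=
          Real.exp_le_exp.mpr h3
      _ = (m ^ Module.finrank ℚ K)⁻¹ := by rw [Real.exp_neg, Real.exp_log hP0]
  have hpow : |(mixedEmbedding.norm x') ^ (-s) - (mixedEmbedding.norm x) ^ (-s)| ≤
      (m ^ Module.finrank ℚ K)⁻¹ * (2 * (Module.finrank ℚ K * (d / m))) := by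
    rw [Real.rpow_def_of_pos hN'0, Real.rpow_def_of_pos hN0]
    refine le_trans (abs_exp_sub_exp_le (hE _ hN') (hE _ hN)) ?_
    refine mul_le_mul_of_nonneg_left ?_ (inv_nonneg.mpr hP0.le)
    have e : Real.log (mixedEmbedding.norm x') * (-s) - Real.log (mixedEmbedding.norm x) * (-s) =
        (-s) * (Real.log (mixedEmbedding.norm x') - Real.log (mixedEmbedding.norm x)) := by ring
    rw [e, abs_mul, abs_neg, abs_of_nonneg (by linarith : (0 : ℝ) ≤ s)]
    exact mul_le_mul hs2 hlogN (abs_nonneg _) (by norm_num)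
  have hpow' : (mixedEmbedding.norm x') ^ (-s) ≤ (m ^ Module.finrank ℚ K)⁻¹ := by
    rw [Real.rpow_def_of_pos hN'0]; exact hE _ hN'
  have hpow0 : 0 ≤ (mixedEmbedding.norm x') ^ (-s) := Real.rpow_nonneg hN'0.le _
  have e : ρ (logMap x') * (mixedEmbedding.norm x') ^ (-s) -
      ρ (logMap x) * (mixedEmbedding.norm x) ^ (-s) =
      (ρ (logMap x') - ρ (logMap x)) * (mixedEmbedding.norm x') ^ (-s) +
      ρ (logMap x) * ((mixedEmbedding.norm x') ^ (-s) - (mixedEmbedding.norm x) ^ (-s)) := by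
    ring
  rw [e]
  refine le_trans (abs_add_le _ _) ?_
  rw [abs_mul, abs_mul, abs_of_nonneg hpow0]
  have t1 : |ρ (logMap x') - ρ (logMap x)| * (mixedEmbedding.norm x') ^ (-s) ≤
      Lρ * (4 * (d / m)) * (m ^ Module.finrank ℚ K)⁻¹ :=
    mul_le_mul hρ hpow' hpow0 (by positivity)
  have t2 : |ρ (logMap x)| * |(mixedEmbedding.norm x') ^ (-s) - (mixedEmbedding.norm x) ^ (-s)| ≤
      1 * ((m ^ Module.finrank ℚ K)⁻¹ * (2 * (Module.finrank ℚ K * (d / m)))) :=
    mul_le_mul (hρ1 _) hpow (abs_nonneg _) zero_le_one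
  refine le_trans (add_le_add t1 t2) (le_of_eq ?_)
  rw [pow_succ]
  field_simp

/-- `gfun` vanishes outside the truncated cone. -/
theorem norm_and_logMap_of_gfun_ne_zero (ρ : logSpace K → ℝ) (R : ℝ)
    (hρR : ∀ t, R < ‖t‖ → ρ t = 0) {s : ℝ} {x : mixedSpace K} (h : gfun K ρ s x ≠ 0) :
    1 / 2 < mixedEmbedding.norm x ∧ ‖logMap x‖ ≤ max R 0 := by
  constructor
  · by_contra hc
    exact h (gfun_eq_zero_of_norm_le ρ s (not_lt.mp hc))
  · by_contra hc
    have h1 : R < ‖logMap x‖ := lt_of_le_of_lt (le_max_left _ _) (not_le.mp hc)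
    apply h
    unfold gfun
    rw [hρR _ h1, zero_mul, zero_mul]

/-- The estimate for `x` in the truncated cone, with the symmetric weight `1 + ‖x‖ + δ`. -/
theorem exists_bound_gfun_sub_of_mem (ρ : logSpace K → ℝ) (Lρ : NNReal)
    (hρL : LipschitzWith Lρ ρ) (hρ1 : ∀ t, |ρ t| ≤ 1) {R : ℝ} (hR : 0 ≤ R) {δ : ℝ}
    (hδ : 0 ≤ δ) :
    ∃ C : ℝ, 0 ≤ C ∧ ∀ s : ℝ, 1 ≤ s → s ≤ 2 → ∀ x y : mixedSpace K, ‖y‖ ≤ δ →
      1 / 2 < mixedEmbedding.norm x → ‖logMap x‖ ≤ R →
      |gfun K ρ s (x + y) - gfun K ρ s x| * (1 + ‖x‖ + δ) ^ (Module.finrank ℚ K + 1) ≤ C := by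
  set c : ℝ := Real.exp (-(2 * (Fintype.card (InfinitePlace K) * R))) with hc
  have hc0 : 0 < c := Real.exp_pos _
  have hc1 : c ≤ 1 := by
    rw [hc, ← Real.exp_zero]
    apply Real.exp_le_exp.mpr
    have : (0 : ℝ) ≤ Fintype.card (InfinitePlace K) * R := mul_nonneg (Nat.cast_nonneg _) hR
    linarith
  set M₀ : ℝ := (2 * δ + 2) / c with hM₀
  have hM₀0 : 0 ≤ M₀ := div_nonneg (by linarith) hc0.le
  set A : ℝ := (4 * Lρ + 2 * Module.finrank ℚ K) * δ * (4 / c) ^ (Module.finrank ℚ K + 1)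
    with hA
  have hA0 : 0 ≤ A := by
    have : (0 : ℝ) ≤ Lρ := Lρ.coe_nonneg
    positivity
  refine ⟨max (8 * (1 + M₀ + δ) ^ (Module.finrank ℚ K + 1)) A,
    le_trans hA0 (le_max_right _ _), ?_⟩
  intro s hs1 hs2 x y hy hx hl
  have hxn : 0 ≤ ‖x‖ := norm_nonneg _
  rcases lt_or_ge ‖x‖ M₀ with hM | hM
  · -- bounded region: crude bound
    refine le_trans ?_ (le_max_left _ _)
    have h8 : |gfun K ρ s (x + y) - gfun K ρ s x| ≤ 8 := by
      have h1 := abs_gfun_le ρ hρ1 hs1 hs2 (x + y)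
      have h2 := abs_gfun_le ρ hρ1 hs1 hs2 x
      have h3 := abs_sub (gfun K ρ s (x + y)) (gfun K ρ s x)
      linarith
    have hpow : (1 + ‖x‖ + δ) ^ (Module.finrank ℚ K + 1) ≤
        (1 + M₀ + δ) ^ (Module.finrank ℚ K + 1) :=
      pow_le_pow_left₀ (by linarith) (by linarith) _
    exact mul_le_mul h8 hpow (by positivity) (by norm_num)
  · -- far region
    refine le_trans ?_ (le_max_right _ _)
    have hcM : 2 * δ + 2 ≤ c * ‖x‖ := by
      have := (div_le_iff₀ hc0).mp hM
      linarith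
    set m : ℝ := c * ‖x‖ / 2 with hm
    have hm1 : 1 ≤ m := by rw [hm]; linarith
    have hδm : δ ≤ m := by rw [hm]; linarith
    have hm0 : 0 < m := by linarith
    have hxw : ∀ w, c * ‖x‖ ≤ normAtPlace w x := fun w =>
      cone_lower (by linarith) hR hl w
    have hd : ∀ w, |normAtPlace w (x + y) - normAtPlace w x| ≤ δ := fun w =>
      le_trans (abs_normAtPlace_sub_le x y w) hy
    have hx1 : ∀ w, m ≤ normAtPlace w x := fun w => by
      have := hxw w
      rw [hm]; linarith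
    have hx2 : ∀ w, m ≤ normAtPlace w (x + y) := fun w => by
      have h1 := hxw w
      have h2 := (abs_le.mp (hd w)).1
      have h3 : c * ‖x‖ = 2 * m := by rw [hm]; ring
      linarith
    have key := abs_gfun_sub_le_of_le_normAtPlace ρ Lρ hρL hρ1 hs1 hs2 hm1 hx1 hx2 hd
    have hle : 1 + ‖x‖ + δ ≤ 4 / c * m := by
      have h1 : 4 / c * m = 2 * ‖x‖ := by rw [hm]; field_simp; ring
      have h2 : c * ‖x‖ ≤ ‖x‖ := by
        calc c * ‖x‖ ≤ 1 * ‖x‖ := mul_le_mul_of_nonneg_right hc1 hxn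
          _ = ‖x‖ := one_mul _
      rw [h1]; linarith
    have hpow : (1 + ‖x‖ + δ) ^ (Module.finrank ℚ K + 1) ≤
        (4 / c * m) ^ (Module.finrank ℚ K + 1) :=
      pow_le_pow_left₀ (by linarith) hle _
    have hK0 : (0 : ℝ) ≤ (4 * Lρ + 2 * Module.finrank ℚ K) * δ /
        m ^ (Module.finrank ℚ K + 1) := by
      have : (0 : ℝ) ≤ Lρ := Lρ.coe_nonneg
      positivity
    calc |gfun K ρ s (x + y) - gfun K ρ s x| * (1 + ‖x‖ + δ) ^ (Module.finrank ℚ K + 1)
        ≤ ((4 * Lρ + 2 * Module.finrank ℚ K) * δ / m ^ (Module.finrank ℚ K + 1)) *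
            (4 / c * m) ^ (Module.finrank ℚ K + 1) :=
          mul_le_mul key hpow (by positivity) hK0
      _ = A := by
          rw [hA, mul_pow]
          field_simp

/-- **Main estimate.**  For a Lipschitz, bounded, boundedly supported `ρ` and every `δ` there
is a constant `C` such that `gfun ρ s` moves by at most `C * (1 + ‖x‖) ^ (-(n + 1))` between
`x` and `x + y`, uniformly in `1 ≤ s ≤ 2`, `x` and `‖y‖ ≤ δ`. -/
theorem exists_bound_gfun_sub (ρ : logSpace K → ℝ) (Lρ : NNReal) (hρL : LipschitzWith Lρ ρ)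
    (hρ1 : ∀ t, |ρ t| ≤ 1) (R : ℝ) (hρR : ∀ t, R < ‖t‖ → ρ t = 0) (δ : ℝ) :
    ∃ C : ℝ, 0 ≤ C ∧ ∀ s : ℝ, 1 ≤ s → s ≤ 2 → ∀ x y : mixedSpace K, ‖y‖ ≤ δ →
      |gfun K ρ s (x + y) - gfun K ρ s x| ≤
        C * (1 + ‖x‖) ^ (-(Module.finrank ℚ K + 1 : ℝ)) := by
  obtain ⟨C, hC0, hC⟩ := exists_bound_gfun_sub_of_mem (K := K) ρ Lρ hρL hρ1
    (le_max_right R 0) (le_max_right δ 0)
  refine ⟨C, hC0, ?_⟩
  intro s hs1 hs2 x y hy
  have hxn : 0 ≤ ‖x‖ := norm_nonneg _
  have hyn : 0 ≤ ‖y‖ := norm_nonneg _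
  have hδ' : 0 ≤ max δ 0 := le_max_right _ _
  have hy' : ‖y‖ ≤ max δ 0 := le_trans hy (le_max_left _ _)
  have hpos : (0 : ℝ) < (1 + ‖x‖) ^ (Module.finrank ℚ K + 1) := by positivity
  have hrw : (1 + ‖x‖) ^ (-(Module.finrank ℚ K + 1 : ℝ)) =
      ((1 + ‖x‖) ^ (Module.finrank ℚ K + 1))⁻¹ := by
    rw [Real.rpow_neg (by linarith)]
    congr 1
    rw [← Real.rpow_natCast]
    congr 1
    push_cast
    ring
  rw [hrw, ← div_eq_mul_inv, le_div_iff₀ hpos]
  by_cases h0 : gfun K ρ s x = 0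
  · by_cases h1 : gfun K ρ s (x + y) = 0
    · rw [h0, h1]; simpa using hC0
    · obtain ⟨hN, hl⟩ := norm_and_logMap_of_gfun_ne_zero ρ R hρR h1
      have key := hC s hs1 hs2 (x + y) (-y) (by rwa [norm_neg]) hN hl
      rw [add_neg_cancel_right, abs_sub_comm] at key
      refine le_trans ?_ key
      refine mul_le_mul_of_nonneg_left ?_ (abs_nonneg _)
      refine pow_le_pow_left₀ (by linarith) ?_ _
      have h2 : ‖x‖ ≤ ‖x + y‖ + ‖y‖ := by
        have := norm_add_le (x + y) (-y)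
        rwa [add_neg_cancel_right, norm_neg] at this
      linarith
  · obtain ⟨hN, hl⟩ := norm_and_logMap_of_gfun_ne_zero ρ R hρR h0
    have key := hC s hs1 hs2 x y hy' hN hl
    refine le_trans ?_ key
    refine mul_le_mul_of_nonneg_left ?_ (abs_nonneg _)
    exact pow_le_pow_left₀ (by linarith) (by linarith) _

end

end Fermat.Agent.S14.LipG
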