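import Fermat.Agent.S14.Defs
import Fermat.Agent.S14.ArtinMap
import Fermat.Agent.S14.ArtinBase
import Fermat.Agent.S14.JacobiEnd

set_option autoImplicit false

open NumberField nonZeroDivisors

namespace Fermat.Agent.S14.NoFieldFinal

open Fermat.Agent.S14 Fermat.Agent.S14.ArtinMap Fermat.Agent.S14.ArtinBase

section Conj

variable {K L : Type*} [Field K] [Field L] [Algebra K L]

/-- Conjugation of `σ ∈ Gal(L/K)` by a ring automorphism `g` of `L` inducing `gK` on `K`: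
the `K`-automorphism `g ∘ σ ∘ g⁻¹`. -/
noncomputable def conj (g : L ≃+* L) (gK : K ≃+* K)
    (hg : ∀ x : K, g (algebraMap K L x) = algebraMap K L (gK x)) (σ : L ≃ₐ[K] L) :
    L ≃ₐ[K] L :=
  AlgEquiv.ofRingEquiv (f := (g.symm.trans σ.toRingEquiv).trans g) (by
    intro x
    have h1 : g.symm (algebraMap K L x) = algebraMap K L (gK.symm x) := by
      rw [RingEquiv.symm_apply_eq, hg, RingEquiv.apply_symm_apply]
    simp only [RingEquiv.trans_apply, h1]
    change g (σ (algebraMap K L (gK.symm x))) = algebraMap K L x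
    rw [AlgEquiv.commutes, hg, RingEquiv.apply_symm_apply])

theorem conj_apply (g : L ≃+* L) (gK : K ≃+* K)
    (hg : ∀ x : K, g (algebraMap K L x) = algebraMap K L (gK x)) (σ : L ≃ₐ[K] L) (x : L) :
    conj g gK hg σ x = g (σ (g.symm x)) := rfl

end Conj

section Equivariance

variable {p : ℕ} (K L : Type*) [Field K] [Field L] [NumberField K] [NumberField L] [Algebra K L]
  [IsGalois ℚ L] [IsGalois K L]

/-- Extension of a ring automorphism of `𝓞 K` to `K`. -/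
noncomputable def extK (ρ : 𝓞 K ≃+* 𝓞 K) : K ≃+* K := IsFractionRing.ringEquivOfRingEquiv ρ

theorem extK_coe (ρ : 𝓞 K ≃+* 𝓞 K) (x : 𝓞 K) : extK K ρ (x : K) = (ρ x : K) :=
  IsFractionRing.ringEquivOfRingEquiv_algebraMap ρ x

theorem mapRingEquiv_extK (ρ : 𝓞 K ≃+* 𝓞 K) : RingOfIntegers.mapRingEquiv (extK K ρ) = ρ := by
  ext x
  rw [RingOfIntegers.mapRingEquiv_apply]
  exact extK_coe K ρ x

/-- A ring automorphism of a field of characteristic zero, as a `ℚ`-algebra automorphism. -/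
noncomputable def ratAlgEquiv (e : K ≃+* K) : K ≃ₐ[ℚ] K :=
  AlgEquiv.ofRingEquiv (f := e) (by intro x; simp)

variable {K L} in
/-- Equivariance of the Frobenius under `Gal(K/ℚ)` in the presence of the conjugation law:
if `ρ (ζ ^ c) = ζ` then `frob (ρ q) = frob q ^ c`. -/
theorem frob_map_pow (hab : ∀ a b : L ≃ₐ[K] L, a * b = b * a) (hur : Unram K L)
    (hconj : ConjInv p K L) (ζ : 𝓞 K) (hζ : IsPrimitiveRoot ζ p)
    (ρ : 𝓞 K ≃+* 𝓞 K) (c : ℕ) (hρ : ρ (ζ ^ c) = ζ) (q : Ideal (𝓞 K)) [q.IsPrime] (hq : q ≠ ⊥) :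
    frob K L (L ≃ₐ[K] L) (q.map (ρ : 𝓞 K →+* 𝓞 K)) = frob K L (L ≃ₐ[K] L) q ^ c := by
  set ρK : K ≃+* K := extK K ρ with hρK
  set gL : L ≃ₐ[ℚ] L := (ratAlgEquiv K ρK).liftNormal L with hgL
  have hg : ∀ x : K, gL.toRingEquiv (algebraMap K L x) = algebraMap K L (ρK x) :=
    fun x => AlgEquiv.liftNormal_commutes (ratAlgEquiv K ρK) L x
  have h1 := frob_map hab hur gL.toRingEquiv ρK hg (conj gL.toRingEquiv ρK hg)
    (fun σ x => by
      rw [AlgEquiv.smul_def, AlgEquiv.smul_def, conj_apply, RingEquiv.symm_apply_apply]) q hq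
  rw [mapRingEquiv_extK] at h1
  rw [h1]
  set φ := frob K L (L ≃ₐ[K] L) q with hφ
  have hζK : IsPrimitiveRoot (ζ : K) p :=
    hζ.map_of_injective (FaithfulSMul.algebraMap_injective (𝓞 K) K)
  have h3 : gL.symm (algebraMap K L (ζ : K)) = algebraMap K L ((ζ : K) ^ c) := by
    rw [AlgEquiv.symm_apply_eq]
    have := hg ((ζ : K) ^ c)
    have h4 : ρK ((ζ : K) ^ c) = (ζ : K) := by
      have e1 : ((ζ : K) ^ c) = ((ζ ^ c : 𝓞 K) : K) :=
        (map_pow (algebraMap (𝓞 K) K) ζ c).symm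
      rw [e1, hρK, extK_coe, hρ]
    rw [h4] at this
    exact this.symm
  have h2 := hconj gL.symm (conj gL.toRingEquiv ρK hg φ) (ζ : K) c hζK h3
  have h5 : gL.symm * (conj gL.toRingEquiv ρK hg φ).restrictScalars ℚ * gL.symm⁻¹ =
      φ.restrictScalars ℚ := by
    ext x
    simp only [AlgEquiv.mul_apply, AlgEquiv.aut_inv, AlgEquiv.symm_symm,
      AlgEquiv.restrictScalars_apply, conj_apply]
    simp
  rw [h5] at h2
  apply AlgEquiv.restrictScalarsHom_injective ℚ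
  rw [map_pow, AlgEquiv.restrictScalarsHom_apply, AlgEquiv.restrictScalarsHom_apply, h2]

variable {K L} in
/-- `hequiv` of `JacobiEnd.psi_eq_one_of_map` for the Artin map. -/
theorem artin_map_pow (hab : ∀ a b : L ≃ₐ[K] L, a * b = b * a) (hur : Unram K L)
    (hconj : ConjInv p K L) (ζ : 𝓞 K) (hζ : IsPrimitiveRoot ζ p)
    (ρ : 𝓞 K ≃+* 𝓞 K) (c : ℕ) (hρ : ρ (ζ ^ c) = ζ) (Q Q' : (Ideal (𝓞 K))⁰)
    (hQ : (Q : Ideal (𝓞 K)).IsPrime) (hQ' : (Q' : Ideal (𝓞 K)) = Ideal.map ρ (Q : Ideal (𝓞 K))) :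
    ArtinMap.artin K L (L ≃ₐ[K] L) hab Q' = ArtinMap.artin K L (L ≃ₐ[K] L) hab Q ^ c := by
  have hQne : (Q : Ideal (𝓞 K)) ≠ ⊥ := nonZeroDivisors.coe_ne_zero Q
  have hQ'ne : (Q' : Ideal (𝓞 K)) ≠ ⊥ := nonZeroDivisors.coe_ne_zero Q'
  haveI := hQ
  haveI hQ'1 : (Q' : Ideal (𝓞 K)).IsPrime := by
    rw [hQ']; exact Ideal.map_isPrime_of_equiv ρ
  rw [artin_apply, artin_apply, artinFun_prime hab _ hQ'ne, artinFun_prime hab _ hQne]
  have := frob_map_pow hab hur hconj ζ hζ ρ c hρ (Q : Ideal (𝓞 K)) hQne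
  rw [← this]
  congr 1

end Equivariance

section Nontrivial

variable {K L : Type*} [Field K] [NumberField K] [Field L] [NumberField L] [Algebra K L]
  {G : Type*} [Group G] [Finite G] [MulSemiringAction G L] [IsGaloisGroup G K L]

/-- If all Frobenius elements are trivial, every nonzero ideal of `𝓞 K` is a norm. -/
theorem exists_relNorm_eq_of_forall_frob (hab : ∀ a b : G, a * b = b * a) (hur : IsUnram L G)
    (h : ∀ q : Ideal (𝓞 K), q.IsPrime → q ≠ ⊥ → frob K L G q = 1) (I : Ideal (𝓞 K))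
    (hI : I ≠ ⊥) : ∃ J : Ideal (𝓞 L), J ≠ ⊥ ∧ Ideal.relNorm (𝓞 K) J = I := by
  induction I using UniqueFactorizationMonoid.induction_on_prime with
  | h₁ => exact absurd rfl hI
  | h₂ x hx =>
    rw [Ideal.isUnit_iff] at hx
    subst hx
    exact ⟨⊤, top_ne_bot, Ideal.relNorm_top (𝓞 K)⟩
  | h₃ a q ha hq ih =>
    obtain ⟨J, hJ, hJa⟩ := ih ha
    have hqne : q ≠ ⊥ := hq.ne_zero
    haveI hq1 : q.IsPrime := Ideal.isPrime_of_prime hq
    obtain ⟨Q, hQ1, hQ2⟩ := (q.nonempty_primesOver (S := 𝓞 L)).some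
    haveI := hQ1
    haveI := hQ2
    refine ⟨Q * J, mul_ne_zero (ne_bot_of_liesOver q hqne Q) hJ, ?_⟩
    rw [map_mul, hJa, relNorm_eq_of_frob_eq_one hab hur q hqne Q (h q hq1 hqne)]

/-- First-inequality input, weak form: if some nonzero ideal of `𝓞 K` is not a norm from `L`,
then some prime of `K` has non-trivial Frobenius. -/
theorem exists_frob_ne_one (hab : ∀ a b : G, a * b = b * a) (hur : IsUnram L G)
    (hFI : ∃ I : Ideal (𝓞 K), I ≠ ⊥ ∧ ∀ J : Ideal (𝓞 L), J ≠ ⊥ → Ideal.relNorm (𝓞 K) J ≠ I) :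
    ∃ q : Ideal (𝓞 K), q.IsPrime ∧ q ≠ ⊥ ∧ frob K L G q ≠ 1 := by
  by_contra hcon
  push Not at hcon
  obtain ⟨I, hI, hIJ⟩ := hFI
  obtain ⟨J, hJ, hJI⟩ := exists_relNorm_eq_of_forall_frob hab hur hcon I hI
  exact hIJ J hJ hJI

/-- First-inequality input, class-group form (a class which is not the class of a norm). -/
theorem exists_frob_ne_one_of_class (hab : ∀ a b : G, a * b = b * a) (hur : IsUnram L G)
    (hFI : ∃ c : ClassGroup (𝓞 K), ∀ (J : Ideal (𝓞 L)) (hJ : Ideal.relNorm (𝓞 K) J ∈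
      (Ideal (𝓞 K))⁰), ClassGroup.mk0 ⟨Ideal.relNorm (𝓞 K) J, hJ⟩ ≠ c) :
    ∃ q : Ideal (𝓞 K), q.IsPrime ∧ q ≠ ⊥ ∧ frob K L G q ≠ 1 := by
  obtain ⟨c, hc⟩ := hFI
  obtain ⟨I, rfl⟩ := ClassGroup.mk0_surjective c
  refine exists_frob_ne_one hab hur ⟨I.1, nonZeroDivisors.coe_ne_zero I, fun J _ hJI => ?_⟩
  have hmem : Ideal.relNorm (𝓞 K) J ∈ (Ideal (𝓞 K))⁰ := by rw [hJI]; exact I.2
  apply hc J hmem
  congr 1
  exact Subtype.ext hJI

end Nontrivial

section Final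

/-- The number-field statement `NoField p` from the reciprocity law (`hrec`: principal ideals
have trivial Artin symbol) and the existence of a non-trivial Frobenius (`hne`). -/
theorem noField_of_rec (p : ℕ) [hp : Fact p.Prime] (h3 : 3 ≤ p)
    (hrec : ∀ (K L : Type) [Field K] [Field L] [NumberField K] [NumberField L] [Algebra K L]
      [IsCyclotomicExtension {p} ℚ K] [IsGalois ℚ L] [IsGalois K L],
      Module.finrank K L = p → Unram K L → ConjInv p K L →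
      ∀ (hab : ∀ a b : L ≃ₐ[K] L, a * b = b * a) (x : 𝓞 K), x ≠ 0 →
        artinFun K L (L ≃ₐ[K] L) hab (Ideal.span {x}) = 1)
    (hne : ∀ (K L : Type) [Field K] [Field L] [NumberField K] [NumberField L] [Algebra K L]
      [IsCyclotomicExtension {p} ℚ K] [IsGalois ℚ L] [IsGalois K L],
      Module.finrank K L = p → Unram K L → ConjInv p K L →
      ∃ q : Ideal (𝓞 K), q.IsPrime ∧ q ≠ ⊥ ∧ frob K L (L ≃ₐ[K] L) q ≠ 1) : NoField p := by
  intro K L _ _ _ _ _ _ _ _ hdeg hur hconj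
  have hp2 : p ≠ 2 := by omega
  have hcard : Nat.card (L ≃ₐ[K] L) = p := by rw [IsGalois.card_aut_eq_finrank, hdeg]
  have hab : ∀ a b : L ≃ₐ[K] L, a * b = b * a := by
    haveI : IsCyclic (L ≃ₐ[K] L) := isCyclic_of_prime_card hcard
    letI := IsCyclic.commGroup (α := L ≃ₐ[K] L)
    exact fun a b => mul_comm a b
  have hC : ∀ g : L ≃ₐ[K] L, g ^ p = 1 := fun g => by
    rw [← hcard]; exact pow_card_eq_one'
  haveI : NeZero p := ⟨hp.out.ne_zero⟩
  obtain ⟨ζ0, hζ0⟩ := IsCyclotomicExtension.exists_isPrimitiveRoot ℚ K (Set.mem_singleton p)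
    hp.out.ne_zero
  set ζ : 𝓞 K := hζ0.toInteger with hζdef
  have hζ : IsPrimitiveRoot ζ p := hζ0.toInteger_isPrimitiveRoot
  have key := JacobiEnd.psi_eq_one_of_map p K hp2 ζ hζ hC (ArtinMap.artin K L (L ≃ₐ[K] L) hab)
    (fun ρ c _ _ hρ Q Q' hQ hQ' => artin_map_pow hab hur hconj ζ hζ ρ c hρ Q Q' hQ hQ')
    (fun x I hI => by
      rw [artin_apply, hI]
      refine hrec K L hdeg hur hconj hab x ?_
      rintro rfl
      apply nonZeroDivisors.coe_ne_zero I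
      rw [hI]; simp)
  obtain ⟨q, hq1, hq, hfrob⟩ := hne K L hdeg hur hconj
  apply hfrob
  have hmem : q ∈ (Ideal (𝓞 K))⁰ := mem_nonZeroDivisors_iff_ne_zero.mpr hq
  rw [← artin_prime hab q hq hmem]
  exact key _

end Final

end Fermat.Agent.S14.NoFieldFinal
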