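import Mathlib
import Fermat.Agent.S14.Defs
import Fermat.Agent.S14.ArtinMap
import Fermat.Agent.S14.ArtinBase
import Fermat.Agent.S14.JacobiEnd

/-!
# S14, stream G: the number-field statement `NoField p` from reciprocity

`noField_of`: for `K = ℚ(ζ_p)`, `L/K` cyclic unramified of degree `p` with the conjugation law
`ConjInv`, reciprocity (principal ideals have trivial Artin symbol) contradicts the existence of a
prime with nontrivial Frobenius.
-/

set_option autoImplicit false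
set_option linter.style.haveILetI false

open NumberField nonZeroDivisors

namespace Fermat.Agent.S14.NoFieldProof

section Group

/-- In a group of prime order every element is killed by `p`. -/
theorem pow_prime_card_eq_one {G : Type*} [Group G] (p : ℕ) (h : Nat.card G = p) (g : G) :
    g ^ p = 1 := by
  rw [← h]; exact _root_.pow_card_eq_one'

/-- If `x ^ a = y`, `x ^ p = 1` and `a * c ≡ 1 [MOD p]`, then `y ^ c = x`. -/
theorem pow_eq_of_mul_modEq {G : Type*} [Group G] (p a c : ℕ) (x y : G) (hxp : x ^ p = 1)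
    (hxy : x ^ a = y) (hac : a * c ≡ 1 [MOD p]) : y ^ c = x := by
  rw [← hxy, ← pow_mul]
  have h1 : x ^ (a * c) = x ^ 1 := by
    rw [pow_eq_pow_iff_modEq]
    exact hac.of_dvd (orderOf_dvd_of_pow_eq_one hxp)
  rw [h1, pow_one]

end Group

section Conj

variable {K L : Type*} [Field K] [Field L] [NumberField K] [NumberField L] [Algebra K L]

/-- Conjugation of `σ ∈ Gal(L/K)` by `g ∈ Gal(L/ℚ)`, when `K/ℚ` is normal. -/
noncomputable def conj [Normal ℚ K] (g : L ≃ₐ[ℚ] L) (σ : L ≃ₐ[K] L) : L ≃ₐ[K] L :=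
  AlgEquiv.ofRingEquiv (f := (g.symm.toRingEquiv.trans σ.toRingEquiv).trans g.toRingEquiv)
    (by
      intro x
      have h1 : g.symm (algebraMap K L x) = algebraMap K L ((g.restrictNormal K).symm x) := by
        rw [AlgEquiv.symm_apply_eq, ← AlgEquiv.restrictNormal_commutes, AlgEquiv.apply_symm_apply]
      change g (σ (g.symm (algebraMap K L x))) = algebraMap K L x
      rw [h1, σ.commutes, ← h1, AlgEquiv.apply_symm_apply])

theorem conj_apply [Normal ℚ K] (g : L ≃ₐ[ℚ] L) (σ : L ≃ₐ[K] L) (x : L) :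
    conj g σ x = g (σ (g.symm x)) := rfl

theorem conj_restrictScalars [Normal ℚ K] (g : L ≃ₐ[ℚ] L) (σ : L ≃ₐ[K] L) :
    (conj g σ).restrictScalars ℚ = g * σ.restrictScalars ℚ * g⁻¹ := by
  ext x
  rfl

theorem restrictScalars_pow (σ : L ≃ₐ[K] L) (n : ℕ) :
    (σ ^ n).restrictScalars ℚ = (σ.restrictScalars ℚ) ^ n := by
  induction n with
  | zero => rfl
  | succ n ih => rw [pow_succ, pow_succ, ← ih]; rfl

end Conj

section Equivariance

variable (p : ℕ) [hp : Fact p.Prime]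
variable (K L : Type*) [Field K] [Field L] [NumberField K] [NumberField L] [Algebra K L]
  [IsCyclotomicExtension {p} ℚ K] [IsGalois ℚ L] [IsGalois K L]

/-- Equivariance of the Frobenius under a ring automorphism `ρ` of `𝓞 K` with `ρ (ζ ^ c) = ζ`:
`frob (ρ Q) = frob Q ^ c`. -/
theorem frob_map_ringEquiv (hdeg : Module.finrank K L = p) (hunr : Unram K L)
    (hconj : ConjInv p K L) (hab : ∀ a b : L ≃ₐ[K] L, a * b = b * a)
    (ζ : 𝓞 K) (hζ : IsPrimitiveRoot ζ p)
    (ρ : 𝓞 K ≃+* 𝓞 K) (c : ℕ) (hρ : ρ (ζ ^ c) = ζ)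
    (Q : Ideal (𝓞 K)) [Q.IsPrime] (hQ : Q ≠ ⊥) :
    ArtinMap.frob K L (L ≃ₐ[K] L) (Ideal.map ρ Q) = ArtinMap.frob K L (L ≃ₐ[K] L) Q ^ c := by
  have : IsGalois ℚ K := IsCyclotomicExtension.isGalois {p} ℚ K
  have hcard : Nat.card (L ≃ₐ[K] L) = p := by rw [IsGalois.card_aut_eq_finrank, hdeg]
  -- the field automorphism induced by `ρ`
  let gK : K ≃+* K := IsFractionRing.ringEquivOfRingEquiv ρ
  have hgK : ∀ x : 𝓞 K, gK (x : K) = (ρ x : K) := fun x =>
    IsFractionRing.ringEquivOfRingEquiv_algebraMap ρ x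
  let gKa : K ≃ₐ[ℚ] K := AlgEquiv.ofRingEquiv (f := gK) (fun r => by
    rw [eq_ratCast]
    exact map_ratCast gK r)
  obtain ⟨g, hg⟩ := AlgEquiv.restrictNormalHom_surjective (F := ℚ) (K₁ := K) L gKa
  have hgx : ∀ x : K, g (algebraMap K L x) = algebraMap K L (gK x) := by
    intro x
    have := AlgEquiv.restrictNormal_commutes g K x
    rw [← this]
    congr 1
    exact DFunLike.congr_fun hg x
  have hmap : RingOfIntegers.mapRingEquiv gK = ρ := by
    ext x
    exact hgK x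
  have hfm := ArtinBase.frob_map (K := K) (L := L) (G := L ≃ₐ[K] L) hab hunr g.toRingEquiv gK hgx
    (conj g) (fun σ x => by
      change g (σ (g.symm (g x))) = g (σ x)
      rw [AlgEquiv.symm_apply_apply]) Q hQ
  rw [hmap] at hfm
  -- the exponent
  have hρζ : (ρ ζ) ^ p = 1 := by rw [← map_pow, hζ.pow_eq_one, map_one]
  obtain ⟨a, -, ha⟩ := hζ.eq_pow_of_pow_eq_one hρζ
  have hac : a * c ≡ 1 [MOD p] := by
    have h1 : ζ ^ (a * c) = ζ ^ 1 := by
      rw [pow_mul, ha, ← map_pow, hρ, pow_one]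
    have hpos : 1 ≤ a * c := by
      rcases Nat.eq_zero_or_pos (a * c) with h0 | h0
      · exfalso
        rw [h0, pow_zero, pow_one] at h1
        exact hζ.ne_one hp.out.one_lt h1.symm
      · exact h0
    have h2 : ζ ^ (a * c - 1) = 1 := by
      have h3 : ζ ^ (a * c - 1) * ζ = 1 * ζ := by
        rw [← pow_succ, Nat.sub_add_cancel hpos, one_mul, h1, pow_one]
      exact mul_right_cancel₀ (hζ.ne_zero hp.out.ne_zero) h3
    exact ((Nat.modEq_iff_dvd' hpos).mpr ((hζ.pow_eq_one_iff_dvd _).mp h2)).symm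
  have hζK : IsPrimitiveRoot ((ζ : 𝓞 K) : K) p :=
    hζ.map_of_injective (FaithfulSMul.algebraMap_injective (𝓞 K) K)
  have hgζ : g (algebraMap K L (ζ : K)) = algebraMap K L ((ζ : K) ^ a) := by
    rw [hgx, hgK, ← ha]
    rfl
  have hc := hconj g (ArtinMap.frob K L (L ≃ₐ[K] L) Q) (ζ : K) a hζK hgζ
  rw [← conj_restrictScalars, ← restrictScalars_pow] at hc
  have hc' : conj g (ArtinMap.frob K L (L ≃ₐ[K] L) Q) ^ a = ArtinMap.frob K L (L ≃ₐ[K] L) Q :=
    AlgEquiv.restrictScalars_injective ℚ hc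
  have hfm' : ArtinMap.frob K L (L ≃ₐ[K] L) (Ideal.map ρ Q) =
      conj g (ArtinMap.frob K L (L ≃ₐ[K] L) Q) := hfm
  rw [hfm']
  exact (pow_eq_of_mul_modEq p a c _ _ (pow_prime_card_eq_one p hcard _) hc' hac).symm

/-- Reciprocity forces every Frobenius to be trivial (Stickelberger via Jacobi sums). -/
theorem frob_eq_one_of_rec (hp2 : p ≠ 2) (hdeg : Module.finrank K L = p) (hunr : Unram K L)
    (hconj : ConjInv p K L) (hab : ∀ a b : L ≃ₐ[K] L, a * b = b * a)
    (hrec : ∀ x : 𝓞 K, x ≠ 0 →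
      ArtinMap.artinFun K L (L ≃ₐ[K] L) hab (Ideal.span {x}) = 1)
    (q : Ideal (𝓞 K)) [q.IsPrime] (hq : q ≠ ⊥) : ArtinMap.frob K L (L ≃ₐ[K] L) q = 1 := by
  have hcard : Nat.card (L ≃ₐ[K] L) = p := by rw [IsGalois.card_aut_eq_finrank, hdeg]
  haveI : NeZero p := ⟨hp.out.ne_zero⟩
  have hζK := IsCyclotomicExtension.zeta_spec p ℚ K
  have hζ : IsPrimitiveRoot hζK.toInteger p := hζK.toInteger_isPrimitiveRoot
  have hq0 : q ∈ (Ideal (𝓞 K))⁰ := mem_nonZeroDivisors_iff_ne_zero.mpr hq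
  have key := JacobiEnd.psi_eq_one_of_map p K hp2 hζK.toInteger hζ
    (pow_prime_card_eq_one p hcard) (ArtinMap.artin K L (L ≃ₐ[K] L) hab)
    (by
      intro ρ c _ _ hρ Q Q' hQ hQ'
      haveI := hQ
      have hQbot : (Q : Ideal (𝓞 K)) ≠ ⊥ := nonZeroDivisors.coe_ne_zero Q
      haveI : (Q' : Ideal (𝓞 K)).IsPrime := by
        rw [hQ']; exact Ideal.map_isPrime_of_equiv ρ
      have hQ'bot : (Q' : Ideal (𝓞 K)) ≠ ⊥ := nonZeroDivisors.coe_ne_zero Q'
      rw [ArtinMap.artin_apply, ArtinMap.artin_apply, ArtinMap.artinFun_prime hab _ hQ'bot,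
        ArtinMap.artinFun_prime hab _ hQbot]
      have := frob_map_ringEquiv p K L hdeg hunr hconj hab hζK.toInteger hζ ρ c hρ
        (Q : Ideal (𝓞 K)) hQbot
      rw [← this]
      congr 1)
    (by
      intro x I hI
      rw [ArtinMap.artin_apply, hI]
      refine hrec x ?_
      rintro rfl
      apply nonZeroDivisors.coe_ne_zero I
      rw [hI]
      simp)
    ⟨q, hq0⟩
  rw [ArtinMap.artin_mk, ArtinMap.artinFun_prime hab q hq] at key
  exact key

omit [IsGalois ℚ L] in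
/-- If every Frobenius is trivial, every nonzero ideal of `𝓞 K` is a relative norm. -/
theorem exists_relNorm_eq (hunr : Unram K L) (hab : ∀ a b : L ≃ₐ[K] L, a * b = b * a)
    (h : ∀ q : Ideal (𝓞 K), q.IsPrime → q ≠ ⊥ → ArtinMap.frob K L (L ≃ₐ[K] L) q = 1)
    (I : Ideal (𝓞 K)) (hI : I ≠ ⊥) : ∃ J : Ideal (𝓞 L), Ideal.relNorm (𝓞 K) J = I := by
  induction I using UniqueFactorizationMonoid.induction_on_prime with
  | h₁ => exact absurd rfl hI
  | h₂ x hx =>
    have hx1 : x = ⊤ := by rwa [Ideal.isUnit_iff] at hx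
    exact ⟨⊤, by rw [hx1, Ideal.relNorm_top]⟩
  | h₃ a P ha hP ih =>
    haveI hP1 : P.IsPrime := Ideal.isPrime_of_prime hP
    obtain ⟨J, hJ⟩ := ih ha
    obtain ⟨Q, hQ1, hQ2⟩ := (P.nonempty_primesOver (S := 𝓞 L)).some
    haveI := hQ1
    haveI := hQ2
    refine ⟨Q * J, ?_⟩
    rw [map_mul, hJ, ArtinMap.relNorm_eq_of_frob_eq_one hab hunr P hP.ne_zero Q
      (h P hP1 hP.ne_zero)]

/-- **Core of stream G.** Reciprocity (principal ideals have trivial Artin symbol) is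
incompatible with the existence of a nonzero ideal of `𝓞 K` that is not a relative norm. -/
theorem false_of_rec (hp2 : p ≠ 2) (hdeg : Module.finrank K L = p) (hunr : Unram K L)
    (hconj : ConjInv p K L)
    (hrec : ∀ (hab : ∀ a b : L ≃ₐ[K] L, a * b = b * a) (x : 𝓞 K), x ≠ 0 →
      ArtinMap.artinFun K L (L ≃ₐ[K] L) hab (Ideal.span {x}) = 1)
    (hfi : ∃ I : Ideal (𝓞 K), I ≠ ⊥ ∧ ∀ J : Ideal (𝓞 L), Ideal.relNorm (𝓞 K) J ≠ I) : False := by
  have hcard : Nat.card (L ≃ₐ[K] L) = p := by rw [IsGalois.card_aut_eq_finrank, hdeg]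
  have hcyc : IsCyclic (L ≃ₐ[K] L) := isCyclic_of_prime_card hcard
  have hab : ∀ a b : L ≃ₐ[K] L, a * b = b * a := fun a b => by
    letI := IsCyclic.commGroup (α := L ≃ₐ[K] L)
    exact mul_comm a b
  obtain ⟨I, hI, hIJ⟩ := hfi
  obtain ⟨J, hJ⟩ := exists_relNorm_eq K L hunr hab
    (fun q hq1 hq => by
      haveI := hq1
      exact frob_eq_one_of_rec p K L hp2 hdeg hunr hconj hab (hrec hab) q hq) I hI
  exact hIJ J hJ

omit [IsGalois ℚ L] [IsGalois K L] in
/-- A class which is not the class of a relative norm yields an ideal which is not a relative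
norm. -/
theorem exists_ne_relNorm_of_class
    (h : ∃ c : ClassGroup (𝓞 K), ∀ (J : Ideal (𝓞 L)) (hJ : Ideal.relNorm (𝓞 K) J ∈ (Ideal (𝓞 K))⁰),
      ClassGroup.mk0 ⟨Ideal.relNorm (𝓞 K) J, hJ⟩ ≠ c) :
    ∃ I : Ideal (𝓞 K), I ≠ ⊥ ∧ ∀ J : Ideal (𝓞 L), Ideal.relNorm (𝓞 K) J ≠ I := by
  obtain ⟨c, hc⟩ := h
  obtain ⟨I, rfl⟩ := ClassGroup.mk0_surjective c
  refine ⟨I, nonZeroDivisors.coe_ne_zero I, fun J hJ => ?_⟩
  have hJ0 : Ideal.relNorm (𝓞 K) J ∈ (Ideal (𝓞 K))⁰ := by rw [hJ]; exact I.2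
  apply hc J hJ0
  congr 1
  exact Subtype.ext hJ

end Equivariance

end Fermat.Agent.S14.NoFieldProof
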