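import Mathlib

/-!
# S14, stream D3 leaf: comparing the partial Euler product of `ζ_L` with that of `ζ_F`

For an arbitrary extension `L / F` of number fields, `d = [L : F]`, every finite partial Euler
product of `ζ_L(s)` is bounded by `C * (∏_{q ∈ T} (1 - N q ^ (-s))⁻¹) ^ d` where `T` is a finite set
of primes of `F`, outside a given finite set `S`, each having a prime of `L` of the same absolute
norm above it (`exists_const`).  Ingredients: at most `d` primes of `L` lie over a prime of `F`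
(`ncard_primesOver_le`), and a prime `Q` over `q` has `N Q = N q ^ f` with `f ≥ 1`.
-/

namespace Fermat.Agent.S14.PrimesOverBound

open NumberField Ideal nonZeroDivisors

section real

theorem one_le_inv_one_sub {x : ℝ} (h0 : 0 ≤ x) (h : x ≤ 1 / 2) : 1 ≤ (1 - x)⁻¹ := by
  rw [one_le_inv₀ (by linarith)]; linarith

theorem inv_one_sub_le_two {x : ℝ} (h : x ≤ 1 / 2) : (1 - x)⁻¹ ≤ 2 := by
  rw [inv_le_comm₀ (by linarith) (by norm_num)]
  linarith

theorem inv_one_sub_le_exp {x : ℝ} (h0 : 0 ≤ x) (h : x ≤ 1 / 2) :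
    (1 - x)⁻¹ ≤ Real.exp (2 * x) := by
  have h1 : (1 - x)⁻¹ ≤ 1 + 2 * x := by
    rw [inv_le_iff_one_le_mul₀ (by linarith)]
    nlinarith
  exact h1.trans (by linarith [Real.add_one_le_exp (2 * x)])

theorem inv_one_sub_mono {x y : ℝ} (hxy : x ≤ y) (hy : y < 1) : (1 - x)⁻¹ ≤ (1 - y)⁻¹ :=
  inv_anti₀ (by linarith) (by linarith)

theorem rpow_neg_nonneg (N : ℕ) (s : ℝ) : 0 ≤ (N : ℝ) ^ (-s) :=
  Real.rpow_nonneg (Nat.cast_nonneg N) _

theorem rpow_neg_le_inv {N : ℕ} (hN : 1 ≤ N) {s : ℝ} (hs : 1 ≤ s) :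
    (N : ℝ) ^ (-s) ≤ ((N : ℝ))⁻¹ := by
  have h1 : (1 : ℝ) ≤ N := by exact_mod_cast hN
  calc (N : ℝ) ^ (-s) ≤ (N : ℝ) ^ (-1 : ℝ) :=
        Real.rpow_le_rpow_of_exponent_le h1 (by linarith)
    _ = ((N : ℝ))⁻¹ := Real.rpow_neg_one _

theorem rpow_neg_le_half {N : ℕ} (hN : 2 ≤ N) {s : ℝ} (hs : 1 ≤ s) :
    (N : ℝ) ^ (-s) ≤ 1 / 2 := by
  have h2 : (2 : ℝ) ≤ N := by exact_mod_cast hN
  refine (rpow_neg_le_inv (by omega) hs).trans ?_
  rw [one_div]
  exact inv_anti₀ (by norm_num) h2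

end real

/-- nonzero prime ideals of the ring of integers, as a subtype of the nonzero ideals -/
abbrev Pr (K : Type*) [Field K] [NumberField K] : Type _ :=
  {q : (Ideal (𝓞 K))⁰ // ((q : (Ideal (𝓞 K))⁰) : Ideal (𝓞 K)).IsPrime}

theorem two_le_absNorm {K : Type*} [Field K] [NumberField K] (q : Ideal (𝓞 K)) [hq : q.IsPrime]
    (h0 : q ≠ ⊥) : 2 ≤ absNorm q := by
  have h1 : absNorm q ≠ 0 := by rwa [Ne, Ideal.absNorm_eq_zero_iff]
  have h2 : absNorm q ≠ 1 := by rw [Ne, Ideal.absNorm_eq_one_iff]; exact hq.ne_top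
  omega

theorem two_le_absNorm_pr {K : Type*} [Field K] [NumberField K] (q : Pr K) :
    2 ≤ absNorm ((q : (Ideal (𝓞 K))⁰) : Ideal (𝓞 K)) :=
  haveI := q.2
  two_le_absNorm _ (nonZeroDivisors.coe_ne_zero q.1)

/-- the Euler factor `(1 - N q ^ (-s))⁻¹` -/
noncomputable def afac {K : Type*} [Field K] [NumberField K] (s : ℝ) (q : Pr K) : ℝ :=
  (1 - (absNorm ((q : (Ideal (𝓞 K))⁰) : Ideal (𝓞 K)) : ℝ) ^ (-s))⁻¹

/-- the term `N q ^ (-2)` -/
noncomputable def ufac {K : Type*} [Field K] [NumberField K] (q : Pr K) : ℝ :=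
  (absNorm ((q : (Ideal (𝓞 K))⁰) : Ideal (𝓞 K)) : ℝ) ^ (-(2 : ℝ))

variable (F L : Type*) [Field F] [NumberField F] [Field L] [NumberField L] [Algebra F L]

/-- At most `[L : F]` primes of `𝓞 L` lie over a nonzero prime of `𝓞 F`. -/
theorem ncard_primesOver_le (q : Ideal (𝓞 F)) [hq : q.IsPrime] (hq0 : q ≠ ⊥) :
    (q.primesOver (𝓞 L)).ncard ≤ Module.finrank F L := by
  have hmax : q.IsMaximal := hq.isMaximal hq0
  rw [IsFractionRing.finrank_eq (𝓞 F) F (𝓞 L) L,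
    ← Ideal.sum_ramification_inertia_eq_finrank q (𝓞 L), ← Nat.card_coe_set_eq,
    Nat.card_eq_fintype_card, Fintype.card_eq_sum_ones]
  refine Finset.sum_le_sum fun Q _ => ?_
  have := Q.2.1
  exact Nat.one_le_iff_ne_zero.mpr
    (mul_ne_zero (Ideal.ramificationIdx_pos Q.1 (𝓞 F)).ne' (Ideal.inertiaDeg_pos Q.1 (𝓞 F)).ne')

/-- the prime of `𝓞 F` below a nonzero prime of `𝓞 L` -/
noncomputable def below (Q : Pr L) : Pr F :=
  ⟨⟨((Q : (Ideal (𝓞 L))⁰) : Ideal (𝓞 L)).under (𝓞 F),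
    mem_nonZeroDivisors_of_ne_zero
      (Ideal.under_ne_bot (𝓞 F) (nonZeroDivisors.coe_ne_zero Q.1))⟩,
    haveI := Q.2
    Ideal.IsPrime.under _ _⟩

theorem below_coe (Q : Pr L) :
    (((below F L Q : Pr F) : (Ideal (𝓞 F))⁰) : Ideal (𝓞 F)) =
      ((Q : (Ideal (𝓞 L))⁰) : Ideal (𝓞 L)).under (𝓞 F) := rfl

/-- a finite set of primes of `𝓞 L` has at most `[L : F]` elements over a given prime of `𝓞 F` -/
theorem card_filter_below_le (T' : Finset (Pr L)) (q : Pr F) :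
    (T'.filter (fun Q => below F L Q = q)).card ≤ Module.finrank F L := by
  classical
  have := q.2
  have hq0 : ((q : (Ideal (𝓞 F))⁰) : Ideal (𝓞 F)) ≠ ⊥ := nonZeroDivisors.coe_ne_zero q.1
  have hmax : ((q : (Ideal (𝓞 F))⁰) : Ideal (𝓞 F)).IsMaximal := q.2.isMaximal hq0
  have hfin : (((q : (Ideal (𝓞 F))⁰) : Ideal (𝓞 F)).primesOver (𝓞 L)).Finite :=
    IsDedekindDomain.primesOver_finite _ (𝓞 L)
  refine le_trans ?_ (ncard_primesOver_le F L _ hq0)
  rw [Set.ncard_eq_toFinset_card _ hfin]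
  refine Finset.card_le_card_of_injOn (fun Q => ((Q : (Ideal (𝓞 L))⁰) : Ideal (𝓞 L))) ?_ ?_
  · intro Q hQ
    rw [Finset.mem_coe, Finset.mem_filter] at hQ
    rw [Finset.mem_coe, Set.Finite.mem_toFinset]
    refine ⟨Q.2, ⟨?_⟩⟩
    rw [← hQ.2]
    rfl
  · intro Q _ Q' _ h
    exact Subtype.ext (Subtype.ext h)

/-- `q` has a prime of `𝓞 L` of the same absolute norm above it -/
def Deg1 (q : Ideal (𝓞 F)) : Prop :=
  ∃ Q : Ideal (𝓞 L), Q.IsPrime ∧ Q.under (𝓞 F) = q ∧ absNorm Q = absNorm q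

open Classical in
/-- the bound for the Euler factors of `ζ_L` over the prime `q` of `F` -/
noncomputable def cfac (s : ℝ) (q : Pr F) : ℝ :=
  (if Deg1 F L ((q : (Ideal (𝓞 F))⁰) : Ideal (𝓞 F)) then afac s q else 1) * afac 2 q

theorem one_le_afac {K : Type*} [Field K] [NumberField K] (q : Pr K) {s : ℝ} (hs : 1 ≤ s) :
    1 ≤ afac s q :=
  one_le_inv_one_sub (rpow_neg_nonneg _ _) (rpow_neg_le_half (two_le_absNorm_pr q) hs)

theorem afac_nonneg {K : Type*} [Field K] [NumberField K] (q : Pr K) {s : ℝ} (hs : 1 ≤ s) :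
    0 ≤ afac s q := le_trans zero_le_one (one_le_afac q hs)

theorem afac_le_two {K : Type*} [Field K] [NumberField K] (q : Pr K) {s : ℝ} (hs : 1 ≤ s) :
    afac s q ≤ 2 :=
  inv_one_sub_le_two (rpow_neg_le_half (two_le_absNorm_pr q) hs)

theorem one_le_cfac (s : ℝ) (hs : 1 ≤ s) (q : Pr F) : 1 ≤ cfac F L s q := by
  unfold cfac
  have h2 := one_le_afac q (s := 2) (by norm_num)
  split_ifs
  · exact one_le_mul_of_one_le_of_one_le (one_le_afac q hs) h2
  · rw [one_mul]; exact h2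

/-- each Euler factor of `ζ_L` is bounded by the factor attached to the prime below -/
theorem factor_le (s : ℝ) (hs : 1 ≤ s) (Q : Pr L) :
    afac s Q ≤ cfac F L s (below F L Q) := by
  have := Q.2
  set q : Pr F := below F L Q with hq
  have hN : absNorm ((q : (Ideal (𝓞 F))⁰) : Ideal (𝓞 F)) ^
      ((Q : (Ideal (𝓞 L))⁰) : Ideal (𝓞 L)).inertiaDeg (𝓞 F) =
      absNorm ((Q : (Ideal (𝓞 L))⁰) : Ideal (𝓞 L)) :=
    Ideal.absNorm_pow_inertiaDeg (((Q : (Ideal (𝓞 L))⁰) : Ideal (𝓞 L)).under (𝓞 F)) _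
  have hf : 0 < ((Q : (Ideal (𝓞 L))⁰) : Ideal (𝓞 L)).inertiaDeg (𝓞 F) :=
    Ideal.inertiaDeg_pos _ _
  have h2q := two_le_absNorm_pr q
  have h2 := one_le_afac q (s := 2) (by norm_num)
  unfold cfac
  by_cases hdeg : absNorm ((Q : (Ideal (𝓞 L))⁰) : Ideal (𝓞 L)) =
      absNorm ((q : (Ideal (𝓞 F))⁰) : Ideal (𝓞 F))
  · have hD : Deg1 F L ((q : (Ideal (𝓞 F))⁰) : Ideal (𝓞 F)) := ⟨_, Q.2, rfl, hdeg⟩
    rw [if_pos hD]
    have hQq : afac s Q = afac s q := by unfold afac; rw [hdeg]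
    rw [hQq]
    exact le_mul_of_one_le_right (afac_nonneg q hs) h2
  · -- residue degree at least two
    have hf2 : 2 ≤ ((Q : (Ideal (𝓞 L))⁰) : Ideal (𝓞 L)).inertiaDeg (𝓞 F) := by
      rcases Nat.lt_or_ge 1 (((Q : (Ideal (𝓞 L))⁰) : Ideal (𝓞 L)).inertiaDeg (𝓞 F)) with h | h
      · exact h
      · exfalso
        have h1 : ((Q : (Ideal (𝓞 L))⁰) : Ideal (𝓞 L)).inertiaDeg (𝓞 F) = 1 := by omega
        rw [h1, pow_one] at hN
        exact hdeg hN.symm
    have hge : absNorm ((q : (Ideal (𝓞 F))⁰) : Ideal (𝓞 F)) ^ 2 ≤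
        absNorm ((Q : (Ideal (𝓞 L))⁰) : Ideal (𝓞 L)) := by
      rw [← hN]
      exact Nat.pow_le_pow_right (by omega) hf2
    have hQ1 : 1 ≤ absNorm ((Q : (Ideal (𝓞 L))⁰) : Ideal (𝓞 L)) :=
      le_trans (Nat.one_le_pow _ _ (by omega)) hge
    have hle : (absNorm ((Q : (Ideal (𝓞 L))⁰) : Ideal (𝓞 L)) : ℝ) ^ (-s) ≤
        (absNorm ((q : (Ideal (𝓞 F))⁰) : Ideal (𝓞 F)) : ℝ) ^ (-(2 : ℝ)) := by
      refine (rpow_neg_le_inv hQ1 hs).trans ?_
      rw [Real.rpow_neg (Nat.cast_nonneg _), Real.rpow_two]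
      refine inv_anti₀ (by positivity) ?_
      exact_mod_cast hge
    have hlt : (absNorm ((q : (Ideal (𝓞 F))⁰) : Ideal (𝓞 F)) : ℝ) ^ (-(2 : ℝ)) < 1 :=
      lt_of_le_of_lt (rpow_neg_le_half h2q (by norm_num)) (by norm_num)
    have hQq : afac s Q ≤ afac 2 q := inv_one_sub_mono hle hlt
    refine hQq.trans ?_
    refine le_mul_of_one_le_left (le_trans zero_le_one h2) ?_
    split_ifs
    · exact one_le_afac q hs
    · exact le_refl _

/-- **Comparison of partial Euler products.**  For every finite set `T'` of primes of `L` the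
partial Euler product of `ζ_L(s)` over `T'` is at most `C` times the `[L:F]`-th power of the partial
Euler product of `ζ_F(s)` over a finite set `T` of primes of `F` outside `S`, each of which has a
prime of `L` of the same absolute norm above it.  The constant `C` does not depend on `s > 1`. -/
theorem exists_const_aux (S : Finset (Ideal (𝓞 F)))
    (hsum : Summable fun I : (Ideal (𝓞 F))⁰ =>
      (absNorm ((I : (Ideal (𝓞 F))⁰) : Ideal (𝓞 F)) : ℝ) ^ (-(2 : ℝ))) :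
    ∃ C : ℝ, 0 < C ∧ ∀ s : ℝ, 1 < s → ∀ T' : Finset (Pr L), ∃ T : Finset (Pr F),
        (∀ q ∈ T, ((q : (Ideal (𝓞 F))⁰) : Ideal (𝓞 F)) ∉ S ∧
          Deg1 F L ((q : (Ideal (𝓞 F))⁰) : Ideal (𝓞 F))) ∧
        ∏ Q ∈ T', afac s Q ≤ C * (∏ q ∈ T, afac s q) ^ Module.finrank F L := by
  classical
  set n := Module.finrank F L with hn
  set Z2 : ℝ := ∑' I : (Ideal (𝓞 F))⁰,
    (absNorm ((I : (Ideal (𝓞 F))⁰) : Ideal (𝓞 F)) : ℝ) ^ (-(2 : ℝ)) with hZ2
  refine ⟨((2 : ℝ) ^ S.card * Real.exp (2 * Z2)) ^ n, by positivity, fun s hs T' => ?_⟩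
  have hs1 : (1 : ℝ) ≤ s := hs.le
  have h21 : (1 : ℝ) ≤ 2 := by norm_num
  set t : Finset (Pr F) := T'.image (below F L) with ht
  set t1 : Finset (Pr F) :=
    t.filter (fun q : Pr F => Deg1 F L ((q : (Ideal (𝓞 F))⁰) : Ideal (𝓞 F))) with ht1
  set T : Finset (Pr F) :=
    t1.filter (fun q : Pr F => ((q : (Ideal (𝓞 F))⁰) : Ideal (𝓞 F)) ∉ S) with hT
  set T0 : Finset (Pr F) :=
    t1.filter (fun q : Pr F => ¬ ((q : (Ideal (𝓞 F))⁰) : Ideal (𝓞 F)) ∉ S) with hT0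
  refine ⟨T, fun q hq => ?_, ?_⟩
  · rw [hT, Finset.mem_filter, ht1, Finset.mem_filter] at hq
    exact ⟨hq.2, hq.1.2⟩
  -- step 1: group the primes of `L` by the prime of `F` below
  have step1 : ∏ Q ∈ T', afac s Q ≤ (∏ q ∈ t, cfac F L s q) ^ n := by
    rw [← Finset.prod_fiberwise_of_maps_to (g := below F L) (t := t)
      (fun Q hQ => Finset.mem_image_of_mem _ hQ), ← Finset.prod_pow]
    refine Finset.prod_le_prod (fun q _ => Finset.prod_nonneg fun Q _ => afac_nonneg Q hs1)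
      (fun q _ => ?_)
    calc ∏ Q ∈ T' with below F L Q = q, afac s Q
        ≤ ∏ _Q ∈ T' with below F L _Q = q, cfac F L s q := by
          refine Finset.prod_le_prod (fun Q _ => afac_nonneg Q hs1) (fun Q hQ => ?_)
          rw [Finset.mem_filter] at hQ
          rw [← hQ.2]
          exact factor_le F L s hs1 Q
      _ = cfac F L s q ^ (T'.filter (fun Q => below F L Q = q)).card := Finset.prod_const _
      _ ≤ cfac F L s q ^ n :=
          pow_le_pow_right₀ (one_le_cfac F L s hs1 q) (card_filter_below_le F L T' q)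
  -- step 2: the degree-one part
  have hcard : T0.card ≤ S.card := by
    refine Finset.card_le_card_of_injOn
      (fun q : Pr F => ((q : (Ideal (𝓞 F))⁰) : Ideal (𝓞 F))) ?_ ?_
    · intro q hq
      rw [Finset.mem_coe, hT0, Finset.mem_filter, not_not] at hq
      exact hq.2
    · intro q _ q' _ h
      exact Subtype.ext (Subtype.ext h)
  have hA : ∏ q ∈ t1, afac s q ≤ (2 : ℝ) ^ S.card * ∏ q ∈ T, afac s q := by
    rw [← Finset.prod_filter_mul_prod_filter_not t1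
      (fun q : Pr F => ((q : (Ideal (𝓞 F))⁰) : Ideal (𝓞 F)) ∉ S), mul_comm]
    refine mul_le_mul_of_nonneg_right ?_ (Finset.prod_nonneg fun q _ => afac_nonneg q hs1)
    calc ∏ q ∈ T0, afac s q ≤ ∏ _q ∈ T0, (2 : ℝ) :=
          Finset.prod_le_prod (fun q _ => afac_nonneg q hs1) (fun q _ => afac_le_two q hs1)
      _ = (2 : ℝ) ^ T0.card := Finset.prod_const _
      _ ≤ (2 : ℝ) ^ S.card := pow_le_pow_right₀ one_le_two hcard
  -- step 3: the part of degree at least two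
  have hB : ∏ q ∈ t, afac 2 q ≤ Real.exp (2 * Z2) := by
    calc ∏ q ∈ t, afac 2 q ≤ ∏ q ∈ t, Real.exp (2 * ufac q) :=
          Finset.prod_le_prod (fun q _ => afac_nonneg q h21)
            (fun q _ => inv_one_sub_le_exp (rpow_neg_nonneg _ _)
              (rpow_neg_le_half (two_le_absNorm_pr q) h21))
      _ = Real.exp (∑ q ∈ t, 2 * ufac q) := (Real.exp_sum _ _).symm
      _ ≤ Real.exp (2 * Z2) := by
          rw [Real.exp_le_exp, ← Finset.mul_sum]
          refine mul_le_mul_of_nonneg_left ?_ (by norm_num)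
          have himg : ∑ q ∈ t, ufac q =
              ∑ I ∈ t.image (fun q : Pr F => (q : (Ideal (𝓞 F))⁰)),
                (absNorm ((I : (Ideal (𝓞 F))⁰) : Ideal (𝓞 F)) : ℝ) ^ (-(2 : ℝ)) := by
            refine (Finset.sum_image
              (f := fun I : (Ideal (𝓞 F))⁰ =>
                (absNorm ((I : (Ideal (𝓞 F))⁰) : Ideal (𝓞 F)) : ℝ) ^ (-(2 : ℝ)))
              (g := fun q : Pr F => (q : (Ideal (𝓞 F))⁰)) ?_).symm
            intro q _ q' _ h
            exact Subtype.ext h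
          rw [himg]
          exact hsum.sum_le_tsum _ (fun I _ => rpow_neg_nonneg _ _)
  have step2 : ∏ q ∈ t, cfac F L s q ≤
      (2 : ℝ) ^ S.card * Real.exp (2 * Z2) * ∏ q ∈ T, afac s q := by
    unfold cfac
    rw [Finset.prod_mul_distrib, ← Finset.prod_filter]
    calc (∏ q ∈ t1, afac s q) * ∏ q ∈ t, afac 2 q
        ≤ ((2 : ℝ) ^ S.card * ∏ q ∈ T, afac s q) * Real.exp (2 * Z2) :=
          mul_le_mul hA hB (Finset.prod_nonneg fun q _ => afac_nonneg q h21)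
            (mul_nonneg (by positivity) (Finset.prod_nonneg fun q _ => afac_nonneg q hs1))
      _ = _ := by ring
  calc ∏ Q ∈ T', afac s Q ≤ (∏ q ∈ t, cfac F L s q) ^ n := step1
    _ ≤ ((2 : ℝ) ^ S.card * Real.exp (2 * Z2) * ∏ q ∈ T, afac s q) ^ n :=
        pow_le_pow_left₀
          (Finset.prod_nonneg fun q _ => le_trans zero_le_one (one_le_cfac F L s hs1 q)) step2 n
    _ = _ := by rw [mul_pow]

/-- `exists_const_aux` with every abbreviation unfolded (the form consumed by the UNI assembly). -/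
theorem exists_const (S : Finset (Ideal (𝓞 F)))
    (hsum : Summable fun I : (Ideal (𝓞 F))⁰ =>
      (absNorm ((I : (Ideal (𝓞 F))⁰) : Ideal (𝓞 F)) : ℝ) ^ (-(2 : ℝ))) :
    ∃ C : ℝ, 0 < C ∧ ∀ s : ℝ, 1 < s →
      ∀ T' : Finset {Q : (Ideal (𝓞 L))⁰ // ((Q : (Ideal (𝓞 L))⁰) : Ideal (𝓞 L)).IsPrime},
      ∃ T : Finset {q : (Ideal (𝓞 F))⁰ // ((q : (Ideal (𝓞 F))⁰) : Ideal (𝓞 F)).IsPrime},
        (∀ q ∈ T, ((q : (Ideal (𝓞 F))⁰) : Ideal (𝓞 F)) ∉ S ∧
          ∃ Q : Ideal (𝓞 L), Q.IsPrime ∧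
            Q.under (𝓞 F) = ((q : (Ideal (𝓞 F))⁰) : Ideal (𝓞 F)) ∧
            absNorm Q = absNorm ((q : (Ideal (𝓞 F))⁰) : Ideal (𝓞 F))) ∧
        ∏ Q ∈ T', (1 - (absNorm ((Q : (Ideal (𝓞 L))⁰) : Ideal (𝓞 L)) : ℝ) ^ (-s))⁻¹ ≤
          C * (∏ q ∈ T, (1 - (absNorm ((q : (Ideal (𝓞 F))⁰) : Ideal (𝓞 F)) : ℝ) ^ (-s))⁻¹) ^
            Module.finrank F L :=
  exists_const_aux F L S hsum

end Fermat.Agent.S14.PrimesOverBound
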