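import Fermat.Agent.S14.PrimesOverBound
import Fermat.Agent.S14.IdealEuler
import Fermat.Agent.S14.ZetaIdeal

/-!
# S14, stream D3 leaf: `PrimesOverBound.exists_const` in the shapes of `IdealEuler` / `ZetaIdeal`

Index type `HeightOneSpectrum`, Euler factors `(1 - ZetaIdeal.nrm K s v.asIdeal)⁻¹`, and the
consequence for `ZetaIdeal.zetaR L s` obtained by passing to the limit with
`IdealEuler.tendsto_eulerProd_real`.
-/

namespace Fermat.Agent.S14.PrimesOverH1

open NumberField Ideal nonZeroDivisors IsDedekindDomain Filter Topology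

/-- height one primes are the nonzero prime ideals -/
noncomputable def prEquiv (K : Type*) [Field K] [NumberField K] :
    HeightOneSpectrum (𝓞 K) ≃ PrimesOverBound.Pr K where
  toFun v := ⟨⟨v.asIdeal, mem_nonZeroDivisors_of_ne_zero v.ne_bot⟩, v.isPrime⟩
  invFun q := ⟨q.1.1, q.2, nonZeroDivisors.coe_ne_zero q.1⟩
  left_inv _ := rfl
  right_inv _ := rfl

theorem summable_two (K : Type*) [Field K] [NumberField K] :
    Summable fun I : (Ideal (𝓞 K))⁰ =>
      (absNorm ((I : (Ideal (𝓞 K))⁰) : Ideal (𝓞 K)) : ℝ) ^ (-(2 : ℝ)) :=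
  (ZetaIdeal.summable_nrm K (by norm_num : (1 : ℝ) < 2)).comp_injective Subtype.val_injective

variable (F L : Type*) [Field F] [NumberField F] [Field L] [NumberField L] [Algebra F L]

/-- the primes `v` of `F` outside `S` having a prime of `L` of the same absolute norm above -/
def Split (S : Finset (Ideal (𝓞 F))) (v : HeightOneSpectrum (𝓞 F)) : Prop :=
  v.asIdeal ∉ S ∧
    ∃ Q : Ideal (𝓞 L), Q.IsPrime ∧ Q.under (𝓞 F) = v.asIdeal ∧ absNorm Q = absNorm v.asIdeal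

/-- **Comparison of partial Euler products**, `HeightOneSpectrum` form. -/
theorem exists_const (S : Finset (Ideal (𝓞 F))) :
    ∃ C : ℝ, 0 < C ∧ ∀ s : ℝ, 1 < s → ∀ T' : Finset (HeightOneSpectrum (𝓞 L)),
      ∃ T : Finset (HeightOneSpectrum (𝓞 F)),
        (∀ v ∈ T, v.asIdeal ∉ S ∧
          ∃ Q : Ideal (𝓞 L), Q.IsPrime ∧ Q.under (𝓞 F) = v.asIdeal ∧
            absNorm Q = absNorm v.asIdeal) ∧
        ∏ w ∈ T', (1 - ZetaIdeal.nrm L s w.asIdeal)⁻¹ ≤
          C * (∏ v ∈ T, (1 - ZetaIdeal.nrm F s v.asIdeal)⁻¹) ^ Module.finrank F L := by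
  obtain ⟨C, hC, h⟩ := PrimesOverBound.exists_const F L S (summable_two F)
  refine ⟨C, hC, fun s hs T' => ?_⟩
  obtain ⟨T, hT, hle⟩ := h s hs (T'.map (prEquiv L).toEmbedding)
  refine ⟨T.map (prEquiv F).symm.toEmbedding, ?_, ?_⟩
  · intro v hv
    rw [Finset.mem_map] at hv
    obtain ⟨q, hq, rfl⟩ := hv
    exact hT q hq
  · rw [Finset.prod_map] at hle ⊢
    exact hle

/-- Each Euler factor `(1 - N v ^ (-s))⁻¹`, `s > 1`, is at least `1`. -/
theorem one_le_factor {K : Type*} [Field K] [NumberField K] {s : ℝ} (hs : 1 < s)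
    (v : HeightOneSpectrum (𝓞 K)) : 1 ≤ (1 - ZetaIdeal.nrm K s v.asIdeal)⁻¹ :=
  PrimesOverBound.one_le_afac (prEquiv K v) hs.le

theorem nrm_lt_one {K : Type*} [Field K] [NumberField K] {s : ℝ} (hs : 1 < s)
    (v : HeightOneSpectrum (𝓞 K)) : ZetaIdeal.nrm K s v.asIdeal < 1 :=
  lt_of_le_of_lt
    (PrimesOverBound.rpow_neg_le_half (PrimesOverBound.two_le_absNorm_pr (prEquiv K v)) hs.le)
    (by norm_num)

/-- The partial Euler products of `ζ_L(s)` converge to `ZetaIdeal.zetaR L s`. -/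
theorem tendsto_prod (K : Type*) [Field K] [NumberField K] {s : ℝ} (hs : 1 < s) :
    Tendsto (fun T : Finset (HeightOneSpectrum (𝓞 K)) =>
      ∏ v ∈ T, (1 - ZetaIdeal.nrm K s v.asIdeal)⁻¹) atTop (𝓝 (ZetaIdeal.zetaR K s)) :=
  IdealEuler.tendsto_eulerProd_real (ZetaIdeal.nrm K s) (ZetaIdeal.nrm_one s)
    (ZetaIdeal.nrm_bot (by linarith)) (ZetaIdeal.nrm_mul s) (ZetaIdeal.summable_nrm K hs)

/-- **Zeta form.**  If `Λ` bounds the `h`-th powers of all partial Euler products of `ζ_F(s)` over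
finite sets of primes outside `S` having a prime of `L` of the same norm above, then
`ζ_L(s) ^ h ≤ C ^ h * Λ ^ [L:F]`, with `C` independent of `s > 1`, `h` and `Λ`. -/
theorem exists_const_zetaR (S : Finset (Ideal (𝓞 F))) :
    ∃ C : ℝ, 0 < C ∧ ∀ s : ℝ, 1 < s → ∀ (h : ℕ) (Λ : ℝ),
      (∀ T : Finset (HeightOneSpectrum (𝓞 F)),
        (∀ v ∈ T, v.asIdeal ∉ S ∧
          ∃ Q : Ideal (𝓞 L), Q.IsPrime ∧ Q.under (𝓞 F) = v.asIdeal ∧
            absNorm Q = absNorm v.asIdeal) →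
        (∏ v ∈ T, (1 - ZetaIdeal.nrm F s v.asIdeal)⁻¹) ^ h ≤ Λ) →
      ZetaIdeal.zetaR L s ^ h ≤ C ^ h * Λ ^ Module.finrank F L := by
  obtain ⟨C, hC, hmain⟩ := exists_const F L S
  refine ⟨C, hC, fun s hs h Λ hΛ => ?_⟩
  have hlim : Tendsto (fun T' : Finset (HeightOneSpectrum (𝓞 L)) =>
      (∏ w ∈ T', (1 - ZetaIdeal.nrm L s w.asIdeal)⁻¹) ^ h) atTop
      (𝓝 (ZetaIdeal.zetaR L s ^ h)) := (tendsto_prod L hs).pow h
  refine le_of_tendsto' hlim fun T' => ?_
  obtain ⟨T, hT, hle⟩ := hmain s hs T'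
  have hP0 : 0 ≤ ∏ v ∈ T, (1 - ZetaIdeal.nrm F s v.asIdeal)⁻¹ :=
    Finset.prod_nonneg fun v _ => le_trans zero_le_one (one_le_factor hs v)
  have hQ0 : 0 ≤ ∏ w ∈ T', (1 - ZetaIdeal.nrm L s w.asIdeal)⁻¹ :=
    Finset.prod_nonneg fun w _ => le_trans zero_le_one (one_le_factor hs w)
  calc (∏ w ∈ T', (1 - ZetaIdeal.nrm L s w.asIdeal)⁻¹) ^ h
      ≤ (C * (∏ v ∈ T, (1 - ZetaIdeal.nrm F s v.asIdeal)⁻¹) ^ Module.finrank F L) ^ h :=
        pow_le_pow_left₀ hQ0 hle h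
    _ = C ^ h * ((∏ v ∈ T, (1 - ZetaIdeal.nrm F s v.asIdeal)⁻¹) ^ h) ^ Module.finrank F L := by
        rw [mul_pow, ← pow_mul, ← pow_mul, mul_comm h]
    _ ≤ C ^ h * Λ ^ Module.finrank F L :=
        mul_le_mul_of_nonneg_left (pow_le_pow_left₀ (pow_nonneg hP0 h) (hΛ T hT) _)
          (pow_nonneg hC.le h)

/-- finitely many height one primes of `L` lie over a given height one prime of `F` -/
theorem finite_over (v : HeightOneSpectrum (𝓞 F)) :
    {w : HeightOneSpectrum (𝓞 L) | w.asIdeal.under (𝓞 F) = v.asIdeal}.Finite := by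
  have hmax : v.asIdeal.IsMaximal := v.isMaximal
  have hfin := IsDedekindDomain.primesOver_finite v.asIdeal (𝓞 L)
  refine Set.Finite.of_finite_image (f := HeightOneSpectrum.asIdeal) (hfin.subset ?_) ?_
  · rintro _ ⟨w, hw, rfl⟩
    exact ⟨w.isPrime, ⟨hw.symm⟩⟩
  · intro w _ w' _ h
    exact HeightOneSpectrum.ext h

/-- **FI-lite, product form.**  If every prime of `F` outside `S` has `[L:F]` primes of `L` of the
same absolute norm above it, then the `[L:F]`-th power of any partial Euler product of `ζ_F(s)`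
over primes outside `S` is at most `ζ_L(s)`. -/
theorem pow_le_zetaR (S : Finset (Ideal (𝓞 F)))
    (hall : ∀ q : Ideal (𝓞 F), q.IsPrime → q ≠ ⊥ → q ∉ S →
      Module.finrank F L ≤
        {Q : Ideal (𝓞 L) | Q.IsPrime ∧ Q.under (𝓞 F) = q ∧ absNorm Q = absNorm q}.ncard)
    {s : ℝ} (hs : 1 < s) (T : Finset (HeightOneSpectrum (𝓞 F)))
    (hT : ∀ v ∈ T, v.asIdeal ∉ S) :
    (∏ v ∈ T, (1 - ZetaIdeal.nrm F s v.asIdeal)⁻¹) ^ Module.finrank F L ≤
      ZetaIdeal.zetaR L s := by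
  classical
  set n := Module.finrank F L with hn
  let D : HeightOneSpectrum (𝓞 F) → Finset (HeightOneSpectrum (𝓞 L)) := fun v =>
    (finite_over F L v).toFinset.filter (fun w => absNorm w.asIdeal = absNorm v.asIdeal)
  have hD : ∀ v w, w ∈ D v ↔
      w.asIdeal.under (𝓞 F) = v.asIdeal ∧ absNorm w.asIdeal = absNorm v.asIdeal := by
    intro v w
    simp only [D, Finset.mem_filter, Set.Finite.mem_toFinset, Set.mem_ofPred_eq]
  have hcard : ∀ v ∈ T, n ≤ (D v).card := by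
    intro v hv
    refine le_trans (hall v.asIdeal v.isPrime v.ne_bot (hT v hv)) ?_
    have himg : {Q : Ideal (𝓞 L) | Q.IsPrime ∧ Q.under (𝓞 F) = v.asIdeal ∧
        absNorm Q = absNorm v.asIdeal} =
        HeightOneSpectrum.asIdeal '' (D v : Set (HeightOneSpectrum (𝓞 L))) := by
      ext Q
      constructor
      · rintro ⟨hQp, hQu, hQn⟩
        have hQ0 : Q ≠ ⊥ := by
          rintro rfl
          rw [Ideal.absNorm_bot] at hQn
          exact v.ne_bot (Ideal.absNorm_eq_zero_iff.mp hQn.symm)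
        exact ⟨⟨Q, hQp, hQ0⟩, Finset.mem_coe.mpr ((hD v _).mpr ⟨hQu, hQn⟩), rfl⟩
      · rintro ⟨w, hw, rfl⟩
        have := (hD v w).mp (Finset.mem_coe.mp hw)
        exact ⟨w.isPrime, this.1, this.2⟩
    rw [himg, Set.ncard_image_of_injective _ (fun w w' h => HeightOneSpectrum.ext h),
      Set.ncard_coe_finset]
  have hdisj : (T : Set (HeightOneSpectrum (𝓞 F))).PairwiseDisjoint D := by
    intro v _ v' _ hne
    rw [Function.onFun, Finset.disjoint_left]
    intro w hw hw'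
    exact hne (HeightOneSpectrum.ext (((hD v w).mp hw).1.symm.trans ((hD v' w).mp hw').1))
  calc (∏ v ∈ T, (1 - ZetaIdeal.nrm F s v.asIdeal)⁻¹) ^ n
      = ∏ v ∈ T, ((1 - ZetaIdeal.nrm F s v.asIdeal)⁻¹) ^ n := (Finset.prod_pow _ _ _).symm
    _ ≤ ∏ v ∈ T, ∏ w ∈ D v, (1 - ZetaIdeal.nrm L s w.asIdeal)⁻¹ := by
        refine Finset.prod_le_prod
          (fun v _ => pow_nonneg (le_trans zero_le_one (one_le_factor hs v)) n) (fun v hv => ?_)
        have hconst : ∏ w ∈ D v, (1 - ZetaIdeal.nrm L s w.asIdeal)⁻¹ =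
            ∏ _w ∈ D v, (1 - ZetaIdeal.nrm F s v.asIdeal)⁻¹ := by
          refine Finset.prod_congr rfl (fun w hw => ?_)
          have h2 := ((hD v w).mp hw).2
          unfold ZetaIdeal.nrm
          rw [h2]
        rw [hconst, Finset.prod_const]
        exact pow_le_pow_right₀ (one_le_factor hs v) (hcard v hv)
    _ = ∏ w ∈ T.biUnion D, (1 - ZetaIdeal.nrm L s w.asIdeal)⁻¹ :=
        (Finset.prod_biUnion hdisj).symm
    _ ≤ ZetaIdeal.zetaR L s :=
        IdealEuler.eulerProd_le_tsum (ZetaIdeal.nrm L s) (ZetaIdeal.nrm_one s)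
          (ZetaIdeal.nrm_mul s) (ZetaIdeal.nrm_nonneg s) (ZetaIdeal.summable_nrm L hs)
          (nrm_lt_one hs) _

end Fermat.Agent.S14.PrimesOverH1
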