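import Mathlib

/-!
# Lifting decomposition and inertia elements to the absolute Galois group (ideal level)

`Ω` is a Galois extension of `ℚ` (in applications the algebraic closure), `L` an intermediate
field which is normal over `ℚ`.  The group `Gal(Ω/L)`, realised as `L.fixingSubgroup`, is a
profinite group acting continuously on the discrete ring `𝓞 Ω` with invariants `𝓞 L`.  Mathlib's
profinite invariant theory then gives:

* `exists_smul_eq_of_under_eq`: transitivity of `Gal(Ω/L)` on the primes of `𝓞 Ω` over a given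
  prime of `𝓞 L`;
* `exists_stabilizer_lift`: every element of the decomposition group of `P ∩ 𝓞 L` in `Gal(L/ℚ)`
  is the restriction of an element of the decomposition group of `P`;
* `exists_inertia_lift`: the same for inertia groups;
* `exists_prime_over`: every prime of `𝓞 L` lies under a prime of `𝓞 Ω`.
-/

open scoped NumberField Pointwise

namespace Fermat.Agent.S14.ProfLift

section Profinite

variable {Ω : Type*} [Field Ω] [Algebra ℚ Ω] (L : IntermediateField ℚ Ω)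

theorem coe_smul_int (σ : Ω ≃ₐ[ℚ] Ω) (x : 𝓞 Ω) : ((σ • x : 𝓞 Ω) : Ω) = σ (x : Ω) := rfl

theorem coe_algebraMap_int (a : 𝓞 L) :
    ((algebraMap (𝓞 L) (𝓞 Ω) a : 𝓞 Ω) : Ω) = ((a : L) : Ω) := rfl

theorem apply_coe_of_mem_fixingSubgroup {g : Ω ≃ₐ[ℚ] Ω} (hg : g ∈ L.fixingSubgroup) (x : L) :
    g (x : Ω) = x :=
  (IntermediateField.mem_fixingSubgroup_iff L g).mp hg x x.2

instance smulCommClass_fixingSubgroup : SMulCommClass L.fixingSubgroup (𝓞 L) (𝓞 Ω) where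
  smul_comm g a b := by
    apply NumberField.RingOfIntegers.ext
    show (g : Ω ≃ₐ[ℚ] Ω) (((a • b : 𝓞 Ω) : Ω)) = ((a • (g • b) : 𝓞 Ω) : Ω)
    rw [Algebra.smul_def, Algebra.smul_def]
    push_cast
    rw [map_mul]
    congr 1
    exact apply_coe_of_mem_fixingSubgroup L g.2 (a : L)

/-- Elements of `Gal(Ω/L)` fix the image of `𝓞 L` in `𝓞 Ω`. -/
theorem smul_algebraMap_of_mem_fixingSubgroup {g : Ω ≃ₐ[ℚ] Ω} (hg : g ∈ L.fixingSubgroup)
    (a : 𝓞 L) : g • algebraMap (𝓞 L) (𝓞 Ω) a = algebraMap (𝓞 L) (𝓞 Ω) a := by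
  apply NumberField.RingOfIntegers.ext
  exact apply_coe_of_mem_fixingSubgroup L hg (a : L)

/-- Compatibility of the Galois actions on `𝓞 L` and `𝓞 Ω` under restriction. -/
theorem algebraMap_restrict_smul [Normal ℚ L] (σ : Ω ≃ₐ[ℚ] Ω) (x : 𝓞 L) :
    algebraMap (𝓞 L) (𝓞 Ω) (AlgEquiv.restrictNormalHom L σ • x) =
      σ • algebraMap (𝓞 L) (𝓞 Ω) x := by
  apply NumberField.RingOfIntegers.ext
  exact AlgEquiv.restrictNormal_commutes σ L (x : L)

/-- Elements of `Gal(Ω/L)` restrict to the identity of `L`. -/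
theorem restrict_eq_one_of_mem_fixingSubgroup [Normal ℚ L] {g : Ω ≃ₐ[ℚ] Ω}
    (hg : g ∈ L.fixingSubgroup) : AlgEquiv.restrictNormalHom L g = 1 := by
  ext x
  exact (AlgEquiv.restrictNormal_commutes g L x).trans (apply_coe_of_mem_fixingSubgroup L hg x)

theorem mem_fixingSubgroup_of_restrict_eq_one [Normal ℚ L] {g : Ω ≃ₐ[ℚ] Ω}
    (hg : AlgEquiv.restrictNormalHom L g = 1) : g ∈ L.fixingSubgroup := by
  rw [IntermediateField.mem_fixingSubgroup_iff]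
  intro x hx
  have h := AlgEquiv.restrictNormal_commutes g L ⟨x, hx⟩
  have h2 : g.restrictNormal L = 1 := hg
  rw [h2] at h
  exact h.symm

/-- The contraction of `σ • P` to `𝓞 L` is the translate of the contraction of `P`. -/
theorem under_smul [Normal ℚ L] (σ : Ω ≃ₐ[ℚ] Ω) (P : Ideal (𝓞 Ω)) :
    (σ • P).under (𝓞 L) = AlgEquiv.restrictNormalHom L σ • P.under (𝓞 L) := by
  ext x
  rw [Ideal.mem_pointwise_smul_iff_inv_smul_mem, Ideal.under_def, Ideal.mem_comap,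
    Ideal.mem_pointwise_smul_iff_inv_smul_mem, Ideal.under_def, Ideal.mem_comap,
    ← map_inv, algebraMap_restrict_smul]

variable [IsGalois ℚ Ω]

instance compactSpace_fixingSubgroup : CompactSpace L.fixingSubgroup :=
  isCompact_iff_compactSpace.mp (InfiniteGalois.fixingSubgroup_isClosed L).isCompact

theorem isInvariant_fixingSubgroup : Algebra.IsInvariant (𝓞 L) (𝓞 Ω) L.fixingSubgroup := by
  refine ⟨fun b hb => ?_⟩
  have h1 : (b : Ω) ∈ IntermediateField.fixedField L.fixingSubgroup := by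
    intro g
    exact congrArg Subtype.val (hb g)
  rw [InfiniteGalois.fixedField_fixingSubgroup] at h1
  have hint : IsIntegral ℤ (⟨(b : Ω), h1⟩ : L) := by
    have hb2 : IsIntegral ℤ (b : Ω) := b.2
    have : (algebraMap L Ω) ⟨(b : Ω), h1⟩ = (b : Ω) := rfl
    rw [← this] at hb2
    exact (isIntegral_algebraMap_iff (algebraMap L Ω).injective).mp hb2
  exact ⟨⟨⟨(b : Ω), h1⟩, hint⟩, NumberField.RingOfIntegers.ext rfl⟩

/-- With the discrete topology on `𝓞 Ω`, the action of `Gal(Ω/L)` is continuous. -/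
theorem continuousSMul_fixingSubgroup :
    @ContinuousSMul L.fixingSubgroup (𝓞 Ω) _ _ ⊥ := by
  let _ : TopologicalSpace (𝓞 Ω) := ⊥
  have : DiscreteTopology (𝓞 Ω) := ⟨rfl⟩
  rw [continuousSMul_iff_stabilizer_isOpen]
  intro x
  have h := stabilizer_isOpen_of_isIntegral (K := ℚ) (L := Ω) (x : Ω)
  have hc : Continuous (Subtype.val : L.fixingSubgroup → (Ω ≃ₐ[ℚ] Ω)) := continuous_subtype_val
  convert h.preimage hc using 1
  ext g
  simp only [SetLike.mem_coe, MulAction.mem_stabilizer_iff, Set.mem_preimage]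
  constructor
  · intro hg
    exact congrArg Subtype.val hg
  · intro hg
    exact NumberField.RingOfIntegers.ext hg

/-- Transitivity: `Gal(Ω/L)` acts transitively on the primes of `𝓞 Ω` with a given
contraction to `𝓞 L`. -/
theorem exists_fixing_smul_eq (P Q : Ideal (𝓞 Ω)) [P.IsPrime] [Q.IsPrime]
    (h : P.under (𝓞 L) = Q.under (𝓞 L)) :
    ∃ g : Ω ≃ₐ[ℚ] Ω, g ∈ L.fixingSubgroup ∧ Q = g • P := by
  let _ : TopologicalSpace (𝓞 Ω) := ⊥
  have : DiscreteTopology (𝓞 Ω) := ⟨rfl⟩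
  have := continuousSMul_fixingSubgroup L
  have := isInvariant_fixingSubgroup L
  obtain ⟨g, hg⟩ := Algebra.IsInvariant.exists_smul_of_under_eq_of_profinite
    (A := 𝓞 L) (B := 𝓞 Ω) (G := L.fixingSubgroup) P Q h
  exact ⟨g.1, g.2, hg⟩

/-- Transitivity, restriction form. -/
theorem exists_smul_eq_of_under_eq [Normal ℚ L] (P Q : Ideal (𝓞 Ω)) [P.IsPrime] [Q.IsPrime]
    (h : P.under (𝓞 L) = Q.under (𝓞 L)) :
    ∃ σ : Ω ≃ₐ[ℚ] Ω, AlgEquiv.restrictNormalHom L σ = 1 ∧ σ • P = Q := by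
  obtain ⟨g, hg, hgP⟩ := exists_fixing_smul_eq L P Q h
  exact ⟨g, restrict_eq_one_of_mem_fixingSubgroup L hg, hgP.symm⟩

/-- Decomposition lift: an automorphism of `L` stabilising `P ∩ 𝓞 L` is the restriction of an
automorphism of `Ω` stabilising `P`. -/
theorem exists_stabilizer_lift [Normal ℚ L] (P : Ideal (𝓞 Ω)) [P.IsPrime] (τ : L ≃ₐ[ℚ] L)
    (hτ : τ • P.under (𝓞 L) = P.under (𝓞 L)) :
    ∃ σ : Ω ≃ₐ[ℚ] Ω, σ • P = P ∧ AlgEquiv.restrictNormalHom L σ = τ := by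
  obtain ⟨σ₀, hσ₀⟩ := AlgEquiv.restrictNormalHom_surjective (F := ℚ) (K₁ := L) Ω τ
  have h1 : (σ₀ • P).under (𝓞 L) = P.under (𝓞 L) := by
    rw [under_smul, hσ₀, hτ]
  obtain ⟨g, hg, hgP⟩ := exists_fixing_smul_eq L (σ₀ • P) P h1
  refine ⟨g * σ₀, ?_, ?_⟩
  · rw [mul_smul, ← hgP]
  · rw [map_mul, restrict_eq_one_of_mem_fixingSubgroup L hg, one_mul, hσ₀]

/-- Inertia lift: an automorphism of `L` acting trivially on `𝓞 L / (P ∩ 𝓞 L)` is the
restriction of an automorphism of `Ω` acting trivially on `𝓞 Ω / P`. -/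
theorem exists_inertia_lift [Normal ℚ L] (P : Ideal (𝓞 Ω)) [P.IsPrime] (τ : L ≃ₐ[ℚ] L)
    (hτ : ∀ x : 𝓞 L, τ • x - x ∈ P.under (𝓞 L)) :
    ∃ σ : Ω ≃ₐ[ℚ] Ω, (∀ x : 𝓞 Ω, σ • x - x ∈ P) ∧ AlgEquiv.restrictNormalHom L σ = τ := by
  have hτ' : ∀ x : 𝓞 L, τ⁻¹ • x - x ∈ P.under (𝓞 L) := by
    intro x
    have h1 := hτ (τ⁻¹ • x)
    rw [smul_inv_smul] at h1
    have h2 := (P.under (𝓞 L)).neg_mem h1
    rwa [neg_sub] at h2
  have hstab : τ • P.under (𝓞 L) = P.under (𝓞 L) := by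
    apply le_antisymm
    · intro x hx
      rw [Ideal.mem_pointwise_smul_iff_inv_smul_mem] at hx
      have h1 := (P.under (𝓞 L)).sub_mem hx (hτ' x)
      rwa [sub_sub_cancel] at h1
    · intro x hx
      rw [Ideal.mem_pointwise_smul_iff_inv_smul_mem]
      have h1 := (P.under (𝓞 L)).add_mem (hτ' x) hx
      rwa [sub_add_cancel] at h1
  obtain ⟨σ₁, hσ₁P, hσ₁⟩ := exists_stabilizer_lift L P τ hstab
  let _ : TopologicalSpace (𝓞 Ω) := ⊥
  have : DiscreteTopology (𝓞 Ω) := ⟨rfl⟩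
  have := continuousSMul_fixingSubgroup L
  have := isInvariant_fixingSubgroup L
  let e : (𝓞 Ω) ≃+* (𝓞 Ω) := MulSemiringAction.toRingEquiv (Ω ≃ₐ[ℚ] Ω) (𝓞 Ω) σ₁
  have he : P = P.map e := hσ₁P.symm
  let φ₀ : (𝓞 Ω ⧸ P) ≃+* (𝓞 Ω ⧸ P) := Ideal.quotientEquiv P P e he
  have hφ₀ : ∀ b : 𝓞 Ω, φ₀ (Ideal.Quotient.mk P b) = Ideal.Quotient.mk P (σ₁ • b) := fun b => rfl
  let φ : (𝓞 Ω ⧸ P) ≃ₐ[𝓞 L ⧸ P.under (𝓞 L)] (𝓞 Ω ⧸ P) := AlgEquiv.ofRingEquiv (f := φ₀) (by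
    intro r
    obtain ⟨a, rfl⟩ := Ideal.Quotient.mk_surjective r
    rw [Ideal.Quotient.algebraMap_mk_of_liesOver, hφ₀, ← algebraMap_restrict_smul, hσ₁,
      Ideal.Quotient.eq, ← map_sub, ← Ideal.mem_comap]
    exact hτ a)
  obtain ⟨h, hh⟩ := Ideal.Quotient.stabilizerHom_surjective_of_profinite
    (G := L.fixingSubgroup) (P.under (𝓞 L)) P φ
  have key : ∀ b : 𝓞 Ω, σ₁ • b - (h.1.1 : Ω ≃ₐ[ℚ] Ω) • b ∈ P := by
    intro b
    have h1 : Ideal.Quotient.stabilizerHom P (P.under (𝓞 L)) L.fixingSubgroup h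
        (Ideal.Quotient.mk P b) = φ (Ideal.Quotient.mk P b) := by rw [hh]
    have h2 : Ideal.Quotient.mk P ((h.1.1 : Ω ≃ₐ[ℚ] Ω) • b) = Ideal.Quotient.mk P (σ₁ • b) := h1
    rw [← Ideal.Quotient.eq]
    exact h2.symm
  have hhP : (h.1.1 : Ω ≃ₐ[ℚ] Ω) • P = P := h.2
  refine ⟨(h.1.1 : Ω ≃ₐ[ℚ] Ω)⁻¹ * σ₁, ?_, ?_⟩
  · intro x
    have h1 : ((h.1.1 : Ω ≃ₐ[ℚ] Ω)⁻¹ * σ₁) • x - x =
        (h.1.1 : Ω ≃ₐ[ℚ] Ω)⁻¹ • (σ₁ • x - (h.1.1 : Ω ≃ₐ[ℚ] Ω) • x) := by
      rw [smul_sub, mul_smul, inv_smul_smul]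
    rw [h1, ← Ideal.mem_pointwise_smul_iff_inv_smul_mem, hhP]
    exact key x
  · rw [map_mul, map_inv, restrict_eq_one_of_mem_fixingSubgroup L h.1.2, inv_one, one_mul, hσ₁]

/-- Every prime of `𝓞 L` lies under a prime of `𝓞 Ω`. -/
theorem exists_prime_over (𝔭 : Ideal (𝓞 L)) [𝔭.IsPrime] :
    ∃ P : Ideal (𝓞 Ω), P.IsPrime ∧ P.under (𝓞 L) = 𝔭 := by
  let _ : TopologicalSpace (𝓞 Ω) := ⊥
  have : DiscreteTopology (𝓞 Ω) := ⟨rfl⟩
  have := continuousSMul_fixingSubgroup L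
  have := isInvariant_fixingSubgroup L
  have hint : Algebra.IsIntegral (𝓞 L) (𝓞 Ω) :=
    Algebra.IsInvariant.isIntegral_of_profinite (G := L.fixingSubgroup)
  have hinj : Function.Injective (algebraMap (𝓞 L) (𝓞 Ω)) := by
    intro a b hab
    apply NumberField.RingOfIntegers.ext
    have h1 := congrArg (fun x : 𝓞 Ω => (x : Ω)) hab
    exact Subtype.ext h1
  have hker : RingHom.ker (algebraMap (𝓞 L) (𝓞 Ω)) ≤ 𝔭 := by
    rw [(RingHom.injective_iff_ker_eq_bot _).mp hinj]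
    exact bot_le
  obtain ⟨Q, hQ, hQ2⟩ := Ideal.exists_ideal_over_prime_of_isIntegral_of_isDomain 𝔭 hker
  exact ⟨Q, hQ, hQ2⟩

end Profinite

section Int

variable {Ω : Type*} [Field Ω] [Algebra ℚ Ω] [IsGalois ℚ Ω]

theorem isInvariant_int : Algebra.IsInvariant ℤ (𝓞 Ω) (Ω ≃ₐ[ℚ] Ω) := by
  refine ⟨fun b hb => ?_⟩
  have h1 : (b : Ω) ∈ Set.range (algebraMap ℚ Ω) := by
    rw [InfiniteGalois.mem_range_algebraMap_iff_fixed]
    intro g
    exact congrArg Subtype.val (hb g)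
  obtain ⟨r, hr⟩ := h1
  have hint : IsIntegral ℤ r := by
    have hb2 : IsIntegral ℤ (b : Ω) := b.2
    rw [← hr] at hb2
    exact (isIntegral_algebraMap_iff (algebraMap ℚ Ω).injective).mp hb2
  obtain ⟨n, hn⟩ := IsIntegrallyClosed.isIntegral_iff.mp hint
  refine ⟨n, NumberField.RingOfIntegers.ext ?_⟩
  show ((algebraMap ℤ (𝓞 Ω) n : 𝓞 Ω) : Ω) = (b : Ω)
  rw [← hr, ← hn]
  simp

/-- With the discrete topology on `𝓞 Ω`, the action of `Gal(Ω/ℚ)` is continuous. -/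
theorem continuousSMul_gal :
    @ContinuousSMul (Ω ≃ₐ[ℚ] Ω) (𝓞 Ω) _ _ ⊥ := by
  let _ : TopologicalSpace (𝓞 Ω) := ⊥
  have : DiscreteTopology (𝓞 Ω) := ⟨rfl⟩
  rw [continuousSMul_iff_stabilizer_isOpen]
  intro x
  have h := stabilizer_isOpen_of_isIntegral (K := ℚ) (L := Ω) (x : Ω)
  convert h using 1
  ext g
  simp only [SetLike.mem_coe, MulAction.mem_stabilizer_iff]
  constructor
  · intro hg
    exact congrArg Subtype.val hg
  · intro hg
    exact NumberField.RingOfIntegers.ext hg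

/-- `Gal(Ω/ℚ)` acts transitively on the primes of `𝓞 Ω` over a given prime of `ℤ`. -/
theorem exists_smul_eq_of_under_int_eq (P Q : Ideal (𝓞 Ω)) [P.IsPrime] [Q.IsPrime]
    (h : P.under ℤ = Q.under ℤ) : ∃ σ : Ω ≃ₐ[ℚ] Ω, σ • P = Q := by
  let _ : TopologicalSpace (𝓞 Ω) := ⊥
  have : DiscreteTopology (𝓞 Ω) := ⟨rfl⟩
  have := continuousSMul_gal (Ω := Ω)
  have := isInvariant_int (Ω := Ω)
  obtain ⟨g, hg⟩ := Algebra.IsInvariant.exists_smul_of_under_eq_of_profinite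
    (A := ℤ) (B := 𝓞 Ω) (G := Ω ≃ₐ[ℚ] Ω) P Q h
  exact ⟨g, hg.symm⟩

end Int

/-- `ℚ̄ / ℚ` is Galois for the `Algebra ℚ (AlgebraicClosure ℚ)` instance found by instance
resolution. -/
instance isGalois_algebraicClosure : IsGalois ℚ (AlgebraicClosure ℚ) := by
  have h : (DivisionRing.toRatAlgebra : Algebra ℚ (AlgebraicClosure ℚ)) =
      AlgebraicClosure.instAlgebra ℚ := Subsingleton.elim _ _
  rw [h]; infer_instance

end Fermat.Agent.S14.ProfLift
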