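import Fermat.Agent.S14.ArtinMap

/-!
# S14: the reciprocity law at the level of `K` (wiring of Artin's crossing)

* `mem_iff_of_cross` : abstract (monoid) form of the assembly: a monoid `I` (nonzero ideals), a
  surjection `cl : I →* Cl` (ideal classes), a subgroup `HN ≤ Cl` (classes of norms) with
  `HN ≠ ⊤` (first inequality) and `Cl / HN` killed by `p`, a homomorphism `ψ : I →* G` to a group
  of prime order `p` (Artin map); if split primes have class in `HN` and any two non-split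
  primes satisfy the crossing relation, then `cl a ∈ HN ↔ ψ a = 1`.
* `NormRel a b` : the ideals `a`, `b` of `𝓞 K` differ by principal ideals and norms from `L`.
* `artinFun_span_singleton_of_cross` : the Artin symbol of a principal ideal is trivial, given the
  first inequality and the crossing relation for every pair of non-split primes.
-/

set_option autoImplicit false

open NumberField nonZeroDivisors

namespace Fermat.Agent.S14.RecK

open Fermat.Agent.S14.ArtinMap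

section Abstract

variable {I Cl G : Type*} [CommMonoid I] [CommGroup Cl] [Group G]

/-- In a group of prime order every element is a (natural) power of a nontrivial element. -/
theorem exists_pow_eq_of_card_prime {p : ℕ} (hp : p.Prime) (hG : Nat.card G = p) {g : G}
    (hg : g ≠ 1) (c : G) : ∃ n : ℕ, c = g ^ n := by
  have : Fact p.Prime := ⟨hp⟩
  obtain ⟨n, hn⟩ := (Submonoid.mem_powers_iff _ _).mp (mem_powers_of_prime_card hG hg (g' := c))
  exact ⟨n, hn.symm⟩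

/-- In a group of prime order `p`, `g ^ n = 1 ↔ p ∣ n` for `g ≠ 1`. -/
theorem pow_eq_one_iff_of_card_prime {p : ℕ} (hp : p.Prime) (hG : Nat.card G = p) {g : G}
    (hg : g ≠ 1) (n : ℕ) : g ^ n = 1 ↔ p ∣ n := by
  have h1 : orderOf g ∣ p := hG ▸ orderOf_dvd_natCard g
  have h2 : orderOf g = p := by
    rcases (Nat.dvd_prime hp).mp h1 with h | h
    · exact absurd (orderOf_eq_one_iff.mp h) hg
    · exact h
  rw [← h2, orderOf_dvd_iff_pow_eq_one]

/-- `c ^ n ∈ HN` when `p ∣ n` and `HN` contains all `p`-th powers. -/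
theorem pow_mem_of_dvd {p : ℕ} {HN : Subgroup Cl} (hpow : ∀ c : Cl, c ^ p ∈ HN) (c : Cl) {n : ℕ}
    (hn : p ∣ n) : c ^ n ∈ HN := by
  obtain ⟨m, rfl⟩ := hn
  rw [mul_comm, pow_mul]
  exact hpow _

/-- `c ^ n ∈ HN` (integer exponent) when `p ∣ n` and `HN` contains all `p`-th powers. -/
theorem zpow_mem_of_dvd {p : ℕ} {HN : Subgroup Cl} (hpow : ∀ c : Cl, c ^ p ∈ HN) (c : Cl) {n : ℤ}
    (hn : (p : ℤ) ∣ n) : c ^ n ∈ HN := by
  obtain ⟨m, rfl⟩ := hn
  rw [mul_comm, zpow_mul, zpow_natCast]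
  exact hpow _

/-- If `c ^ n ∈ HN` with `p ∤ n` and `HN` contains all `p`-th powers, then `c ∈ HN`. -/
theorem mem_of_pow_mem {p : ℕ} (hp : p.Prime) {HN : Subgroup Cl} (hpow : ∀ c : Cl, c ^ p ∈ HN)
    (c : Cl) {n : ℕ} (hn : ¬ p ∣ n) (h : c ^ n ∈ HN) : c ∈ HN := by
  have hcop : Nat.Coprime n p := (Nat.Coprime.symm ((Nat.Prime.coprime_iff_not_dvd hp).mpr hn))
  have hb : (n : ℤ) * Nat.gcdA n p + (p : ℤ) * Nat.gcdB n p = 1 := by
    have := Nat.gcd_eq_gcd_ab n p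
    rw [hcop.gcd_eq_one] at this
    exact_mod_cast this.symm
  have h1 : c = (c ^ n) ^ (Nat.gcdA n p) * (c ^ p) ^ (Nat.gcdB n p) := by
    rw [← zpow_natCast c n, ← zpow_natCast c p, ← zpow_mul, ← zpow_mul, ← zpow_add, hb, zpow_one]
  rw [h1]
  exact HN.mul_mem (HN.zpow_mem h _) (HN.zpow_mem (hpow c) _)

theorem div_eq_aux (a b u v : Cl) : b / a = (b / u) * (a / v)⁻¹ * (u / v) := by
  rw [mul_right_comm, div_mul_div_cancel, ← div_eq_mul_inv, div_div_div_cancel_right]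

/-- **Abstract assembly of the reciprocity law** (monoid form). -/
theorem mem_iff_of_cross {p : ℕ} (hp : p.Prime) (hG : Nat.card G = p)
    (cl : I →* Cl) (hcl : Function.Surjective cl) (ψ : I →* G) (HN : Subgroup Cl)
    (hne : HN ≠ ⊤) (hpow : ∀ c : Cl, c ^ p ∈ HN)
    (S : Set I) (hS : Submonoid.closure S = ⊤)
    (hsplit : ∀ q ∈ S, ψ q = 1 → cl q ∈ HN)
    (hcross : ∀ q₁ ∈ S, ∀ q₂ ∈ S, ψ q₁ ≠ 1 → ψ q₂ ≠ 1 → ∀ d : ℕ, ψ q₂ = ψ q₁ ^ d →
      cl q₂ / cl q₁ ^ d ∈ HN) (a : I) : cl a ∈ HN ↔ ψ a = 1 := by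
  by_cases hall : ∀ q ∈ S, ψ q = 1
  · -- all generators are split: `HN = ⊤`
    exfalso
    apply hne
    rw [eq_top_iff]
    rintro c -
    obtain ⟨b, rfl⟩ := hcl c
    have hb : b ∈ Submonoid.closure S := hS ▸ Submonoid.mem_top b
    induction hb using Submonoid.closure_induction with
    | mem q hq => exact hsplit q hq (hall q hq)
    | one => rw [map_one]; exact HN.one_mem
    | mul x y _ _ hx hy => rw [map_mul]; exact HN.mul_mem hx hy
  · push Not at hall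
    obtain ⟨q₀, hq₀S, hq₀⟩ := hall
    have key : ∀ b : I, ∃ n : ℕ, ψ b = ψ q₀ ^ n ∧ cl b / cl q₀ ^ n ∈ HN := by
      intro b
      have hb : b ∈ Submonoid.closure S := hS ▸ Submonoid.mem_top b
      induction hb using Submonoid.closure_induction with
      | mem q hq =>
        by_cases hq1 : ψ q = 1
        · refine ⟨0, by rw [hq1, pow_zero], ?_⟩
          rw [pow_zero, div_one]
          exact hsplit q hq hq1
        · obtain ⟨d, hd⟩ := exists_pow_eq_of_card_prime hp hG hq₀ (ψ q)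
          exact ⟨d, hd, hcross q₀ hq₀S q hq hq₀ hq1 d hd⟩
      | one =>
        refine ⟨0, by rw [map_one, pow_zero], ?_⟩
        rw [map_one, pow_zero, div_one]
        exact HN.one_mem
      | mul x y _ _ hx hy =>
        obtain ⟨n, hn1, hn2⟩ := hx
        obtain ⟨m, hm1, hm2⟩ := hy
        refine ⟨n + m, by rw [map_mul, hn1, hm1, pow_add], ?_⟩
        have : cl (x * y) / cl q₀ ^ (n + m) = (cl x / cl q₀ ^ n) * (cl y / cl q₀ ^ m) := by
          rw [map_mul, pow_add, mul_div_mul_comm]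
        rw [this]
        exact HN.mul_mem hn2 hm2
    obtain ⟨n, hn1, hn2⟩ := key a
    constructor
    · intro ha
      by_contra hψ
      have hpn : ¬ p ∣ n := by
        intro hpn
        apply hψ
        rw [hn1]
        exact (pow_eq_one_iff_of_card_prime hp hG hq₀ n).mpr hpn
      have h1 : cl q₀ ^ n ∈ HN := by
        have := HN.mul_mem (HN.inv_mem hn2) ha
        rwa [inv_div, div_mul_cancel] at this
      have h2 : cl q₀ ∈ HN := mem_of_pow_mem hp hpow (cl q₀) hpn h1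
      apply hne
      rw [eq_top_iff]
      rintro c -
      obtain ⟨b, rfl⟩ := hcl c
      obtain ⟨m, -, hm2⟩ := key b
      have := HN.mul_mem hm2 (HN.pow_mem h2 m)
      rwa [div_mul_cancel] at this
    · intro ha
      have hpn : p ∣ n := by
        rw [← pow_eq_one_iff_of_card_prime hp hG hq₀, ← hn1]
        exact ha
      have h1 : cl q₀ ^ n ∈ HN := pow_mem_of_dvd hpow (cl q₀) hpn
      have := HN.mul_mem hn2 h1
      rwa [div_mul_cancel] at this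

end Abstract

section Field

variable (K L : Type*) [Field K] [NumberField K] [Field L] [NumberField L] [Algebra K L]

/-- The norm of a nonzero ideal is a nonzero ideal. -/
theorem relNorm_mem_nzd (J : (Ideal (𝓞 L))⁰) :
    Ideal.relNorm (𝓞 K) (J : Ideal (𝓞 L)) ∈ (Ideal (𝓞 K))⁰ := by
  rw [mem_nonZeroDivisors_iff_ne_zero, Ideal.zero_eq_bot, Ne, Ideal.relNorm_eq_bot_iff]
  exact nonZeroDivisors.coe_ne_zero J

/-- The relative norm as a monoid homomorphism on nonzero ideals. -/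
noncomputable def relNorm0 : (Ideal (𝓞 L))⁰ →* (Ideal (𝓞 K))⁰ where
  toFun J := ⟨Ideal.relNorm (𝓞 K) (J : Ideal (𝓞 L)), relNorm_mem_nzd K L J⟩
  map_one' := by
    apply Subtype.ext
    simp
  map_mul' J J' := by
    apply Subtype.ext
    simp

theorem coe_relNorm0 (J : (Ideal (𝓞 L))⁰) :
    ((relNorm0 K L J : (Ideal (𝓞 K))⁰) : Ideal (𝓞 K)) =
      Ideal.relNorm (𝓞 K) (J : Ideal (𝓞 L)) := rfl

/-- The classes of norms of (nonzero) ideals of `𝓞 L`, as a submonoid of the class group. -/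
noncomputable def normClM : Submonoid (ClassGroup (𝓞 K)) :=
  MonoidHom.mrange ((ClassGroup.mk0 (R := 𝓞 K)).comp (relNorm0 K L))

/-- The subgroup of the class group of `K` of classes of norms from `L`. -/
noncomputable def normCl : Subgroup (ClassGroup (𝓞 K)) :=
  Subgroup.closure (normClM K L : Set (ClassGroup (𝓞 K)))

theorem mem_normCl_iff (c : ClassGroup (𝓞 K)) :
    c ∈ normCl K L ↔ ∃ J : (Ideal (𝓞 L))⁰, ClassGroup.mk0 (relNorm0 K L J) = c := by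
  have h1 : (normCl K L).toSubmonoid = normClM K L := by
    unfold normCl
    rw [Subgroup.closure_toSubmonoid_of_finite, Submonoid.closure_eq]
  have h2 : c ∈ normCl K L ↔ c ∈ (normCl K L).toSubmonoid := Iff.rfl
  rw [h2, h1]
  exact MonoidHom.mem_mrange

theorem mk0_relNorm0_mem (J : (Ideal (𝓞 L))⁰) :
    ClassGroup.mk0 (relNorm0 K L J) ∈ normCl K L :=
  (mem_normCl_iff K L _).mpr ⟨J, rfl⟩

/-- `a` and `b` differ by principal ideals and norms of ideals of `𝓞 L`. -/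
def NormRel (a b : Ideal (𝓞 K)) : Prop :=
  ∃ (x y : 𝓞 K) (A B : Ideal (𝓞 L)), x ≠ 0 ∧ y ≠ 0 ∧ A ≠ ⊥ ∧ B ≠ ⊥ ∧
    Ideal.span {x} * a * Ideal.relNorm (𝓞 K) A = Ideal.span {y} * b * Ideal.relNorm (𝓞 K) B

variable {K L} in
theorem mk0_div_mem_of_normRel (a b : (Ideal (𝓞 K))⁰)
    (h : NormRel K L (a : Ideal (𝓞 K)) (b : Ideal (𝓞 K))) :
    ClassGroup.mk0 a / ClassGroup.mk0 b ∈ normCl K L := by
  obtain ⟨x, y, A, B, hx, hy, hA, hB, hEq⟩ := h
  have hA' : A ∈ (Ideal (𝓞 L))⁰ := mem_nonZeroDivisors_iff_ne_zero.mpr hA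
  have hB' : B ∈ (Ideal (𝓞 L))⁰ := mem_nonZeroDivisors_iff_ne_zero.mpr hB
  have h1 : ClassGroup.mk0 (a * relNorm0 K L ⟨A, hA'⟩) =
      ClassGroup.mk0 (b * relNorm0 K L ⟨B, hB'⟩) := by
    rw [ClassGroup.mk0_eq_mk0_iff]
    refine ⟨x, y, hx, hy, ?_⟩
    simp only [Submonoid.coe_mul, coe_relNorm0]
    rw [← mul_assoc, ← mul_assoc]
    exact hEq
  rw [map_mul, map_mul] at h1
  have h2 : ClassGroup.mk0 a / ClassGroup.mk0 b =
      ClassGroup.mk0 (relNorm0 K L ⟨B, hB'⟩) * (ClassGroup.mk0 (relNorm0 K L ⟨A, hA'⟩))⁻¹ := by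
    rw [div_eq_iff_eq_mul, mul_right_comm, eq_mul_inv_iff_mul_eq, h1, mul_comm]
  rw [h2]
  exact (normCl K L).mul_mem (mk0_relNorm0_mem K L _) ((normCl K L).inv_mem (mk0_relNorm0_mem K L _))

variable {K L} in
/-- The `[L : K]`-th power of any class is a norm class. -/
theorem pow_finrank_mem_normCl (c : ClassGroup (𝓞 K)) : c ^ Module.finrank K L ∈ normCl K L := by
  obtain ⟨a, rfl⟩ := ClassGroup.mk0_surjective c
  have ha : (a : Ideal (𝓞 K)).map (algebraMap (𝓞 K) (𝓞 L)) ∈ (Ideal (𝓞 L))⁰ := by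
    rw [mem_nonZeroDivisors_iff_ne_zero, Ideal.zero_eq_bot, Ne,
      Ideal.map_eq_bot_iff_of_injective (FaithfulSMul.algebraMap_injective (𝓞 K) (𝓞 L))]
    exact nonZeroDivisors.coe_ne_zero a
  have h1 : relNorm0 K L ⟨_, ha⟩ = a ^ Module.finrank K L := by
    apply Subtype.ext
    rw [coe_relNorm0, SubmonoidClass.coe_pow]
    change Ideal.relNorm (𝓞 K) ((a : Ideal (𝓞 K)).map (algebraMap (𝓞 K) (𝓞 L))) = _
    rw [Ideal.relNorm_algebraMap, IsFractionRing.finrank_eq (𝓞 K) K (𝓞 L) L]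
  rw [← map_pow, ← h1]
  exact mk0_relNorm0_mem K L _

/-- Every nonzero ideal is a product of nonzero primes. -/
theorem closure_primes_eq_top :
    Submonoid.closure {a : (Ideal (𝓞 K))⁰ | (a : Ideal (𝓞 K)).IsPrime} = ⊤ := by
  rw [eq_top_iff]
  rintro ⟨a, ha⟩ -
  induction a using UniqueFactorizationMonoid.induction_on_prime with
  | h₁ => exact absurd rfl (mem_nonZeroDivisors_iff_ne_zero.mp ha)
  | h₂ x hx =>
    rw [Ideal.isUnit_iff] at hx
    subst hx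
    have : (⟨⊤, ha⟩ : (Ideal (𝓞 K))⁰) = 1 := Subtype.ext Ideal.one_eq_top.symm
    rw [this]
    exact Submonoid.one_mem _
  | h₃ a q ha0 hq ih =>
    have hq' : q ∈ (Ideal (𝓞 K))⁰ := mem_nonZeroDivisors_iff_ne_zero.mpr hq.ne_zero
    have ha' : a ∈ (Ideal (𝓞 K))⁰ := mem_nonZeroDivisors_iff_ne_zero.mpr ha0
    have : (⟨q * a, ha⟩ : (Ideal (𝓞 K))⁰) = ⟨q, hq'⟩ * ⟨a, ha'⟩ := rfl
    rw [this]
    exact Submonoid.mul_mem _ (Submonoid.subset_closure (Ideal.isPrime_of_prime hq)) (ih ha')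

variable (G : Type*) [Group G] [Finite G] [MulSemiringAction G L] [IsGaloisGroup G K L]

variable {K L G} in
/-- **The reciprocity law from the first inequality and the crossing relations**: the Artin
symbol of a principal ideal is trivial. -/
theorem artinFun_span_singleton_of_cross {p : ℕ} (hp : p.Prime) (hG : Nat.card G = p)
    (hab : ∀ a b : G, a * b = b * a) (hur : IsUnram L G)
    (hFI : ∃ c : ClassGroup (𝓞 K), ∀ (J : Ideal (𝓞 L)) (N : (Ideal (𝓞 K))⁰),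
      (N : Ideal (𝓞 K)) = Ideal.relNorm (𝓞 K) J → ClassGroup.mk0 N ≠ c)
    (hX : ∀ q₁ q₂ : Ideal (𝓞 K), q₁.IsPrime → q₂.IsPrime → q₁ ≠ ⊥ → q₂ ≠ ⊥ →
      frob K L G q₁ ≠ 1 → frob K L G q₂ ≠ 1 →
      ∃ 𝔠 : Ideal (𝓞 K), 𝔠 ≠ ⊥ ∧ artinFun K L G hab 𝔠 ≠ 1 ∧
        (∀ e : ℕ, frob K L G q₁ = artinFun K L G hab 𝔠 ^ e → NormRel K L q₁ (𝔠 ^ e)) ∧
        (∀ e : ℕ, frob K L G q₂ = artinFun K L G hab 𝔠 ^ e → NormRel K L q₂ (𝔠 ^ e)))
    (x : 𝓞 K) (hx : x ≠ 0) : artinFun K L G hab (Ideal.span {x}) = 1 := by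
  have hdeg : Module.finrank K L = p := by
    rw [← IsGaloisGroup.card_eq_finrank G K L, hG]
  have hpow : ∀ c : ClassGroup (𝓞 K), c ^ p ∈ normCl K L := by
    intro c
    rw [← hdeg]
    exact pow_finrank_mem_normCl c
  have hne : normCl K L ≠ ⊤ := by
    obtain ⟨c, hc⟩ := hFI
    intro htop
    have hmem : c ∈ normCl K L := htop ▸ Subgroup.mem_top c
    obtain ⟨J, hJ⟩ := (mem_normCl_iff K L c).mp hmem
    exact hc (J : Ideal (𝓞 L)) (relNorm0 K L J) rfl hJ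
  have hsplit : ∀ q ∈ {a : (Ideal (𝓞 K))⁰ | (a : Ideal (𝓞 K)).IsPrime},
      artin K L G hab q = 1 → ClassGroup.mk0 q ∈ normCl K L := by
    rintro ⟨q, hq0⟩ hq hψ
    change q.IsPrime at hq
    have := hq
    have hqne : q ≠ ⊥ := mem_nonZeroDivisors_iff_ne_zero.mp hq0
    rw [artin_mk, artinFun_prime hab q hqne] at hψ
    obtain ⟨Q, hQ1, hQ2⟩ := (q.nonempty_primesOver (S := 𝓞 L)).some
    have := hQ1
    have := hQ2
    have hN := relNorm_eq_of_frob_eq_one hab hur q hqne Q hψ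
    have hQ0 : Q ∈ (Ideal (𝓞 L))⁰ :=
      mem_nonZeroDivisors_iff_ne_zero.mpr (ne_bot_of_liesOver q hqne Q)
    have : (⟨q, hq0⟩ : (Ideal (𝓞 K))⁰) = relNorm0 K L ⟨Q, hQ0⟩ := Subtype.ext hN.symm
    rw [this]
    exact mk0_relNorm0_mem K L _
  have hcross : ∀ q₁ ∈ {a : (Ideal (𝓞 K))⁰ | (a : Ideal (𝓞 K)).IsPrime},
      ∀ q₂ ∈ {a : (Ideal (𝓞 K))⁰ | (a : Ideal (𝓞 K)).IsPrime},
      artin K L G hab q₁ ≠ 1 → artin K L G hab q₂ ≠ 1 → ∀ d : ℕ,
      artin K L G hab q₂ = artin K L G hab q₁ ^ d →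
      ClassGroup.mk0 q₂ / ClassGroup.mk0 q₁ ^ d ∈ normCl K L := by
    rintro ⟨q₁, hq₁0⟩ hq₁ ⟨q₂, hq₂0⟩ hq₂ hψ₁ hψ₂ d hd
    change q₁.IsPrime at hq₁
    change q₂.IsPrime at hq₂
    have := hq₁
    have := hq₂
    have hq₁ne : q₁ ≠ ⊥ := mem_nonZeroDivisors_iff_ne_zero.mp hq₁0
    have hq₂ne : q₂ ≠ ⊥ := mem_nonZeroDivisors_iff_ne_zero.mp hq₂0
    simp only [artin_mk] at hψ₁ hψ₂ hd
    rw [artinFun_prime hab q₁ hq₁ne] at hψ₁ hd
    rw [artinFun_prime hab q₂ hq₂ne] at hψ₂ hd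
    obtain ⟨𝔠, h𝔠, hs, hR₁, hR₂⟩ := hX q₁ q₂ hq₁ hq₂ hq₁ne hq₂ne hψ₁ hψ₂
    have h𝔠0 : 𝔠 ∈ (Ideal (𝓞 K))⁰ := mem_nonZeroDivisors_iff_ne_zero.mpr h𝔠
    obtain ⟨e₁, he₁⟩ := exists_pow_eq_of_card_prime hp hG hs (frob K L G q₁)
    obtain ⟨e₂, he₂⟩ := exists_pow_eq_of_card_prime hp hG hs (frob K L G q₂)
    set c : ClassGroup (𝓞 K) := ClassGroup.mk0 ⟨𝔠, h𝔠0⟩ with hcdef
    have hpowmem : ∀ e : ℕ, 𝔠 ^ e ∈ (Ideal (𝓞 K))⁰ := fun e => pow_mem h𝔠0 e
    have hpoweq : ∀ e : ℕ, (⟨𝔠 ^ e, hpowmem e⟩ : (Ideal (𝓞 K))⁰) = ⟨𝔠, h𝔠0⟩ ^ e := by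
      intro e
      apply Subtype.ext
      rw [SubmonoidClass.coe_pow]
    have h1 : ClassGroup.mk0 ⟨q₁, hq₁0⟩ / c ^ e₁ ∈ normCl K L := by
      rw [hcdef, ← map_pow, ← hpoweq]
      exact mk0_div_mem_of_normRel ⟨q₁, hq₁0⟩ ⟨𝔠 ^ e₁, hpowmem e₁⟩ (hR₁ e₁ he₁)
    have h2 : ClassGroup.mk0 ⟨q₂, hq₂0⟩ / c ^ e₂ ∈ normCl K L := by
      rw [hcdef, ← map_pow, ← hpoweq]
      exact mk0_div_mem_of_normRel ⟨q₂, hq₂0⟩ ⟨𝔠 ^ e₂, hpowmem e₂⟩ (hR₂ e₂ he₂)
    -- `p ∣ e₂ - e₁ d`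
    have h3 : (p : ℤ) ∣ (e₂ : ℤ) - e₁ * d := by
      have h4 : artinFun K L G hab 𝔠 ^ e₂ = artinFun K L G hab 𝔠 ^ (e₁ * d) := by
        rw [← he₂, hd, he₁, pow_mul]
      have h5 : orderOf (artinFun K L G hab 𝔠) = p := by
        have h6 : orderOf (artinFun K L G hab 𝔠) ∣ p := hG ▸ orderOf_dvd_natCard _
        rcases (Nat.dvd_prime hp).mp h6 with h | h
        · exact absurd (orderOf_eq_one_iff.mp h) hs
        · exact h
      have h7 := (pow_eq_pow_iff_modEq (x := artinFun K L G hab 𝔠)).mp h4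
      rw [h5] at h7
      have h8 := (Int.natCast_modEq_iff.mpr h7).symm.dvd
      push_cast at h8
      exact h8
    have h9 : c ^ ((e₂ : ℤ) - e₁ * d) ∈ normCl K L := zpow_mem_of_dvd hpow c h3
    have h10 : ClassGroup.mk0 ⟨q₂, hq₂0⟩ / ClassGroup.mk0 ⟨q₁, hq₁0⟩ ^ d =
        (ClassGroup.mk0 ⟨q₂, hq₂0⟩ / c ^ e₂) * ((ClassGroup.mk0 ⟨q₁, hq₁0⟩ / c ^ e₁) ^ d)⁻¹ *
          c ^ ((e₂ : ℤ) - e₁ * d) := by
      rw [zpow_sub, zpow_natCast, zpow_mul, zpow_natCast, zpow_natCast, div_pow]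
      exact div_eq_aux _ _ _ _
    rw [h10]
    exact (normCl K L).mul_mem ((normCl K L).mul_mem h2
      ((normCl K L).inv_mem ((normCl K L).pow_mem h1 d))) h9
  have hx0 : Ideal.span {x} ∈ (Ideal (𝓞 K))⁰ := by
    rw [mem_nonZeroDivisors_iff_ne_zero, Ideal.zero_eq_bot, Ne, Ideal.span_singleton_eq_bot]
    exact hx
  have hmain := mem_iff_of_cross hp hG (ClassGroup.mk0 (R := 𝓞 K))
    ClassGroup.mk0_surjective (artin K L G hab) (normCl K L) hne hpow _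
    (closure_primes_eq_top K) hsplit hcross ⟨Ideal.span {x}, hx0⟩
  have h1 : ClassGroup.mk0 (⟨Ideal.span {x}, hx0⟩ : (Ideal (𝓞 K))⁰) = 1 := by
    rw [ClassGroup.mk0_eq_one_iff]
    exact ⟨⟨x, rfl⟩⟩
  have h2 := hmain.mp (by
    change ClassGroup.mk0 (⟨Ideal.span {x}, hx0⟩ : (Ideal (𝓞 K))⁰) ∈ normCl K L
    rw [h1]; exact (normCl K L).one_mem)
  exact h2

end Field

end Fermat.Agent.S14.RecK
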