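import Fermat.Agent.S14.Uni
import Fermat.Agent.S14.PrimesOverH1

set_option autoImplicit false

/-!
# The second inequality, with only the `D1` bound as a hypothesis
-/

namespace Fermat.Agent.S14.UniCmp

open NumberField Ideal IsDedekindDomain nonZeroDivisors
open Fermat.Agent.S14

/-- The comparison of Euler products of `L` and `F` (from `PrimesOverH1.exists_const`). -/
theorem cmpHyp (F L : Type*) [Field F] [NumberField F] [Field L] [NumberField L] [Algebra F L]
    (S : Finset (Ideal (𝓞 F))) : Uni.CmpHyp F L S := by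
  obtain ⟨C, hC, h⟩ := PrimesOverH1.exists_const F L S
  exact ⟨C, hC, fun s hs _ T' => h s hs T'⟩

/-- **The second inequality** (class-group form), with the boundedness of the class-group
`L`-series (`D1`) as the only hypothesis. -/
theorem index_le_finrank_of_D1 (F L : Type*) [Field F] [NumberField F] [Field L] [NumberField L]
    [Algebra F L] (H : Subgroup (ClassGroup (𝓞 F))) (S : Finset (Ideal (𝓞 F)))
    (hH : ∀ (q : (Ideal (𝓞 F))⁰) (Q : Ideal (𝓞 L)), Q.IsPrime →
      Q.under (𝓞 F) = (q : Ideal (𝓞 F)) → (q : Ideal (𝓞 F)) ∉ S →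
      Ideal.absNorm Q = Ideal.absNorm (q : Ideal (𝓞 F)) → ClassGroup.mk0 q ∈ H)
    (hD1 : Uni.D1Hyp F) :
    H.index ≤ Module.finrank F L :=
  Uni.index_le_finrank_of F L H S hH hD1 (cmpHyp F L S)

/-- The same with the hypothesis in the `LiesOver` shape. -/
theorem index_le_finrank_of_D1' (F L : Type*) [Field F] [NumberField F] [Field L] [NumberField L]
    [Algebra F L] (H : Subgroup (ClassGroup (𝓞 F))) (T : Finset (Ideal (𝓞 F)))
    (hH : ∀ (q : (Ideal (𝓞 F))⁰), (q : Ideal (𝓞 F)).IsPrime → (q : Ideal (𝓞 F)) ∉ T →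
      (∃ Q : Ideal (𝓞 L), Q.IsPrime ∧ Q.LiesOver (q : Ideal (𝓞 F)) ∧
        Ideal.absNorm Q = Ideal.absNorm (q : Ideal (𝓞 F))) → ClassGroup.mk0 q ∈ H)
    (hD1 : Uni.D1Hyp F) :
    H.index ≤ Module.finrank F L := by
  refine index_le_finrank_of_D1 F L H T (fun q Q hQ hu hqT hN => ?_) hD1
  have hqp : (q : Ideal (𝓞 F)).IsPrime := hu ▸ Ideal.IsPrime.under (𝓞 F) Q
  exact hH q hqp hqT ⟨Q, hQ, ⟨hu.symm⟩, hN⟩

end Fermat.Agent.S14.UniCmp
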