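import Mathlib
import Fermat.Agent.S14.Herbrand

/-!
# S14 (stream C): the Herbrand quotient of the unit group -- second, independent proof

`units_herbrand`: for a cyclic extension `L/K` of number fields of odd prime degree `p` with
generator `σ`, `|ker N / (σ - 1) E_L| = p · |E_L^σ / N E_L|` and both indices are finite.
(Same statement as the planned `UnitHerbrand.units_herbrand`.)

Proof: Dirichlet units `u_v` at chosen places `w_v | v`, the family `σ^i u_v` indexed by
`ZMod p × InfinitePlace K` (= the infinite places of `L`, as `p` is odd) has a logarithm matrix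
with negative off-diagonal entries and zero row sums; hence every integer relation vanishing at one
index is trivial, the family generates a subgroup of finite index, and the relation module is
infinite cyclic with `σ`-invariant generator. Then `Herbrand.herbrand_of_image`.
-/

set_option autoImplicit false

namespace Fermat.Agent.S14.UnitFamily

open NumberField Finset



/-- A real square matrix with negative off-diagonal entries and zero row sums: a left-kernel
vector vanishing at one index vanishes identically. -/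
theorem eq_zero_of_rel {R : Type*} [Fintype R] [DecidableEq R] (B : Matrix R R ℝ)
    (hneg : ∀ r s, r ≠ s → B r s < 0) (hsum : ∀ r, ∑ s, B r s = 0)
    (c : R → ℝ) (hc : ∀ s, ∑ r, c r * B r s = 0) (r₀ : R) (h0 : c r₀ = 0) : c = 0 := by
  classical
  set S := {r : R // r ≠ r₀} with hS
  set B' : Matrix S S ℝ := B.submatrix (fun r : S => (r : R)) (fun r : S => (r : R)) with hB'
  have hdiag : ∀ k : R, B k k = - ∑ s ∈ univ.erase k, B k s := by
    intro k
    have := hsum k
    rw [← Finset.add_sum_erase _ _ (mem_univ k)] at this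
    linarith
  have hdet : B'.det ≠ 0 := by
    apply det_ne_zero_of_sum_row_lt_diag
    intro k
    have hk : (k : R) ≠ r₀ := k.2
    -- sum over S minus k of |B k j| = -(sum over R minus k of B k s) + B k r₀
    have h1 : ∑ j ∈ univ.erase k, ‖B' k j‖ = - ∑ j ∈ univ.erase k, B (k : R) (j : R) := by
      rw [← Finset.sum_neg_distrib]
      refine Finset.sum_congr rfl fun j hj => ?_
      have hjk : (k : R) ≠ (j : R) := fun h => (Finset.ne_of_mem_erase hj) (Subtype.ext h.symm)
      rw [hB', Matrix.submatrix_apply, Real.norm_eq_abs, abs_of_neg (hneg _ _ hjk)]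
    have h2 : ∑ s ∈ univ.erase (k : R), B (k : R) s
        = ∑ j ∈ univ.erase k, B (k : R) (j : R) + B (k : R) r₀ := by
      have hmem : r₀ ∈ univ.erase (k : R) := Finset.mem_erase.mpr ⟨fun h => hk h.symm, mem_univ _⟩
      rw [← Finset.add_sum_erase _ _ hmem, add_comm]
      congr 1
      -- sum over (R minus k minus r₀) equals sum over S minus k
      refine (Finset.sum_bij (fun (j : S) _ => (j : R)) ?_ ?_ ?_ ?_).symm
      · intro j hj
        refine Finset.mem_erase.mpr ⟨j.2, Finset.mem_erase.mpr ⟨?_, mem_univ _⟩⟩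
        exact fun h => (Finset.ne_of_mem_erase hj) (Subtype.ext h)
      · intro a _ b _ h
        exact Subtype.ext h
      · intro b hb
        have hb1 : b ≠ r₀ := Finset.ne_of_mem_erase hb
        have hb2 : b ≠ (k : R) := Finset.ne_of_mem_erase (Finset.mem_of_mem_erase hb)
        exact ⟨⟨b, hb1⟩, Finset.mem_erase.mpr ⟨fun h => hb2 (congrArg Subtype.val h), mem_univ _⟩, rfl⟩
      · intro a _
        rfl
    have h3 : B (k : R) r₀ < 0 := hneg _ _ hk
    have h4 : ‖B' k k‖ = B (k : R) (k : R) := by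
      rw [hB', Matrix.submatrix_apply, Real.norm_eq_abs, abs_of_pos]
      rw [hdiag, h2]
      have : ∑ j ∈ univ.erase k, B (k : R) (j : R) ≤ 0 := by
        refine Finset.sum_nonpos fun j hj => le_of_lt (hneg _ _ ?_)
        exact fun h => (Finset.ne_of_mem_erase hj) (Subtype.ext h.symm)
      linarith
    rw [h1, h4, hdiag, h2]
    linarith
  have hc' : Matrix.vecMul (fun r : S => c (r : R)) B' = 0 := by
    funext s
    simp only [Matrix.vecMul, dotProduct, Pi.zero_apply, hB', Matrix.submatrix_apply]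
    have := hc (s : R)
    rw [← Finset.add_sum_erase _ _ (mem_univ r₀), h0, zero_mul, zero_add] at this
    rw [← this]
    refine Finset.sum_bij (fun (j : S) _ => (j : R)) ?_ ?_ ?_ ?_
    · intro j _
      exact Finset.mem_erase.mpr ⟨j.2, mem_univ _⟩
    · intro a _ b _ h
      exact Subtype.ext h
    · intro b hb
      exact ⟨⟨b, Finset.ne_of_mem_erase hb⟩, mem_univ _, rfl⟩
    · intro a _
      rfl
  have hz := Matrix.eq_zero_of_vecMul_eq_zero hdet hc'
  funext r
  by_cases hr : r = r₀
  · rw [hr, h0]; rfl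
  · exact congrFun hz ⟨r, hr⟩




/-- The same with one column deleted (it is determined by the others). -/
theorem eq_zero_of_rel' {R : Type*} [Fintype R] [DecidableEq R] (B : Matrix R R ℝ)
    (hneg : ∀ r s, r ≠ s → B r s < 0) (hsum : ∀ r, ∑ s, B r s = 0)
    (c : R → ℝ) (s₀ : R) (hc : ∀ s, s ≠ s₀ → ∑ r, c r * B r s = 0) (r₀ : R) (h0 : c r₀ = 0) :
    c = 0 := by
  refine eq_zero_of_rel B hneg hsum c (fun s => ?_) r₀ h0
  by_cases hs : s = s₀
  · subst hs
    have h1 : ∑ s', ∑ r, c r * B r s' = 0 := by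
      rw [Finset.sum_comm]
      refine Finset.sum_eq_zero fun r _ => ?_
      rw [← Finset.mul_sum, hsum, mul_zero]
    rw [← Finset.add_sum_erase _ _ (Finset.mem_univ s)] at h1
    rw [Finset.sum_eq_zero (fun s' hs' => hc s' (Finset.ne_of_mem_erase hs')), add_zero] at h1
    exact h1
  · exact hc s hs

section Family

variable {L : Type*} [Field L] [NumberField L]

/-- `log |·|_w` as an additive map on the units. -/
noncomputable def logAt (w : InfinitePlace L) : Additive (𝓞 L)ˣ →+ ℝ where
  toFun y := Real.log (w (((Additive.toMul y : (𝓞 L)ˣ) : 𝓞 L) : L))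
  map_zero' := by simp
  map_add' a b := by
    have h1 : (((Additive.toMul (a + b) : (𝓞 L)ˣ) : 𝓞 L) : L)
        = (((Additive.toMul a : (𝓞 L)ˣ) : 𝓞 L) : L) * (((Additive.toMul b : (𝓞 L)ˣ) : 𝓞 L) : L) := by
      simp
    rw [h1, map_mul, Real.log_mul (Units.pos_at_place _ _).ne' (Units.pos_at_place _ _).ne']

omit [NumberField L] in
theorem logAt_ofMul (w : InfinitePlace L) (u : (𝓞 L)ˣ) :
    logAt w (Additive.ofMul u) = Real.log (w ((u : 𝓞 L) : L)) := rfl

variable {ι : Type*} [Fintype ι] [DecidableEq ι]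

/-- **Integer relations** among a family of units with a sign-definite logarithm matrix: a relation
vanishing at one index is trivial. -/
theorem int_rel (E : ι ≃ InfinitePlace L) (x : ι → (𝓞 L)ˣ)
    (hneg : ∀ r s, r ≠ s → Real.log (E s ((x r : 𝓞 L) : L)) < 0)
    (a : ι → ℤ) (h : ∑ r, a r • Additive.ofMul (x r) = 0) (r₁ : ι) (h0 : a r₁ = 0) : a = 0 := by
  have key := eq_zero_of_rel
    (fun r s => ((E s).mult : ℝ) * Real.log (E s ((x r : 𝓞 L) : L))) ?_ ?_
    (fun r => (a r : ℝ)) ?_ r₁ (by simp [h0])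
  · funext r
    have := congrFun key r
    simpa using this
  · intro r s hrs
    exact mul_neg_of_pos_of_neg (by exact_mod_cast InfinitePlace.mult_pos) (hneg r s hrs)
  · intro r
    have := E.sum_comp (fun w : InfinitePlace L => (w.mult : ℝ) * Real.log (w ((x r : 𝓞 L) : L)))
    rw [this]
    exact Units.sum_mult_mul_log (x r)
  · intro s
    have h1 := congrArg (logAt (E s)) h
    rw [map_sum, map_zero] at h1
    simp only [map_zsmul, logAt_ofMul, zsmul_eq_mul] at h1
    calc ∑ r, (a r : ℝ) * (((E s).mult : ℝ) * Real.log (E s ((x r : 𝓞 L) : L)))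
        = ((E s).mult : ℝ) * ∑ r, (a r : ℝ) * Real.log (E s ((x r : 𝓞 L) : L)) := by
          rw [Finset.mul_sum]
          exact Finset.sum_congr rfl fun r _ => by ring
      _ = 0 := by rw [h1, mul_zero]

open NumberField.Units NumberField.Units.dirichletUnitTheorem in
theorem linearIndependent_log (x : InfinitePlace L → (𝓞 L)ˣ)
    (hneg : ∀ w w' : InfinitePlace L, w ≠ w' → Real.log (w' ((x w : 𝓞 L) : L)) < 0) :
    LinearIndependent ℝ (fun w : {w : InfinitePlace L // w ≠ w₀} =>
      logEmbedding L (Additive.ofMul (x w.1))) := by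
  classical
  rw [Fintype.linearIndependent_iff]
  intro g hg
  set c : InfinitePlace L → ℝ := fun w => if h : w ≠ w₀ then g ⟨w, h⟩ else 0 with hc
  have hcw : ∀ w : {w : InfinitePlace L // w ≠ w₀}, c w.1 = g w := by
    intro w
    simp only [hc]
    rw [dif_pos w.2]
  have hc0 : c w₀ = 0 := by
    simp only [hc]
    rw [dif_neg (not_not.mpr rfl)]
  have key := eq_zero_of_rel'
    (fun w w' : InfinitePlace L => (w'.mult : ℝ) * Real.log (w' ((x w : 𝓞 L) : L))) ?_ ?_
    c w₀ ?_ w₀ hc0
  · intro w
    rw [← hcw w, key]; rfl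
  · intro r s hrs
    exact mul_neg_of_pos_of_neg (by exact_mod_cast InfinitePlace.mult_pos) (hneg r s hrs)
  · intro r
    exact Units.sum_mult_mul_log (x r)
  · intro s hs
    have h1 := congrFun hg ⟨s, hs⟩
    simp only [Finset.sum_apply, Pi.smul_apply, logEmbedding_component, smul_eq_mul,
      Pi.zero_apply] at h1
    rw [Fintype.sum_eq_add_sum_subtype_ne _ w₀, hc0, zero_mul, zero_add]
    rw [← h1]
    exact Finset.sum_congr rfl fun w _ => by rw [hcw]

open NumberField.Units NumberField.Units.dirichletUnitTheorem in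
/-- **Finite index**: a subgroup containing such a family has finite index. -/
theorem finiteIndex_of_mem' (x : InfinitePlace L → (𝓞 L)ˣ)
    (hneg : ∀ w w' : InfinitePlace L, w ≠ w' → Real.log (w' ((x w : 𝓞 L) : L)) < 0)
    (S : Subgroup (𝓞 L)ˣ) (hS : ∀ w, x w ∈ S) : S.FiniteIndex := by
  have hli := linearIndependent_log x hneg
  have hmax : IsMaxRank (fun k => x (equivFinRank L k).1) :=
    (linearIndependent_equiv (equivFinRank L)).mpr hli
  have hfin := isMaxRank_iff_closure_finiteIndex.mp hmax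
  exact Subgroup.finiteIndex_of_le
    (H := Subgroup.closure (Set.range fun k => x (equivFinRank L k).1))
    ((Subgroup.closure_le _).mpr (by rintro _ ⟨k, rfl⟩; exact hS _))

omit [Fintype ι] [DecidableEq ι] in
theorem finiteIndex_of_mem (E : ι ≃ InfinitePlace L) (x : ι → (𝓞 L)ˣ)
    (hneg : ∀ r s, r ≠ s → Real.log (E s ((x r : 𝓞 L) : L)) < 0)
    (S : Subgroup (𝓞 L)ˣ) (hS : ∀ r, x r ∈ S) : S.FiniteIndex := by
  refine finiteIndex_of_mem' (fun w => x (E.symm w)) (fun w w' hww' => ?_) S (fun w => hS _)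
  have := hneg (E.symm w) (E.symm w') (fun h => hww' (E.symm.injective h))
  rwa [E.apply_symm_apply] at this

end Family




section Places

variable {K L : Type*} [Field K] [NumberField K] [Field L] [NumberField L] [Algebra K L]
  [IsGalois K L]

/-- periodicity of powers -/
theorem pow_val_add {G : Type*} [Group G] {p : ℕ} [NeZero p] (σ : G) (hσp : σ ^ p = 1)
    (i j : ZMod p) : σ ^ (i + j).val = σ ^ i.val * σ ^ j.val := by
  rw [ZMod.val_add, ← pow_eq_pow_mod _ hσp, pow_add]

theorem pow_val_natCast {G : Type*} [Group G] {p : ℕ} [NeZero p] (σ : G) (hσp : σ ^ p = 1)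
    (n : ℕ) : σ ^ ((n : ZMod p)).val = σ ^ n := by
  rw [ZMod.val_natCast, ← pow_eq_pow_mod _ hσp]

/-- The places of `L` form a principal homogeneous space over `ZMod p × InfinitePlace K`. -/
theorem exists_places (p : ℕ) [NeZero p] (hp : p.Prime) (hp2 : p ≠ 2)
    (hdeg : Module.finrank K L = p) (σ : L ≃ₐ[K] L) (hσ : σ ≠ 1) :
    σ ^ p = 1 ∧ ∃ wv : InfinitePlace K → InfinitePlace L,
      Function.Bijective (fun r : ZMod p × InfinitePlace K => σ ^ r.1.val • wv r.2) := by
  have : Fact p.Prime := ⟨hp⟩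
  have hcard : Nat.card (L ≃ₐ[K] L) = p := by
    rw [IsGalois.card_aut_eq_finrank, hdeg]
  have hσp : σ ^ p = 1 := by
    rw [← hcard]; exact pow_card_eq_one'
  have hord : orderOf σ = p := orderOf_eq_prime hσp hσ
  have hodd : Odd (Module.finrank K L) := by
    rw [hdeg]; exact hp.odd_of_ne_two hp2
  have : IsUnramifiedAtInfinitePlaces K L := IsUnramifiedAtInfinitePlaces_of_odd_finrank hodd
  refine ⟨hσp, ?_⟩
  have hsurj := InfinitePlace.comap_surjective (k := K) (K := L)
  choose wv hwv using hsurj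
  replace hwv : ∀ v, (wv v).comap (algebraMap K L) = v := hwv
  refine ⟨wv, ?_, ?_⟩
  · rintro ⟨i, v⟩ ⟨j, v'⟩ h
    replace h : σ ^ i.val • wv v = σ ^ j.val • wv v' := h
    have hv : v = v' := by
      have h1 := congrArg (fun w => w.comap (algebraMap K L)) h
      beta_reduce at h1
      rw [InfinitePlace.comap_smul, InfinitePlace.comap_smul] at h1
      have e1 : (RingHom.comp (↑(σ ^ i.val).symm) (algebraMap K L)) = algebraMap K L := by
        ext x; simp
      have e2 : (RingHom.comp (↑(σ ^ j.val).symm) (algebraMap K L)) = algebraMap K L := by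
        ext x; simp
      rw [e1, e2, hwv, hwv] at h1
      exact h1
    subst hv
    have hstab : (σ ^ j.val)⁻¹ * σ ^ i.val ∈ MulAction.stabilizer (L ≃ₐ[K] L) (wv v) := by
      rw [MulAction.mem_stabilizer_iff, mul_smul, h, inv_smul_smul]
    rw [(InfinitePlace.isUnramified K (wv v)).stabilizer_eq_bot, Subgroup.mem_bot,
      inv_mul_eq_one] at hstab
    have h2 : j.val ≡ i.val [MOD orderOf σ] := pow_eq_pow_iff_modEq.mp hstab
    rw [hord] at h2
    have h3 : i = j := by
      apply ZMod.val_injective p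
      have := Nat.ModEq.eq_of_lt_of_lt h2 (ZMod.val_lt j) (ZMod.val_lt i)
      exact this.symm
    rw [h3]
  · intro w
    obtain ⟨τ, hτ⟩ := InfinitePlace.exists_smul_eq_of_comap_eq (k := K)
      (w := wv (w.comap (algebraMap K L))) (w' := w) (hwv _)
    obtain ⟨n, hn⟩ := mem_powers_of_prime_card hcard hσ (g' := τ)
    replace hn : σ ^ n = τ := hn
    refine ⟨((n : ZMod p), w.comap (algebraMap K L)), ?_⟩
    simp only
    rw [pow_val_natCast σ hσp, hn, hτ]

end Places




section Shift

variable {p : ℕ} [NeZero p] {V : Type*}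

/-- translation by `k` in the first variable -/
def shiftBy (k : ZMod p) : (ZMod p × V → ℤ) →+ (ZMod p × V → ℤ) where
  toFun a := fun r => a (r.1 - k, r.2)
  map_zero' := rfl
  map_add' _ _ := rfl

omit [NeZero p] in
theorem shiftBy_apply (k : ZMod p) (a : ZMod p × V → ℤ) (r : ZMod p × V) :
    shiftBy k a r = a (r.1 - k, r.2) := rfl

omit [NeZero p] in
theorem shiftBy_zero (a : ZMod p × V → ℤ) : shiftBy 0 a = a := by
  funext r; simp [shiftBy_apply]

omit [NeZero p] in
theorem shiftBy_add (j k : ZMod p) (a : ZMod p × V → ℤ) :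
    shiftBy (j + k) a = shiftBy j (shiftBy k a) := by
  funext r
  simp only [shiftBy_apply]
  congr 2
  ring

/-- `σ - 1` on the model -/
def dX : (ZMod p × V → ℤ) →+ (ZMod p × V → ℤ) := shiftBy 1 - AddMonoidHom.id _

omit [NeZero p] in
theorem dX_apply (a : ZMod p × V → ℤ) (r : ZMod p × V) :
    dX a r = a (r.1 - 1, r.2) - a r := rfl

/-- the norm on the model -/
def nX : (ZMod p × V → ℤ) →+ (ZMod p × V → ℤ) where
  toFun a := fun r => ∑ j : ZMod p, a (j, r.2)
  map_zero' := by funext; simp
  map_add' a b := by funext r; simp [Finset.sum_add_distrib]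

theorem nX_apply (a : ZMod p × V → ℤ) (r : ZMod p × V) :
    nX a r = ∑ j : ZMod p, a (j, r.2) := rfl

theorem nX_eq_sum (a : ZMod p × V → ℤ) : nX a = ∑ k : ZMod p, shiftBy k a := by
  funext r
  rw [nX_apply, Finset.sum_apply]
  simp only [shiftBy_apply]
  exact (Equiv.sum_comp (Equiv.subLeft r.1) (fun j => a (j, r.2))).symm

theorem nX_dX (a : ZMod p × V → ℤ) : nX (dX a) = 0 := by
  funext r
  rw [nX_apply]
  simp only [dX_apply, Pi.zero_apply]
  rw [Finset.sum_sub_distrib, sub_eq_zero]
  exact Equiv.sum_comp (Equiv.subRight 1) (fun j => a (j, r.2))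

theorem const_of_dX (a : ZMod p × V → ℤ) (h : dX a = 0) (i : ZMod p) (v : V) :
    a (i, v) = a (0, v) := by
  have h1 : ∀ j : ZMod p, a (j - 1, v) = a (j, v) := fun j => by
    have := congrFun h (j, v)
    rw [dX_apply] at this
    exact sub_eq_zero.mp this
  have h2 : ∀ n : ℕ, a ((n : ZMod p), v) = a (0, v) := by
    intro n
    induction n with
    | zero => simp
    | succ n ih =>
      rw [← ih, ← h1 ((n + 1 : ℕ) : ZMod p)]
      congr 2
      push_cast
      ring
  rw [← ZMod.natCast_zmod_val i]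
  exact h2 _

theorem exists_nX_eq (a : ZMod p × V → ℤ) (h : dX a = 0) : ∃ y, nX y = a := by
  classical
  refine ⟨fun r => if r.1 = 0 then a r else 0, ?_⟩
  funext r
  rw [nX_apply]
  simp only
  rw [Finset.sum_ite_eq' Finset.univ (0 : ZMod p) (fun j => a (j, r.2))]
  simp only [Finset.mem_univ, if_true]
  exact (const_of_dX a h r.1 r.2).symm

theorem nX_eq_nsmul (a : ZMod p × V → ℤ) (h : dX a = 0) : nX a = p • a := by
  funext r
  rw [nX_apply, Finset.sum_congr rfl (fun j _ => const_of_dX a h j r.2), Finset.sum_const,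
    Finset.card_univ, ZMod.card, Pi.smul_apply, ← const_of_dX a h r.1 r.2]

theorem exists_dX_eq (hp1 : 1 < p) (a : ZMod p × V → ℤ) (h : nX a = 0) : ∃ y, dX y = a := by
  classical
  have : Fact (1 < p) := ⟨hp1⟩
  refine ⟨fun r => - ∑ j ∈ Finset.univ.filter (fun j : ZMod p => j.val ≤ r.1.val), a (j, r.2), ?_⟩
  funext ⟨i, v⟩
  rw [dX_apply]
  simp only
  by_cases hi : i = 0
  · subst hi
    have h1 : Finset.univ.filter (fun j : ZMod p => j.val ≤ (0 - 1 : ZMod p).val) = Finset.univ := by
      apply Finset.filter_true_of_mem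
      intro j _
      rw [zero_sub, ZMod.val_neg_of_ne_zero, ZMod.val_one]
      have := ZMod.val_lt j
      omega
    have h2 : Finset.univ.filter (fun j : ZMod p => j.val ≤ (0 : ZMod p).val) = {0} := by
      ext j
      simp [ZMod.val_eq_zero]
    have h3 : ∑ j : ZMod p, a (j, v) = 0 := by
      have := congrFun h (0, v)
      rwa [nX_apply] at this
    rw [h1, h2, h3, Finset.sum_singleton]
    ring
  · have hi1 : 1 ≤ i.val := by
      rcases Nat.eq_zero_or_pos i.val with h0 | h0
      · exact absurd ((ZMod.val_eq_zero i).mp h0) hi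
      · exact h0
    have hv : (i - 1).val = i.val - 1 := by
      rw [ZMod.val_sub (by rw [ZMod.val_one]; exact hi1), ZMod.val_one]
    have h1 : Finset.univ.filter (fun j : ZMod p => j.val ≤ i.val)
        = insert i (Finset.univ.filter (fun j : ZMod p => j.val ≤ (i - 1).val)) := by
      ext j
      simp only [Finset.mem_filter, Finset.mem_univ, true_and, Finset.mem_insert, hv]
      constructor
      · intro hj
        by_cases hji : j = i
        · exact Or.inl hji
        · right
          have : j.val ≠ i.val := fun h => hji (ZMod.val_injective p h)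
          omega
      · rintro (rfl | hj)
        · exact le_rfl
        · omega
    have h2 : i ∉ Finset.univ.filter (fun j : ZMod p => j.val ≤ (i - 1).val) := by
      simp only [Finset.mem_filter, Finset.mem_univ, true_and, hv]
      omega
    rw [h1, Finset.sum_insert h2]
    ring

end Shift






section Abstract

variable {A : Type*} [AddCommGroup A] {p : ℕ} [NeZero p] {V : Type*} [Fintype V]

/-- the map from the model to `A` attached to a family -/
def phi (x : ZMod p × V → A) : (ZMod p × V → ℤ) →+ A where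
  toFun a := ∑ r, a r • x r
  map_zero' := by simp
  map_add' a b := by simp [add_smul, Finset.sum_add_distrib]

theorem phi_apply (x : ZMod p × V → A) (a : ZMod p × V → ℤ) : phi x a = ∑ r, a r • x r := rfl

theorem phi_single [DecidableEq V] (x : ZMod p × V → A) (r : ZMod p × V) :
    phi x (Pi.single r 1) = x r := by
  rw [phi_apply, Finset.sum_eq_single r]
  · simp
  · intro b _ hb
    simp [Pi.single_eq_of_ne hb]
  · intro h; exact absurd (Finset.mem_univ r) h

theorem phi_shiftBy (x : ZMod p × V → A) (s : ZMod p → (A →+ A))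
    (hx : ∀ k i v, x (i + k, v) = s k (x (i, v))) (k : ZMod p) (a : ZMod p × V → ℤ) :
    phi x (shiftBy k a) = s k (phi x a) := by
  rw [phi_apply, phi_apply, map_sum]
  rw [← Equiv.sum_comp ((Equiv.addRight k).prodCongr (Equiv.refl V))
    (fun r => shiftBy k a r • x r)]
  refine Finset.sum_congr rfl fun r _ => ?_
  have h1 : ((Equiv.addRight k).prodCongr (Equiv.refl V)) r = (r.1 + k, r.2) := rfl
  rw [h1, shiftBy_apply, map_zsmul, ← hx]
  simp

theorem herbrand_model (hp : p.Prime) (hp2 : p ≠ 2)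
    (s : ZMod p → (A →+ A)) (hsadd : ∀ j k y, s (j + k) y = s j (s k y))
    (f g : A →+ A) (hf : ∀ y, f y = s 1 y - y) (hg : ∀ y, g y = ∑ k, s k y)
    (x : ZMod p × V → A) (hx : ∀ k i v, x (i + k, v) = s k (x (i, v)))
    (r₀ : ZMod p × V)
    (hrel : ∀ a : ZMod p × V → ℤ, ∑ r, a r • x r = 0 → a r₀ = 0 → a = 0)
    (hker : ∃ a : ZMod p × V → ℤ, a ≠ 0 ∧ ∑ r, a r • x r = 0)
    (hfin : ∀ S : AddSubgroup A, (∀ r, x r ∈ S) → S.index ≠ 0) :
    (f.range).relIndex g.ker = p * (g.range).relIndex f.ker := by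
  classical
  have hfg : ∀ y, f (g y) = 0 := by
    intro y
    rw [hf, hg, map_sum, sub_eq_zero]
    rw [← Equiv.sum_comp (Equiv.addLeft (1 : ZMod p)) (fun k => s k y)]
    exact Finset.sum_congr rfl fun k _ => (hsadd 1 k y).symm
  have hgf : ∀ y, g (f y) = 0 := by
    intro y
    rw [hg, hf]
    simp only [map_sub]
    rw [Finset.sum_sub_distrib, sub_eq_zero,
      ← Equiv.sum_comp (Equiv.addRight (1 : ZMod p)) (fun k => s k y)]
    exact Finset.sum_congr rfl fun k _ => (hsadd k 1 y).symm
  have hφf : ∀ a, phi x (dX a) = f (phi x a) := by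
    intro a
    rw [hf, ← phi_shiftBy x s hx 1 a]
    show phi x (shiftBy 1 a - a) = _
    rw [map_sub]
  have hφg : ∀ a, phi x (nX a) = g (phi x a) := by
    intro a
    rw [hg, nX_eq_sum, map_sum]
    exact Finset.sum_congr rfl fun k _ => phi_shiftBy x s hx k a
  -- the kernel is infinite cyclic
  obtain ⟨n₀, hn₀⟩ := Int.subgroup_cyclic
    ((phi x).ker.map (Pi.evalAddMonoidHom (fun _ : ZMod p × V => ℤ) r₀))
  have hn₀mem : n₀ ∈ (phi x).ker.map (Pi.evalAddMonoidHom (fun _ : ZMod p × V => ℤ) r₀) := by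
    rw [hn₀]; exact AddSubgroup.subset_closure rfl
  obtain ⟨κ, hκker, hκev⟩ := hn₀mem
  replace hκev : κ r₀ = n₀ := hκev
  have hκker' : phi x κ = 0 := hκker
  have hkerEq : (phi x).ker = AddSubgroup.zmultiples κ := by
    apply le_antisymm
    · intro a ha
      have ha' : phi x a = 0 := ha
      have h1 : a r₀ ∈ (phi x).ker.map (Pi.evalAddMonoidHom (fun _ : ZMod p × V => ℤ) r₀) :=
        ⟨a, ha, rfl⟩
      rw [hn₀, AddSubgroup.mem_closure_singleton] at h1
      obtain ⟨m, hm⟩ := h1
      have h2 : a - m • κ = 0 := by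
        apply hrel
        · have : phi x (a - m • κ) = 0 := by rw [map_sub, map_zsmul, ha', hκker']; simp
          exact this
        · simp [← hm, ← hκev]
      rw [AddSubgroup.mem_zmultiples_iff]
      exact ⟨m, (sub_eq_zero.mp h2).symm⟩
    · exact AddSubgroup.zmultiples_le_of_mem hκker
  have hκ0 : κ ≠ 0 := by
    rintro rfl
    obtain ⟨a, ha0, ha⟩ := hker
    have : a ∈ (phi x).ker := ha
    rw [hkerEq, AddSubgroup.zmultiples_zero_eq_bot, AddSubgroup.mem_bot] at this
    exact ha0 this
  have hκtf : ∀ n : ℤ, n • κ = 0 → n = 0 := fun n hn => (smul_eq_zero.mp hn).resolve_right hκ0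
  have hκf : dX κ = 0 := by
    have h1 : dX κ ∈ (phi x).ker := by
      rw [AddMonoidHom.mem_ker, hφf, hκker', map_zero]
    rw [hkerEq, AddSubgroup.mem_zmultiples_iff] at h1
    obtain ⟨m, hm⟩ := h1
    have h2 : shiftBy 1 κ = (m + 1) • κ := by
      have : dX κ = shiftBy 1 κ - κ := rfl
      rw [add_smul, one_smul, hm, this]; abel
    have h3 : ∀ n : ℕ, shiftBy ((n : ℕ) : ZMod p) κ = (m + 1) ^ n • κ := by
      intro n
      induction n with
      | zero => simp [shiftBy_zero]
      | succ n ih =>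
        rw [Nat.cast_succ, add_comm, shiftBy_add, ih, map_zsmul, h2, smul_smul, pow_succ]
    have h4 := h3 p
    rw [ZMod.natCast_self, shiftBy_zero] at h4
    have h5 : ((m + 1) ^ p - 1) • κ = 0 := by rw [sub_smul, one_smul, ← h4, sub_self]
    have h6 : (m + 1) ^ p = 1 := sub_eq_zero.mp (hκtf _ h5)
    rcases pow_eq_one_iff_cases.mp h6 with h | h | ⟨_, h⟩
    · exact absurd h hp.ne_zero
    · have : m = 0 := by linarith
      rw [← hm, this, zero_smul]
    · exact absurd h (Nat.not_even_iff_odd.mpr (hp.odd_of_ne_two hp2))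
  have hindex : (phi x).range.index ≠ 0 := hfin _ (fun r => ⟨Pi.single r 1, phi_single x r⟩)
  exact Herbrand.herbrand_of_image f g dX nX (phi x) hfg hgf hφf hφg nX_dX
    (fun a ha => exists_nX_eq a ha) (fun a ha => exists_dX_eq hp.one_lt a ha) p hp.ne_zero
    (fun a ha => nX_eq_nsmul a ha) κ hkerEq hκtf hκf hindex

omit [Fintype V] in
theorem relIndex_ne_zero_model [Module.Finite ℤ A]
    (s : ZMod p → (A →+ A)) (hs0 : ∀ y, s 0 y = y) (hsadd : ∀ j k y, s (j + k) y = s j (s k y))
    (f g : A →+ A) (hf : ∀ y, f y = s 1 y - y) (hg : ∀ y, g y = ∑ k, s k y) :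
    (g.range).relIndex f.ker ≠ 0 := by
  apply Herbrand.relIndex_range_ker_ne_zero f g p (NeZero.ne p)
  intro y hy
  have h1 : s 1 y = y := by rw [hf] at hy; exact sub_eq_zero.mp hy
  have h2 : ∀ n : ℕ, s (n : ZMod p) y = y := by
    intro n
    induction n with
    | zero => simpa using hs0 y
    | succ n ih => rw [Nat.cast_succ, hsadd, h1, ih]
  have h3 : ∀ k : ZMod p, s k y = y := fun k => by
    rw [← ZMod.natCast_zmod_val k]; exact h2 _
  rw [hg, Finset.sum_congr rfl (fun k _ => h3 k), Finset.sum_const, Finset.card_univ, ZMod.card]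

end Abstract

section Main

variable {K L : Type*} [Field K] [NumberField K] [Field L] [NumberField L] [Algebra K L]

/-- the action of an automorphism on the units -/
noncomputable def uAct (τ : L ≃ₐ[K] L) : (𝓞 L)ˣ →* (𝓞 L)ˣ :=
  Units.map ((RingOfIntegers.mapRingEquiv (τ : L ≃+* L) : 𝓞 L ≃+* 𝓞 L) : 𝓞 L →* 𝓞 L)

omit [NumberField K] [NumberField L] in
theorem coe_uAct (τ : L ≃ₐ[K] L) (u : (𝓞 L)ˣ) :
    ((uAct τ u : 𝓞 L) : L) = τ ((u : 𝓞 L) : L) := by
  simp [uAct]

omit [NumberField L] in
theorem unit_ext {u v : (𝓞 L)ˣ} (h : ((u : 𝓞 L) : L) = ((v : 𝓞 L) : L)) : u = v :=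
  Units.ext (RingOfIntegers.ext h)

omit [NumberField K] [NumberField L] in
theorem uAct_mul (τ₁ τ₂ : L ≃ₐ[K] L) (u : (𝓞 L)ˣ) :
    uAct (τ₁ * τ₂) u = uAct τ₁ (uAct τ₂ u) := by
  apply unit_ext
  simp [coe_uAct]

omit [NumberField K] [NumberField L] in
theorem uAct_one (u : (𝓞 L)ˣ) : uAct (1 : L ≃ₐ[K] L) u = u := by
  apply unit_ext
  simp [coe_uAct]

theorem prod_zmod_val {M : Type*} [CommMonoid M] {p : ℕ} [NeZero p] (F : ℕ → M) :
    ∏ k : ZMod p, F k.val = ∏ i ∈ Finset.range p, F i := by
  refine Finset.prod_nbij' (fun k => k.val) (fun i => (i : ZMod p)) ?_ ?_ ?_ ?_ ?_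
  · intro k _; exact Finset.mem_range.mpr (ZMod.val_lt k)
  · intro i _; exact Finset.mem_univ _
  · intro k _; exact ZMod.natCast_zmod_val k
  · intro i hi; exact ZMod.val_natCast_of_lt (Finset.mem_range.mp hi)
  · intro k _; rfl

variable [IsGalois K L]

/-- **The Herbrand quotient of the units** of a cyclic extension of odd prime degree `p`:
`|ker N / (σ - 1) E_L| = p · |E_L^σ / N E_L|`, both finite. -/
theorem units_herbrand (p : ℕ) (hp : p.Prime) (hp2 : p ≠ 2)
    (hdeg : Module.finrank K L = p) (σ : L ≃ₐ[K] L) (hσ : σ ≠ 1)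
    (D Nm : (𝓞 L)ˣ →* (𝓞 L)ˣ)
    (hD : ∀ u : (𝓞 L)ˣ, ((D u : 𝓞 L) : L) = σ (u : L) / (u : L))
    (hNm : ∀ u : (𝓞 L)ˣ, ((Nm u : 𝓞 L) : L) = ∏ i ∈ Finset.range p, (σ ^ i) (u : L)) :
    (D.range).relIndex Nm.ker = p * (Nm.range).relIndex D.ker ∧
      (Nm.range).relIndex D.ker ≠ 0 := by
  classical
  have : NeZero p := ⟨hp.ne_zero⟩
  have : Fact (1 < p) := ⟨hp.one_lt⟩
  obtain ⟨hσp, wv, hbij⟩ := exists_places p hp hp2 hdeg σ hσ
  choose uv huv using fun v : InfinitePlace K => Units.dirichletUnitTheorem.exists_unit L (wv v)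
  set E : ZMod p × InfinitePlace K ≃ InfinitePlace L := Equiv.ofBijective _ hbij with hE
  have hEapp : ∀ r, E r = σ ^ r.1.val • wv r.2 := fun r => rfl
  set xu : ZMod p × InfinitePlace K → (𝓞 L)ˣ := fun r => uAct (σ ^ r.1.val) (uv r.2) with hxu
  have hneg : ∀ r s : ZMod p × InfinitePlace K, r ≠ s →
      Real.log (E s ((xu r : 𝓞 L) : L)) < 0 := by
    intro r s hrs
    have h1 : E s ((xu r : 𝓞 L) : L) = ((σ ^ r.1.val)⁻¹ • E s) ((uv r.2 : 𝓞 L) : L) := by
      rw [InfinitePlace.smul_apply, hxu, coe_uAct]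
      rfl
    rw [h1]
    apply huv
    intro h2
    apply hrs
    apply E.injective
    rw [hEapp r, ← h2, smul_inv_smul]
  -- the additive picture
  set s : ZMod p → (Additive (𝓞 L)ˣ →+ Additive (𝓞 L)ˣ) :=
    fun k => MonoidHom.toAdditive (uAct (σ ^ k.val)) with hs
  have hsapp : ∀ k (u : (𝓞 L)ˣ), s k (Additive.ofMul u) = Additive.ofMul (uAct (σ ^ k.val) u) :=
    fun k u => rfl
  have hs0 : ∀ y, s 0 y = y := by
    intro y
    induction y using Additive.rec with
    | ofMul u => rw [hsapp, ZMod.val_zero, pow_zero, uAct_one]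
  have hsadd : ∀ j k y, s (j + k) y = s j (s k y) := by
    intro j k y
    induction y using Additive.rec with
    | ofMul u => rw [hsapp, hsapp, hsapp, pow_val_add σ hσp, uAct_mul]
  have hval1 : σ ^ (1 : ZMod p).val = σ := by rw [ZMod.val_one, pow_one]
  have hf : ∀ y, MonoidHom.toAdditive D y = s 1 y - y := by
    intro y
    induction y using Additive.rec with
    | ofMul u =>
      rw [hsapp, hval1, ← ofMul_div]
      show Additive.ofMul (D u) = _
      congr 1
      rw [eq_div_iff_mul_eq']
      apply unit_ext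
      have e1 : (((D u * u : (𝓞 L)ˣ) : 𝓞 L) : L) = ((D u : 𝓞 L) : L) * ((u : 𝓞 L) : L) := by
        rw [Units.val_mul]; exact map_mul (algebraMap (𝓞 L) L) _ _
      rw [e1, hD, coe_uAct]
      exact div_mul_cancel₀ _ (RingOfIntegers.coe_ne_zero_iff.mpr u.ne_zero)
  have hg : ∀ y, MonoidHom.toAdditive Nm y = ∑ k, s k y := by
    intro y
    induction y using Additive.rec with
    | ofMul u =>
      simp only [hsapp]
      rw [← ofMul_prod]
      show Additive.ofMul (Nm u) = _
      congr 1
      apply unit_ext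
      rw [hNm, Units.coe_prod]
      show _ = algebraMap (𝓞 L) L (∏ i : ZMod p, ((uAct (σ ^ i.val) u : (𝓞 L)ˣ) : 𝓞 L))
      rw [map_prod, ← prod_zmod_val (p := p) (fun i => (σ ^ i) ((u : 𝓞 L) : L))]
      exact Finset.prod_congr rfl fun i _ => (coe_uAct (σ ^ i.val) u).symm
  have hx : ∀ k i v, Additive.ofMul (xu (i + k, v)) = s k (Additive.ofMul (xu (i, v))) := by
    intro k i v
    rw [hsapp, hxu]
    simp only
    rw [add_comm i k, pow_val_add σ hσp, uAct_mul]
  have hrel : ∀ a : ZMod p × InfinitePlace K → ℤ, ∑ r, a r • Additive.ofMul (xu r) = 0 →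
      a (0, Classical.arbitrary _) = 0 → a = 0 := fun a ha h0 => int_rel E xu hneg a ha _ h0
  have hfin : ∀ S : AddSubgroup (Additive (𝓞 L)ˣ), (∀ r, Additive.ofMul (xu r) ∈ S) →
      S.index ≠ 0 := by
    intro S hS
    have := finiteIndex_of_mem E xu hneg (Subgroup.toAddSubgroup.symm S) hS
    have h1 : S = Subgroup.toAddSubgroup (Subgroup.toAddSubgroup.symm S) :=
      (OrderIso.apply_symm_apply _ _).symm
    rw [h1, Subgroup.index_toAddSubgroup]
    exact Subgroup.FiniteIndex.index_ne_zero
  have hker : ∃ a : ZMod p × InfinitePlace K → ℤ, a ≠ 0 ∧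
      ∑ r, a r • Additive.ofMul (xu r) = 0 := by
    by_contra hcon
    push Not at hcon
    set Φ : (ZMod p × InfinitePlace K → ℤ) →+ Additive (𝓞 L)ˣ :=
      phi (fun r => Additive.ofMul (xu r)) with hΦ
    have hinj : Function.Injective Φ := by
      rw [injective_iff_map_eq_zero]
      intro a ha
      by_contra h0
      exact hcon a h0 ha
    have h1 := LinearMap.finrank_le_finrank_of_injective (f := Φ.toIntLinearMap) hinj
    rw [Module.finrank_fintype_fun_eq_card, Units.finrank_eq, Units.rank,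
      Fintype.card_congr E] at h1
    have h2 := Fintype.card_pos (α := InfinitePlace L)
    omega
  have main := herbrand_model hp hp2 s hsadd (MonoidHom.toAdditive D) (MonoidHom.toAdditive Nm)
    hf hg (fun r => Additive.ofMul (xu r)) hx (0, Classical.arbitrary _) hrel hker hfin
  have main2 := relIndex_ne_zero_model s hs0 hsadd (MonoidHom.toAdditive D)
    (MonoidHom.toAdditive Nm) hf hg
  rw [MonoidHom.coe_toAdditive_range, MonoidHom.coe_toAdditive_range,
    MonoidHom.coe_toAdditive_ker, MonoidHom.coe_toAdditive_ker,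
    Subgroup.relIndex_toAddSubgroup, Subgroup.relIndex_toAddSubgroup] at main
  rw [MonoidHom.coe_toAdditive_range, MonoidHom.coe_toAdditive_ker,
    Subgroup.relIndex_toAddSubgroup] at main2
  exact ⟨main, main2⟩

end Main


end Fermat.Agent.S14.UnitFamily
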