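import Mathlib
import Fermat.Agent.S14.UnitHerbrand

/-!
# S14: the unit Herbrand quotient, `K`-level forms

Conveniences on top of `UnitHerbrand.units_herbrand` for a Galois extension `L/K` of number
fields of odd prime degree `p` with `σ ≠ 1` in `Gal(L/K)`:

* `divU σ`, `normU p σ`: the concrete homomorphisms `u ↦ σ u / u`, `u ↦ ∏_{i<p} σ^i u` of `(𝓞 L)ˣ`;
* `prod_range_pow_apply`: `∏_{i<p} σ^i x = N_{L/K} x`;
* `ker_eq_range_map`: the units fixed by `σ` are the units of `K`;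
* `units_herbrand_norm`: `[ker N_{L/K} : (σ-1) E_L] = p · [E_K : N_{L/K} E_L]`, both finite.
-/

set_option autoImplicit false

namespace Fermat.Agent.S14.UnitHerbrandK

open NumberField Fermat.Agent.S14.UnitHerbrand

variable {K L : Type*} [Field K] [NumberField K] [Field L] [NumberField L] [Algebra K L]

/-- `u ↦ σ u / u` on the units of `𝓞 L`. -/
noncomputable def divU (σ : L ≃ₐ[K] L) : (𝓞 L)ˣ →* (𝓞 L)ˣ := sU σ / MonoidHom.id _

omit [NumberField K] in
theorem coe_divU (σ : L ≃ₐ[K] L) (u : (𝓞 L)ˣ) :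
    (((divU σ u : (𝓞 L)ˣ) : 𝓞 L) : L) = σ (u : L) / (u : L) := by
  rw [eq_div_iff (NumberField.Units.coe_ne_zero u)]
  show (((sU σ u / u : (𝓞 L)ˣ) : 𝓞 L) : L) * ((u : 𝓞 L) : L) = σ ((u : 𝓞 L) : L)
  rw [← map_mul, ← Units.val_mul, div_mul_cancel]
  rfl

/-- `u ↦ ∏_{i<p} σ^i u` on the units of `𝓞 L`. -/
noncomputable def normU (p : ℕ) (σ : L ≃ₐ[K] L) : (𝓞 L)ˣ →* (𝓞 L)ˣ :=
  ∏ i ∈ Finset.range p, sU (σ ^ i)

omit [NumberField K] [NumberField L] in
theorem coe_normU (p : ℕ) (σ : L ≃ₐ[K] L) (u : (𝓞 L)ˣ) :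
    (((normU p σ u : (𝓞 L)ˣ) : 𝓞 L) : L) = ∏ i ∈ Finset.range p, (σ ^ i) (u : L) := by
  let cL : (𝓞 L)ˣ →* L :=
    ((algebraMap (𝓞 L) L : 𝓞 L →+* L) : 𝓞 L →* L).comp (Units.coeHom (𝓞 L))
  show cL (normU p σ u) = _
  rw [normU, MonoidHom.finsetProd_apply, map_prod]
  rfl

/-- the Herbrand quotient of the units for the concrete homomorphisms `divU`, `normU`. -/
theorem units_herbrand_sU [IsGalois K L] (p : ℕ) (hp : p.Prime) (hp2 : p ≠ 2)
    (hdeg : Module.finrank K L = p) (σ : L ≃ₐ[K] L) (hσ : σ ≠ 1) :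
    ((divU σ).range).relIndex (normU p σ).ker = p * ((normU p σ).range).relIndex (divU σ).ker ∧
      ((normU p σ).range).relIndex (divU σ).ker ≠ 0 :=
  units_herbrand p hp hp2 hdeg σ hσ (divU σ) (normU p σ) (coe_divU σ) (coe_normU p σ)

/-- for a cyclic extension of prime degree the product over the powers of a generator is the
norm. -/
theorem prod_range_pow_apply [IsGalois K L] (p : ℕ) (hp : p.Prime)
    (hdeg : Module.finrank K L = p) (σ : L ≃ₐ[K] L) (hσ : σ ≠ 1) (x : L) :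
    ∏ i ∈ Finset.range p, (σ ^ i) x = algebraMap K L (Algebra.norm K x) := by
  classical
  have : FiniteDimensional K L := Module.Finite.of_restrictScalars_finite ℚ K L
  have : Fact p.Prime := ⟨hp⟩
  rw [Algebra.norm_eq_prod_automorphisms]
  have hσp := pow_p_eq_one p σ hdeg
  have hord : orderOf σ = p := orderOf_eq_prime hσp hσ
  refine Finset.prod_nbij (fun i => σ ^ i) (fun _ _ => Finset.mem_univ _) ?_ ?_ (fun _ _ => rfl)
  · intro i hi j hj h
    have hi' : i < p := Finset.mem_range.mp hi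
    have hj' : j < p := Finset.mem_range.mp hj
    exact pow_injOn_Iio_orderOf (by rw [hord]; exact hi') (by rw [hord]; exact hj') h
  · intro τ _
    have htop : Subgroup.zpowers σ = ⊤ := zpowers_eq_top_of_prime_card (card_gal p hdeg) hσ
    have hmem : τ ∈ Submonoid.powers σ :=
      mem_powers_iff_mem_zpowers.mpr (htop ▸ Subgroup.mem_top τ)
    obtain ⟨n, rfl⟩ := hmem
    exact ⟨n % p, Finset.mem_coe.mpr (Finset.mem_range.mpr (Nat.mod_lt _ hp.pos)),
      (pow_eq_pow_mod _ hσp).symm⟩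

/-- the inclusion of the units of `K`. -/
noncomputable def incU : (𝓞 K)ˣ →* (𝓞 L)ˣ :=
  Units.map (algebraMap (𝓞 K) (𝓞 L) : 𝓞 K →* 𝓞 L)

omit [NumberField K] [NumberField L] in
theorem coe_incU (v : (𝓞 K)ˣ) :
    (((incU (L := L) v : (𝓞 L)ˣ) : 𝓞 L) : L) = algebraMap K L ((v : 𝓞 K) : K) := rfl

omit [NumberField K] in
theorem incU_injective : Function.Injective (incU (K := K) (L := L)) := by
  intro a b h
  apply NumberField.Units.coe_injective K
  apply (algebraMap K L).injective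
  have := congrArg (fun u : (𝓞 L)ˣ => ((u : 𝓞 L) : L)) h
  exact this

/-- the relative norm on units. -/
noncomputable def normK : (𝓞 L)ˣ →* (𝓞 K)ˣ := Units.map (RingOfIntegers.norm K)

omit [NumberField K] [NumberField L] in
theorem coe_normK (u : (𝓞 L)ˣ) :
    (((normK (K := K) u : (𝓞 K)ˣ) : 𝓞 K) : K) = Algebra.norm K ((u : 𝓞 L) : L) := rfl

/-- **The units fixed by `σ` are the units of `K`.** -/
theorem ker_eq_range_incU [IsGalois K L] (p : ℕ) (hp : p.Prime)
    (hdeg : Module.finrank K L = p) (σ : L ≃ₐ[K] L) (hσ : σ ≠ 1)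
    (D : (𝓞 L)ˣ →* (𝓞 L)ˣ)
    (hD : ∀ u : (𝓞 L)ˣ, (((D u : (𝓞 L)ˣ) : 𝓞 L) : L) = σ (u : L) / (u : L)) :
    D.ker = (incU (K := K) (L := L)).range := by
  have : FiniteDimensional K L := Module.Finite.of_restrictScalars_finite ℚ K L
  have : Fact p.Prime := ⟨hp⟩
  ext u
  have hu0 : (((u : (𝓞 L)ˣ) : 𝓞 L) : L) ≠ 0 := NumberField.Units.coe_ne_zero u
  have hker : u ∈ D.ker ↔ σ (((u : (𝓞 L)ˣ) : 𝓞 L) : L) = (((u : (𝓞 L)ˣ) : 𝓞 L) : L) := by
    rw [MonoidHom.mem_ker]
    constructor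
    · intro h
      have h1 := hD u
      rw [h] at h1
      have h2 : σ (((u : (𝓞 L)ˣ) : 𝓞 L) : L) / (((u : (𝓞 L)ˣ) : 𝓞 L) : L) = 1 := by
        rw [← h1]; simp
      exact (div_eq_one_iff_eq hu0).mp h2
    · intro h
      apply NumberField.Units.coe_injective L
      show ((D u : 𝓞 L) : L) = (((1 : (𝓞 L)ˣ) : 𝓞 L) : L)
      rw [hD, h, div_self hu0]
      simp
  rw [hker]
  constructor
  · intro h
    -- all automorphisms fix `u`
    have hpow : ∀ n : ℕ, (σ ^ n) (((u : (𝓞 L)ˣ) : 𝓞 L) : L) = (((u : (𝓞 L)ˣ) : 𝓞 L) : L) := by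
      intro n
      induction n with
      | zero => simp
      | succ n ih => rw [pow_succ, AlgEquiv.mul_apply, h, ih]
    have hall : ∀ τ : L ≃ₐ[K] L, τ (((u : (𝓞 L)ˣ) : 𝓞 L) : L) = (((u : (𝓞 L)ˣ) : 𝓞 L) : L) := by
      intro τ
      have htop : Subgroup.zpowers σ = ⊤ := zpowers_eq_top_of_prime_card (card_gal p hdeg) hσ
      have hmem : τ ∈ Submonoid.powers σ :=
        mem_powers_iff_mem_zpowers.mpr (htop ▸ Subgroup.mem_top τ)
      obtain ⟨n, rfl⟩ := hmem
      exact hpow n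
    obtain ⟨y, hy⟩ := (IsGalois.mem_range_algebraMap_iff_fixed _).mpr hall
    have hy0 : y ≠ 0 := by
      rintro rfl
      rw [map_zero] at hy
      exact hu0 hy.symm
    have hint : IsIntegral ℤ y := by
      rw [← isIntegral_algebraMap_iff (algebraMap K L).injective, hy]
      exact RingOfIntegers.isIntegral_coe _
    have hint' : IsIntegral ℤ y⁻¹ := by
      rw [← isIntegral_algebraMap_iff (algebraMap K L).injective, map_inv₀, hy]
      have h1 : ((((u⁻¹ : (𝓞 L)ˣ) : 𝓞 L) : L)) = ((((u : (𝓞 L)ˣ) : 𝓞 L) : L))⁻¹ := by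
        apply eq_inv_of_mul_eq_one_left
        rw [← map_mul, ← Units.val_mul, inv_mul_cancel]
        simp
      rw [← h1]
      exact RingOfIntegers.isIntegral_coe _
    refine ⟨Units.mkOfMulEqOne (⟨y, hint⟩ : 𝓞 K) ⟨y⁻¹, hint'⟩ ?_, ?_⟩
    · apply RingOfIntegers.ext
      show y * y⁻¹ = 1
      exact mul_inv_cancel₀ hy0
    · apply NumberField.Units.coe_injective L
      exact hy
  · rintro ⟨v, rfl⟩
    rw [coe_incU, AlgEquiv.commutes]

/-- **Herbrand quotient of the units, norm form**: `[ker N_{L/K} : (σ-1) E_L] = p · [E_K : N E_L]`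
and `[E_K : N E_L] ≠ 0`, for `D = (u ↦ σ u / u)`. -/
theorem units_herbrand_norm [IsGalois K L] (p : ℕ) (hp : p.Prime) (hp2 : p ≠ 2)
    (hdeg : Module.finrank K L = p) (σ : L ≃ₐ[K] L) (hσ : σ ≠ 1)
    (D : (𝓞 L)ˣ →* (𝓞 L)ˣ)
    (hD : ∀ u : (𝓞 L)ˣ, (((D u : (𝓞 L)ˣ) : 𝓞 L) : L) = σ (u : L) / (u : L)) :
    (D.range).relIndex (normK (K := K) (L := L)).ker =
        p * (normK (K := K) (L := L)).range.index ∧
      (normK (K := K) (L := L)).range.index ≠ 0 := by
  set Nm : (𝓞 L)ˣ →* (𝓞 L)ˣ := (incU (K := K) (L := L)).comp normK with hNmdef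
  have hNm : ∀ u : (𝓞 L)ˣ,
      (((Nm u : (𝓞 L)ˣ) : 𝓞 L) : L) = ∏ i ∈ Finset.range p, (σ ^ i) (u : L) := by
    intro u
    rw [prod_range_pow_apply p hp hdeg σ hσ]
    rfl
  obtain ⟨h1, h2⟩ := units_herbrand p hp hp2 hdeg σ hσ D Nm hD hNm
  have hker : Nm.ker = (normK (K := K) (L := L)).ker := by
    ext u
    rw [MonoidHom.mem_ker, MonoidHom.mem_ker, hNmdef, MonoidHom.comp_apply]
    constructor
    · intro h
      exact incU_injective (by rw [h, map_one])
    · intro h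
      rw [h, map_one]
  have hrange : Nm.range = (normK (K := K) (L := L)).range.map incU := by
    rw [hNmdef, MonoidHom.range_comp]
  have hDker : D.ker = (⊤ : Subgroup (𝓞 K)ˣ).map incU := by
    rw [ker_eq_range_incU p hp hdeg σ hσ D hD, MonoidHom.range_eq_map]
  have hidx : (Nm.range).relIndex D.ker = (normK (K := K) (L := L)).range.index := by
    rw [hrange, hDker, Subgroup.relIndex_map_map_of_injective _ _ incU_injective,
      Subgroup.relIndex_top_right]
  rw [hker, hidx] at h1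
  rw [hidx] at h2
  exact ⟨h1, h2⟩

end Fermat.Agent.S14.UnitHerbrandK
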