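import Mathlib
import Fermat.Prelude.Def_FLTPrelim_Ramification
import Fermat.Agent.S05.InertiaAPI
import Fermat.Agent.S13.Minkowski
import Fermat.Agent.S13.FinLevel

/-!
# S14, stream A3 (b): valuation subrings of `ℚ̄` versus primes of `𝓞 ℚ̄`

For a valuation subring `A` of `Ω = ℚ̄` lying over a prime number `q`, the prime ideal
`primeOf A = {x : 𝓞 Ω | A.valuation x < 1}` of `𝓞 Ω` determines `A` (it is the localisation of
`𝓞 Ω` at that prime), and membership in the decomposition / inertia subgroup of `A` can be tested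
on `primeOf A`.
-/

set_option autoImplicit false

namespace Fermat.Agent.S14.ValPrime

open scoped Pointwise NumberField
open Fermat.Agent.S13 Fermat.Agent.S13.Minkowski Fermat.Agent.S13.FinLevel

section Generic

variable {Ω : Type*} [Field Ω]

theorem not_mem_primeOf_iff {A : ValuationSubring Ω} {x : 𝓞 Ω} :
    x ∉ primeOf A ↔ A.valuation (x : Ω) = 1 := by
  rw [mem_primeOf, not_lt]
  exact ⟨fun h => le_antisymm (val_integer_le A x) h, fun h => h.ge⟩

theorem primeOf_ne_top (A : ValuationSubring Ω) : primeOf A ≠ ⊤ := by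
  intro h
  have : (1 : 𝓞 Ω) ∈ primeOf A := by rw [h]; trivial
  rw [mem_primeOf] at this
  simp at this

theorem primeOf_isPrime (A : ValuationSubring Ω) : (primeOf A).IsPrime := by
  refine ⟨primeOf_ne_top A, ?_⟩
  intro x y hxy
  by_contra hcon
  push Not at hcon
  rw [not_mem_primeOf_iff, not_mem_primeOf_iff] at hcon
  rw [mem_primeOf] at hxy
  push_cast at hxy
  rw [map_mul, hcon.1, hcon.2, one_mul] at hxy
  exact lt_irrefl _ hxy

theorem natCast_mem_primeOf_iff {A : ValuationSubring Ω} {q : ℕ} :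
    (q : 𝓞 Ω) ∈ primeOf A ↔ A.LiesOverPrime q := by
  rw [mem_primeOf]
  push_cast
  exact (A.mem_nonunits_iff).symm

/-- Compatibility of `primeOf` with restriction to a subfield. -/
theorem under_primeOf (L : Type*) [Field L] [Algebra L Ω] (A : ValuationSubring Ω) :
    (primeOf A).under (𝓞 L) = primeOf (down (L := L) A) := by
  ext x
  rw [Ideal.under_def, Ideal.mem_comap, mem_primeOf, mem_primeOf, down_lt_one_iff]
  rfl

end Generic

section NF

/-- A field which is finite-dimensional over `ℚ` (for ANY `ℚ`-algebra instance) is a number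
field. -/
theorem numberField_of_finiteDimensional (M : Type*) [Field M] [i : Algebra ℚ M]
    [FiniteDimensional ℚ M] : NumberField M := by
  have hc : CharZero M := charZero_of_injective_algebraMap (algebraMap ℚ M).injective
  obtain rfl : i = DivisionRing.toRatAlgebra := Subsingleton.elim _ _
  exact { to_charZero := hc, to_finiteDimensional := inferInstance }

end NF

section Alg

open IntermediateField

variable {Ω : Type*} [Field Ω] [Algebra ℚ Ω] [Algebra.IsAlgebraic ℚ Ω]

/-- A valuation subring `A` of an algebraic extension `Ω` of `ℚ` lying over a prime is the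
localisation of `𝓞 Ω` at `primeOf A`. -/
theorem exists_frac {A : ValuationSubring Ω} {q : ℕ} (hq : q.Prime) (hA : A.LiesOverPrime q)
    {y : Ω} (hy : y ∈ A) :
    ∃ a s : 𝓞 Ω, s ∉ primeOf A ∧ y * (s : Ω) = (a : Ω) := by
  have hyint : IsIntegral ℚ y := (Algebra.IsAlgebraic.isAlgebraic y).isIntegral
  have hfd : FiniteDimensional ℚ ℚ⟮y⟯ := IntermediateField.adjoin.finiteDimensional hyint
  have hNF : NumberField ℚ⟮y⟯ := @numberField_of_finiteDimensional ℚ⟮y⟯ _ ℚ⟮y⟯.algebra' hfd
  have hB : (down (L := ℚ⟮y⟯) A).LiesOverPrime q := liesOverPrime_down.mpr hA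
  have hy' : (IntermediateField.AdjoinSimple.gen ℚ y) ∈ down (L := ℚ⟮y⟯) A := by
    rw [mem_down]
    simpa using hy
  obtain ⟨a, s, hs, has⟩ := exists_frac_of_mem hq hB hy'
  refine ⟨algebraMap (𝓞 ℚ⟮y⟯) (𝓞 Ω) a, algebraMap (𝓞 ℚ⟮y⟯) (𝓞 Ω) s, ?_, ?_⟩
  · intro h
    apply hs
    rw [← under_primeOf]
    exact h
  · have h1 := congrArg (algebraMap ℚ⟮y⟯ Ω) has
    rw [map_mul] at h1
    exact h1

variable {K : Type*} [Field K] [Algebra K Ω]

omit [Algebra ℚ Ω] [Algebra.IsAlgebraic ℚ Ω] in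
theorem coe_smul_integer (σ : Ω ≃ₐ[K] Ω) (x : 𝓞 Ω) : ((σ • x : 𝓞 Ω) : Ω) = σ (x : Ω) := rfl

/-- If `σ` maps the complement of `primeOf A` into itself, then `σ` maps `A` into itself. -/
theorem apply_mem_of_forall {A : ValuationSubring Ω} {q : ℕ} (hq : q.Prime)
    (hA : A.LiesOverPrime q) (σ : Ω ≃ₐ[K] Ω)
    (h : ∀ x : 𝓞 Ω, x ∉ primeOf A → σ • x ∉ primeOf A) {y : Ω} (hy : y ∈ A) : σ y ∈ A := by
  obtain ⟨a, s, hs, has⟩ := exists_frac hq hA hy
  have hs' := h s hs
  rw [not_mem_primeOf_iff, coe_smul_integer] at hs'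
  have h1 : σ y * σ (s : Ω) = σ (a : Ω) := by rw [← map_mul, has]
  have h2 : A.valuation (σ y) = A.valuation (σ (a : Ω)) := by
    rw [← h1, map_mul, hs', mul_one]
  rw [← A.valuation_le_one_iff, h2, ← coe_smul_integer]
  exact val_integer_le A (σ • a)

/-- If `σ` fixes the prime `primeOf A` of `𝓞 Ω`, then `σ` fixes `A`. -/
theorem smul_eq_of_smul_primeOf_eq {A : ValuationSubring Ω} {q : ℕ} (hq : q.Prime)
    (hA : A.LiesOverPrime q) (σ : Ω ≃ₐ[K] Ω) (h : σ • primeOf A = primeOf A) : σ • A = A := by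
  have h1 : ∀ x : 𝓞 Ω, x ∉ primeOf A → σ • x ∉ primeOf A := by
    intro x hx hσx
    apply hx
    rw [← h] at hσx
    exact Ideal.smul_mem_pointwise_smul_iff.mp hσx
  have h2 : ∀ x : 𝓞 Ω, x ∉ primeOf A → σ⁻¹ • x ∉ primeOf A := by
    intro x hx hσx
    apply hx
    rw [← h]
    exact Ideal.mem_pointwise_smul_iff_inv_smul_mem.mpr hσx
  ext x
  rw [ValuationSubring.mem_pointwise_smul_iff_inv_smul_mem]
  constructor
  · intro hx
    have := apply_mem_of_forall hq hA σ h1 hx
    simpa using this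
  · intro hx
    exact apply_mem_of_forall hq hA σ⁻¹ h2 hx

/-- **Decomposition criterion.** If `σ` fixes the prime `primeOf A` of `𝓞 Ω`, then `σ` lies in
the decomposition subgroup of `A`. -/
theorem mem_decompositionSubgroup {A : ValuationSubring Ω} {q : ℕ} (hq : q.Prime)
    (hA : A.LiesOverPrime q) (σ : Ω ≃ₐ[K] Ω) (h : σ • primeOf A = primeOf A) :
    σ ∈ A.decompositionSubgroup K :=
  smul_eq_of_smul_primeOf_eq hq hA σ h

omit [Algebra ℚ Ω] [Algebra.IsAlgebraic ℚ Ω] in
/-- If `σ` acts trivially on `𝓞 Ω / primeOf A`, then `σ` fixes `primeOf A`. -/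
theorem smul_primeOf_eq_of_forall {A : ValuationSubring Ω} (σ : Ω ≃ₐ[K] Ω)
    (h : ∀ x : 𝓞 Ω, σ • x - x ∈ primeOf A) : σ • primeOf A = primeOf A := by
  ext x
  rw [Ideal.mem_pointwise_smul_iff_inv_smul_mem]
  have hx := h (σ⁻¹ • x)
  rw [smul_inv_smul] at hx
  constructor
  · intro h1
    have := (primeOf A).add_mem hx h1
    simpa using this
  · intro h1
    have := (primeOf A).sub_mem h1 hx
    simpa using this

/-- **Inertia criterion.** If `σ` acts trivially on `𝓞 Ω / primeOf A`, then `σ` lies in the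
inertia subgroup of `A`. -/
theorem mem_inertiaSubgroupIn {A : ValuationSubring Ω} {q : ℕ} (hq : q.Prime)
    (hA : A.LiesOverPrime q) (σ : Ω ≃ₐ[K] Ω) (h : ∀ x : 𝓞 Ω, σ • x - x ∈ primeOf A) :
    σ ∈ A.inertiaSubgroupIn K := by
  have hP := smul_primeOf_eq_of_forall σ h
  have hσA := smul_eq_of_smul_primeOf_eq hq hA σ hP
  refine Minkowski.mem_inertiaSubgroupIn hσA ?_
  intro y hy
  obtain ⟨a, s, hs, hys⟩ := exists_frac hq hA hy
  have hτs : σ • s - s ∈ primeOf A := h s
  have hτa : σ • a - a ∈ primeOf A := h a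
  have hs' : σ • s ∉ primeOf A := fun h' => hs (by simpa using (primeOf A).sub_mem h' hτs)
  rw [not_mem_primeOf_iff] at hs hs'
  rw [coe_smul_integer] at hs'
  rw [mem_primeOf] at hτs hτa
  push_cast at hτs hτa
  replace hτs : A.valuation (σ (s : Ω) - (s : Ω)) < 1 := hτs
  replace hτa : A.valuation (σ (a : Ω) - (a : Ω)) < 1 := hτa
  have hτy : σ y * σ (s : Ω) = σ (a : Ω) := by rw [← map_mul, hys]
  have ha1 : A.valuation (a : Ω) ≤ 1 := val_integer_le A a
  rw [A.mem_nonunits_iff]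
  have hid : (σ y - y) * ((s : Ω) * σ (s : Ω)) =
      (σ (a : Ω) - (a : Ω)) * (s : Ω) - (a : Ω) * (σ (s : Ω) - (s : Ω)) := by
    rw [← hτy, ← hys]
    ring
  have h1 : A.valuation ((σ y - y) * ((s : Ω) * σ (s : Ω))) = A.valuation (σ y - y) := by
    rw [map_mul, map_mul, hs, hs', mul_one, mul_one]
  rw [← h1, hid]
  refine lt_of_le_of_lt (A.valuation.map_sub _ _) (max_lt ?_ ?_)
  · rw [map_mul, hs, mul_one]
    exact hτa
  · rw [map_mul]
    exact lt_of_le_of_lt (mul_le_mul' ha1 le_rfl) (by rw [one_mul]; exact hτs)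

/-- A valuation subring over a prime is determined by its prime of `𝓞 Ω`. -/
theorem eq_of_primeOf_eq {A B : ValuationSubring Ω} {q : ℕ} (hq : q.Prime)
    (hA : A.LiesOverPrime q) (h : primeOf A = primeOf B) : A = B := by
  have hB : B.LiesOverPrime q := by
    rw [← natCast_mem_primeOf_iff, ← h, natCast_mem_primeOf_iff]
    exact hA
  have key : ∀ {A B : ValuationSubring Ω}, A.LiesOverPrime q → primeOf A = primeOf B →
      ∀ y ∈ A, y ∈ B := by
    intro A B hA h y hy
    obtain ⟨a, s, hs, hys⟩ := exists_frac hq hA hy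
    rw [h, not_mem_primeOf_iff] at hs
    rw [← B.valuation_le_one_iff]
    have : B.valuation y = B.valuation (a : Ω) := by
      rw [← hys, map_mul, hs, mul_one]
    rw [this]
    exact val_integer_le B a
  ext y
  exact ⟨key hA h y, key hB h.symm y⟩

end Alg

section Conj

variable {Ω : Type*} [Field Ω] {K : Type*} [Field K] [Algebra K Ω]

theorem valuation_lt_one_iff_inv_not_mem (B : ValuationSubring Ω) {z : Ω} (hz : z ≠ 0) :
    B.valuation z < 1 ↔ z⁻¹ ∉ B := by
  rw [← not_le, one_le_valuation_iff B hz, B.valuation_le_one_iff]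

theorem valuation_smul_lt_one_iff (σ : Ω ≃ₐ[K] Ω) (A : ValuationSubring Ω) (z : Ω) :
    (σ • A).valuation z < 1 ↔ A.valuation (σ⁻¹ z) < 1 := by
  by_cases hz : z = 0
  · subst hz
    simp
  · have hz' : σ⁻¹ z ≠ 0 := (map_ne_zero _).mpr hz
    rw [valuation_lt_one_iff_inv_not_mem _ hz, valuation_lt_one_iff_inv_not_mem _ hz',
      ValuationSubring.mem_pointwise_smul_iff_inv_smul_mem, ← map_inv₀]
    rfl

/-- **Conjugation.** `primeOf (σ • A) = σ • primeOf A`. -/
theorem primeOf_smul (σ : Ω ≃ₐ[K] Ω) (A : ValuationSubring Ω) :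
    primeOf (σ • A) = σ • primeOf A := by
  ext x
  rw [Ideal.mem_pointwise_smul_iff_inv_smul_mem, mem_primeOf, mem_primeOf,
    valuation_smul_lt_one_iff]
  rfl

theorem liesOverPrime_smul_iff (σ : Ω ≃ₐ[K] Ω) (A : ValuationSubring Ω) (q : ℕ) :
    (σ • A).LiesOverPrime q ↔ A.LiesOverPrime q := by
  unfold ValuationSubring.LiesOverPrime
  rw [ValuationSubring.mem_nonunits_iff, ValuationSubring.mem_nonunits_iff,
    valuation_smul_lt_one_iff, map_natCast]

end Conj

section Exists

variable {Ω : Type*} [Field Ω]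

/-- A prime of `𝓞 Ω` containing a prime number is maximal. -/
theorem isMaximal_of_natCast_mem (P : Ideal (𝓞 Ω)) [P.IsPrime] {q : ℕ} (hq : q.Prime)
    (hP : (q : 𝓞 Ω) ∈ P) : P.IsMaximal := by
  have h1 : (Ideal.comap (algebraMap ℤ (𝓞 Ω)) P).IsPrime := inferInstance
  have h2 : Ideal.comap (algebraMap ℤ (𝓞 Ω)) P ≠ ⊥ := by
    intro h
    have h3 : (q : ℤ) ∈ Ideal.comap (algebraMap ℤ (𝓞 Ω)) P := by
      rw [Ideal.mem_comap]
      simpa using hP
    rw [h, Ideal.mem_bot] at h3
    exact hq.ne_zero (by exact_mod_cast h3)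
  have h3 : (Ideal.comap (algebraMap ℤ (𝓞 Ω)) P).IsMaximal := h1.isMaximal h2
  exact Ideal.isMaximal_of_isIntegral_of_isMaximal_comap P h3

/-- **Existence.** Every prime of `𝓞 Ω` containing a prime number `q` is `primeOf A` for a
valuation subring `A` of `Ω` lying over `q`. -/
theorem exists_primeOf_eq (P : Ideal (𝓞 Ω)) [P.IsPrime] {q : ℕ} (hq : q.Prime)
    (hP : (q : 𝓞 Ω) ∈ P) : ∃ A : ValuationSubring Ω, A.LiesOverPrime q ∧ primeOf A = P := by
  have hmax := isMaximal_of_natCast_mem P hq hP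
  let R : Subring Ω := (algebraMap (𝓞 Ω) Ω).range
  let e : 𝓞 Ω →+* R := (algebraMap (𝓞 Ω) Ω).rangeRestrict
  have he : Function.Surjective e := RingHom.rangeRestrict_surjective _
  have hinj : Function.Injective e := by
    intro x y hxy
    have := congrArg Subtype.val hxy
    exact NumberField.RingOfIntegers.coe_injective this
  let I : Ideal R := P.map e
  have hI : I ≠ ⊤ := by
    intro h
    have h1 : (1 : R) ∈ I := by rw [h]; trivial
    obtain ⟨x, hx, hx1⟩ := (Ideal.mem_map_iff_of_surjective e he).mp h1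
    have : x = 1 := hinj (by rw [hx1, map_one])
    rw [this] at hx
    exact (inferInstance : P.IsPrime).ne_top ((Ideal.eq_top_iff_one P).mpr hx)
  obtain ⟨B, -, hB⟩ := Ideal.image_subset_nonunits_valuationSubring I hI
  have hle : P ≤ primeOf B := by
    intro x hx
    rw [mem_primeOf, ← B.mem_nonunits_iff]
    exact hB ⟨e x, Ideal.mem_map_of_mem e hx, rfl⟩
  have hPB : P = primeOf B := hmax.eq_of_le (primeOf_ne_top B) hle
  refine ⟨B, ?_, hPB.symm⟩
  rw [← natCast_mem_primeOf_iff, ← hPB]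
  exact hP

/-- **Existence over a subfield.** Every prime of `𝓞 L` containing a prime number `q` is cut out
by a valuation subring of `Ω` lying over `q`. -/
theorem exists_down_primeOf_eq (L : Type*) [Field L] [Algebra L Ω] (P : Ideal (𝓞 L)) [P.IsPrime]
    {q : ℕ} (hq : q.Prime) (hP : (q : 𝓞 L) ∈ P) :
    ∃ A : ValuationSubring Ω, A.LiesOverPrime q ∧ primeOf (down (L := L) A) = P := by
  have hbot : Ideal.comap (algebraMap (𝓞 L) (𝓞 Ω)) ⊥ ≤ P := by
    rw [Ideal.comap_bot_of_injective _ (FaithfulSMul.algebraMap_injective _ _)]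
    exact bot_le
  obtain ⟨Q, -, hQ, hQP⟩ :=
    Ideal.exists_ideal_over_prime_of_isIntegral P (⊥ : Ideal (𝓞 Ω)) hbot
  have hqQ : (q : 𝓞 Ω) ∈ Q := by
    have h1 : algebraMap (𝓞 L) (𝓞 Ω) (q : 𝓞 L) ∈ Q := by
      rw [← Ideal.mem_comap, hQP]
      exact hP
    simpa using h1
  obtain ⟨A, hA, hAQ⟩ := exists_primeOf_eq Q hq hqQ
  refine ⟨A, hA, ?_⟩
  rw [← under_primeOf, hAQ]
  exact hQP

end Exists

section Converse

variable {Ω : Type*} [Field Ω] {K : Type*} [Field K] [Algebra K Ω] {A : ValuationSubring Ω}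
  {σ : Ω ≃ₐ[K] Ω}

/-- Elements of the decomposition subgroup of `A` fix `primeOf A`. -/
theorem smul_primeOf_eq_of_mem_decompositionSubgroup (hσ : σ ∈ A.decompositionSubgroup K) :
    σ • primeOf A = primeOf A := by
  have h : σ • A = A := hσ
  rw [← primeOf_smul, h]

/-- Elements of the inertia subgroup of `A` act trivially on `𝓞 Ω / primeOf A`. -/
theorem smul_sub_mem_primeOf_of_mem_inertiaSubgroupIn (hσ : σ ∈ A.inertiaSubgroupIn K)
    (x : 𝓞 Ω) : σ • x - x ∈ primeOf A := by
  rw [mem_primeOf, ← A.mem_nonunits_iff]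
  exact Fermat.Agent.S05.InertiaAPI.apply_sub_mem_nonunits hσ (integer_mem A x)

end Converse

section Qbar

/-- `ℚ̄` is algebraic over `ℚ` for the default `ℚ`-algebra structure (the one used in the frozen
statements for `AlgebraicClosure ℚ ≃ₐ[ℚ] AlgebraicClosure ℚ`). -/
theorem isAlgebraic_rat_algebraicClosure : Algebra.IsAlgebraic ℚ (AlgebraicClosure ℚ) := by
  have h : (DivisionRing.toRatAlgebra : Algebra ℚ (AlgebraicClosure ℚ)) =
      AlgebraicClosure.instAlgebra ℚ := Subsingleton.elim _ _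
  rw [h]
  infer_instance

variable {A : ValuationSubring (AlgebraicClosure ℚ)} {q : ℕ}

/-- `ℚ̄`-form of `exists_frac`. -/
theorem exists_frac_algebraicClosure (hq : q.Prime) (hA : A.LiesOverPrime q)
    {y : AlgebraicClosure ℚ} (hy : y ∈ A) :
    ∃ a s : 𝓞 (AlgebraicClosure ℚ), s ∉ primeOf A ∧ y * (s : AlgebraicClosure ℚ) = a :=
  haveI := isAlgebraic_rat_algebraicClosure
  exists_frac hq hA hy

/-- `ℚ̄`-form of the decomposition criterion. -/
theorem mem_decompositionSubgroup_algebraicClosure (hq : q.Prime) (hA : A.LiesOverPrime q)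
    (σ : AlgebraicClosure ℚ ≃ₐ[ℚ] AlgebraicClosure ℚ) (h : σ • primeOf A = primeOf A) :
    σ ∈ A.decompositionSubgroup ℚ :=
  haveI := isAlgebraic_rat_algebraicClosure
  mem_decompositionSubgroup hq hA σ h

/-- `ℚ̄`-form of the inertia criterion. -/
theorem mem_inertiaSubgroupIn_algebraicClosure (hq : q.Prime) (hA : A.LiesOverPrime q)
    (σ : AlgebraicClosure ℚ ≃ₐ[ℚ] AlgebraicClosure ℚ)
    (h : ∀ x : 𝓞 (AlgebraicClosure ℚ), σ • x - x ∈ primeOf A) :
    σ ∈ A.inertiaSubgroupIn ℚ :=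
  haveI := isAlgebraic_rat_algebraicClosure
  mem_inertiaSubgroupIn hq hA σ h

/-- `ℚ̄`-form of injectivity of `primeOf`. -/
theorem eq_of_primeOf_eq_algebraicClosure {B : ValuationSubring (AlgebraicClosure ℚ)}
    (hq : q.Prime) (hA : A.LiesOverPrime q) (h : primeOf A = primeOf B) : A = B :=
  haveI := isAlgebraic_rat_algebraicClosure
  eq_of_primeOf_eq hq hA h

end Qbar

end Fermat.Agent.S14.ValPrime
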